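import Fermat.Agent.CFT.LocalBridge.Inertia
import Fermat.Prelude.Def_GroupCohomology_ContinuousUnramified

/-!
# PROJECT C, slice C7a: roots of `S`-units stay in `ℚ_S`; `E_S` is `n`-divisible

Everything is stated in the prelude's valuation-subring language
(`ValuationSubring.LiesOverPrime`, `ValuationSubring.inertiaSubgroupIn`,
`IntermediateField.IsUnramifiedOutside`).
-/

set_option autoImplicit false

open scoped Pointwise IntermediateField

namespace Fermat.Agent.CFT.C7.KummerUnram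

open Fermat.Agent.CFT.LocalBridge

section General

variable {K L : Type*} [Field K] [Field L] [Algebra K L]

/-- A root of unity is a unit of every valuation subring. -/
theorem valuation_eq_one_of_pow_eq_one (A : ValuationSubring L) {n : ℕ} (hn : n ≠ 0) {ζ : L}
    (hζ : ζ ^ n = 1) : A.valuation ζ = 1 := by
  have h : (A.valuation ζ) ^ n = 1 := by rw [← map_pow, hζ, map_one]
  rcases pow_eq_one_iff.mp h with h1 | h1
  · exact h1
  · exact absurd h1 hn

/-- If `n` is a unit at `A`, a nontrivial `n`-th root of unity is not congruent to `1`. -/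
theorem eq_one_of_pow_eq_one_of_valuation_sub_one_lt (A : ValuationSubring L) {n : ℕ}
    (hnA : A.valuation (n : L) = 1) {η : L} (hη : η ^ n = 1)
    (h1 : A.valuation (η - 1) < 1) : η = 1 := by
  by_contra hne
  have hn0 : n ≠ 0 := by
    rintro rfl
    simp at hnA
  have hη1 : A.valuation η = 1 := valuation_eq_one_of_pow_eq_one A hn0 hη
  -- the geometric sum vanishes
  have hgs : ∑ i ∈ Finset.range n, η ^ i = 0 := by
    have h2 : (∑ i ∈ Finset.range n, η ^ i) * (η - 1) = 0 := by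
      rw [geom_sum_mul, hη, sub_self]
    rcases mul_eq_zero.mp h2 with h | h
    · exact h
    · exact absurd (sub_eq_zero.mp h) hne
  -- each `η ^ i - 1` is a nonunit
  have hi : ∀ i ∈ Finset.range n, A.valuation (η ^ i - 1) < 1 := by
    intro i _
    have h3 : η ^ i - 1 = (∑ j ∈ Finset.range i, η ^ j) * (η - 1) := (geom_sum_mul η i).symm
    rw [h3, map_mul]
    have h4 : A.valuation (∑ j ∈ Finset.range i, η ^ j) ≤ 1 := by
      apply Valuation.map_sum_le
      intro j _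
      rw [map_pow, hη1, one_pow]
    calc A.valuation (∑ j ∈ Finset.range i, η ^ j) * A.valuation (η - 1)
        ≤ 1 * A.valuation (η - 1) := mul_le_mul_left h4 _
      _ = A.valuation (η - 1) := one_mul _
      _ < 1 := h1
  have hsum : A.valuation (∑ i ∈ Finset.range n, (η ^ i - 1)) < 1 :=
    Valuation.map_sum_lt _ one_ne_zero hi
  rw [Finset.sum_sub_distrib, hgs, Finset.sum_const, Finset.card_range, nsmul_eq_mul, mul_one,
    zero_sub, Valuation.map_neg, hnA] at hsum
  exact lt_irrefl _ hsum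

/-- **Inertia fixes prime-to-residue-characteristic roots.** If `σ` lies in the inertia group of
`A`, `n` is a unit at `A`, `y` is a unit at `A` and `σ` fixes `y ^ n`, then `σ` fixes `y`. -/
theorem inertia_fix_root (A : ValuationSubring L) {σ : L ≃ₐ[K] L}
    (hσ : σ ∈ A.inertiaSubgroupIn K) {n : ℕ} (hnA : A.valuation (n : L) = 1) {y : L}
    (hy : A.valuation y = 1) (hfix : σ (y ^ n) = y ^ n) : σ y = y := by
  have hy0 : y ≠ 0 := by
    rintro rfl
    simp at hy
  have hyA : y ∈ A := (A.valuation_le_one_iff y).mp hy.le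
  have h1 := ((mem_inertiaSubgroupIn_iff A σ).mp hσ).2 y hyA
  rw [ValuationSubring.mem_nonunits_iff] at h1  -- valuation (σ y - y) < 1
  have hη : (σ y / y) ^ n = 1 := by
    rw [div_pow, ← map_pow, hfix, div_self (pow_ne_zero n hy0)]
  have h2 : A.valuation (σ y / y - 1) < 1 := by
    have : σ y / y - 1 = (σ y - y) / y := by field_simp
    rw [this, map_div₀, hy, div_one]
    exact h1
  have := eq_one_of_pow_eq_one_of_valuation_sub_one_lt A hnA hη h2
  rwa [div_eq_one_iff_eq hy0] at this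

/-- Inertia fixes the `n`-th roots of unity when `n` is a unit at `A`. -/
theorem inertia_fix_of_pow_eq_one (A : ValuationSubring L) {σ : L ≃ₐ[K] L}
    (hσ : σ ∈ A.inertiaSubgroupIn K) {n : ℕ} (hnA : A.valuation (n : L) = 1) {ζ : L}
    (hζ : ζ ^ n = 1) : σ ζ = ζ := by
  have hn0 : n ≠ 0 := by
    rintro rfl
    simp at hnA
  exact inertia_fix_root A hσ hnA (valuation_eq_one_of_pow_eq_one A hn0 hζ)
    (by rw [hζ, map_one])

/-- Version with a comparison element: if `y ^ n` and `z` are fixed by `σ` and `y`, `z` have the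
same valuation at `A` (no ramification in the value group), then `σ` fixes `y`. -/
theorem inertia_fix_root_of_valuation_eq (A : ValuationSubring L) {σ : L ≃ₐ[K] L}
    (hσ : σ ∈ A.inertiaSubgroupIn K) {n : ℕ} (hnA : A.valuation (n : L) = 1) {y z : L}
    (hyz : A.valuation y = A.valuation z) (hz : σ z = z) (hfix : σ (y ^ n) = y ^ n) :
    σ y = y := by
  by_cases hz0 : z = 0
  · subst hz0
    rw [map_zero, Valuation.zero_iff] at hyz
    rw [hyz, map_zero]
  have hv : A.valuation (y / z) = 1 := by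
    rw [map_div₀, hyz, div_self]
    rwa [Ne, Valuation.zero_iff]
  have h1 : σ ((y / z) ^ n) = (y / z) ^ n := by
    rw [div_pow, map_div₀, hfix, map_pow, hz]
  have h2 := inertia_fix_root A hσ hnA hv h1
  rw [map_div₀, hz] at h2
  have := congrArg (· * z) h2
  simpa [div_mul_cancel₀ _ hz0] using this

/-- If `A` lies over `q` and `n` is prime to `q` then `n` is a unit at `A`. -/
theorem valuation_natCast_eq_one_of_coprime (A : ValuationSubring L) {q n : ℕ}
    (hq : A.LiesOverPrime q) (hn : Nat.Coprime n q) : A.valuation (n : L) = 1 := by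
  have hle : ∀ k : ℤ, A.valuation (k : L) ≤ 1 := fun k =>
    (A.valuation_le_one_iff _).mpr (intCast_mem A k)
  have hnle : A.valuation (n : L) ≤ 1 :=
    (A.valuation_le_one_iff _).mpr (natCast_mem A n)
  rcases hnle.lt_or_eq with hlt | heq
  · exfalso
    have hq' : A.valuation (q : L) < 1 := (ValuationSubring.mem_nonunits_iff A).mp hq
    have hco : IsCoprime (n : ℤ) (q : ℤ) := Nat.isCoprime_iff_coprime.mpr hn
    obtain ⟨a, b, hab⟩ := hco
    have h1 : (1 : L) = (a : L) * (n : L) + (b : L) * (q : L) := by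
      have := congrArg (Int.cast : ℤ → L) hab
      push_cast at this
      exact this.symm
    have h2 : A.valuation ((a : L) * (n : L) + (b : L) * (q : L)) < 1 := by
      apply Valuation.map_add_lt
      · rw [map_mul]
        calc A.valuation (a : L) * A.valuation (n : L) ≤ 1 * A.valuation (n : L) :=
              mul_le_mul_left (hle a) _
          _ < 1 := by rwa [one_mul]
      · rw [map_mul]
        calc A.valuation (b : L) * A.valuation (q : L) ≤ 1 * A.valuation (q : L) :=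
              mul_le_mul_left (hle b) _
          _ < 1 := by rwa [one_mul]
    rw [← h1, map_one] at h2
    exact lt_irrefl _ h2
  · exact heq

end General

section Global

/-- Notation-free name for the absolute Galois group of `ℚ` used by the prelude. -/
local notation "Qbar" => AlgebraicClosure ℚ

variable {S : Finset Nat.Primes}

theorem isIntegral_qbar (y : Qbar) : IsIntegral ℚ y :=
  ((AlgebraicClosure.isAlgebraic ℚ).isAlgebraic y).isIntegral

/-- `n` is an `S`-number: every prime factor of `n` lies in `S`. -/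
def IsSNat (S : Finset Nat.Primes) (n : ℕ) : Prop :=
  n ≠ 0 ∧ ∀ q : Nat.Primes, (q : ℕ) ∣ n → q ∈ S

theorem IsSNat.valuation_eq_one {n : ℕ} (hn : IsSNat S n) {q : Nat.Primes} (hq : q ∉ S)
    {A : ValuationSubring Qbar} (hA : A.LiesOverPrime (q : ℕ)) : A.valuation (n : Qbar) = 1 := by
  apply valuation_natCast_eq_one_of_coprime A hA
  rw [Nat.coprime_comm, Nat.Prime.coprime_iff_not_dvd q.2]
  exact fun hdvd => hq (hn.2 q hdvd)

theorem IsSNat.mul {m n : ℕ} (hm : IsSNat S m) (hn : IsSNat S n) : IsSNat S (m * n) := by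
  refine ⟨mul_ne_zero hm.1 hn.1, fun q hq => ?_⟩
  rcases (Nat.Prime.dvd_mul q.2).mp hq with h | h
  · exact hm.2 q h
  · exact hn.2 q h

theorem IsSNat.pow {m : ℕ} (hm : IsSNat S m) (k : ℕ) : IsSNat S (m ^ k) := by
  refine ⟨pow_ne_zero k hm.1, fun q hq => hm.2 q (Nat.Prime.dvd_of_dvd_pow q.2 hq)⟩

theorem isSNat_prime {p : Nat.Primes} (hp : p ∈ S) : IsSNat S (p : ℕ) := by
  refine ⟨p.2.ne_zero, fun q hq => ?_⟩
  have : (q : ℕ) = p := (Nat.prime_dvd_prime_iff_eq q.2 p.2).mp hq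
  rwa [Subtype.ext this]

/-- **Adjoining an `n`-th root whose valuations are already attained in `F` keeps the field
unramified outside `S`** (`n` an `S`-number). Covers roots of `S`-units (`z = 1`) and the
capitulation case `𝔞 ^ n = (x)`. -/
theorem isUnramifiedOutside_adjoin_root {F : IntermediateField ℚ Qbar}
    (hF : F.IsUnramifiedOutside S) {n : ℕ} (hn : IsSNat S n) {y : Qbar} (hyF : y ^ n ∈ F)
    (hval : ∀ q : Nat.Primes, q ∉ S → ∀ A : ValuationSubring Qbar, A.LiesOverPrime (q : ℕ) →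
      ∃ z ∈ F, A.valuation y = A.valuation z) :
    (F ⊔ ℚ⟮y⟯).IsUnramifiedOutside S := by
  have := hF.1
  have : FiniteDimensional ℚ ℚ⟮y⟯ :=
    IntermediateField.adjoin.finiteDimensional (isIntegral_qbar y)
  refine ⟨IntermediateField.finiteDimensional_sup F ℚ⟮y⟯, fun q hq A hA σ hσ => ?_⟩
  have hσF : σ ∈ F.fixingSubgroup := hF.2 q hq A hA hσ
  rw [IntermediateField.fixingSubgroup_sup]
  refine ⟨hσF, ?_⟩
  obtain ⟨z, hzF, hyz⟩ := hval q hq A hA
  have hfixF : ∀ x ∈ F, σ x = x := (IntermediateField.mem_fixingSubgroup_iff F σ).mp hσF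
  have hy : σ y = y :=
    inertia_fix_root_of_valuation_eq A hσ (hn.valuation_eq_one hq hA) hyz (hfixF z hzF)
      (hfixF _ hyF)
  have hle : ℚ⟮y⟯ ≤ IntermediateField.fixedField (Subgroup.zpowers σ) := by
    rw [IntermediateField.adjoin_simple_le_iff, IntermediateField.mem_fixedField_iff]
    rintro τ hτ
    have hst : σ ∈ MulAction.stabilizer (Qbar ≃ₐ[ℚ] Qbar) y := hy
    exact (Subgroup.zpowers_le.mpr hst) hτ
  exact (IntermediateField.le_iff_le _ _).mp hle (Subgroup.mem_zpowers σ)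

/-- Roots of `S`-units: special case `z = 1`. -/
theorem isUnramifiedOutside_adjoin_root_of_unit {F : IntermediateField ℚ Qbar}
    (hF : F.IsUnramifiedOutside S) {n : ℕ} (hn : IsSNat S n) {y : Qbar} (hyF : y ^ n ∈ F)
    (hval : ∀ q : Nat.Primes, q ∉ S → ∀ A : ValuationSubring Qbar, A.LiesOverPrime (q : ℕ) →
      A.valuation y = 1) :
    (F ⊔ ℚ⟮y⟯).IsUnramifiedOutside S :=
  isUnramifiedOutside_adjoin_root hF hn hyF fun q hq A hA =>
    ⟨1, F.one_mem, by rw [hval q hq A hA, map_one]⟩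

/-- The field generated by an `n`-th root of unity is unramified outside `S`. -/
theorem isUnramifiedOutside_adjoin_of_pow_eq_one {n : ℕ} (hn : IsSNat S n) {ζ : Qbar}
    (hζ : ζ ^ n = 1) : (ℚ⟮ζ⟯).IsUnramifiedOutside S := by
  have h := isUnramifiedOutside_adjoin_root_of_unit
    (IntermediateField.isUnramifiedOutside_bot S) hn (y := ζ) (by rw [hζ]; exact one_mem _)
    (fun q _ A _ => valuation_eq_one_of_pow_eq_one A hn.1 hζ)
  rwa [bot_sup_eq] at h

/-! ### The field `ℚ_S` -/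

theorem adjoin_simple_isUnramifiedOutside_of_mem {F : IntermediateField ℚ Qbar}
    (hF : F.IsUnramifiedOutside S) {x : Qbar} (hx : x ∈ F) : (ℚ⟮x⟯).IsUnramifiedOutside S :=
  hF.of_le (IntermediateField.adjoin_simple_le_iff.mpr hx)

/-- `ℚ_S`, the maximal extension of `ℚ` inside `AlgebraicClosure ℚ` unramified outside `S`. -/
def QS (S : Finset Nat.Primes) : IntermediateField ℚ Qbar where
  carrier := {x | (ℚ⟮x⟯).IsUnramifiedOutside S}
  mul_mem' := by
    intro x y hx hy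
    refine adjoin_simple_isUnramifiedOutside_of_mem (hx.sup hy) (mul_mem ?_ ?_)
    · exact (le_sup_left : ℚ⟮x⟯ ≤ ℚ⟮x⟯ ⊔ ℚ⟮y⟯) (IntermediateField.mem_adjoin_simple_self ℚ x)
    · exact (le_sup_right : ℚ⟮y⟯ ≤ ℚ⟮x⟯ ⊔ ℚ⟮y⟯) (IntermediateField.mem_adjoin_simple_self ℚ y)
  add_mem' := by
    intro x y hx hy
    refine adjoin_simple_isUnramifiedOutside_of_mem (hx.sup hy) (add_mem ?_ ?_)
    · exact (le_sup_left : ℚ⟮x⟯ ≤ ℚ⟮x⟯ ⊔ ℚ⟮y⟯) (IntermediateField.mem_adjoin_simple_self ℚ x)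
    · exact (le_sup_right : ℚ⟮y⟯ ≤ ℚ⟮x⟯ ⊔ ℚ⟮y⟯) (IntermediateField.mem_adjoin_simple_self ℚ y)
  algebraMap_mem' := by
    intro r
    exact adjoin_simple_isUnramifiedOutside_of_mem (IntermediateField.isUnramifiedOutside_bot S)
      (algebraMap_mem _ r)
  inv_mem' := by
    intro x hx
    exact adjoin_simple_isUnramifiedOutside_of_mem hx
      (inv_mem (IntermediateField.mem_adjoin_simple_self ℚ x))

theorem mem_QS_iff' {x : Qbar} : x ∈ QS S ↔ (ℚ⟮x⟯).IsUnramifiedOutside S := Iff.rfl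

theorem mem_QS_iff {x : Qbar} :
    x ∈ QS S ↔ ∃ F : IntermediateField ℚ Qbar, F.IsUnramifiedOutside S ∧ x ∈ F :=
  ⟨fun h => ⟨ℚ⟮x⟯, h, IntermediateField.mem_adjoin_simple_self ℚ x⟩,
    fun ⟨_, hF, hx⟩ => adjoin_simple_isUnramifiedOutside_of_mem hF hx⟩

theorem le_QS_of_isUnramifiedOutside {F : IntermediateField ℚ Qbar}
    (hF : F.IsUnramifiedOutside S) : F ≤ QS S := fun _ hx => mem_QS_iff.mpr ⟨F, hF, hx⟩

/-- A finite subextension of `ℚ_S` is unramified outside `S`. -/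
theorem isUnramifiedOutside_of_le_QS {F : IntermediateField ℚ Qbar} [FiniteDimensional ℚ F]
    (hF : F ≤ QS S) : F.IsUnramifiedOutside S := by
  obtain ⟨α, hα⟩ := Field.exists_primitive_element ℚ F
  have h1 : (ℚ⟮(α : Qbar)⟯).IsUnramifiedOutside S := hF α.2
  refine h1.of_le ?_
  intro x hx
  have hmem : (⟨x, hx⟩ : F) ∈ (ℚ⟮α⟯ : IntermediateField ℚ F) := by
    rw [hα]; exact IntermediateField.mem_top
  have h2 : (IntermediateField.map F.val ℚ⟮α⟯) = ℚ⟮(α : Qbar)⟯ := by
    rw [IntermediateField.adjoin_map]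
    simp
  rw [← h2]
  exact ⟨⟨x, hx⟩, hmem, rfl⟩

theorem isUnramifiedOutside_iff_le_QS {F : IntermediateField ℚ Qbar} [FiniteDimensional ℚ F] :
    F.IsUnramifiedOutside S ↔ F ≤ QS S :=
  ⟨le_QS_of_isUnramifiedOutside, isUnramifiedOutside_of_le_QS⟩

/-! ### Galois conjugation -/

theorem liesOverPrime_smul_iff (σ : Qbar ≃ₐ[ℚ] Qbar) (A : ValuationSubring Qbar) (q : ℕ) :
    (σ • A).LiesOverPrime q ↔ A.LiesOverPrime q := by
  rw [ValuationSubring.LiesOverPrime, ValuationSubring.LiesOverPrime, smul_nonunits_iff,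
    map_natCast]

theorem valuation_smul_eq_one_iff (σ : Qbar ≃ₐ[ℚ] Qbar) (A : ValuationSubring Qbar) (x : Qbar) :
    (σ • A).valuation x = 1 ↔ A.valuation (σ⁻¹ x) = 1 := by
  have key : ∀ (B : ValuationSubring Qbar) (y : Qbar),
      B.valuation y = 1 ↔ y ∈ B ∧ y ∉ B.nonunits := by
    intro B y
    rw [ValuationSubring.mem_nonunits_iff, ← ValuationSubring.valuation_le_one_iff, not_lt]
    exact ⟨fun h => ⟨h.le, h.ge⟩, fun h => le_antisymm h.1 h.2⟩
  rw [key, key, smul_nonunits_iff, ValuationSubring.mem_pointwise_smul_iff_inv_smul_mem,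
    AlgEquiv.smul_def]

/-- A Galois conjugate of a field unramified outside `S` is unramified outside `S`. -/
theorem isUnramifiedOutside_map {F : IntermediateField ℚ Qbar} (hF : F.IsUnramifiedOutside S)
    (σ : Qbar ≃ₐ[ℚ] Qbar) : (F.map σ.toAlgHom).IsUnramifiedOutside S := by
  have := hF.1
  refine ⟨(F.equivMap σ.toAlgHom).toLinearEquiv.finiteDimensional, fun q hq A hA τ hτ => ?_⟩
  have h1 : σ⁻¹ * τ * σ ∈ (σ⁻¹ • A).inertiaSubgroupIn ℚ := by
    rw [mem_inertiaSubgroupIn_smul_iff]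
    simpa [mul_assoc] using hτ
  have h2 := hF.2 q hq (σ⁻¹ • A) ((liesOverPrime_smul_iff σ⁻¹ A q).mpr hA) h1
  have h3 := (conj_mem_fixingSubgroup_iff F σ⁻¹ τ).mp (by simpa using h2)
  simpa using h3

theorem map_mem_QS_iff (σ : Qbar ≃ₐ[ℚ] Qbar) {x : Qbar} : σ x ∈ QS S ↔ x ∈ QS S := by
  have key : ∀ (ρ : Qbar ≃ₐ[ℚ] Qbar) (y : Qbar), y ∈ QS S → ρ y ∈ QS S := by
    intro ρ y hy
    obtain ⟨F, hF, hyF⟩ := mem_QS_iff.mp hy
    exact mem_QS_iff.mpr ⟨F.map ρ.toAlgHom, isUnramifiedOutside_map hF ρ, ⟨y, hyF, rfl⟩⟩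
  refine ⟨fun h => ?_, key σ x⟩
  have := key σ⁻¹ _ h
  simpa using this

/-! ### `S`-units -/

/-- `x` is a unit at every valuation subring lying over a prime outside `S`. -/
def IsSUnit (S : Finset Nat.Primes) (x : Qbar) : Prop :=
  ∀ q : Nat.Primes, q ∉ S → ∀ A : ValuationSubring Qbar, A.LiesOverPrime (q : ℕ) →
    A.valuation x = 1

theorem IsSUnit.one : IsSUnit S (1 : Qbar) := fun _ _ _ _ => map_one _

theorem IsSUnit.mul {x y : Qbar} (hx : IsSUnit S x) (hy : IsSUnit S y) : IsSUnit S (x * y) :=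
  fun q hq A hA => by rw [map_mul, hx q hq A hA, hy q hq A hA, one_mul]

theorem IsSUnit.inv {x : Qbar} (hx : IsSUnit S x) : IsSUnit S x⁻¹ :=
  fun q hq A hA => by rw [map_inv₀, hx q hq A hA, inv_one]

theorem IsSUnit.map {x : Qbar} (hx : IsSUnit S x) (σ : Qbar ≃ₐ[ℚ] Qbar) : IsSUnit S (σ x) := by
  intro q hq A hA
  have h := hx q hq (σ⁻¹ • A) ((liesOverPrime_smul_iff σ⁻¹ A q).mpr hA)
  rw [valuation_smul_eq_one_iff, inv_inv] at h
  exact h

theorem IsSUnit.of_pow {n : ℕ} (hn : n ≠ 0) {y : Qbar} (hy : IsSUnit S (y ^ n)) :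
    IsSUnit S y := by
  intro q hq A hA
  have h := hy q hq A hA
  rw [map_pow] at h
  rcases pow_eq_one_iff.mp h with h1 | h1
  · exact h1
  · exact absurd h1 hn

theorem isSUnit_of_pow_eq_one {n : ℕ} (hn : n ≠ 0) {ζ : Qbar} (hζ : ζ ^ n = 1) : IsSUnit S ζ :=
  fun _ _ A _ => valuation_eq_one_of_pow_eq_one A hn hζ

/-- `E_S`: the `S`-units of `ℚ_S`, as a subgroup of `(AlgebraicClosure ℚ)ˣ`. -/
def ES (S : Finset Nat.Primes) : Subgroup Qbarˣ where
  carrier := {u | (u : Qbar) ∈ QS S ∧ IsSUnit S (u : Qbar)}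
  mul_mem' := by
    rintro u v ⟨hu, hu'⟩ ⟨hv, hv'⟩
    exact ⟨by rw [Units.val_mul]; exact mul_mem hu hv, by rw [Units.val_mul]; exact hu'.mul hv'⟩
  one_mem' := ⟨by rw [Units.val_one]; exact one_mem _, by rw [Units.val_one]; exact IsSUnit.one⟩
  inv_mem' := by
    rintro u ⟨hu, hu'⟩
    exact ⟨by rw [Units.val_inv_eq_inv_val]; exact inv_mem hu,
      by rw [Units.val_inv_eq_inv_val]; exact hu'.inv⟩

theorem mem_ES_iff {u : Qbarˣ} : u ∈ ES S ↔ (u : Qbar) ∈ QS S ∧ IsSUnit S (u : Qbar) := Iff.rfl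

/-- `E_S` is stable under the absolute Galois group. -/
theorem map_mem_ES_iff (σ : Qbar ≃ₐ[ℚ] Qbar) {u : Qbarˣ} :
    Units.map (σ : Qbar →* Qbar) u ∈ ES S ↔ u ∈ ES S := by
  rw [mem_ES_iff, mem_ES_iff, Units.coe_map]
  change σ (u : Qbar) ∈ QS S ∧ IsSUnit S (σ (u : Qbar)) ↔ _
  rw [map_mem_QS_iff]
  refine and_congr_right fun _ => ⟨fun h => ?_, fun h => h.map σ⟩
  have := h.map σ⁻¹
  simpa using this

/-- The subgroup fixing `ℚ_S` acts trivially on `E_S`. -/
theorem map_eq_self_of_mem_ES {σ : Qbar ≃ₐ[ℚ] Qbar} (hσ : σ ∈ (QS S).fixingSubgroup)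
    {u : Qbarˣ} (hu : u ∈ ES S) : Units.map (σ : Qbar →* Qbar) u = u := by
  ext
  rw [Units.coe_map]
  exact (IntermediateField.mem_fixingSubgroup_iff _ σ).mp hσ _ hu.1

/-- **`E_S` is `n`-divisible** for every `S`-number `n` (Kummer theory + no ramification). -/
theorem ES_pow_surjective {n : ℕ} (hn : IsSNat S n) {u : Qbarˣ} (hu : u ∈ ES S) :
    ∃ w ∈ ES S, w ^ n = u := by
  obtain ⟨y, hy⟩ := IsAlgClosed.exists_pow_nat_eq (u : Qbar) (Nat.pos_of_ne_zero hn.1)
  have hy0 : y ≠ 0 := by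
    rintro rfl
    rw [zero_pow hn.1] at hy
    exact u.ne_zero hy.symm
  obtain ⟨F, hF, huF⟩ := mem_QS_iff.mp hu.1
  have hyS : IsSUnit S y := IsSUnit.of_pow hn.1 (by rw [hy]; exact hu.2)
  have hFy := isUnramifiedOutside_adjoin_root_of_unit hF hn (y := y) (by rw [hy]; exact huF) hyS
  refine ⟨Units.mk0 y hy0, ⟨?_, hyS⟩, ?_⟩
  · exact mem_QS_iff.mpr ⟨_, hFy,
      (le_sup_right : ℚ⟮y⟯ ≤ F ⊔ ℚ⟮y⟯) (IntermediateField.mem_adjoin_simple_self ℚ y)⟩
  · ext
    rw [Units.val_pow_eq_pow_val, Units.val_mk0, hy]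

/-- The `n`-th roots of unity lie in `E_S` for every `S`-number `n`. -/
theorem rootsOfUnity_le_ES {n : ℕ} (hn : IsSNat S n) : rootsOfUnity n Qbar ≤ ES S := by
  intro ζ hζ
  have h1 : (ζ : Qbar) ^ n = 1 := by
    rw [mem_rootsOfUnity] at hζ
    rw [← Units.val_pow_eq_pow_val, hζ, Units.val_one]
  exact ⟨mem_QS_iff'.mpr (isUnramifiedOutside_adjoin_of_pow_eq_one hn h1),
    isSUnit_of_pow_eq_one hn.1 h1⟩

/-- Kernel of the `n`-th power map on `E_S` = `μ_n` (trivially) – Kummer sequence, left part. -/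
theorem pow_eq_one_iff_mem_rootsOfUnity {n : ℕ} (u : Qbarˣ) :
    u ^ n = 1 ↔ u ∈ rootsOfUnity n Qbar := (mem_rootsOfUnity n u).symm

end Global

end Fermat.Agent.CFT.C7.KummerUnram
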