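import Mathlib

/-!
# PROJECT C, slice C7b (part 1): units of a complete semilocal ring with an unramified group action

`R` a commutative ring with finitely many maximal ideals and a finite group `G` acting by ring
automorphisms with **trivial inertia** (`TrivialInertia G R`: an element of `G` acting trivially on
some residue field `R ⧸ 𝔪` is `1`).

* `isMulCoboundary₁_units` : **semilocal Hilbert 90**, `H¹(G, Rˣ) = 0` (no completeness needed):
  every multiplicative `1`-cocycle `G → Rˣ` is a coboundary (Poincaré series supported on orbit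
  representatives + Dedekind's independence of characters on the residue fields).
* `exists_trace_one` : if moreover `R` is `I`-adically complete and `I` contains the Jacobson
  radical, there is `t : R` with `∑ σ, σ • t = 1`.
* `exists_prod_smul_eq` : if moreover the residue fields are finite, the norm `Rˣ → (Rˣ)^G` is
  surjective: every `G`-invariant unit is `∏ σ, σ • b` (finite field norms at orbit representatives,
  then successive approximation with the trace-one element).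

These are the two vanishing statements `Ĥ⁰ = 0`, `H¹ = 0` which, applied to all Sylow subgroups and
fed into the twin criterion, give cohomological triviality of `Rˣ` (next file).
-/

set_option autoImplicit false

open Finset

namespace Fermat.Agent.CFT.C7.SemilocalUnits

section Field

variable {k : Type*} [Field k] {D : Type*} [Group D] [Fintype D] (φ : D →* (k ≃+* k))

/-- Dedekind: a nontrivial combination of distinct automorphisms is not identically zero. -/
theorem exists_sum_mul_ne_zero (hφ : Function.Injective φ) (a : D → k) (ha : ∃ d, a d ≠ 0) :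
    ∃ c : k, ∑ d : D, a d * φ d c ≠ 0 := by
  classical
  by_contra hcon
  push Not at hcon
  have hli : LinearIndependent k (fun d : D => ((φ d : k ≃+* k) : k → k)) := by
    have h1 := linearIndependent_monoidHom k k
    refine LinearIndependent.comp (ι' := D) h1
      (fun d => ((φ d : k ≃+* k) : k →+* k).toMonoidHom) ?_
    intro d e hde
    apply hφ
    ext x
    exact DFunLike.congr_fun hde x
  have h2 := (Fintype.linearIndependent_iff.1 hli) a (by
    funext c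
    have := hcon c
    simpa [Finset.sum_apply, Pi.smul_apply, smul_eq_mul] using this)
  obtain ⟨d, hd⟩ := ha
  exact hd (h2 d)

/-- A trace-one element for a finite group of automorphisms of a field. -/
theorem exists_sum_eq_one (hφ : Function.Injective φ) : ∃ γ : k, ∑ d : D, φ d γ = 1 := by
  obtain ⟨c, hc⟩ := exists_sum_mul_ne_zero φ hφ (fun _ => 1) ⟨1, one_ne_zero⟩
  simp only [one_mul] at hc
  set t := ∑ d : D, φ d c with ht
  have hfix : ∀ e : D, φ e t = t := by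
    intro e
    rw [ht, map_sum]
    refine Fintype.sum_equiv (Equiv.mulLeft e) _ _ (fun d => ?_)
    simp [map_mul]
  refine ⟨c * t⁻¹, ?_⟩
  have : ∀ d : D, φ d (c * t⁻¹) = φ d c * t⁻¹ := by
    intro d
    rw [map_mul, map_inv₀, hfix d]
  simp_rw [this]
  rw [← Finset.sum_mul, ← ht, mul_inv_cancel₀ hc]

/-- Norm surjectivity for a finite group of automorphisms of a finite field. -/
theorem exists_prod_eq [Finite k] (hφ : Function.Injective φ) (u : k) (hu0 : u ≠ 0)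
    (hu : ∀ d : D, φ d u = u) : ∃ β : k, β ≠ 0 ∧ ∏ d : D, φ d β = u := by
  classical
  let _ : MulSemiringAction D k := MulSemiringAction.compHom k φ
  have hsmul : ∀ (d : D) (x : k), d • x = φ d x := fun d x => rfl
  have : FaithfulSMul D k := ⟨fun {d e} h => hφ (RingEquiv.ext (fun x => by
    have := h x
    rwa [hsmul, hsmul] at this))⟩
  let F := FixedPoints.subfield D k
  have huF : u ∈ F := fun d => by rw [hsmul]; exact hu d
  have : Finite F := Finite.of_injective _ Subtype.val_injective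
  obtain ⟨β, hβ⟩ := FiniteField.unitsMap_norm_surjective F k
    (Units.mk0 (⟨u, huF⟩ : F) (by
      intro h
      apply hu0
      exact congrArg Subtype.val h))
  refine ⟨(β : k), β.ne_zero, ?_⟩
  have h1 : algebraMap F k (Algebra.norm F (β : k)) = u := by
    have := congrArg (fun x : Fˣ => ((x : F) : k)) hβ
    exact this
  rw [Algebra.norm_eq_prod_automorphisms] at h1
  rw [← h1]
  refine Fintype.prod_equiv (FixedPoints.toAlgAutMulEquiv D k).toEquiv _ _ (fun d => ?_)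
  rfl

end Field

section Approx

variable {R : Type*} [CommRing R] (I : Ideal R)

theorem smodEq_pow_top_iff (n : ℕ) (x y : R) :
    x ≡ y [SMOD (I ^ n • ⊤ : Submodule R R)] ↔ x - y ∈ I ^ n := by
  rw [SModEq.sub_mem, smul_eq_mul, Ideal.mul_top]

/-- Successive approximation in an adically complete ring. -/
theorem exists_eq_of_approx [IsAdicComplete I R]
    (Φ : R → R) (hΦ : ∀ (n : ℕ) (x y : R), x - y ∈ I ^ n → Φ x - Φ y ∈ I ^ n) (u : R)
    (hstep : ∀ n : ℕ, 1 ≤ n → ∀ B : R, Φ B - u ∈ I ^ n →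
      ∃ B' : R, B' - B ∈ I ^ n ∧ Φ B' - u ∈ I ^ (n + 1))
    (B₁ : R) (h₁ : Φ B₁ - u ∈ I) : ∃ B : R, B - B₁ ∈ I ∧ Φ B = u := by
  classical
  -- the sequence of approximations
  let step : ∀ n : ℕ, {B : R // Φ B - u ∈ I ^ (n + 1)} → {B : R // Φ B - u ∈ I ^ (n + 1 + 1)} :=
    fun n B => ⟨Classical.choose (hstep (n + 1) (Nat.succ_pos n) B.1 B.2),
      (Classical.choose_spec (hstep (n + 1) (Nat.succ_pos n) B.1 B.2)).2⟩
  have hstep1 : ∀ (n : ℕ) (B : {B : R // Φ B - u ∈ I ^ (n + 1)}),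
      (step n B).1 - B.1 ∈ I ^ (n + 1) := fun n B =>
    (Classical.choose_spec (hstep (n + 1) (Nat.succ_pos n) B.1 B.2)).1
  let s : ∀ n : ℕ, {B : R // Φ B - u ∈ I ^ (n + 1)} := fun n =>
    Nat.rec (motive := fun n => {B : R // Φ B - u ∈ I ^ (n + 1)})
      ⟨B₁, by simpa using h₁⟩ (fun n B => step n B) n
  have hs0 : (s 0).1 = B₁ := rfl
  have hsS : ∀ n, s (n + 1) = step n (s n) := fun n => rfl
  have hdiff : ∀ n, (s (n + 1)).1 - (s n).1 ∈ I ^ (n + 1) := fun n => by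
    rw [hsS]; exact hstep1 n (s n)
  have hcauchy : ∀ m n, m ≤ n → (s n).1 - (s m).1 ∈ I ^ (m + 1) := by
    intro m n hmn
    induction n, hmn using Nat.le_induction with
    | base => simp
    | succ n hmn ih =>
      have h1 : (s (n + 1)).1 - (s m).1 = ((s (n + 1)).1 - (s n).1) + ((s n).1 - (s m).1) := by ring
      rw [h1]
      exact (I ^ (m + 1)).add_mem
        (Ideal.pow_le_pow_right (Nat.succ_le_succ hmn) (hdiff n)) ih
  obtain ⟨L, hL⟩ := IsPrecomplete.prec (IsAdicComplete.toIsPrecomplete (I := I) (M := R))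
    (f := fun n => (s n).1) (by
      intro m n hmn
      rw [smodEq_pow_top_iff, ← neg_sub]
      exact (I ^ m).neg_mem (Ideal.pow_le_pow_right (Nat.le_succ m) (hcauchy m n hmn)))
  have hL' : ∀ n, (s n).1 - L ∈ I ^ n := fun n => (smodEq_pow_top_iff I n _ _).1 (hL n)
  refine ⟨L, ?_, ?_⟩
  · have h1 : L - B₁ = -((s 1).1 - L) + ((s 1).1 - (s 0).1) := by rw [hs0]; ring
    rw [h1]
    refine I.add_mem (I.neg_mem ?_) ?_
    · simpa using hL' 1
    · simpa using hdiff 0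
  · have hz : Φ L - u = 0 := by
      apply IsHausdorff.haus (IsAdicComplete.toIsHausdorff (I := I) (M := R)) (Φ L - u)
      intro n
      rw [smodEq_pow_top_iff, sub_zero]
      have h1 : Φ L - u = -(Φ (s n).1 - Φ L) + (Φ (s n).1 - u) := by ring
      rw [h1]
      refine (I ^ n).add_mem ((I ^ n).neg_mem (hΦ n _ _ (hL' n))) ?_
      exact Ideal.pow_le_pow_right (Nat.le_succ n) (s n).2
    exact sub_eq_zero.mp hz

end Approx

section Semilocal

variable (G : Type*) [Group G] {R : Type*} [CommRing R] [MulSemiringAction G R]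

instance (𝔪 : MaximalSpectrum R) : 𝔪.asIdeal.IsMaximal := 𝔪.isMaximal

variable {G}

/-- The maximal ideal `g • 𝔪`. -/
def smulMax (g : G) (𝔪 : MaximalSpectrum R) : MaximalSpectrum R :=
  ⟨𝔪.asIdeal.comap (MulSemiringAction.toRingEquiv G R g⁻¹), inferInstance⟩

theorem mem_smulMax {g : G} {𝔪 : MaximalSpectrum R} {x : R} :
    x ∈ (smulMax g 𝔪).asIdeal ↔ g⁻¹ • x ∈ 𝔪.asIdeal := Iff.rfl

theorem smul_mem_smulMax {g : G} {𝔪 : MaximalSpectrum R} {x : R} :
    g • x ∈ (smulMax g 𝔪).asIdeal ↔ x ∈ 𝔪.asIdeal := by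
  rw [mem_smulMax, inv_smul_smul]

theorem smulMax_one (𝔪 : MaximalSpectrum R) : smulMax (1 : G) 𝔪 = 𝔪 := by
  apply MaximalSpectrum.ext
  ext x
  rw [mem_smulMax, inv_one, one_smul]

theorem smulMax_mul (g h : G) (𝔪 : MaximalSpectrum R) :
    smulMax (g * h) 𝔪 = smulMax g (smulMax h 𝔪) := by
  apply MaximalSpectrum.ext
  ext x
  rw [mem_smulMax, mem_smulMax, mem_smulMax, mul_inv_rev, mul_smul]

theorem smulMax_inv_smulMax (g : G) (𝔪 : MaximalSpectrum R) :
    smulMax g⁻¹ (smulMax g 𝔪) = 𝔪 := by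
  rw [← smulMax_mul, inv_mul_cancel, smulMax_one]

variable (G) in
/-- The orbit relation on maximal ideals. -/
def orbitSetoid (R : Type*) [CommRing R] [MulSemiringAction G R] : Setoid (MaximalSpectrum R) where
  r 𝔪 𝔫 := ∃ g : G, smulMax g 𝔪 = 𝔫
  iseqv := {
    refl := fun 𝔪 => ⟨1, smulMax_one 𝔪⟩
    symm := by
      rintro 𝔪 𝔫 ⟨g, rfl⟩
      exact ⟨g⁻¹, smulMax_inv_smulMax g 𝔪⟩
    trans := by
      rintro 𝔪 𝔫 𝔭 ⟨g, rfl⟩ ⟨h, rfl⟩
      exact ⟨h * g, smulMax_mul h g 𝔪⟩ }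

variable (G) in
/-- The chosen representative of the orbit of a maximal ideal. -/
noncomputable def rep (𝔪 : MaximalSpectrum R) : MaximalSpectrum R :=
  (Quotient.mk (orbitSetoid G R) 𝔪).out

theorem exists_smulMax_rep (𝔫 : MaximalSpectrum R) : ∃ g : G, smulMax g (rep G 𝔫) = 𝔫 :=
  Quotient.exact (Quotient.out_eq (Quotient.mk (orbitSetoid G R) 𝔫))

theorem rep_smulMax (g : G) (𝔪 : MaximalSpectrum R) : rep G (smulMax g 𝔪) = rep G 𝔪 := by
  unfold rep
  congr 1
  exact Quotient.sound (s := orbitSetoid G R) ⟨g⁻¹, smulMax_inv_smulMax g 𝔪⟩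

theorem rep_rep (𝔪 : MaximalSpectrum R) : rep G (rep G 𝔪) = rep G 𝔪 := by
  obtain ⟨g, hg⟩ := exists_smulMax_rep (G := G) 𝔪
  conv_rhs => rw [← hg, rep_smulMax]

/-- Two distinct maximal ideals in the same orbit are not both representatives. -/
theorem rep_ne_of_smulMax_ne {g : G} {𝔪 : MaximalSpectrum R} (h𝔪 : rep G 𝔪 = 𝔪)
    (hne : smulMax g 𝔪 ≠ 𝔪) : rep G (smulMax g 𝔪) ≠ smulMax g 𝔪 := by
  intro h
  apply hne
  rw [← h, rep_smulMax, h𝔪]

/-- The stabiliser of a maximal ideal. -/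
def stab (𝔪 : MaximalSpectrum R) : Subgroup G where
  carrier := {g | smulMax g 𝔪 = 𝔪}
  one_mem' := smulMax_one 𝔪
  mul_mem' := by
    intro g h hg hh
    show smulMax (g * h) 𝔪 = 𝔪
    rw [smulMax_mul, show smulMax h 𝔪 = 𝔪 from hh, show smulMax g 𝔪 = 𝔪 from hg]
  inv_mem' := by
    intro g hg
    show smulMax g⁻¹ 𝔪 = 𝔪
    conv_lhs => rw [← show smulMax g 𝔪 = 𝔪 from hg]
    exact smulMax_inv_smulMax g 𝔪

theorem mem_stab {g : G} {𝔪 : MaximalSpectrum R} : g ∈ stab 𝔪 ↔ smulMax g 𝔪 = 𝔪 := Iff.rfl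

theorem smul_mem_iff_of_mem_stab {g : G} {𝔪 : MaximalSpectrum R} (hg : g ∈ stab 𝔪) (x : R) :
    g • x ∈ 𝔪.asIdeal ↔ x ∈ 𝔪.asIdeal := by
  conv_lhs => rw [← show smulMax g 𝔪 = 𝔪 from hg]
  exact smul_mem_smulMax

/-- The automorphism of the residue field induced by an element of the stabiliser. -/
noncomputable def resAut (𝔪 : MaximalSpectrum R) :
    stab (G := G) 𝔪 →* ((R ⧸ 𝔪.asIdeal) ≃+* (R ⧸ 𝔪.asIdeal)) where
  toFun d := Ideal.quotientEquiv 𝔪.asIdeal 𝔪.asIdeal (MulSemiringAction.toRingEquiv G R d) (by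
    ext x
    change x ∈ 𝔪.asIdeal ↔ x ∈ Ideal.map (MulSemiringAction.toRingEquiv G R (d : G)) 𝔪.asIdeal
    rw [Ideal.mem_map_of_equiv]
    constructor
    · intro hx
      refine ⟨(d : G)⁻¹ • x, ?_, ?_⟩
      · exact (smul_mem_iff_of_mem_stab (inv_mem d.2) x).2 hx
      · simp
    · rintro ⟨y, hy, rfl⟩
      exact (smul_mem_iff_of_mem_stab d.2 y).2 hy)
  map_one' := by
    ext x
    obtain ⟨x, rfl⟩ := Ideal.Quotient.mk_surjective x
    simp
  map_mul' d e := by
    ext x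
    obtain ⟨x, rfl⟩ := Ideal.Quotient.mk_surjective x
    simp

theorem resAut_mk (𝔪 : MaximalSpectrum R) (d : stab (G := G) 𝔪) (x : R) :
    resAut 𝔪 d (Ideal.Quotient.mk 𝔪.asIdeal x) = Ideal.Quotient.mk 𝔪.asIdeal ((d : G) • x) := rfl

variable (G R) in
/-- Trivial inertia at every maximal ideal. -/
def TrivialInertia : Prop :=
  ∀ (𝔪 : MaximalSpectrum R) (g : G), (∀ x : R, g • x - x ∈ 𝔪.asIdeal) → g = 1

theorem resAut_injective (hin : TrivialInertia G R) (𝔪 : MaximalSpectrum R) :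
    Function.Injective (resAut (G := G) 𝔪) := by
  rw [injective_iff_map_eq_one]
  intro d hd
  apply Subtype.ext
  apply hin 𝔪
  intro x
  have := DFunLike.congr_fun hd (Ideal.Quotient.mk 𝔪.asIdeal x)
  rw [resAut_mk] at this
  exact Ideal.Quotient.eq.1 this

end Semilocal

section Compute

variable {G : Type*} [Group G] [Fintype G] {R : Type*} [CommRing R] [MulSemiringAction G R]

open Classical in
/-- Computation of a twisted trace modulo a maximal ideal. -/
theorem mk_sum_smul (𝔪 : MaximalSpectrum R) (a : G → R) (y y' : R)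
    (hy : y - y' ∈ 𝔪.asIdeal) (hy0 : ∀ σ : G, σ ∉ stab 𝔪 → σ • y ∈ 𝔪.asIdeal) :
    Ideal.Quotient.mk 𝔪.asIdeal (∑ σ : G, a σ * σ • y) =
      ∑ d : stab (G := G) 𝔪, Ideal.Quotient.mk 𝔪.asIdeal (a d) *
        resAut 𝔪 d (Ideal.Quotient.mk 𝔪.asIdeal y') := by
  rw [map_sum]
  have h1 : ∑ σ : G, Ideal.Quotient.mk 𝔪.asIdeal (a σ * σ • y) =
      ∑ σ ∈ univ.filter (fun σ : G => σ ∈ stab 𝔪),
        Ideal.Quotient.mk 𝔪.asIdeal (a σ * σ • y) := by
    symm
    apply Finset.sum_subset (Finset.filter_subset _ _)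
    intro σ _ hσ
    have hσ' : σ ∉ stab 𝔪 := by simpa using hσ
    rw [Ideal.Quotient.eq_zero_iff_mem]
    exact Ideal.mul_mem_left _ _ (hy0 σ hσ')
  rw [h1, Finset.sum_subtype (p := fun σ : G => σ ∈ stab 𝔪) (univ.filter (· ∈ stab 𝔪))
    (by simp) (fun σ => Ideal.Quotient.mk 𝔪.asIdeal (a σ * σ • y))]
  refine Finset.sum_congr rfl (fun d _ => ?_)
  rw [map_mul, ← (Ideal.Quotient.eq (I := 𝔪.asIdeal)).2 hy, resAut_mk]

open Classical in
/-- Computation of a norm modulo a maximal ideal. -/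
theorem mk_prod_smul (𝔪 : MaximalSpectrum R) (y y' : R)
    (hy : y - y' ∈ 𝔪.asIdeal) (hy1 : ∀ σ : G, σ ∉ stab 𝔪 → σ • y - 1 ∈ 𝔪.asIdeal) :
    Ideal.Quotient.mk 𝔪.asIdeal (∏ σ : G, σ • y) =
      ∏ d : stab (G := G) 𝔪, resAut 𝔪 d (Ideal.Quotient.mk 𝔪.asIdeal y') := by
  rw [map_prod]
  have h1 : ∏ σ : G, Ideal.Quotient.mk 𝔪.asIdeal (σ • y) =
      ∏ σ ∈ univ.filter (fun σ : G => σ ∈ stab 𝔪), Ideal.Quotient.mk 𝔪.asIdeal (σ • y) := by
    symm
    apply Finset.prod_subset (Finset.filter_subset _ _)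
    intro σ _ hσ
    have hσ' : σ ∉ stab 𝔪 := by simpa using hσ
    rw [← map_one (Ideal.Quotient.mk 𝔪.asIdeal)]
    exact (Ideal.Quotient.eq (I := 𝔪.asIdeal)).2 (hy1 σ hσ')
  rw [h1, Finset.prod_subtype (p := fun σ : G => σ ∈ stab 𝔪) (univ.filter (· ∈ stab 𝔪))
    (by simp) (fun σ => Ideal.Quotient.mk 𝔪.asIdeal (σ • y))]
  refine Finset.prod_congr rfl (fun d _ => ?_)
  rw [← (Ideal.Quotient.eq (I := 𝔪.asIdeal)).2 hy, resAut_mk]

omit [Fintype G] [MulSemiringAction G R] in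
/-- The Chinese remainder theorem for the maximal ideals of a semilocal ring. -/
theorem exists_crt [Finite (MaximalSpectrum R)] (x : MaximalSpectrum R → R) :
    ∃ y : R, ∀ 𝔪 : MaximalSpectrum R, y - x 𝔪 ∈ 𝔪.asIdeal :=
  Ideal.exists_forall_sub_mem_ideal
    (fun _ _ h => Ideal.isCoprime_of_isMaximal (fun h' => h (MaximalSpectrum.ext h'))) x

variable (G) in
omit [Fintype G] in
open Classical in
/-- An element with prescribed residues at the orbit representatives and residue `ε` elsewhere. -/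
theorem exists_crt_rep [Finite (MaximalSpectrum R)] (x : MaximalSpectrum R → R) (ε : R) :
    ∃ y : R, (∀ 𝔪 : MaximalSpectrum R, rep G 𝔪 = 𝔪 → y - x 𝔪 ∈ 𝔪.asIdeal) ∧
      (∀ 𝔪 : MaximalSpectrum R, rep G 𝔪 ≠ 𝔪 → y - ε ∈ 𝔪.asIdeal) := by
  obtain ⟨y, hy⟩ := exists_crt (fun 𝔪 : MaximalSpectrum R => if rep G 𝔪 = 𝔪 then x 𝔪 else ε)
  refine ⟨y, fun 𝔪 h => ?_, fun 𝔪 h => ?_⟩
  · have := hy 𝔪
    rwa [if_pos h] at this
  · have := hy 𝔪
    rwa [if_neg h] at this

omit [Fintype G] in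
/-- For `𝔪` a representative and `σ` outside its stabiliser, `σ⁻¹ • 𝔪` is not a representative. -/
theorem smul_sub_mem_of_notMem_stab {𝔪 : MaximalSpectrum R} (h𝔪 : rep G 𝔪 = 𝔪) {y ε : R}
    (hy : ∀ 𝔫 : MaximalSpectrum R, rep G 𝔫 ≠ 𝔫 → y - ε ∈ 𝔫.asIdeal) {σ : G}
    (hσ : σ ∉ stab 𝔪) : σ • y - σ • ε ∈ 𝔪.asIdeal := by
  have hσ' : σ⁻¹ ∉ stab 𝔪 := fun h => hσ (by simpa using inv_mem h)
  have h1 := hy (smulMax σ⁻¹ 𝔪) (rep_ne_of_smulMax_ne h𝔪 hσ')
  rw [mem_smulMax, inv_inv, smul_sub] at h1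
  exact h1

omit [Fintype G] in
/-- Membership in maximal ideals is constant on orbits for semi-invariant elements. -/
theorem mem_smulMax_iff_of_semiinvariant {z : R} (hz : ∀ σ : G, ∃ v : Rˣ, σ • z = v * z)
    (g : G) (𝔪 : MaximalSpectrum R) : z ∈ (smulMax g 𝔪).asIdeal ↔ z ∈ 𝔪.asIdeal := by
  obtain ⟨v, hv⟩ := hz g⁻¹
  rw [mem_smulMax, hv]
  constructor
  · intro h
    have := Ideal.mul_mem_left _ ((v⁻¹ : Rˣ) : R) h
    rwa [← mul_assoc, Units.inv_mul, one_mul] at this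
  · exact fun h => Ideal.mul_mem_left _ _ h

omit [Fintype G] in
/-- A semi-invariant element lying in no representative maximal ideal is a unit. -/
theorem isUnit_of_semiinvariant {z : R} (hz : ∀ σ : G, ∃ v : Rˣ, σ • z = v * z)
    (h : ∀ 𝔪 : MaximalSpectrum R, rep G 𝔪 = 𝔪 → z ∉ 𝔪.asIdeal) : IsUnit z := by
  by_contra hnu
  obtain ⟨M, hM, hzM⟩ := exists_max_ideal_of_mem_nonunits (mem_nonunits_iff.mpr hnu)
  let 𝔫 : MaximalSpectrum R := ⟨M, hM⟩
  obtain ⟨g, hg⟩ := exists_smulMax_rep (G := G) 𝔫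
  have h1 : z ∈ (smulMax g (rep G 𝔫)).asIdeal := by rw [hg]; exact hzM
  rw [mem_smulMax_iff_of_semiinvariant hz] at h1
  exact h (rep G 𝔫) (rep_rep 𝔫) h1

omit [Fintype G] in
/-- A semi-invariant element lying in every representative maximal ideal lies in all of them. -/
theorem mem_of_semiinvariant {z : R} (hz : ∀ σ : G, ∃ v : Rˣ, σ • z = v * z)
    (h : ∀ 𝔪 : MaximalSpectrum R, rep G 𝔪 = 𝔪 → z ∈ 𝔪.asIdeal) (𝔫 : MaximalSpectrum R) :
    z ∈ 𝔫.asIdeal := by
  obtain ⟨g, hg⟩ := exists_smulMax_rep (G := G) 𝔫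
  rw [← hg, mem_smulMax_iff_of_semiinvariant hz]
  exact h (rep G 𝔫) (rep_rep 𝔫)

end Compute

section Hilbert90

open groupCohomology

variable {G : Type*} [Group G] [Fintype G] {R : Type*} [CommRing R] [MulSemiringAction G R]

attribute [local instance] Units.mulDistribMulActionRight

omit [Fintype G] in
theorem val_smul_units (σ : G) (u : Rˣ) : ((σ • u : Rˣ) : R) = σ • (u : R) := rfl

/-- The Poincaré series of a cocycle. -/
def poinc (f : G → Rˣ) (c : R) : R := ∑ τ : G, (f τ : R) * τ • c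

theorem poinc_sum {ι : Type*} (f : G → Rˣ) (s : Finset ι) (c : ι → R) :
    poinc f (∑ i ∈ s, c i) = ∑ i ∈ s, poinc f (c i) := by
  unfold poinc
  simp_rw [Finset.smul_sum, Finset.mul_sum]
  exact Finset.sum_comm

theorem smul_poinc {f : G → Rˣ} (hf : IsMulCocycle₁ f) (σ : G) (c : R) :
    σ • poinc f c = ((f σ)⁻¹ : Rˣ) * poinc f c := by
  unfold poinc
  rw [Finset.smul_sum, Finset.mul_sum]
  refine Fintype.sum_equiv (Equiv.mulLeft σ) _ _ (fun τ => ?_)
  have h1 : ((f (σ * τ) : Rˣ) : R) = σ • (f τ : R) * (f σ : R) := by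
    rw [hf σ τ, Units.val_mul, val_smul_units]
  rw [smul_mul', Equiv.coe_mulLeft, h1, mul_smul]
  have h2 : ((f σ)⁻¹ : Rˣ) * (σ • (f τ : R) * (f σ : R) * σ • τ • c)
      = (((f σ)⁻¹ : Rˣ) * (f σ : R)) * (σ • (f τ : R) * σ • τ • c) := by ring
  rw [h2, Units.inv_mul, one_mul]

theorem isMulCoboundary₁_of_isUnit_poinc {f : G → Rˣ} (hf : IsMulCocycle₁ f) {c : R}
    (hc : IsUnit (poinc f c)) : IsMulCoboundary₁ f := by
  obtain ⟨u, hu⟩ := hc
  refine ⟨u⁻¹, fun σ => ?_⟩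
  have h1 : σ • u = (f σ)⁻¹ * u := by
    apply Units.ext
    rw [val_smul_units, Units.val_mul, hu]
    exact smul_poinc hf σ c
  rw [smul_inv', h1, mul_inv, inv_inv, div_eq_mul_inv, inv_inv, mul_assoc, inv_mul_cancel, mul_one]

open Classical in
/-- **Semilocal Hilbert 90**: for a finite group acting on a semilocal ring with trivial inertia,
every multiplicative `1`-cocycle with values in the units is a coboundary. -/
theorem isMulCoboundary₁_units [Finite (MaximalSpectrum R)] (hin : TrivialInertia G R)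
    (f : G → Rˣ) (hf : IsMulCocycle₁ f) : IsMulCoboundary₁ f := by
  have : Fintype (MaximalSpectrum R) := Fintype.ofFinite _
  -- local choice at each maximal ideal
  have hloc : ∀ 𝔪 : MaximalSpectrum R, ∃ c' : R,
      (∑ d : stab (G := G) 𝔪, Ideal.Quotient.mk 𝔪.asIdeal ((f d : Rˣ) : R) *
        resAut 𝔪 d (Ideal.Quotient.mk 𝔪.asIdeal c')) ≠ 0 := by
    intro 𝔪
    let _ : Field (R ⧸ 𝔪.asIdeal) := Ideal.Quotient.field 𝔪.asIdeal
    obtain ⟨c, hc⟩ := exists_sum_mul_ne_zero (resAut (G := G) 𝔪) (resAut_injective hin 𝔪)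
      (fun d => Ideal.Quotient.mk 𝔪.asIdeal ((f d : Rˣ) : R)) ⟨1, by
        intro h0
        have hu : IsUnit (Ideal.Quotient.mk 𝔪.asIdeal ((f ((1 : stab (G := G) 𝔪) : G) : Rˣ) : R)) :=
          (f _).isUnit.map _
        rw [h0] at hu
        exact not_isUnit_zero hu⟩
    obtain ⟨c', rfl⟩ := Ideal.Quotient.mk_surjective c
    exact ⟨c', hc⟩
  choose c' hc' using hloc
  -- idempotent-like elements
  have he : ∀ 𝔪 : MaximalSpectrum R, ∃ e : R, e - 1 ∈ 𝔪.asIdeal ∧
      ∀ 𝔫 : MaximalSpectrum R, 𝔫 ≠ 𝔪 → e ∈ 𝔫.asIdeal := by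
    intro 𝔪
    obtain ⟨e, he⟩ := exists_crt (fun 𝔫 : MaximalSpectrum R => if 𝔫 = 𝔪 then (1 : R) else 0)
    refine ⟨e, ?_, fun 𝔫 h𝔫 => ?_⟩
    · have := he 𝔪
      rwa [if_pos rfl] at this
    · have := he 𝔫
      rwa [if_neg h𝔫, sub_zero] at this
  choose e he1 he0 using he
  -- the global element
  let reps : Finset (MaximalSpectrum R) := univ.filter (fun 𝔪 => rep G 𝔪 = 𝔪)
  let c : R := ∑ 𝔪 ∈ reps, e 𝔪 * c' 𝔪
  refine isMulCoboundary₁_of_isUnit_poinc hf (c := c) ?_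
  refine isUnit_of_semiinvariant (G := G) (fun σ => ⟨(f σ)⁻¹, smul_poinc hf σ c⟩) ?_
  intro 𝔪 h𝔪 hmem
  -- compute modulo the representative `𝔪`
  have hsplit : poinc f c = ∑ 𝔫 ∈ reps, poinc f (e 𝔫 * c' 𝔫) := poinc_sum f reps _
  have hother : ∀ 𝔫 ∈ reps, 𝔫 ≠ 𝔪 → poinc f (e 𝔫 * c' 𝔫) ∈ 𝔪.asIdeal := by
    intro 𝔫 h𝔫 hne
    have h𝔫' : rep G 𝔫 = 𝔫 := (Finset.mem_filter.1 h𝔫).2
    unfold poinc
    refine Ideal.sum_mem _ (fun τ _ => Ideal.mul_mem_left _ _ ?_)
    rw [smul_mul']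
    refine Ideal.mul_mem_right _ _ ?_
    -- `τ • e 𝔫 ∈ 𝔪` since `τ⁻¹ • 𝔪 ≠ 𝔫`
    have h2 : smulMax τ⁻¹ 𝔪 ≠ 𝔫 := by
      intro h3
      apply hne
      have h4 : rep G (smulMax τ⁻¹ 𝔪) = rep G 𝔪 := rep_smulMax _ _
      rw [h3, h𝔫', h𝔪] at h4
      exact h4
    have h5 := he0 𝔫 (smulMax τ⁻¹ 𝔪) h2
    rwa [mem_smulMax, inv_inv] at h5
  have hmain : poinc f (e 𝔪 * c' 𝔪) ∉ 𝔪.asIdeal := by
    intro h6
    apply hc' 𝔪
    have h7 := mk_sum_smul (G := G) 𝔪 (fun τ => ((f τ : Rˣ) : R)) (e 𝔪 * c' 𝔪) (c' 𝔪) (by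
        have : e 𝔪 * c' 𝔪 - c' 𝔪 = (e 𝔪 - 1) * c' 𝔪 := by ring
        rw [this]
        exact Ideal.mul_mem_right _ _ (he1 𝔪)) (by
        intro σ hσ
        rw [smul_mul']
        refine Ideal.mul_mem_right _ _ ?_
        have hσ' : σ⁻¹ ∉ stab 𝔪 := fun h => hσ (by simpa using inv_mem h)
        have h8 := he0 𝔪 (smulMax σ⁻¹ 𝔪) hσ'
        rwa [mem_smulMax, inv_inv] at h8)
    rw [← h7]
    exact Ideal.Quotient.eq_zero_iff_mem.2 h6
  apply hmain
  have h𝔪reps : 𝔪 ∈ reps := Finset.mem_filter.2 ⟨Finset.mem_univ _, h𝔪⟩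
  have h9 : poinc f (e 𝔪 * c' 𝔪) = poinc f c - ∑ 𝔫 ∈ reps.erase 𝔪, poinc f (e 𝔫 * c' 𝔫) := by
    rw [hsplit, ← Finset.add_sum_erase reps _ h𝔪reps, add_sub_cancel_right]
  rw [h9]
  refine Ideal.sub_mem _ hmem (Ideal.sum_mem _ (fun 𝔫 h𝔫 => ?_))
  exact hother 𝔫 (Finset.mem_of_mem_erase h𝔫) (Finset.ne_of_mem_erase h𝔫)

end Hilbert90

section Complete

variable {G : Type*} [Group G] [Fintype G] {R : Type*} [CommRing R] [MulSemiringAction G R]
  (I : Ideal R)

omit [Fintype G] [MulSemiringAction G R] in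
theorem exists_prod_one_add_mul {ι : Type*} (s : Finset ι) (a : ι → R) (x : R) :
    ∃ c : R, ∏ i ∈ s, (1 + a i * x) = 1 + (∑ i ∈ s, a i) * x + x ^ 2 * c := by
  classical
  induction s using Finset.induction_on with
  | empty => exact ⟨0, by simp⟩
  | insert j s hj ih =>
    obtain ⟨c, hc⟩ := ih
    refine ⟨c + a j * (∑ i ∈ s, a i) + a j * x * c, ?_⟩
    rw [Finset.prod_insert hj, Finset.sum_insert hj, hc]
    ring

omit [Fintype G] [MulSemiringAction G R] in
theorem prod_sub_prod_mem {ι : Type*} (J : Ideal R) (s : Finset ι) (a b : ι → R)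
    (h : ∀ i ∈ s, a i - b i ∈ J) : ∏ i ∈ s, a i - ∏ i ∈ s, b i ∈ J := by
  rw [← Ideal.Quotient.eq, map_prod, map_prod]
  exact Finset.prod_congr rfl (fun i hi => Ideal.Quotient.eq.2 (h i hi))

omit [Fintype G] [MulSemiringAction G R] in
theorem mem_maximal_of_mem [IsAdicComplete I R] {x : R} (hx : x ∈ I) (𝔪 : MaximalSpectrum R) :
    x ∈ 𝔪.asIdeal := by
  have h1 := IsAdicComplete.le_jacobson_bot I hx
  rw [Ideal.jacobson, Ideal.mem_sInf] at h1
  exact h1 ⟨bot_le, 𝔪.isMaximal⟩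

omit [Fintype G] [MulSemiringAction G R] in
theorem isUnit_add_of_mem [IsAdicComplete I R] {v z : R} (hv : IsUnit v) (hz : z ∈ I) :
    IsUnit (v + z) := by
  obtain ⟨v, rfl⟩ := hv
  have h1 := Ideal.mem_jacobson_bot.mp (IsAdicComplete.le_jacobson_bot I hz) ((v⁻¹ : Rˣ) : R)
  have h2 : (v : R) + z = v * (z * ((v⁻¹ : Rˣ) : R) + 1) := by
    rw [mul_add, mul_one, mul_comm z, ← mul_assoc, Units.mul_inv, one_mul, add_comm]
  rw [h2]
  exact v.isUnit.mul h1

variable {I}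

omit [Fintype G] in
theorem smul_mem_of_mem [IsAdicComplete I R]
    (hI : ∀ x : R, (∀ 𝔪 : MaximalSpectrum R, x ∈ 𝔪.asIdeal) → x ∈ I) (σ : G) {x : R}
    (hx : x ∈ I) : σ • x ∈ I := by
  apply hI
  intro 𝔪
  have h1 := mem_maximal_of_mem I hx (smulMax σ⁻¹ 𝔪)
  rwa [mem_smulMax, inv_inv] at h1

omit [Fintype G] in
theorem smul_mem_pow_of_mem [IsAdicComplete I R]
    (hI : ∀ x : R, (∀ 𝔪 : MaximalSpectrum R, x ∈ 𝔪.asIdeal) → x ∈ I) (σ : G) (n : ℕ) {x : R}
    (hx : x ∈ I ^ n) : σ • x ∈ I ^ n := by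
  have h1 : (I ^ n).map (MulSemiringAction.toRingHom G R σ) ≤ I ^ n := by
    rw [Ideal.map_pow]
    apply Ideal.pow_right_mono
    rw [Ideal.map_le_iff_le_comap]
    intro y hy
    exact smul_mem_of_mem hI σ hy
  exact h1 (Ideal.mem_map_of_mem _ hx)

theorem smul_sum_smul (σ : G) (y : R) : σ • ∑ τ : G, τ • y = ∑ τ : G, τ • y := by
  rw [Finset.smul_sum]
  exact Fintype.sum_equiv (Equiv.mulLeft σ) _ _ (fun τ => by simp [mul_smul])

theorem smul_prod_smul (σ : G) (y : R) : σ • ∏ τ : G, τ • y = ∏ τ : G, τ • y := by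
  rw [Finset.smul_prod']
  exact Fintype.prod_equiv (Equiv.mulLeft σ) _ _ (fun τ => by simp [mul_smul])

omit [Fintype G] in
/-- The inverse of an invariant unit is invariant. -/
theorem smul_inv_of_smul_eq {v w : R} (hvw : w * v = 1) (σ : G) (hv : σ • v = v) : σ • w = w := by
  have h1 : σ • w * v = 1 := by
    rw [← hv, ← smul_mul', hvw, smul_one]
  calc σ • w = σ • w * (v * w) := by rw [mul_comm v w, hvw, mul_one]
    _ = (σ • w * v) * w := by ring
    _ = w := by rw [h1, one_mul]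

open Classical in
/-- **A trace-one element** in a complete semilocal ring with trivial inertia. -/
theorem exists_trace_one [Finite (MaximalSpectrum R)] [IsAdicComplete I R]
    (hI : ∀ x : R, (∀ 𝔪 : MaximalSpectrum R, x ∈ 𝔪.asIdeal) → x ∈ I)
    (hin : TrivialInertia G R) : ∃ t : R, ∑ σ : G, σ • t = 1 := by
  have hloc : ∀ 𝔪 : MaximalSpectrum R, ∃ g' : R,
      (∑ d : stab (G := G) 𝔪, resAut 𝔪 d (Ideal.Quotient.mk 𝔪.asIdeal g')) = 1 := by
    intro 𝔪
    let _ : Field (R ⧸ 𝔪.asIdeal) := Ideal.Quotient.field 𝔪.asIdeal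
    obtain ⟨γ, hγ⟩ := exists_sum_eq_one (resAut (G := G) 𝔪) (resAut_injective hin 𝔪)
    obtain ⟨g', rfl⟩ := Ideal.Quotient.mk_surjective γ
    exact ⟨g', hγ⟩
  choose g' hg' using hloc
  obtain ⟨t₀, ht₀, ht₀'⟩ := exists_crt_rep G g' (0 : R)
  set v : R := ∑ σ : G, σ • t₀ with hv
  have hvinv : ∀ σ : G, σ • v = v := fun σ => smul_sum_smul σ t₀
  have hz : v - 1 ∈ I := by
    apply hI
    apply mem_of_semiinvariant (G := G)
    · intro σ
      refine ⟨1, ?_⟩
      rw [smul_sub, hvinv σ, smul_one, Units.val_one, one_mul]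
    · intro 𝔪 h𝔪
      rw [← Ideal.Quotient.eq, map_one]
      have h1 := mk_sum_smul (G := G) 𝔪 (fun _ => (1 : R)) t₀ (g' 𝔪) (ht₀ 𝔪 h𝔪) (by
        intro σ hσ
        have := smul_sub_mem_of_notMem_stab h𝔪 ht₀' hσ
        rwa [smul_zero, sub_zero] at this)
      simp only [one_mul, map_one] at h1
      rw [hv, h1, hg' 𝔪]
  have hvu : IsUnit v := by
    have := isUnit_add_of_mem I isUnit_one hz
    rwa [add_sub_cancel] at this
  obtain ⟨vu, hvu'⟩ := hvu
  refine ⟨t₀ * ((vu⁻¹ : Rˣ) : R), ?_⟩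
  have hw : ∀ σ : G, σ • ((vu⁻¹ : Rˣ) : R) = ((vu⁻¹ : Rˣ) : R) := fun σ =>
    smul_inv_of_smul_eq (v := v) (by rw [← hvu', Units.inv_mul]) σ (hvinv σ)
  simp_rw [smul_mul', hw, ← Finset.sum_mul]
  rw [← hv, ← hvu', Units.mul_inv]

open Classical in
/-- **Norm surjectivity** for the units of a complete semilocal ring with finite residue fields
and trivial inertia: every `G`-invariant unit is a norm. -/
theorem exists_prod_smul_eq [Finite (MaximalSpectrum R)] [IsAdicComplete I R]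
    [∀ 𝔪 : MaximalSpectrum R, Finite (R ⧸ 𝔪.asIdeal)]
    (hI : ∀ x : R, (∀ 𝔪 : MaximalSpectrum R, x ∈ 𝔪.asIdeal) → x ∈ I)
    (hin : TrivialInertia G R) (u : Rˣ) (hu : ∀ σ : G, σ • (u : R) = u) :
    ∃ b : Rˣ, ∏ σ : G, σ • (b : R) = u := by
  obtain ⟨t, ht⟩ := exists_trace_one (G := G) hI hin
  -- Step 1: the residue fields
  have hloc : ∀ 𝔪 : MaximalSpectrum R, ∃ b' : R,
      (∏ d : stab (G := G) 𝔪, resAut 𝔪 d (Ideal.Quotient.mk 𝔪.asIdeal b')) =
        Ideal.Quotient.mk 𝔪.asIdeal (u : R) := by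
    intro 𝔪
    let _ : Field (R ⧸ 𝔪.asIdeal) := Ideal.Quotient.field 𝔪.asIdeal
    obtain ⟨β, -, hβ⟩ := exists_prod_eq (resAut (G := G) 𝔪) (resAut_injective hin 𝔪)
      (Ideal.Quotient.mk 𝔪.asIdeal (u : R)) (by
        intro h0
        have hu' : IsUnit (Ideal.Quotient.mk 𝔪.asIdeal (u : R)) := u.isUnit.map _
        rw [h0] at hu'
        exact not_isUnit_zero hu') (by
        intro d
        rw [resAut_mk, hu])
    obtain ⟨b', rfl⟩ := Ideal.Quotient.mk_surjective β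
    exact ⟨b', hβ⟩
  choose b' hb' using hloc
  obtain ⟨b₀, hb₀, hb₀'⟩ := exists_crt_rep G b' (1 : R)
  have h₁ : (∏ σ : G, σ • b₀) - (u : R) ∈ I := by
    apply hI
    apply mem_of_semiinvariant (G := G)
    · intro σ
      refine ⟨1, ?_⟩
      rw [smul_sub, smul_prod_smul, hu, Units.val_one, one_mul]
    · intro 𝔪 h𝔪
      rw [← Ideal.Quotient.eq]
      have h1 := mk_prod_smul (G := G) 𝔪 b₀ (b' 𝔪) (hb₀ 𝔪 h𝔪) (by
        intro σ hσ
        have := smul_sub_mem_of_notMem_stab h𝔪 hb₀' hσ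
        rwa [smul_one] at this)
      rw [h1, hb' 𝔪]
  -- Step 2: successive approximation
  obtain ⟨B, -, hB⟩ := exists_eq_of_approx I (fun B => ∏ σ : G, σ • B)
    (by
      intro n x y hxy
      refine prod_sub_prod_mem _ _ _ _ (fun σ _ => ?_)
      rw [← smul_sub]
      exact smul_mem_pow_of_mem hI σ n hxy)
    (u : R)
    (by
      intro n hn B hBn
      -- `N := Φ B` is a unit
      have hNu : IsUnit (∏ σ : G, σ • B) := by
        have h2 : (∏ σ : G, σ • B) = (u : R) + ((∏ σ : G, σ • B) - u) := by ring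
        rw [h2]
        exact isUnit_add_of_mem I u.isUnit (Ideal.pow_le_self (Nat.one_le_iff_ne_zero.mp hn) hBn)
      obtain ⟨N, hN⟩ := hNu
      set w : R := ((N⁻¹ : Rˣ) : R) with hw
      have hNw : (N : R) * w = 1 := Units.mul_inv N
      have hwN : w * (N : R) = 1 := Units.inv_mul N
      have hwinv : ∀ σ : G, σ • w = w := fun σ =>
        smul_inv_of_smul_eq (v := (N : R)) hwN σ (by rw [hN]; exact smul_prod_smul σ B)
      set x : R := (u : R) * w - 1 with hx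
      have hxmem : x ∈ I ^ n := by
        have h3 : x = -(((∏ σ : G, σ • B) - (u : R)) * w) := by
          rw [hx, ← hN]
          have : (u : R) * w - 1 = (u : R) * w - (N : R) * w := by rw [hNw]
          rw [this]; ring
        rw [h3]
        exact (I ^ n).neg_mem (Ideal.mul_mem_right _ _ hBn)
      have hxinv : ∀ σ : G, σ • x = x := by
        intro σ
        rw [hx, smul_sub, smul_mul', hu, hwinv, smul_one]
      refine ⟨B * (1 + t * x), ?_, ?_⟩
      · have h4 : B * (1 + t * x) - B = B * t * x := by ring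
        rw [h4]
        exact Ideal.mul_mem_left _ _ hxmem
      · obtain ⟨c, hc⟩ := exists_prod_one_add_mul (Finset.univ : Finset G) (fun σ => σ • t) x
        have h5 : ∏ σ : G, σ • (B * (1 + t * x)) =
            (∏ σ : G, σ • B) * ∏ σ : G, (1 + σ • t * x) := by
          rw [← Finset.prod_mul_distrib]
          refine Finset.prod_congr rfl (fun σ _ => ?_)
          rw [smul_mul', smul_add, smul_one, smul_mul', hxinv]
        rw [h5, hc, ht, ← hN]
        have h6 : (N : R) * (1 + 1 * x + x ^ 2 * c) - (u : R) = (N : R) * c * x ^ 2 := by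
          have : (N : R) * (1 + 1 * x) = u := by
            rw [hx]
            calc (N : R) * (1 + 1 * ((u : R) * w - 1)) = ((N : R) * w) * u := by ring
              _ = u := by rw [hNw, one_mul]
          calc (N : R) * (1 + 1 * x + x ^ 2 * c) - (u : R)
              = (N : R) * (1 + 1 * x) - u + (N : R) * c * x ^ 2 := by ring
            _ = (N : R) * c * x ^ 2 := by rw [this, sub_self, zero_add]
        rw [h6]
        refine Ideal.mul_mem_left _ _ ?_
        have h7 : x ^ 2 ∈ I ^ (n * 2) := by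
          rw [pow_mul]
          exact Ideal.pow_mem_pow hxmem 2
        exact Ideal.pow_le_pow_right (by omega) h7)
    b₀ h₁
  have hBu : IsUnit B := by
    have h8 : IsUnit (∏ σ : G, σ • B) := by rw [hB]; exact u.isUnit
    have h9 : B ∣ ∏ σ : G, σ • B := by
      have := Finset.dvd_prod_of_mem (fun σ : G => σ • B) (Finset.mem_univ (1 : G))
      rwa [one_smul] at this
    exact isUnit_of_dvd_unit h9 h8
  obtain ⟨b, rfl⟩ := hBu
  exact ⟨b, hB⟩

end Complete

end Fermat.Agent.CFT.C7.SemilocalUnits
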