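import Mathlib
import Fermat.Agent.CFT.A2.TateLow
import Fermat.Agent.CFT.A2.Transport
import Fermat.Agent.CFT.A5.Twin
import Fermat.Agent.CFT.C7.SemilocalUnits

/-!
# PROJECT C, slice C7b (part 2): cohomological triviality of unit groups

* `isCohTrivial_res_of_isPGroup` : for a multiplicative `G`-module `M` and a `p`-subgroup `P`,
  if every `P`-invariant is a norm and every `1`-cocycle `P → M` is a coboundary, then the
  restriction of `M` to `P` is cohomologically trivial (twin criterion of slice A5a at `q = 0`).
* `isCohTrivial_of_forall_subgroup` : the same two statements for all subgroups give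
  `IsCohTrivial (Rep.ofMulDistribMulAction G M)` (Sylow reduction of slice A2).
* `isCohTrivial_units` : **the units of a complete semilocal ring with finite residue fields are
  cohomologically trivial for any finite group acting with trivial inertia**
  (`SemilocalUnits.isMulCoboundary₁_units`, `SemilocalUnits.exists_prod_smul_eq`).
  The action of `G` on `Rˣ` is Mathlib's `Units.mulDistribMulActionRight` (a local instance).
-/

set_option autoImplicit false

open CategoryTheory Limits groupCohomology

namespace Fermat.Agent.CFT.C7.UnitsCohTrivial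

open Fermat.Agent.CFT.A2 Fermat.Agent.CFT.A5

section Criterion

variable {G M : Type} [Group G] [CommGroup M] [MulDistribMulAction G M]

/-- The restriction to a subgroup of the representation on `Additive M`. -/
abbrev resRep (H : Subgroup G) : Rep ℤ H := Rep.res H.subtype (Rep.ofMulDistribMulAction G M)

/-- Elements of the restricted representation as elements of `M`. -/
def toM (H : Subgroup G) (m : (resRep (M := M) H).V) : M := Additive.toMul (show Additive M from m)

/-- Elements of `M` as elements of the restricted representation. -/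
def ofM (H : Subgroup G) (a : M) : (resRep (M := M) H).V := (Additive.ofMul a : Additive M)

theorem toM_ofM (H : Subgroup G) (a : M) : toM H (ofM H a) = a := rfl

theorem ofM_toM (H : Subgroup G) (m : (resRep (M := M) H).V) : ofM H (toM H m) = m := rfl

theorem toM_injective (H : Subgroup G) : Function.Injective (toM (M := M) H) := fun _ _ h => h

theorem toM_ρ (H : Subgroup G) (h : H) (m : (resRep (M := M) H).V) :
    toM H ((resRep H).ρ h m) = (h : G) • toM H m := rfl

theorem toM_zero (H : Subgroup G) : toM H (0 : (resRep (M := M) H).V) = 1 := rfl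

theorem toM_add (H : Subgroup G) (m m' : (resRep (M := M) H).V) :
    toM H (m + m') = toM H m * toM H m' := rfl

theorem toM_sub (H : Subgroup G) (m m' : (resRep (M := M) H).V) :
    toM H (m - m') = toM H m / toM H m' := rfl

theorem toM_sum (H : Subgroup G) {ι : Type*} (s : Finset ι) (f : ι → (resRep (M := M) H).V) :
    toM H (∑ i ∈ s, f i) = ∏ i ∈ s, toM H (f i) := by
  classical
  induction s using Finset.induction_on with
  | empty => simp [toM_zero]
  | insert j s hj ih => rw [Finset.sum_insert hj, Finset.prod_insert hj, toM_add, ih]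

/-- `Ĥ⁰(H, M) = 0` if every `H`-invariant is a norm. -/
theorem isZero_tate_zero_res (H : Subgroup G) [Fintype H]
    (h0 : ∀ a : M, (∀ h : H, (h : G) • a = a) → ∃ b : M, ∏ h : H, (h : G) • b = a) :
    IsZero (tateCohomology (resRep (M := M) H) 0) := by
  rw [isZero_tateCohomology_zero_iff]
  intro m hm
  obtain ⟨b, hb⟩ := h0 (toM H m) (fun h => by
    rw [← toM_ρ, hm h])
  refine ⟨ofM H b, ?_⟩
  apply toM_injective
  rw [Representation.norm, LinearMap.sum_apply, toM_sum]
  refine (Finset.prod_congr rfl (fun h _ => ?_)).trans hb
  rw [toM_ρ, toM_ofM]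

/-- `H¹(H, M) = 0` if every `1`-cocycle is a coboundary. -/
theorem isZero_H1_res (H : Subgroup G)
    (h1 : ∀ f : H → M, (∀ g h : H, f (g * h) = (g : G) • f h * f g) →
      ∃ x : M, ∀ g : H, (g : G) • x / x = f g) :
    IsZero (groupCohomology (resRep (M := M) H) 1) := by
  have hsub : Subsingleton (H1 (resRep (M := M) H)) := by
    refine ⟨fun a b => ?_⟩
    have hz : ∀ a : H1 (resRep (M := M) H), a = 0 := by
      intro a
      refine H1_induction_on a (fun x => ?_)
      rw [H1π_eq_zero_iff]
      have hx := (mem_cocycles₁_iff (A := resRep (M := M) H) x).1 x.2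
      obtain ⟨y, hy⟩ := h1 (fun g => toM (M := M) H (x g)) (fun g h => by
        show toM (M := M) H (x (g * h)) = _
        rw [hx g h, toM_add, toM_ρ, mul_comm])
      refine ⟨ofM (M := M) H y, ?_⟩
      funext g
      apply toM_injective (M := M) H
      rw [d₀₁_hom_apply, toM_sub, toM_ρ, toM_ofM]
      exact hy g
    rw [hz a, hz b]
  exact ModuleCat.isZero_of_subsingleton _

/-- `Ĥ¹(H, M) = 0` if every `1`-cocycle is a coboundary. -/
theorem isZero_tate_one_res (H : Subgroup G) [Fintype H]
    (h1 : ∀ f : H → M, (∀ g h : H, f (g * h) = (g : G) • f h * f g) →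
      ∃ x : M, ∀ g : H, (g : G) • x / x = f g) :
    IsZero (tateCohomology (resRep (M := M) H) 1) := by
  have h2 := IsZero.of_iso (isZero_H1_res H h1)
    ((TateCohomology.isoGroupCohomology 1).app (resRep (M := M) H))
  exact h2

end Criterion

section Main

variable {G M : Type} [Group G] [CommGroup M] [MulDistribMulAction G M]

/-- Cohomological triviality over a `p`-subgroup from the two elementwise vanishing statements
(twin criterion at `q = 0`). -/
theorem isCohTrivial_res_of_isPGroup {p : ℕ} [Fact p.Prime] (P : Subgroup G) [Fintype P]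
    (hP : IsPGroup p P)
    (h0 : ∀ a : M, (∀ h : P, (h : G) • a = a) → ∃ b : M, ∏ h : P, (h : G) • b = a)
    (h1 : ∀ f : P → M, (∀ g h : P, f (g * h) = (g : G) • f h * f g) →
      ∃ x : M, ∀ g : P, (g : G) • x / x = f g) :
    IsCohTrivial (resRep (M := M) P) := by
  have hp : (p : ℤ) ≠ 0 := by exact_mod_cast (Fact.out : p.Prime).ne_zero
  refine (isCohTrivial_of_twin_pGroup addHomsLinear_int
    (fun r hr => (mul_eq_zero.1 hr).resolve_left hp) hP (resRep (M := M) P) 0
    (isZero_tate_zero_res P h0) ?_).1
  rw [zero_add]
  exact isZero_tate_one_res P h1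

/-- **Elementwise criterion for cohomological triviality** of a multiplicative `G`-module:
for every subgroup `H`, every `H`-invariant is a norm and every `1`-cocycle is a coboundary. -/
theorem isCohTrivial_of_forall_subgroup [Finite G]
    (h0 : ∀ (H : Subgroup G) [Fintype H] (a : M), (∀ h : H, (h : G) • a = a) →
      ∃ b : M, ∏ h : H, (h : G) • b = a)
    (h1 : ∀ (H : Subgroup G) (f : H → M), (∀ g h : H, f (g * h) = (g : G) • f h * f g) →
      ∃ x : M, ∀ g : H, (g : G) • x / x = f g) :
    IsCohTrivial (Rep.ofMulDistribMulAction G M) := by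
  apply isCohTrivial_of_sylow
  intro p _
  obtain ⟨P⟩ : Nonempty (Sylow p G) := inferInstance
  refine ⟨P, ?_⟩
  classical
  let _ : Fintype (P : Subgroup G) := Fintype.ofFinite _
  exact isCohTrivial_res_of_isPGroup (P : Subgroup G) P.isPGroup' (h0 _) (h1 _)

end Main

section Units

open Fermat.Agent.CFT.C7.SemilocalUnits

attribute [local instance] Units.mulDistribMulActionRight

variable {G R : Type} [Group G] [CommRing R] [MulSemiringAction G R]

theorem trivialInertia_subgroup (hin : TrivialInertia G R) (H : Subgroup G) :
    TrivialInertia H R := by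
  intro 𝔪 g hg
  apply Subtype.ext
  exact hin 𝔪 (g : G) hg

/-- **Units of a complete semilocal ring with finite residue fields and trivial inertia are
cohomologically trivial** (for an arbitrary finite group). -/
theorem isCohTrivial_units [Finite G] (I : Ideal R) [Finite (MaximalSpectrum R)]
    [IsAdicComplete I R] [∀ 𝔪 : MaximalSpectrum R, Finite (R ⧸ 𝔪.asIdeal)]
    (hI : ∀ x : R, (∀ 𝔪 : MaximalSpectrum R, x ∈ 𝔪.asIdeal) → x ∈ I)
    (hin : TrivialInertia G R) : IsCohTrivial (Rep.ofMulDistribMulAction G Rˣ) := by
  apply isCohTrivial_of_forall_subgroup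
  · intro H _ a ha
    obtain ⟨b, hb⟩ := exists_prod_smul_eq (G := H) hI (trivialInertia_subgroup hin H) a
      (fun σ => congrArg Units.val (ha σ))
    refine ⟨b, ?_⟩
    apply Units.ext
    rw [← hb, Units.coe_prod]
    rfl
  · intro H f hf
    classical
    let _ : Fintype H := Fintype.ofFinite _
    exact isMulCoboundary₁_units (G := H) (trivialInertia_subgroup hin H) f
      (fun g h => hf g h)

end Units

end Fermat.Agent.CFT.C7.UnitsCohTrivial
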