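import Mathlib
import Fermat.Agent.CFT.C7.UnitsCohTrivial

/-!
# PROJECT C, slice C7b (part 3a): complete rings with a finite quotient

* `isAdicComplete_of_le_of_pow_le` : adic completeness only depends on the topology
  (`I ≤ J`, `J ^ N ≤ I`).
* `finite_maximalSpectrum`, `finite_quotient_asIdeal`, `isAdicComplete_jacobson` : a ring which is
  `I`-adically complete with `R ⧸ I` finite is semilocal with finite residue fields and complete for
  its Jacobson radical.
* `exists_prod_smul_eq_of_finite_quotient`, `isMulCoboundary₁_units_of_finite_quotient`,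
  `isCohTrivial_units_of_finite_quotient` : for such a ring and ANY finite group acting with trivial
  inertia, invariant units are norms, `1`-cocycles of units are coboundaries and the unit group is
  cohomologically trivial (no reducedness of `R ⧸ I` is needed).
-/

set_option autoImplicit false

namespace Fermat.Agent.CFT.C7.CompleteSemilocal

open Fermat.Agent.CFT.A2 Fermat.Agent.CFT.A5
open Fermat.Agent.CFT.C7.SemilocalUnits Fermat.Agent.CFT.C7.UnitsCohTrivial

/-! ### Change of the ideal of definition -/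

section Adic

variable {R : Type*} [CommRing R]

theorem mem_pow_smul_top_iff (I : Ideal R) (n : ℕ) (x : R) :
    x ∈ (I ^ n • ⊤ : Submodule R R) ↔ x ∈ I ^ n := by
  rw [smul_eq_mul, Ideal.mul_top]

/-- Adic completeness only depends on the adic topology. -/
theorem isAdicComplete_of_le_of_pow_le (I J : Ideal R) [IsAdicComplete I R] (hIJ : I ≤ J) (N : ℕ)
    (hN : J ^ N ≤ I) : IsAdicComplete J R := by
  have hN' : J ^ (N + 1) ≤ I := le_trans (Ideal.pow_le_pow_right (Nat.le_succ N)) hN
  have hpow : ∀ k : ℕ, J ^ ((N + 1) * k) ≤ I ^ k := fun k => by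
    rw [pow_mul]; exact Ideal.pow_right_mono hN' k
  have hIJk : ∀ k : ℕ, I ^ k ≤ J ^ k := fun k => Ideal.pow_right_mono hIJ k
  have hle : ∀ k : ℕ, k ≤ (N + 1) * k := fun k => Nat.le_mul_of_pos_left k (Nat.succ_pos N)
  refine { toIsHausdorff := ⟨fun x hx => ?_⟩, toIsPrecomplete := ⟨fun f hf => ?_⟩ }
  · apply IsHausdorff.haus (I := I) inferInstance
    intro n
    have := hx ((N + 1) * n)
    rw [SModEq.sub_mem, sub_zero, mem_pow_smul_top_iff] at this ⊢
    exact hpow n this
  · have hpre : IsPrecomplete I R := inferInstance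
    obtain ⟨y, hy⟩ := hpre.prec (f := fun k => f ((N + 1) * k)) (by
      intro m n hmn
      have := hf (Nat.mul_le_mul_left (N + 1) hmn)
      rw [SModEq.sub_mem, mem_pow_smul_top_iff] at this ⊢
      exact hpow m this)
    refine ⟨y, fun n => ?_⟩
    have h1 := hf (hle n)
    have h2 := hy n
    rw [SModEq.sub_mem, mem_pow_smul_top_iff] at h1 h2 ⊢
    have h3 : f n - y = (f n - f ((N + 1) * n)) + (f ((N + 1) * n) - y) := by ring
    rw [h3]
    exact (J ^ n).add_mem h1 (hIJk n h2)

end Adic

/-! ### Complete rings with a finite quotient are semilocal -/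

section Semilocal

variable {R : Type*} [CommRing R] (I : Ideal R)

theorem le_asIdeal_of_isAdicComplete [IsAdicComplete I R] (𝔪 : MaximalSpectrum R) :
    I ≤ 𝔪.asIdeal :=
  le_trans (IsAdicComplete.le_jacobson_bot I) (sInf_le ⟨bot_le, 𝔪.isMaximal⟩)

theorem finite_maximalSpectrum [IsAdicComplete I R] [Finite (R ⧸ I)] :
    Finite (MaximalSpectrum R) := by
  have hfin : Finite (Ideal (R ⧸ I)) :=
    Finite.of_injective (fun J : Ideal (R ⧸ I) => (J : Set (R ⧸ I))) SetLike.coe_injective
  refine Finite.of_injective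
    (fun 𝔪 : MaximalSpectrum R => 𝔪.asIdeal.map (Ideal.Quotient.mk I)) ?_
  have key : ∀ 𝔪 𝔪' : MaximalSpectrum R,
      𝔪.asIdeal.map (Ideal.Quotient.mk I) = 𝔪'.asIdeal.map (Ideal.Quotient.mk I) →
      𝔪.asIdeal ≤ 𝔪'.asIdeal := by
    intro 𝔪 𝔪' h x hx
    have h1 : Ideal.Quotient.mk I x ∈ 𝔪'.asIdeal.map (Ideal.Quotient.mk I) := by
      rw [← h]; exact Ideal.mem_map_of_mem _ hx
    obtain ⟨y, hy, hyx⟩ :=
      (Ideal.mem_map_iff_of_surjective _ Ideal.Quotient.mk_surjective).1 h1
    have h2 : x - y ∈ I := by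
      rw [← Ideal.Quotient.eq]; exact hyx.symm
    have h3 : x = (x - y) + y := by ring
    rw [h3]
    exact 𝔪'.asIdeal.add_mem (le_asIdeal_of_isAdicComplete I 𝔪' h2) hy
  intro 𝔪 𝔪' h
  exact MaximalSpectrum.ext (le_antisymm (key 𝔪 𝔪' h) (key 𝔪' 𝔪 h.symm))

theorem finite_quotient_asIdeal [IsAdicComplete I R] [Finite (R ⧸ I)] (𝔪 : MaximalSpectrum R) :
    Finite (R ⧸ 𝔪.asIdeal) :=
  Finite.of_surjective (Ideal.Quotient.factor (le_asIdeal_of_isAdicComplete I 𝔪))
    (Ideal.Quotient.factor_surjective _)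

theorem exists_jacobson_pow_le [Finite (R ⧸ I)] :
    ∃ N : ℕ, (Ideal.jacobson (⊥ : Ideal R)) ^ N ≤ I := by
  obtain ⟨N, hN⟩ := IsArtinianRing.isNilpotent_jacobson_bot (R := R ⧸ I)
  refine ⟨N, ?_⟩
  have h1 : (I.jacobson).map (Ideal.Quotient.mk I) = Ideal.jacobson (⊥ : Ideal (R ⧸ I)) := by
    rw [Ideal.map_jacobson_of_surjective Ideal.Quotient.mk_surjective
      (by rw [Ideal.mk_ker]), Ideal.map_quotient_self]
  have h2 : (I.jacobson ^ N).map (Ideal.Quotient.mk I) = ⊥ := by
    rw [Ideal.map_pow, h1]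
    exact hN
  have h3 : I.jacobson ^ N ≤ I := by
    have := (Ideal.map_eq_bot_iff_le_ker (Ideal.Quotient.mk I)).1 h2
    rwa [Ideal.mk_ker] at this
  exact le_trans (Ideal.pow_right_mono (Ideal.jacobson_mono bot_le) N) h3

/-- A ring which is `I`-adically complete with `R ⧸ I` finite is complete for its Jacobson
radical. -/
theorem isAdicComplete_jacobson [IsAdicComplete I R] [Finite (R ⧸ I)] :
    IsAdicComplete (Ideal.jacobson (⊥ : Ideal R)) R := by
  obtain ⟨N, hN⟩ := exists_jacobson_pow_le I
  exact isAdicComplete_of_le_of_pow_le I _ (IsAdicComplete.le_jacobson_bot I) N hN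

theorem mem_jacobson_bot_of_forall_mem (x : R) (hx : ∀ 𝔪 : MaximalSpectrum R, x ∈ 𝔪.asIdeal) :
    x ∈ Ideal.jacobson (⊥ : Ideal R) := by
  rw [Ideal.jacobson, Ideal.mem_sInf]
  rintro J ⟨-, hJ⟩
  exact hx ⟨J, hJ⟩

end Semilocal

/-! ### Units of complete rings with finite quotient -/

section UnitsFinite

attribute [local instance] Units.mulDistribMulActionRight

open groupCohomology

variable {G : Type*} [Group G] {R : Type*} [CommRing R] [MulSemiringAction G R] (I : Ideal R)

/-- Invariant units are norms (any finite group, trivial inertia). -/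
theorem exists_prod_smul_eq_of_finite_quotient [Fintype G] [IsAdicComplete I R] [Finite (R ⧸ I)]
    (hin : TrivialInertia G R) (u : Rˣ) (hu : ∀ σ : G, σ • (u : R) = u) :
    ∃ b : Rˣ, ∏ σ : G, σ • (b : R) = u := by
  have h1 := finite_maximalSpectrum I
  have h2 := isAdicComplete_jacobson I
  have h3 : ∀ 𝔪 : MaximalSpectrum R, Finite (R ⧸ 𝔪.asIdeal) := finite_quotient_asIdeal I
  exact exists_prod_smul_eq (I := Ideal.jacobson (⊥ : Ideal R)) mem_jacobson_bot_of_forall_mem
    hin u hu

/-- `1`-cocycles with values in the units are coboundaries. -/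
theorem isMulCoboundary₁_units_of_finite_quotient [Fintype G] [IsAdicComplete I R]
    [Finite (R ⧸ I)] (hin : TrivialInertia G R) (f : G → Rˣ) (hf : IsMulCocycle₁ f) :
    IsMulCoboundary₁ f := by
  have h1 := finite_maximalSpectrum I
  exact isMulCoboundary₁_units hin f hf

end UnitsFinite

section UnitsFinite'

attribute [local instance] Units.mulDistribMulActionRight

variable {G R : Type} [Group G] [CommRing R] [MulSemiringAction G R] (I : Ideal R)

/-- **Units of a ring which is `I`-adically complete with `R ⧸ I` finite are cohomologically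
trivial for any finite group acting with trivial inertia.** -/
theorem isCohTrivial_units_of_finite_quotient [Finite G] [IsAdicComplete I R] [Finite (R ⧸ I)]
    (hin : TrivialInertia G R) : IsCohTrivial (Rep.ofMulDistribMulAction G Rˣ) := by
  have h1 := finite_maximalSpectrum I
  have h2 := isAdicComplete_jacobson I
  have h3 : ∀ 𝔪 : MaximalSpectrum R, Finite (R ⧸ 𝔪.asIdeal) := finite_quotient_asIdeal I
  exact isCohTrivial_units (Ideal.jacobson (⊥ : Ideal R)) mem_jacobson_bot_of_forall_mem hin

end UnitsFinite'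

end Fermat.Agent.CFT.C7.CompleteSemilocal
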