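import Mathlib
import Fermat.Agent.CFT.C7.CompleteSemilocal
import Fermat.Agent.CFT.Semilocal.UnitsHerbrand
import Fermat.Agent.CFT.Idele.SRep

/-!
# PROJECT C, slice C7b (part 3b): `U^S(L)` is cohomologically trivial

`L` a number field, `q` a rational prime, `R = intRing L q` (helper11's `Idele/Local`, helper25's
`Semilocal/Finite`): `R` is `q`-adically complete with `R ⧸ qR` finite, so `C7/CompleteSemilocal`
applies as soon as the inertia groups above `q` are trivial.

* `isAdicComplete_span_qInt`, `finite_quotient_span_qInt`, `ofInt : 𝓞 L →+* intRing L q`.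
* `actInt ψ q` : the action of a group `H` on `intRing L q` through `ψ : H →* (L ≃ₐ[ℚ] L)`.
* `TrivialInertiaAt ψ q` : **the arithmetic hypothesis**, stated on `𝓞 L`: no `g ≠ 1` acts trivially
  on `𝓞 L ⧸ w` for a prime `w` of `𝓞 L` containing `q`.  `trivialInertiaAt_of_injective`,
  `TrivialInertiaAt.comp`, `.subgroup`; `trivialInertia_intRing` : the bridge to
  `SemilocalUnits.TrivialInertia H (intRing L q)`.
* `exists_prod_autUnits_eq`, `exists_autUnits_div_eq` : invariants are norms, `1`-cocycles are
  coboundaries for `intUnits L q` (any finite group).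
* `usComp`, `usOfComp`, `us_ext` : components of `US L S`;
  `exists_prod_smul_eq_US`, `exists_smul_div_eq_US` : the same two statements for `US L S`.
* `isCohTrivial_res_repUS` : **`Rep.res φ (repUS L S)` is cohomologically trivial** for a finite group
  `G` acting through `φ : G →* (L ≃ₐ[ℚ] L)` with trivial inertia above every `q ∉ S`.
* `hU_of_trivialInertiaAt` : the hypothesis `hU` of `Idele.CS.mem_range_map_inclHom`.
-/

set_option autoImplicit false

open scoped NumberField
open NumberField

noncomputable section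

namespace Fermat.Agent.CFT.C7.USCohTrivial

open Fermat.Agent.CFT.A2 Fermat.Agent.CFT.Idele Fermat.Agent.CFT.Semilocal
open Fermat.Agent.CFT.C7.SemilocalUnits Fermat.Agent.CFT.C7.UnitsCohTrivial
open Fermat.Agent.CFT.C7.CompleteSemilocal

/-! ### The ring `intRing L q` -/

section IntRing

variable {L : Type*} [Field L] [NumberField L] (q : Nat.Primes)

/-- `q`-adic completeness of `intRing L q`, ring form. -/
theorem isAdicComplete_span_qInt :
    IsAdicComplete (Ideal.span {qInt L q}) (intRing L q) := by
  have := isAdicComplete_intRing L q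
  have h1 : IsAdicComplete ((Ideal.span {((q : ℕ) : ℤ_[(q : ℕ)])}).map
      (algebraMap ℤ_[(q : ℕ)] (intRing L q))) (intRing L q) :=
    { toIsHausdorff := IsHausdorff.map_algebraMap_iff.mpr inferInstance
      toIsPrecomplete := IsPrecomplete.map_algebraMap_iff.mpr inferInstance }
  have h2 : (Ideal.span {((q : ℕ) : ℤ_[(q : ℕ)])}).map (algebraMap ℤ_[(q : ℕ)] (intRing L q))
      = Ideal.span {qInt L q} := by
    rw [Ideal.map_span, Set.image_singleton]
    rfl
  rwa [h2] at h1

theorem finite_quotient_span_qInt : Finite (intRing L q ⧸ Ideal.span {qInt L q}) := by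
  have := finite_quotient_qInt_pow L q 1
  rwa [pow_one] at this

/-- `𝓞 L → intRing L q`. -/
def ofInt : 𝓞 L →+* intRing L q :=
  ((inclL L q).comp (algebraMap (𝓞 L) L)).codRestrict (intRing L q)
    (fun x => inclL_mem_intRing_of_isIntegral L q (RingOfIntegers.isIntegral_coe x))

theorem coe_ofInt (x : 𝓞 L) : ((ofInt q x : intRing L q) : Loc L q) = inclL L q (x : L) := rfl

theorem autInt_ofInt (σ : L ≃ₐ[ℚ] L) (x y : 𝓞 L) (h : σ (x : L) = (y : L)) :
    autInt q σ (ofInt q x) = ofInt q y :=
  Subtype.ext (by rw [coe_autInt, coe_ofInt, coe_ofInt, Loc.aut_inclL, h])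

theorem ofInt_natCast_q : ofInt q ((q : ℕ) : 𝓞 L) = qInt L q := by
  rw [map_natCast]
  exact Subtype.ext (by rw [coe_qInt]; simp)

end IntRing

/-! ### The action of a group on `intRing L q` and the inertia hypothesis -/

section Action

variable {L : Type*} [Field L] [NumberField L] {H : Type*} [Group H]
  (ψ : H →* (L ≃ₐ[ℚ] L)) (q : Nat.Primes)

/-- The action of `H` on `intRing L q` through `ψ : H →* (L ≃ₐ[ℚ] L)`. -/
@[reducible] def actInt : MulSemiringAction H (intRing L q) where
  smul g x := autInt q (ψ g) x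
  one_smul x := by
    show autInt q (ψ 1) x = x
    rw [map_one, autInt_one]
  mul_smul g h x := by
    show autInt q (ψ (g * h)) x = autInt q (ψ g) (autInt q (ψ h) x)
    rw [map_mul, autInt_mul]
  smul_zero g := map_zero (autInt q (ψ g))
  smul_add g x y := map_add (autInt q (ψ g)) x y
  smul_one g := map_one (autInt q (ψ g))
  smul_mul g x y := map_mul (autInt q (ψ g)) x y

/-- **Trivial inertia above `q`** for the group `H` acting on `L` through `ψ`: an element acting
trivially on `𝓞 L ⧸ w` for some prime `w` of `𝓞 L` containing `q` is trivial. -/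
def TrivialInertiaAt : Prop :=
  ∀ w : Ideal (𝓞 L), w.IsPrime → ((q : ℕ) : 𝓞 L) ∈ w → ∀ g : H,
    (∀ x : 𝓞 L, ∃ y ∈ w, ψ g (x : L) - (x : L) = (y : L)) → g = 1

variable {ψ q}

/-- For an injective `ψ` it suffices to know that no nontrivial automorphism of `L` acts trivially
on `𝓞 L ⧸ w`. -/
theorem trivialInertiaAt_of_injective (hψ : Function.Injective ψ)
    (h : ∀ w : Ideal (𝓞 L), w.IsPrime → ((q : ℕ) : 𝓞 L) ∈ w → ∀ σ : L ≃ₐ[ℚ] L,
      (∀ x : 𝓞 L, ∃ y ∈ w, σ (x : L) - (x : L) = (y : L)) → σ = 1) :
    TrivialInertiaAt ψ q := by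
  intro w hw hq g hg
  apply hψ
  rw [map_one]
  exact h w hw hq (ψ g) hg

theorem TrivialInertiaAt.comp {H' : Type*} [Group H'] (h : TrivialInertiaAt ψ q) (θ : H' →* H)
    (hθ : Function.Injective θ) : TrivialInertiaAt (ψ.comp θ) q := by
  intro w hw hq g hg
  apply hθ
  rw [map_one]
  exact h w hw hq (θ g) hg

theorem TrivialInertiaAt.subgroup {G : Type*} [Group G] {φ : G →* (L ≃ₐ[ℚ] L)}
    (h : TrivialInertiaAt φ q) (S : Subgroup G) : TrivialInertiaAt (φ.comp S.subtype) q :=
  h.comp S.subtype S.subtype_injective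

/-- The bridge from `𝓞 L` to `intRing L q`. -/
theorem trivialInertia_intRing (h : TrivialInertiaAt ψ q) :
    @TrivialInertia H _ (intRing L q) _ (actInt ψ q) := by
  let _ : MulSemiringAction H (intRing L q) := actInt ψ q
  intro 𝔪 g hg
  have hcomp := isAdicComplete_span_qInt (L := L) q
  have hq𝔪 : qInt L q ∈ 𝔪.asIdeal :=
    le_asIdeal_of_isAdicComplete (Ideal.span {qInt L q}) 𝔪
      (Ideal.subset_span (Set.mem_singleton _))
  refine h (𝔪.asIdeal.comap (ofInt q)) (Ideal.comap_isPrime _ _) ?_ g ?_
  · rw [Ideal.mem_comap, ofInt_natCast_q]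
    exact hq𝔪
  · intro x
    refine ⟨RingOfIntegers.mapRingHom (ψ g : L →+* L) x - x, ?_, ?_⟩
    · rw [Ideal.mem_comap, map_sub,
        ← autInt_ofInt q (ψ g) x (RingOfIntegers.mapRingHom (ψ g : L →+* L) x) rfl]
      exact hg (ofInt q x)
    · exact (map_sub (algebraMap (𝓞 L) L) (RingOfIntegers.mapRingHom (ψ g : L →+* L) x) x).symm

end Action

/-! ### Norms and `H¹` for `intUnits L q` -/

section LocalUnits

attribute [local instance] Units.mulDistribMulActionRight

open groupCohomology

variable {L : Type*} [Field L] [NumberField L] {H : Type*} [Group H]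
  (ψ : H →* (L ≃ₐ[ℚ] L)) (q : Nat.Primes)

theorem coe_prod_autUnits [Fintype H] (b : intUnits L q) :
    (((∏ g : H, autUnits q (ψ g) b : intUnits L q) : (Loc L q)ˣ) : Loc L q)
      = ∏ g : H, Loc.aut L q (ψ g) ((b : (Loc L q)ˣ) : Loc L q) := by
  have h1 : (((∏ g : H, autUnits q (ψ g) b : intUnits L q) : (Loc L q)ˣ) : Loc L q)
      = ((Units.coeHom (Loc L q)).comp (intUnits L q).subtype) (∏ g : H, autUnits q (ψ g) b) := rfl
  rw [h1, map_prod]
  rfl

theorem coe_prod_smul_intRing [Fintype H] (b : intRing L q) :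
    ((@Finset.prod H (intRing L q) _ Finset.univ
        (fun g => @HSMul.hSMul H (intRing L q) (intRing L q)
          (@instHSMul H (intRing L q) (actInt ψ q).toMulAction.toSMul) g b) : intRing L q) : Loc L q)
      = ∏ g : H, Loc.aut L q (ψ g) (b : Loc L q) := by
  exact map_prod (intRing L q).subtype _ _

variable {ψ q}

/-- Invariant elements of `intUnits L q` are norms (trivial inertia above `q`). -/
theorem exists_prod_autUnits_eq [Fintype H] (h : TrivialInertiaAt ψ q) (a : intUnits L q)
    (ha : ∀ g : H, autUnits q (ψ g) a = a) :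
    ∃ b : intUnits L q, ∏ g : H, autUnits q (ψ g) b = a := by
  let _ : MulSemiringAction H (intRing L q) := actInt ψ q
  have hcomp := isAdicComplete_span_qInt (L := L) q
  have hfin := finite_quotient_span_qInt (L := L) q
  obtain ⟨b, hb⟩ := exists_prod_smul_eq_of_finite_quotient (G := H) (Ideal.span {qInt L q})
    (trivialInertia_intRing h) ((unitsEquiv q).symm a) (fun σ => by
      apply Subtype.ext
      have := congrArg (fun v : intUnits L q => ((v : (Loc L q)ˣ) : Loc L q)) (ha σ)
      exact this)
  refine ⟨unitsEquiv q b, ?_⟩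
  apply Subtype.ext
  apply Units.ext
  rw [coe_prod_autUnits]
  have := congrArg (fun r : intRing L q => (r : Loc L q)) hb
  rw [coe_prod_smul_intRing] at this
  exact this

/-- `1`-cocycles with values in `intUnits L q` are coboundaries (trivial inertia above `q`). -/
theorem exists_autUnits_div_eq [Finite H] (h : TrivialInertiaAt ψ q) (f : H → intUnits L q)
    (hf : ∀ g k : H, f (g * k) = autUnits q (ψ g) (f k) * f g) :
    ∃ x : intUnits L q, ∀ g : H, autUnits q (ψ g) x / x = f g := by
  classical
  let _ : Fintype H := Fintype.ofFinite H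
  let _ : MulSemiringAction H (intRing L q) := actInt ψ q
  have hcomp := isAdicComplete_span_qInt (L := L) q
  have hfin := finite_quotient_span_qInt (L := L) q
  obtain ⟨x, hx⟩ := isMulCoboundary₁_units_of_finite_quotient (G := H) (Ideal.span {qInt L q})
    (trivialInertia_intRing h) (fun g => (unitsEquiv q).symm (f g)) (fun g k => by
      show (unitsEquiv q).symm (f (g * k))
        = g • (unitsEquiv q).symm (f k) * (unitsEquiv q).symm (f g)
      rw [hf g k, map_mul]
      congr 1)
  refine ⟨unitsEquiv q x, fun g => ?_⟩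
  have h1 := congrArg (unitsEquiv q) (hx g)
  rw [MulEquiv.apply_symm_apply, map_div] at h1
  rw [← h1]
  congr 1

end LocalUnits

/-! ### The unit ideles outside `S`, componentwise -/

section Components

variable {L : Type*} [Field L] [Algebra ℚ L] {S : Set Nat.Primes}

/-- The `q`-component of a unit idele outside `S`, for `q ∉ S`. -/
def usComp (q : Nat.Primes) (hq : q ∉ S) : US L S →* intUnits L q where
  toFun u := ⟨((u : J L) : ∀ q : Nat.Primes, (Loc L q)ˣ) q, u.2.2 q hq⟩
  map_one' := rfl
  map_mul' _ _ := rfl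

theorem coe_usComp (q : Nat.Primes) (hq : q ∉ S) (u : US L S) :
    ((usComp q hq u : intUnits L q) : (Loc L q)ˣ)
      = ((u : J L) : ∀ q : Nat.Primes, (Loc L q)ˣ) q := rfl

theorem usComp_smul (q : Nat.Primes) (hq : q ∉ S) (σ : L ≃ₐ[ℚ] L) (u : US L S) :
    usComp q hq (σ • u) = autUnits q σ (usComp q hq u) :=
  Subtype.ext (Units.ext (smul_apply σ (u : J L) q))

theorem us_ext {u v : US L S} (h : ∀ (q : Nat.Primes) (hq : q ∉ S), usComp q hq u = usComp q hq v) :
    u = v := by
  apply Subtype.ext
  apply Subtype.ext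
  funext q
  by_cases hq : q ∈ S
  · rw [u.2.1 q hq, v.2.1 q hq]
  · exact congrArg (fun w : intUnits L q => (w : (Loc L q)ˣ)) (h q hq)

open Classical in
/-- The unit idele outside `S` with prescribed components. -/
def usOfComp (v : ∀ q : Nat.Primes, q ∉ S → intUnits L q) : US L S :=
  ⟨⟨fun q => if hq : q ∈ S then 1 else ((v q hq : intUnits L q) : (Loc L q)ˣ), by
      rw [mem_J]
      convert Set.finite_empty
      ext q
      simp only [Set.mem_ofPred_eq, Set.mem_empty_iff_false, iff_false, not_not]
      split_ifs with hq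
      · exact (intUnits L q).one_mem
      · exact (v q hq).2⟩,
    ⟨fun q hq => dif_pos hq, fun q hq => by
      show (if hq : q ∈ S then 1 else ((v q hq : intUnits L q) : (Loc L q)ˣ)) ∈ intUnits L q
      rw [dif_neg hq]
      exact (v q hq).2⟩⟩

theorem usComp_usOfComp (v : ∀ q : Nat.Primes, q ∉ S → intUnits L q) (q : Nat.Primes)
    (hq : q ∉ S) : usComp q hq (usOfComp v) = v q hq :=
  Subtype.ext (dif_neg hq)

end Components

/-! ### Norms and `H¹` for `US L S` -/

section Global

variable {L : Type*} [Field L] [NumberField L] {S : Set Nat.Primes}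
  {G : Type*} [Group G] (φ : G →* (L ≃ₐ[ℚ] L))

/-- **Invariant unit ideles outside `S` are norms**, if the inertia groups above all `q ∉ S` are
trivial. -/
theorem exists_prod_smul_eq_US [Fintype G] (h : ∀ q ∉ S, TrivialInertiaAt φ q) (a : US L S)
    (ha : ∀ g : G, φ g • a = a) : ∃ b : US L S, ∏ g : G, φ g • b = a := by
  have hq : ∀ (q : Nat.Primes) (hq : q ∉ S), ∃ b : intUnits L q,
      ∏ g : G, autUnits q (φ g) b = usComp q hq a := fun q hq =>
    exists_prod_autUnits_eq (h q hq) (usComp q hq a) (fun g => by rw [← usComp_smul, ha g])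
  choose b hb using hq
  refine ⟨usOfComp b, us_ext fun q hq => ?_⟩
  rw [map_prod, ← hb q hq]
  refine Finset.prod_congr rfl fun g _ => ?_
  rw [usComp_smul, usComp_usOfComp]

/-- **`H¹(G, U^S(L)) = 1`**, if the inertia groups above all `q ∉ S` are trivial. -/
theorem exists_smul_div_eq_US [Finite G] (h : ∀ q ∉ S, TrivialInertiaAt φ q) (f : G → US L S)
    (hf : ∀ g k : G, f (g * k) = φ g • f k * f g) :
    ∃ x : US L S, ∀ g : G, φ g • x / x = f g := by
  have hq : ∀ (q : Nat.Primes) (hq : q ∉ S), ∃ x : intUnits L q,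
      ∀ g : G, autUnits q (φ g) x / x = usComp q hq (f g) := fun q hq =>
    exists_autUnits_div_eq (h q hq) (fun g => usComp q hq (f g)) (fun g k => by
      rw [hf g k, map_mul, usComp_smul])
  choose x hx using hq
  refine ⟨usOfComp x, fun g => us_ext fun q hq => ?_⟩
  rw [map_div, usComp_smul, usComp_usOfComp, hx q hq g]

end Global

/-! ### Cohomological triviality of `U^S(L)` -/

section Main

variable {L : Type} [Field L] [NumberField L] {G : Type} [Group G] (φ : G →* (L ≃ₐ[ℚ] L))
  (S : Set Nat.Primes)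

/-- **`U^S(L)` is cohomologically trivial** over any finite group `G` acting on `L` through
`φ : G →* (L ≃ₐ[ℚ] L)` with trivial inertia above every `q ∉ S`. -/
theorem isCohTrivial_res_repUS [Finite G] (h : ∀ q ∉ S, TrivialInertiaAt φ q) :
    IsCohTrivial (Rep.res φ (repUS L S)) := by
  let _ : MulDistribMulAction G (US L S) := MulDistribMulAction.compHom (US L S) φ
  have key : IsCohTrivial (Rep.ofMulDistribMulAction G (US L S)) := by
    apply isCohTrivial_of_forall_subgroup
    · intro H _ a ha
      exact exists_prod_smul_eq_US (φ.comp H.subtype) (fun q hq => (h q hq).subgroup H) a ha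
    · intro H f hf
      exact exists_smul_div_eq_US (φ.comp H.subtype) (fun q hq => (h q hq).subgroup H) f hf
  exact key

end Main

section Descent

variable (K L : Type*) [Field K] [Field L] [NumberField L] [Algebra ℚ K] [Algebra K L]
  [IsScalarTower ℚ K L] (S : Set Nat.Primes)

/-- The hypothesis `hU` of `Idele.CS.mem_range_map_inclHom`. -/
theorem hU_of_trivialInertiaAt [FiniteDimensional K L]
    (h : ∀ q ∉ S, TrivialInertiaAt (galHom K L) q) :
    ∀ u : (L ≃ₐ[K] L) → J L, (∀ σ, u σ ∈ US L S) →
      (∀ σ τ, u (σ * τ) = galHom K L σ • u τ * u σ) →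
      ∃ v ∈ US L S, ∀ σ, u σ = galHom K L σ • v / v := by
  intro u hu hcoc
  obtain ⟨x, hx⟩ := exists_smul_div_eq_US (galHom K L) h (fun σ => (⟨u σ, hu σ⟩ : US L S))
    (fun σ τ => Subtype.ext (hcoc σ τ))
  exact ⟨x, x.2, fun σ => (congrArg Subtype.val (hx σ)).symm⟩

end Descent

end Fermat.Agent.CFT.C7.USCohTrivial
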