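import Mathlib
import Fermat.Agent.CFT.Idele.SIdele
import Fermat.Agent.CFT.C5.SecondInequality
import Fermat.Agent.CFT.C5.CountS
import Fermat.Agent.S14.IdeleClassGroup

/-!
# PROJECT C, slice C7, (N3) step (F3): the count `|C_S(K)/p| ≤ |W_S / Kˣᵖ|`, concrete form

`K` a number field containing a primitive `p`-th root of unity, `p` an odd prime, `S ∋ p` a finite
set of rational primes. In helper11's idele model (`J K`, `diag`, `US`, `JS`, `JTsub`, `CS`, `ClS`):

* `WS K S p : Subgroup Kˣ` : the `a` with `p ∣ v(a)` for all `v ∉ S` (idelic form: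
  `diag a * y ^ p ∈ JTsub K S` for some idele `y`); `WS / Kˣᵖ` is the `p`-Selmer group `V_S`;
* `BS K S p : Subgroup Kˣ` : the `a ∈ WS` which are moreover `p`-th powers in `(K ⊗ ℚ_q)ˣ` for all
  `q ∈ S` (idelic form: `diag a * y ^ p ∈ US K S`);
* the concrete inputs of helper16's abstract count `C5/CountS`:
  `mem_JTsub_of_pow_mem` (TF), `relIndex_pow_units` / `relIndex_pow_TUnits` (DU),
  `relIndex_pow_JS` (LI), finiteness of the `S`-class group `finiteIndex_sup_JTsub`;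
* **the count**: `relIndex_WS : [WS : Kˣᵖ] = e * |Cl_S / p|`,
  `index_eq_mul_relIndex_BS : |C_S / p| = e * [BS : Kˣᵖ]`, `e = p ^ (r + #S_f)`, and
  `index_le_relIndex_WS`, `card_CS_quot_le` : if `[BS : Kˣᵖ] ≤ |Cl_S / p|` (input (F2), reciprocity
  on the `S`-split layer `K(BS^{1/p})`) then `|C_S / p| ≤ [WS : Kˣᵖ]` (`= [K(WS^{1/p}) : K]`).
-/

set_option autoImplicit false
set_option linter.unusedSectionVars false

open scoped TensorProduct NumberField Fermat.Agent.CFT.Idele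

open Fermat.Agent.CFT.Idele Fermat.Agent.CFT.Dict Fermat.Agent.CFT.Local.Model
  Fermat.Agent.CFT.C5.LocalFields Fermat.Agent.CFT.C5.IndexAbstract
  Fermat.Agent.CFT.C5.IdeleProduct Fermat.Agent.CFT.C5.SecondInequality
  Fermat.Agent.CFT.C5.CountS IsDedekindDomain NumberField
  Fermat.Agent.S14.IdeleClassGroup

noncomputable section

namespace Fermat.Agent.CFT.C7.ExistCount

/-! ### The groups `WS` and `BS` -/

section Defs

variable (K : Type) [Field K] [NumberField K] (S : Set Nat.Primes) (p : ℕ)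

/-- `W_S`: the `a ∈ Kˣ` with `p ∣ v(a)` for all finite places `v` not above `S`, in idelic form:
the principal idele of `a` is an `S`-idele times a `p`-th power. -/
def WS : Subgroup Kˣ := (JTsub K S ⊔ Pw (J K) p).comap (diag K)

/-- `B_S`: the `a ∈ W_S` which are `p`-th powers at all `q ∈ S`, in idelic form: the principal idele
of `a` is a unit idele outside `S` (trivial at `S`) times a `p`-th power. -/
def BS : Subgroup Kˣ := (US K S ⊔ Pw (J K) p).comap (diag K)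

variable {K S p}

theorem mem_WS {a : Kˣ} : a ∈ WS K S p ↔ ∃ y : J K, diag K a * y ^ p ∈ JTsub K S := by
  rw [WS, Subgroup.mem_comap, Subgroup.mem_sup]
  constructor
  · rintro ⟨t, ht, _, ⟨z, rfl⟩, h⟩
    refine ⟨z⁻¹, ?_⟩
    rw [← h, powMonoidHom_apply, inv_pow, mul_inv_cancel_right]
    exact ht
  · rintro ⟨y, hy⟩
    refine ⟨_, hy, _, ⟨y⁻¹, rfl⟩, ?_⟩
    rw [powMonoidHom_apply, inv_pow, mul_inv_cancel_right]

theorem mem_BS {a : Kˣ} : a ∈ BS K S p ↔ ∃ y : J K, diag K a * y ^ p ∈ US K S := by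
  rw [BS, Subgroup.mem_comap, Subgroup.mem_sup]
  constructor
  · rintro ⟨t, ht, _, ⟨z, rfl⟩, h⟩
    refine ⟨z⁻¹, ?_⟩
    rw [← h, powMonoidHom_apply, inv_pow, mul_inv_cancel_right]
    exact ht
  · rintro ⟨y, hy⟩
    refine ⟨_, hy, _, ⟨y⁻¹, rfl⟩, ?_⟩
    rw [powMonoidHom_apply, inv_pow, mul_inv_cancel_right]

variable (K S p)

theorem BS_le_WS : BS K S p ≤ WS K S p :=
  Subgroup.comap_mono (sup_le_sup_right US_le_JTsub _)

theorem range_pow_le_BS : (powMonoidHom p : Kˣ →* Kˣ).range ≤ BS K S p := by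
  rintro _ ⟨b, rfl⟩
  refine Subgroup.mem_comap.mpr (Subgroup.mem_sup_right ⟨diag K b, ?_⟩)
  rw [powMonoidHom_apply, powMonoidHom_apply, map_pow]

theorem range_pow_le_WS : (powMonoidHom p : Kˣ →* Kˣ).range ≤ WS K S p :=
  (range_pow_le_BS K S p).trans (BS_le_WS K S p)

theorem TUnits_le_WS : TUnits K S ≤ WS K S p := fun _ ha =>
  Subgroup.mem_comap.mpr (Subgroup.mem_sup_left ha)

variable {K S p}

/-- the elements of `B_S` are `p`-th powers in `(K ⊗ ℚ_q)ˣ` for all `q ∈ S` -/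
theorem exists_pow_eq_of_mem_BS {a : Kˣ} (ha : a ∈ BS K S p) {q : Nat.Primes} (hq : q ∈ S) :
    ∃ γ : (Loc K q)ˣ, γ ^ p = Units.map (inclL K q : K →* Loc K q) a := by
  obtain ⟨y, hy⟩ := mem_BS.mp ha
  refine ⟨((y : ∀ q : Nat.Primes, (Loc K q)ˣ) q)⁻¹, ?_⟩
  have h1 : (diag K a : ∀ q : Nat.Primes, (Loc K q)ˣ) q
      * ((y : ∀ q : Nat.Primes, (Loc K q)ˣ) q) ^ p = 1 := hy.1 q hq
  rw [inv_pow, ← mul_eq_one_iff_eq_inv.mp h1]
  rfl

/-- the same, in the ring `K ⊗ ℚ_q` -/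
theorem exists_pow_eq_inclL_of_mem_BS {a : Kˣ} (ha : a ∈ BS K S p) {q : Nat.Primes} (hq : q ∈ S) :
    ∃ γ : (Loc K q)ˣ, (γ : Loc K q) ^ p = inclL K q (a : K) := by
  obtain ⟨γ, hγ⟩ := exists_pow_eq_of_mem_BS ha hq
  refine ⟨γ, ?_⟩
  rw [← Units.val_pow_eq_pow_val, hγ]
  rfl

/-- `B_S` inside `W_S`: the `S`-part of the principal idele is a `p`-th power. -/
theorem mem_BS_iff_trunc {a : Kˣ} :
    a ∈ BS K S p ↔ a ∈ WS K S p ∧ trunc K S (diag K a) ∈ powSubgroup p (JS K S) := by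
  constructor
  · intro ha
    refine ⟨BS_le_WS K S p ha, ?_⟩
    obtain ⟨y, hy⟩ := mem_BS.mp ha
    refine ⟨trunc K S y⁻¹, trunc_mem_JS _, ?_⟩
    have h1 := trunc_eq_one_of_mem_US hy
    rw [map_mul, map_pow] at h1
    rw [powMonoidHom_apply, map_inv, inv_pow]
    exact (mul_eq_one_iff_eq_inv.mp h1).symm
  · rintro ⟨haW, z, hz, hza⟩
    obtain ⟨y, hy⟩ := mem_WS.mp haW
    rw [powMonoidHom_apply] at hza
    refine mem_BS.mpr ⟨z⁻¹ * trunc K Sᶜ y, ?_⟩
    have h1 : diag K a = z ^ p * trunc K Sᶜ (diag K a) := by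
      rw [hza]
      exact (trunc_mul_trunc_compl (S := S) (diag K a)).symm
    have h2 : diag K a * (z⁻¹ * trunc K Sᶜ y) ^ p = trunc K Sᶜ (diag K a * y ^ p) := by
      rw [map_mul, map_pow, mul_pow, inv_pow]
      conv_lhs => rw [h1]
      rw [mul_mul_mul_comm, mul_inv_cancel, one_mul]
    rw [h2]
    exact trunc_compl_mem_US_iff.mpr hy

end Defs

variable {K : Type} [Field K] [NumberField K]

/-! ### Torsion freeness -/

/-- **(TF)**: `J / J_{K,S}` is torsion free -/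
theorem mem_JTsub_of_pow_mem {p : ℕ} (hp : p ≠ 0) (S : Set Nat.Primes) {x : J K}
    (h : x ^ p ∈ JTsub K S) : x ∈ JTsub K S := by
  rw [mem_JTsub] at h ⊢
  intro q hq
  have h1 := h q hq
  rw [mem_intUnits_iff_forall_toProd] at h1 ⊢
  intro v
  refine mem_Up_of_pow_mem hp ⟨q, v⟩ _ ?_
  have := h1 v
  rwa [Subgroup.coe_pow, map_pow] at this

/-- `W_S` in terms of `S`-units when the `S`-class group is trivial is not needed; what is needed is
that `p`-th roots of elements of `W_S ∩ TUnits` stay `S`-units: -/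
theorem mem_TUnits_of_pow_mem {p : ℕ} (hp : p ≠ 0) (S : Set Nat.Primes) {a : Kˣ}
    (h : a ^ p ∈ TUnits K S) : a ∈ TUnits K S := by
  refine mem_JTsub_of_pow_mem hp S ?_
  rw [← map_pow]
  exact h

/-! ### Dictionary with the product over the places -/

theorem map_JTsub (S : Finset Nat.Primes) :
    (JTsub K (S : Set Nat.Primes)).map (jToProd K) = ideleS (Up K) (placesOver K S) := by
  ext y
  constructor
  · rintro ⟨x, hx, rfl⟩
    exact (jToProd_mem_ideleS_iff S x).mpr hx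
  · intro hy
    obtain ⟨x, rfl⟩ := exists_jToProd_eq (ideleS_le_restrictedProduct _ _ hy)
    exact ⟨x, (jToProd_mem_ideleS_iff S x).mp hy, rfl⟩

theorem map_range_diag_inf_JTsub (S : Finset Nat.Primes) :
    ((diag K).range ⊓ JTsub K (S : Set Nat.Primes)).map (jToProd K) =
      (diagP K).range ⊓ ideleS (Up K) (placesOver K S) := by
  ext y
  constructor
  · rintro ⟨x, ⟨⟨a, rfl⟩, hx2⟩, rfl⟩
    exact ⟨⟨a, (jToProd_diag a).symm⟩, (jToProd_mem_ideleS_iff S _).mpr hx2⟩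
  · rintro ⟨⟨a, rfl⟩, h⟩
    refine ⟨diag K a, ⟨⟨a, rfl⟩, (jToProd_mem_ideleS_iff S _).mp ?_⟩, jToProd_diag a⟩
    rw [jToProd_diag]
    exact h

theorem powSubgroup_map {M N : Type*} [CommGroup M] [CommGroup N] (p : ℕ) (f : M →* N)
    (H : Subgroup M) : powSubgroup p (H.map f) = (powSubgroup p H).map f := by
  rw [powSubgroup, powSubgroup, Subgroup.map_map, Subgroup.map_map]
  congr 1
  ext a : 1
  exact (map_pow f a p).symm

/-! ### The unit count (DU) -/

/-- **(DU)** in `J K`: `[E_S : E_S ^ p] = p ^ (r + #S_f)` for the `S`-units `E_S = Kˣ ∩ J_{K,S}`. -/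
theorem relIndex_pow_units {p : ℕ} (hp : p ≠ 0) {ζ : K} (hζ : IsPrimitiveRoot ζ p)
    (S : Finset Nat.Primes) :
    (powSubgroup p ((diag K).range ⊓ JTsub K (S : Set Nat.Primes))).relIndex
        ((diag K).range ⊓ JTsub K (S : Set Nat.Primes)) =
      p ^ (Fintype.card (InfinitePlace K) + (placesOver K S).card) := by
  rw [← relIndex_powSubgroup_units hp hζ (placesOver K S), ← map_range_diag_inf_JTsub,
    powSubgroup_map, Subgroup.relIndex_map_map_of_injective _ _ jToProd_injective]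

/-- the same for the subgroup `TUnits K S` of `Kˣ` -/
theorem relIndex_pow_TUnits {p : ℕ} (hp : p ≠ 0) {ζ : K} (hζ : IsPrimitiveRoot ζ p)
    (S : Finset Nat.Primes) :
    (powSubgroup p (TUnits K (S : Set Nat.Primes))).relIndex (TUnits K (S : Set Nat.Primes)) =
      p ^ (Fintype.card (InfinitePlace K) + (placesOver K S).card) := by
  rw [← relIndex_pow_units hp hζ S, range_diag_inf_JTsub, powSubgroup_map,
    Subgroup.relIndex_map_map_of_injective _ _ (diag_injective K)]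

/-! ### The local count (LI) -/

/-- an idele all of whose components at `q ∈ S` are `p`-th powers has `S`-part a `p`-th power of
an `S`-idele -/
theorem exists_pow_eq_trunc_of_local (p : ℕ) (S : Finset Nat.Primes) (x : J K)
    (h : ∀ q ∈ S, ∃ u : (Loc K q)ˣ, u ^ p = (x : ∀ q : Nat.Primes, (Loc K q)ˣ) q) :
    ∃ z ∈ JS K (S : Set Nat.Primes), z ^ p = trunc K (S : Set Nat.Primes) x := by
  classical
  have h1 : ∀ q : (S : Set Nat.Primes), ∃ u : (Loc K q.1)ˣ,
      u ^ p = (x : ∀ q : Nat.Primes, (Loc K q)ˣ) q.1 := fun q => h q.1 (Finset.mem_coe.mp q.2)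
  choose u hu using h1
  refine ⟨(JSprod K (S : Set Nat.Primes) S.finite_toSet).symm u, Subtype.property _, ?_⟩
  apply J.ext'
  intro q
  by_cases hq : q ∈ (S : Set Nat.Primes)
  · rw [trunc_of_mem _ hq]
    have h3 : ((((JSprod K (S : Set Nat.Primes) S.finite_toSet).symm u :
        JS K (S : Set Nat.Primes)) : J K) : ∀ q : Nat.Primes, (Loc K q)ˣ) q = u ⟨q, hq⟩ := by
      have := JSprod_apply K (S : Set Nat.Primes) S.finite_toSet
        ((JSprod K (S : Set Nat.Primes) S.finite_toSet).symm u) ⟨q, hq⟩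
      rw [MulEquiv.apply_symm_apply] at this
      exact this.symm
    show (((((JSprod K (S : Set Nat.Primes) S.finite_toSet).symm u :
        JS K (S : Set Nat.Primes)) : J K) : ∀ q : Nat.Primes, (Loc K q)ˣ) q) ^ p = _
    rw [h3, hu]
  · rw [trunc_of_notMem _ hq]
    have h3 := ((JSprod K (S : Set Nat.Primes) S.finite_toSet).symm u).2 q hq
    show (((((JSprod K (S : Set Nat.Primes) S.finite_toSet).symm u :
        JS K (S : Set Nat.Primes)) : J K) : ∀ q : Nat.Primes, (Loc K q)ˣ) q) ^ p = _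
    rw [h3, one_pow]

/-- the same with the hypothesis at the places over `S` -/
theorem exists_pow_eq_trunc (p : ℕ) (S : Finset Nat.Primes) (x : J K)
    (h : ∀ i ∈ placesOver K S, jToProd K x i ∈ (powMonoidHom p : Gp K i →* Gp K i).range) :
    ∃ z ∈ JS K (S : Set Nat.Primes), z ^ p = trunc K (S : Set Nat.Primes) x := by
  refine exists_pow_eq_trunc_of_local p S x fun q hq => ?_
  have h2 : ∀ v : PrimeOver (q : ℕ) (𝓞 K), ∃ g : (Kv v)ˣ,
      g ^ p = piV v ((x : ∀ q : Nat.Primes, (Loc K q)ˣ) q) := fun v =>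
    h ⟨q, v⟩ (mem_placesOver.mpr hq)
  choose g hg using h2
  obtain ⟨u, hu⟩ := exists_forall_piV_eq g
  refine ⟨u, ext_piV fun v => ?_⟩
  rw [map_pow, hu, hg]

/-- `B_S` for a finite set `S`: local `p`-th powers at `S` inside `W_S`. -/
theorem mem_BS_iff_local {p : ℕ} {S : Finset Nat.Primes} {a : Kˣ} :
    a ∈ BS K (S : Set Nat.Primes) p ↔ a ∈ WS K (S : Set Nat.Primes) p ∧
      ∀ q ∈ S, ∃ γ : (Loc K q)ˣ, γ ^ p = Units.map (inclL K q : K →* Loc K q) a := by
  constructor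
  · intro ha
    exact ⟨BS_le_WS K _ p ha, fun q hq => exists_pow_eq_of_mem_BS ha (Finset.mem_coe.mpr hq)⟩
  · rintro ⟨haW, h⟩
    obtain ⟨z, hz, hza⟩ := exists_pow_eq_trunc_of_local p S (diag K a) h
    exact mem_BS_iff_trunc.mpr ⟨haW, z, hz, hza⟩

theorem map_pow_JS_sup_US (p : ℕ) (S : Finset Nat.Primes) :
    (powSubgroup p (JS K (S : Set Nat.Primes)) ⊔ US K (S : Set Nat.Primes)).map (jToProd K) =
      groupE (Up K) p (placesOver K S) ∅ := by
  ext y
  constructor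
  · rintro ⟨x, hx, rfl⟩
    obtain ⟨_, ⟨z, hz, rfl⟩, u, hu, rfl⟩ := Subgroup.mem_sup.mp hx
    refine ⟨fun i hi => ?_, fun i hi => ?_⟩
    · have hq : i.1 ∈ (S : Set Nat.Primes) := Finset.mem_coe.mpr (mem_placesOver.mp hi)
      refine ⟨jToProd K z i, ?_⟩
      have h1 : jToProd K u i = 1 := by
        rw [jToProd_apply, toProd_apply, hu.1 i.1 hq, map_one]
      rw [map_mul, Pi.mul_apply, h1, mul_one]
      show (jToProd K z i) ^ p = jToProd K (z ^ p) i
      rw [map_pow]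
      rfl
    · have h1 : powMonoidHom p z * u ∈ JTsub K (S : Set Nat.Primes) :=
        (JTsub K _).mul_mem ((JTsub K _).pow_mem (JS_le_JTsub hz) p) (US_le_JTsub hu)
      have h2 := (jToProd_mem_ideleS_iff S _).mpr h1
      refine h2 i fun hcon => hi ?_
      rw [Finset.union_empty]
      exact hcon
  · intro hy
    have hy2 : y ∈ ideleS (Up K) (placesOver K S) := by
      have := groupE_le_ideleS _ _ _ _ hy
      rwa [Finset.union_empty] at this
    obtain ⟨x, rfl⟩ := exists_jToProd_eq (ideleS_le_restrictedProduct _ _ hy2)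
    have hx : x ∈ JTsub K (S : Set Nat.Primes) := (jToProd_mem_ideleS_iff S x).mp hy2
    obtain ⟨z, hz, hzx⟩ := exists_pow_eq_trunc p S x hy.1
    refine ⟨x, ?_, rfl⟩
    rw [← trunc_mul_trunc_compl (S := (S : Set Nat.Primes)) x, ← hzx]
    exact Subgroup.mul_mem_sup ⟨z, hz, rfl⟩ (trunc_compl_mem_US_iff.mpr hx)

/-- **(LI)** in `J K`: `[J_S : J_S ^ p] = p ^ (2 #S_f + [K : ℚ])` -/
theorem relIndex_pow_JS (P : Nat.Primes) {ζ : K} (hζ : IsPrimitiveRoot ζ (P : ℕ))
    (S : Finset Nat.Primes) (hPS : P ∈ S) :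
    (powSubgroup (P : ℕ) (JS K (S : Set Nat.Primes))).relIndex (JS K (S : Set Nat.Primes)) =
      (P : ℕ) ^ (2 * (placesOver K S).card + Module.finrank ℚ K) := by
  have h1 := relIndex_sup_mul_relIndex_inf (US K (S : Set Nat.Primes)) (JS K (S : Set Nat.Primes))
    (powSubgroup (P : ℕ) (JS K (S : Set Nat.Primes)))
    (by
      rintro _ ⟨z, hz, rfl⟩
      exact (JS K _).pow_mem hz _)
  have h2 : US K (S : Set Nat.Primes) ⊓ JS K (S : Set Nat.Primes) = ⊥ := by
    rw [inf_comm]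
    exact JS_inf_US
  rw [h2, Subgroup.relIndex_bot_right, mul_one] at h1
  rw [← h1, sup_comm (US K _) (JS K _), JS_sup_US, sup_comm,
    ← Subgroup.relIndex_map_map_of_injective _ _ (jToProd_injective (K := K)), map_pow_JS_sup_US,
    map_JTsub, ← prod_index_placesOver P hζ S hPS,
    ← relIndex_groupE (Up K) (P : ℕ) (placesOver K S) ∅, Finset.union_empty]

/-- `[J_S : J_S ^ p] = [E_S : E_S ^ p] ^ 2` -/
theorem relIndex_pow_JS_eq_sq (P : Nat.Primes) (hP2 : (P : ℕ) ≠ 2) {ζ : K}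
    (hζ : IsPrimitiveRoot ζ (P : ℕ)) (S : Finset Nat.Primes) (hPS : P ∈ S) :
    (powSubgroup (P : ℕ) (JS K (S : Set Nat.Primes))).relIndex (JS K (S : Set Nat.Primes)) =
      ((P : ℕ) ^ (Fintype.card (InfinitePlace K) + (placesOver K S).card)) ^ 2 := by
  have hP3 : 2 < (P : ℕ) := lt_of_le_of_ne P.2.two_le (Ne.symm hP2)
  rw [relIndex_pow_JS P hζ S hPS, ← two_mul_card_infinitePlace hP3 hζ, ← pow_mul]
  congr 1
  ring

/-! ### Finiteness of the `S`-class group -/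

instance finiteIndex_sup_JTsub (S : Set Nat.Primes) :
    ((diag K).range ⊔ JTsub K S).FiniteIndex := by
  have h1 : (toCl K).ker ≤ (diag K).range ⊔ JTsub K S := by
    rw [ker_toCl]
    exact sup_le_sup_left (JTsub_mono K (Set.empty_subset S)) _
  have : (toCl K).ker.FiniteIndex := Subgroup.finiteIndex_ker _
  exact Subgroup.finiteIndex_of_le h1

theorem index_sup_JTsub_ne_zero (S : Set Nat.Primes) :
    ((diag K).range ⊔ JTsub K S).index ≠ 0 := Subgroup.FiniteIndex.index_ne_zero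

/-- the `S`-class group is finite -/
instance finite_ClS (S : Set Nat.Primes) : Finite (ClS K S) :=
  Subgroup.finite_quotient_of_finiteIndex

/-! ### Transfer of indices -/

/-- relative indices in `Kˣ` and in `J K` along the diagonal embedding -/
theorem relIndex_comap_diag (p : ℕ) (X : Subgroup (J K)) :
    (powSubgroup p (diag K).range).relIndex ((diag K).range ⊓ X) =
      ((powMonoidHom p : Kˣ →* Kˣ).range).relIndex (X.comap (diag K)) := by
  have h1 : powSubgroup p (diag K).range =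
      ((powMonoidHom p : Kˣ →* Kˣ).range).map (diag K) := by
    rw [MonoidHom.range_eq_map, MonoidHom.range_eq_map, powSubgroup, Subgroup.map_map,
      Subgroup.map_map]
    congr 1
    ext a : 1
    exact (map_pow (diag K) a p).symm
  rw [h1, ← Subgroup.map_comap_eq, Subgroup.relIndex_map_map_of_injective _ _ (diag_injective K)]

/-- the order of `G / G ^ p` for a quotient `G = M ⧸ N` -/
theorem card_quot_quot_pow {M : Type*} [CommGroup M] (N : Subgroup M) (p : ℕ) :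
    Nat.card ((M ⧸ N) ⧸ (powMonoidHom p : M ⧸ N →* M ⧸ N).range) = (N ⊔ Pw M p).index := by
  rw [← Subgroup.index_eq_card,
    ← Subgroup.index_comap_of_surjective _ (QuotientGroup.mk'_surjective N)]
  congr 1
  ext x
  rw [Subgroup.mem_comap, MonoidHom.mem_range]
  constructor
  · rintro ⟨c, hc⟩
    obtain ⟨y, rfl⟩ := QuotientGroup.mk'_surjective N c
    rw [powMonoidHom_apply, ← map_pow, QuotientGroup.mk'_apply, QuotientGroup.mk'_apply,
      QuotientGroup.eq] at hc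
    have h1 : x = (y ^ p)⁻¹⁻¹ * ((y ^ p)⁻¹ * x) := by rw [inv_inv, mul_inv_cancel_left]
    rw [h1, inv_inv, mul_comm]
    exact Subgroup.mul_mem_sup hc ⟨y, rfl⟩
  · intro hx
    obtain ⟨n, hn, _, ⟨y, rfl⟩, rfl⟩ := Subgroup.mem_sup.mp hx
    refine ⟨QuotientGroup.mk' N y, ?_⟩
    have h1 : QuotientGroup.mk' N n = 1 := (QuotientGroup.eq_one_iff n).mpr hn
    rw [powMonoidHom_apply, powMonoidHom_apply, ← map_pow, map_mul, h1, one_mul]

variable (K) in
/-- `|C_S / p|` as an index in the idele group -/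
theorem card_CS_quot (S : Set Nat.Primes) (p : ℕ) :
    Nat.card (CS K S ⧸ (powMonoidHom p : CS K S →* CS K S).range) =
      ((diag K).range ⊔ (US K S ⊔ Pw (J K) p)).index := by
  rw [← sup_assoc]
  exact card_quot_quot_pow _ p

variable (K) in
/-- `|Cl_S / p|` as an index in the idele group -/
theorem card_ClS_quot (S : Set Nat.Primes) (p : ℕ) :
    Nat.card (ClS K S ⧸ (powMonoidHom p : ClS K S →* ClS K S).range) =
      ((diag K).range ⊔ (JTsub K S ⊔ Pw (J K) p)).index := by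
  rw [← sup_assoc]
  exact card_quot_quot_pow _ p

/-! ### The count -/

section Count

variable (K) (P : Nat.Primes) (S : Finset Nat.Primes)

/-- the instantiation of helper16's abstract count -/
theorem count_aux (hP2 : (P : ℕ) ≠ 2) {ζ : K} (hζ : IsPrimitiveRoot ζ (P : ℕ)) (hPS : P ∈ S) :
    ((powMonoidHom (P : ℕ) : Kˣ →* Kˣ).range).relIndex (WS K (S : Set Nat.Primes) (P : ℕ)) =
        (P : ℕ) ^ (Fintype.card (InfinitePlace K) + (placesOver K S).card) *
          ((diag K).range ⊔ (JTsub K (S : Set Nat.Primes) ⊔ Pw (J K) (P : ℕ))).index ∧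
      ((diag K).range ⊔ (US K (S : Set Nat.Primes) ⊔ Pw (J K) (P : ℕ))).index =
        (P : ℕ) ^ (Fintype.card (InfinitePlace K) + (placesOver K S).card) *
          ((powMonoidHom (P : ℕ) : Kˣ →* Kˣ).range).relIndex (BS K (S : Set Nat.Primes) (P : ℕ)) ∧
      ((diag K).range ⊔ (US K (S : Set Nat.Primes) ⊔ Pw (J K) (P : ℕ))).index ≠ 0 := by
  have hJS : JS K (S : Set Nat.Primes) ⊓ (US K (S : Set Nat.Primes) ⊔ Pw (J K) (P : ℕ)) ≤
      powSubgroup (P : ℕ) (JS K (S : Set Nat.Primes)) :=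
    inf_le_powSubgroup_of_retraction (P : ℕ) _ _ (trunc K (S : Set Nat.Primes))
      (fun x => trunc_mem_JS x) (fun j hj => trunc_eq_self_iff.mpr hj)
      (fun u hu => trunc_eq_one_of_mem_US hu)
  have htf : ∀ x : J K, x ^ (P : ℕ) ∈ JS K (S : Set Nat.Primes) ⊔ US K (S : Set Nat.Primes) →
      x ∈ JS K (S : Set Nat.Primes) ⊔ US K (S : Set Nat.Primes) := by
    intro x hx
    rw [JS_sup_US] at hx ⊢
    exact mem_JTsub_of_pow_mem P.2.ne_zero _ hx
  have hE : (powSubgroup (P : ℕ) ((diag K).range ⊓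
      (JS K (S : Set Nat.Primes) ⊔ US K (S : Set Nat.Primes)))).relIndex
        ((diag K).range ⊓ (JS K (S : Set Nat.Primes) ⊔ US K (S : Set Nat.Primes))) =
      (P : ℕ) ^ (Fintype.card (InfinitePlace K) + (placesOver K S).card) := by
    rw [JS_sup_US]
    exact relIndex_pow_units P.2.ne_zero hζ S
  have hW : ((diag K).range ⊔
      (JS K (S : Set Nat.Primes) ⊔ US K (S : Set Nat.Primes))).index ≠ 0 := by
    rw [JS_sup_US]
    exact index_sup_JTsub_ne_zero _
  have key := count (P : ℕ) (diag K).range (US K (S : Set Nat.Primes)) (JS K (S : Set Nat.Primes))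
    hJS htf _ (pow_ne_zero _ P.2.ne_zero) hE (relIndex_pow_JS_eq_sq P hP2 hζ S hPS) hW
  rw [← sup_assoc (JS K (S : Set Nat.Primes)), JS_sup_US, relIndex_comap_diag,
    relIndex_comap_diag] at key
  exact key

/-- **(F3), Selmer side**: `[W_S : Kˣᵖ] = p ^ (r + #S_f) * |Cl_S / p|` -/
theorem relIndex_WS (hP2 : (P : ℕ) ≠ 2) {ζ : K} (hζ : IsPrimitiveRoot ζ (P : ℕ)) (hPS : P ∈ S) :
    ((powMonoidHom (P : ℕ) : Kˣ →* Kˣ).range).relIndex (WS K (S : Set Nat.Primes) (P : ℕ)) =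
      (P : ℕ) ^ (Fintype.card (InfinitePlace K) + (placesOver K S).card) *
        Nat.card (ClS K (S : Set Nat.Primes) ⧸
          (powMonoidHom (P : ℕ) : ClS K (S : Set Nat.Primes) →* ClS K (S : Set Nat.Primes)).range) := by
  rw [card_ClS_quot]
  exact (count_aux K P S hP2 hζ hPS).1

/-- **(F3), class side**: `|C_S / p| = p ^ (r + #S_f) * [B_S : Kˣᵖ]` -/
theorem card_CS_quot_eq (hP2 : (P : ℕ) ≠ 2) {ζ : K} (hζ : IsPrimitiveRoot ζ (P : ℕ))
    (hPS : P ∈ S) :
    Nat.card (CS K (S : Set Nat.Primes) ⧸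
        (powMonoidHom (P : ℕ) : CS K (S : Set Nat.Primes) →* CS K (S : Set Nat.Primes)).range) =
      (P : ℕ) ^ (Fintype.card (InfinitePlace K) + (placesOver K S).card) *
        ((powMonoidHom (P : ℕ) : Kˣ →* Kˣ).range).relIndex (BS K (S : Set Nat.Primes) (P : ℕ)) := by
  rw [card_CS_quot]
  exact (count_aux K P S hP2 hζ hPS).2.1

theorem card_CS_quot_ne_zero (hP2 : (P : ℕ) ≠ 2) {ζ : K} (hζ : IsPrimitiveRoot ζ (P : ℕ))
    (hPS : P ∈ S) :
    Nat.card (CS K (S : Set Nat.Primes) ⧸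
        (powMonoidHom (P : ℕ) : CS K (S : Set Nat.Primes) →* CS K (S : Set Nat.Primes)).range) ≠ 0 := by
  rw [card_CS_quot]
  exact (count_aux K P S hP2 hζ hPS).2.2

/-- `C_S / p` is finite -/
theorem finite_CS_quot (hP2 : (P : ℕ) ≠ 2) {ζ : K} (hζ : IsPrimitiveRoot ζ (P : ℕ))
    (hPS : P ∈ S) :
    Finite (CS K (S : Set Nat.Primes) ⧸
        (powMonoidHom (P : ℕ) : CS K (S : Set Nat.Primes) →* CS K (S : Set Nat.Primes)).range) :=
  Nat.finite_of_card_ne_zero (card_CS_quot_ne_zero K P S hP2 hζ hPS)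

theorem card_ClS_quot_ne_zero (p : ℕ) (S : Set Nat.Primes) :
    Nat.card (ClS K S ⧸ (powMonoidHom p : ClS K S →* ClS K S).range) ≠ 0 :=
  Nat.card_pos.ne'

/-- `[W_S : Kˣᵖ]` is finite (the hypothesis `hfin` of the Kummer field `K(W_S^{1/p})`) -/
theorem relIndex_WS_ne_zero (hP2 : (P : ℕ) ≠ 2) {ζ : K} (hζ : IsPrimitiveRoot ζ (P : ℕ))
    (hPS : P ∈ S) :
    ((powMonoidHom (P : ℕ) : Kˣ →* Kˣ).range).relIndex (WS K (S : Set Nat.Primes) (P : ℕ)) ≠ 0 := by
  rw [relIndex_WS K P S hP2 hζ hPS]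
  exact mul_ne_zero (pow_ne_zero _ P.2.ne_zero) (card_ClS_quot_ne_zero K _ _)

/-- `[B_S : Kˣᵖ]` is finite -/
theorem relIndex_BS_ne_zero (hP2 : (P : ℕ) ≠ 2) {ζ : K} (hζ : IsPrimitiveRoot ζ (P : ℕ))
    (hPS : P ∈ S) :
    ((powMonoidHom (P : ℕ) : Kˣ →* Kˣ).range).relIndex (BS K (S : Set Nat.Primes) (P : ℕ)) ≠ 0 := by
  intro h
  have h1 := card_CS_quot_eq K P S hP2 hζ hPS
  rw [h, mul_zero] at h1
  exact card_CS_quot_ne_zero K P S hP2 hζ hPS h1

/-- **(F3), the count**: if `[B_S : Kˣᵖ] ≤ |Cl_S / p|` (input (F2): reciprocity on the `S`-split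
layer `K(B_S^{1/p})`) then `|C_S / p| ≤ [W_S : Kˣᵖ] = [K(W_S^{1/p}) : K]`. -/
theorem card_CS_quot_le (hP2 : (P : ℕ) ≠ 2) {ζ : K} (hζ : IsPrimitiveRoot ζ (P : ℕ))
    (hPS : P ∈ S)
    (hF2 : ((powMonoidHom (P : ℕ) : Kˣ →* Kˣ).range).relIndex (BS K (S : Set Nat.Primes) (P : ℕ)) ≤
      Nat.card (ClS K (S : Set Nat.Primes) ⧸
        (powMonoidHom (P : ℕ) : ClS K (S : Set Nat.Primes) →* ClS K (S : Set Nat.Primes)).range)) :
    Nat.card (CS K (S : Set Nat.Primes) ⧸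
        (powMonoidHom (P : ℕ) : CS K (S : Set Nat.Primes) →* CS K (S : Set Nat.Primes)).range) ≤
      ((powMonoidHom (P : ℕ) : Kˣ →* Kˣ).range).relIndex (WS K (S : Set Nat.Primes) (P : ℕ)) := by
  rw [card_CS_quot_eq K P S hP2 hζ hPS, relIndex_WS K P S hP2 hζ hPS]
  exact Nat.mul_le_mul_left _ hF2

/-- the same in index form (helper5's `A.index ≤ δ`) -/
theorem index_le_relIndex_WS (hP2 : (P : ℕ) ≠ 2) {ζ : K} (hζ : IsPrimitiveRoot ζ (P : ℕ))
    (hPS : P ∈ S)
    (hF2 : ((powMonoidHom (P : ℕ) : Kˣ →* Kˣ).range).relIndex (BS K (S : Set Nat.Primes) (P : ℕ)) ≤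
      ((diag K).range ⊔ (JTsub K (S : Set Nat.Primes) ⊔ Pw (J K) (P : ℕ))).index) :
    ((diag K).range ⊔ (US K (S : Set Nat.Primes) ⊔ Pw (J K) (P : ℕ))).index ≤
      ((powMonoidHom (P : ℕ) : Kˣ →* Kˣ).range).relIndex (WS K (S : Set Nat.Primes) (P : ℕ)) := by
  obtain ⟨h1, h2, -⟩ := count_aux K P S hP2 hζ hPS
  rw [h1, h2]
  exact Nat.mul_le_mul_left _ hF2

end Count

/-! ### Galois stability and `p`-divisibility of the degree -/

section Galois

variable {S : Set Nat.Primes} {p : ℕ}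

/-- `W_S` is stable under `Aut(K/ℚ)` -/
theorem map_mem_WS (σ : K ≃ₐ[ℚ] K) {a : Kˣ} (ha : a ∈ WS K S p) :
    Units.map (σ : K →* K) a ∈ WS K S p := by
  obtain ⟨y, hy⟩ := mem_WS.mp ha
  refine mem_WS.mpr ⟨σ • y, ?_⟩
  rw [← smul_diag, ← smul_pow', ← smul_mul']
  exact (smul_mem_JTsub_iff σ S _).mpr hy

/-- `B_S` is stable under `Aut(K/ℚ)` -/
theorem map_mem_BS (σ : K ≃ₐ[ℚ] K) {a : Kˣ} (ha : a ∈ BS K S p) :
    Units.map (σ : K →* K) a ∈ BS K S p := by
  obtain ⟨y, hy⟩ := mem_BS.mp ha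
  refine mem_BS.mpr ⟨σ • y, ?_⟩
  rw [← smul_diag, ← smul_pow', ← smul_mul']
  exact smul_mem_US σ hy

theorem map_mem_WS_iff (σ : K ≃ₐ[ℚ] K) {a : Kˣ} :
    Units.map (σ : K →* K) a ∈ WS K S p ↔ a ∈ WS K S p := by
  refine ⟨fun h => ?_, map_mem_WS σ⟩
  have h1 := map_mem_WS σ.symm h
  have h2 : Units.map (σ.symm : K →* K) (Units.map (σ : K →* K) a) = a :=
    Units.ext (σ.symm_apply_apply _)
  rwa [h2] at h1

theorem map_mem_BS_iff (σ : K ≃ₐ[ℚ] K) {a : Kˣ} :
    Units.map (σ : K →* K) a ∈ BS K S p ↔ a ∈ BS K S p := by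
  refine ⟨fun h => ?_, map_mem_BS σ⟩
  have h1 := map_mem_BS σ.symm h
  have h2 : Units.map (σ.symm : K →* K) (Units.map (σ : K →* K) a) = a :=
    Units.ext (σ.symm_apply_apply _)
  rwa [h2] at h1

end Galois

/-- `p ∣ [W_S : Kˣᵖ]` (so `p` divides the degree of `K(W_S^{1/p})`) -/
theorem dvd_relIndex_WS (P : Nat.Primes) (S : Finset Nat.Primes) (hP2 : (P : ℕ) ≠ 2) {ζ : K}
    (hζ : IsPrimitiveRoot ζ (P : ℕ)) (hPS : P ∈ S) :
    (P : ℕ) ∣
      ((powMonoidHom (P : ℕ) : Kˣ →* Kˣ).range).relIndex (WS K (S : Set Nat.Primes) (P : ℕ)) := by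
  rw [relIndex_WS K P S hP2 hζ hPS]
  refine dvd_mul_of_dvd_left (dvd_pow_self _ ?_) _
  have : 0 < Fintype.card (InfinitePlace K) := Fintype.card_pos
  omega

/-! ### Adapters to the shapes of `A7/ExistenceF2` (helper24) -/

section Adapters

/-- the subgroup `Kˣ·U^S·J_S·J^p` in the bracketing of `A7.ExistenceF2.card_layerSub_le_index_of_norm`
(`H₁ := (diag K).range ⊔ US K S`, `JS₁ := JS K S`) -/
theorem sup_US_sup_JS_sup_Pw (S : Set Nat.Primes) (p : ℕ) :
    ((diag K).range ⊔ US K S) ⊔ (JS K S ⊔ Pw (J K) p) =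
      (diag K).range ⊔ (JTsub K S ⊔ Pw (J K) p) := by
  rw [← JS_sup_US (L := K) (S := S), sup_assoc, ← sup_assoc (US K S), sup_comm (US K S) (JS K S)]

variable (K) in
/-- `|Cl_S / p|` in the bracketing of `A7.ExistenceF2.card_layerSub_le_index_of_norm` -/
theorem card_ClS_quot' (S : Set Nat.Primes) (p : ℕ) :
    Nat.card (ClS K S ⧸ (powMonoidHom p : ClS K S →* ClS K S).range) =
      (((diag K).range ⊔ US K S) ⊔ (JS K S ⊔ Pw (J K) p)).index := by
  rw [sup_US_sup_JS_sup_Pw, card_ClS_quot]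

variable (K) in
theorem index_sup_US_sup_JS_sup_Pw_ne_zero (S : Set Nat.Primes) (p : ℕ) :
    (((diag K).range ⊔ US K S) ⊔ (JS K S ⊔ Pw (J K) p)).index ≠ 0 := by
  rw [← card_ClS_quot']
  exact Nat.card_pos.ne'

variable (K) in
/-- **(F3)** in the shapes of helper24's `n3_of_index_le` (`hidx`) and
`card_layerSub_le_index_of_norm` (`hF2`): with `A := CS K S`,
`[A : A^p] ≤ [W_S : Kˣᵖ]` as soon as `[B_S : Kˣᵖ] ≤ [J : Kˣ·U^S·J_S·J^p]`. -/
theorem index_pow_CS_le (P : Nat.Primes) (S : Finset Nat.Primes) (hP2 : (P : ℕ) ≠ 2) {ζ : K}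
    (hζ : IsPrimitiveRoot ζ (P : ℕ)) (hPS : P ∈ S)
    (hF2 : ((powMonoidHom (P : ℕ) : Kˣ →* Kˣ).range).relIndex (BS K (S : Set Nat.Primes) (P : ℕ)) ≤
      (((diag K).range ⊔ US K (S : Set Nat.Primes)) ⊔
        (JS K (S : Set Nat.Primes) ⊔ Pw (J K) (P : ℕ))).index) :
    ((powMonoidHom (P : ℕ) : CS K (S : Set Nat.Primes) →* CS K (S : Set Nat.Primes)).range).index ≤
      ((powMonoidHom (P : ℕ) : Kˣ →* Kˣ).range).relIndex (WS K (S : Set Nat.Primes) (P : ℕ)) := by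
  rw [Subgroup.index_eq_card]
  refine card_CS_quot_le K P S hP2 hζ hPS ?_
  rw [card_ClS_quot']
  exact hF2

variable (K) in
theorem index_pow_CS_ne_zero (P : Nat.Primes) (S : Finset Nat.Primes) (hP2 : (P : ℕ) ≠ 2) {ζ : K}
    (hζ : IsPrimitiveRoot ζ (P : ℕ)) (hPS : P ∈ S) :
    ((powMonoidHom (P : ℕ) : CS K (S : Set Nat.Primes) →*
      CS K (S : Set Nat.Primes)).range).index ≠ 0 := by
  rw [Subgroup.index_eq_card]
  exact card_CS_quot_ne_zero K P S hP2 hζ hPS

end Adapters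

end Fermat.Agent.CFT.C7.ExistCount
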