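import Mathlib
import Fermat.Agent.CFT.A5.Tate
import Fermat.Agent.CFT.A7.BaseChangeInv
import Fermat.Agent.CFT.A7.BaseChangeExact
import Fermat.Agent.CFT.C7.USCohTrivial
import Fermat.Agent.CFT.C6.TateClassModule

/-!
# PROJECT C, slice C7-CF (transfer): `Hⁿ(S', C_L ⊗ k) ≅ Hⁿ(S', C_S(L) ⊗ k)` for `n ≥ 1`

`L` a number field, `G` a finite group acting on `L` through `φ : G →* (L ≃ₐ[ℚ] L)` with trivial
inertia above every prime `q ∉ S`.  The kernel `U^S(L)` of `C_L → C_S(L)` is cohomologically
trivial (`C7.USCohTrivial.isCohTrivial_res_repUS`), so `C_L → C_S(L)` induces isomorphisms on the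
cohomology of every subgroup in every positive degree, over `ℤ` and after localisation
(`k = ℤ_(p)`, any model in the sense of `A7.BaseChange.IsLocRep`).

* `cohIso_of_posAcyclic` : abstract form, for a short exact sequence of representations whose
  kernel has no cohomology in positive degrees on any subgroup (`PosAcyclic`);
* `bijective_of_isLocRep`, `cohIso_of_isLocRep` : bijectivity on `Hⁿ` survives localisation;
* transfer of the class-formation inputs along a morphism which is bijective on positive-degree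
  cohomology of all subgroups (`CohIso`): `H¹ = 0`, `|H²|`, classes of maximal order, in the shapes
  (H-a), (H-b) of `A7/ClassFormationExists` and `C6/LocalisedTate`, and `IsClassModule` itself;
* `cohIso_usSC`, `cohIso_usSC_of_isLocRep`, `cohIso_usSC_tensor` : the concrete statements for
  `C_L → C_S(L)`.
-/

set_option autoImplicit false

noncomputable section

universe u

namespace Fermat.Agent.CFT.C7.CSTransfer

open CategoryTheory CategoryTheory.Limits groupCohomology

/-! ### Abstract form -/

section Abstract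

variable {k G : Type u} [CommRing k] [Group G]

/-- The representation `U` has no cohomology in positive degrees on any subgroup. -/
def PosAcyclic (U : Rep.{u} k G) : Prop :=
  ∀ (H : Subgroup G) (n : ℕ), IsZero (groupCohomology (Rep.res H.subtype U) (n + 1))

theorem posAcyclic_of_isCohTrivial [Finite G] {U : Rep.{u} k G}
    (h : Fermat.Agent.CFT.A2.IsCohTrivial U) : PosAcyclic U := by
  classical
  let _ : Fintype G := Fintype.ofFinite G
  exact fun H n => Fermat.Agent.CFT.A5.Tate.isZero_groupCohomology_of_isCohTrivial h H (n + 1)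

/-- The map induced by `π : A ⟶ B` on the cohomology of a subgroup. -/
abbrev cohRes {A B : Rep.{u} k G} (π : A ⟶ B) (H : Subgroup G) (n : ℕ) :
    groupCohomology (Rep.res H.subtype A) n ⟶ groupCohomology (Rep.res H.subtype B) n :=
  groupCohomology.map (MonoidHom.id H) ((Rep.resFunctor H.subtype).map π) n

/-- `π : A ⟶ B` induces bijections on the positive-degree cohomology of every subgroup. -/
def CohIso {A B : Rep.{u} k G} (π : A ⟶ B) : Prop :=
  ∀ (H : Subgroup G) (n : ℕ), Function.Bijective (cohRes π H (n + 1)).hom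

variable {S : ShortComplex (Rep.{u} k G)} (hS : S.ShortExact)

include hS in
/-- **Abstract transfer**: if the kernel of a short exact sequence is acyclic in positive degrees
on all subgroups, the quotient map is bijective on positive-degree cohomology of all subgroups. -/
theorem cohIso_of_posAcyclic (hU : PosAcyclic S.X₁) : CohIso S.g := by
  intro H n
  have hS' : (S.map (Rep.resFunctor H.subtype)).ShortExact :=
    hS.map_of_exact (Rep.resFunctor H.subtype)
  constructor
  · rw [injective_iff_map_eq_zero]
    intro x hx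
    obtain ⟨z, hz⟩ := (ShortComplex.moduleCat_exact_iff _).1
      (mapShortComplex₂_exact hS' (n + 1)) x hx
    have hz0 : z = 0 := (ModuleCat.isZero_iff_subsingleton.1 (hU H n)).elim _ _
    rw [← hz, hz0]
    exact map_zero _
  · intro y
    have hδ : δ hS' (n + 1) (n + 2) rfl y = 0 :=
      (ModuleCat.isZero_iff_subsingleton.1 (hU H (n + 1))).elim _ _
    exact (ShortComplex.moduleCat_exact_iff _).1
      (mapShortComplex₃_exact hS' (i := n + 1) rfl) y hδ

end Abstract

/-! ### Transfer of the class-formation inputs along a `CohIso` -/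

section Transfer

open Fermat.Agent.CFT.InfRes2 Fermat.Agent.CFT.A5.Tate Fermat.Agent.CFT.A5.SplitRes
  Fermat.Agent.CFT.C6.TateClassModule

variable {k G : Type u} [CommRing k] [Group G] {A B : Rep.{u} k G} (π : A ⟶ B)

/-- Restriction to a subgroup commutes with the maps induced by `π`. -/
theorem res₂_map (H : Subgroup G) (ξ : groupCohomology A 2) :
    res₂ B H ((groupCohomology.map (MonoidHom.id G) π 2).hom ξ) =
      (cohRes π H 2).hom (res₂ A H ξ) := by
  have h1 : groupCohomology.map (MonoidHom.id G) π 2 ≫ res₂ B H =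
      groupCohomology.map H.subtype ((Rep.resFunctor H.subtype).map π) 2 := by
    rw [← groupCohomology.map_comp]
    congr 1
  have h2 : res₂ A H ≫ cohRes π H 2 =
      groupCohomology.map H.subtype ((Rep.resFunctor H.subtype).map π) 2 := by
    rw [← groupCohomology.map_comp]
    congr 1
  have := congr($(h1.trans h2.symm) ξ)
  simpa using this

variable {π} (hπ : CohIso π)

include hπ

/-- **(H-a), part 1**: `H¹(H, A) = 0 → H¹(H, B) = 0`. -/
theorem CohIso.isZero_H1 (H : Subgroup G)
    (h : IsZero (groupCohomology (Rep.res H.subtype A) 1)) :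
    IsZero (groupCohomology (Rep.res H.subtype B) 1) := by
  rw [ModuleCat.isZero_iff_subsingleton] at h ⊢
  exact (hπ H 0).2.subsingleton

/-- `H¹(H, B) = 0 → H¹(H, A) = 0`. -/
theorem CohIso.isZero_H1_symm (H : Subgroup G)
    (h : IsZero (groupCohomology (Rep.res H.subtype B) 1)) :
    IsZero (groupCohomology (Rep.res H.subtype A) 1) := by
  rw [ModuleCat.isZero_iff_subsingleton] at h ⊢
  exact (hπ H 0).1.subsingleton

/-- **(H-a), part 2**: `|H²(H, B)| = |H²(H, A)|`. -/
theorem CohIso.card_H2 (H : Subgroup G) :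
    Nat.card (groupCohomology (Rep.res H.subtype B) 2) =
      Nat.card (groupCohomology (Rep.res H.subtype A) 2) :=
  (Nat.card_congr (Equiv.ofBijective _ (hπ H 1))).symm

theorem CohIso.card_H2_dvd (H : Subgroup G)
    (h : Nat.card (groupCohomology (Rep.res H.subtype A) 2) ∣ Nat.card H) :
    Nat.card (groupCohomology (Rep.res H.subtype B) 2) ∣ Nat.card H := by
  rwa [hπ.card_H2 H]

/-- **(H-b)**: a class all of whose restrictions have maximal order is mapped to such a class. -/
theorem CohIso.ord (ξ : groupCohomology A 2)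
    (hξ : ∀ (H : Subgroup G) (r : k), r • res₂ A H ξ = 0 → ((Nat.card H : ℕ) : k) ∣ r)
    (H : Subgroup G) (r : k)
    (hr : r • res₂ B H ((groupCohomology.map (MonoidHom.id G) π 2).hom ξ) = 0) :
    ((Nat.card H : ℕ) : k) ∣ r := by
  apply hξ H r
  apply (hπ H 1).1
  rw [map_smul, map_zero, ← res₂_map]
  exact hr

/-- **Class modules transfer along a `CohIso`.** -/
theorem CohIso.isClassModule {φ : cocycles₂ A} {φ' : cocycles₂ B}
    (hφ : H2π B φ' = (groupCohomology.map (MonoidHom.id G) π 2).hom (H2π A φ))
    (hA : IsClassModule A φ) : IsClassModule B φ' where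
  h1 := fun H => hπ.isZero_H1 H (hA.h1 H)
  hgen := fun H y => by
    obtain ⟨x, rfl⟩ := (hπ H 1).2 y
    obtain ⟨r, hr⟩ := hA.hgen H x
    refine ⟨r, ?_⟩
    rw [resPhi_eq, hφ, res₂_map, ← resPhi_eq, ← map_smul, ← hr]
  hord := fun H r hr => by
    rw [resPhi_eq, hφ] at hr
    have := hπ.ord (H2π A φ) (fun H' r' hr' => hA.hord H' r' (by rwa [resPhi_eq])) H r hr
    exact this

/-- Existential form of `CohIso.isClassModule`. -/
theorem CohIso.exists_isClassModule {φ : cocycles₂ A} (hA : IsClassModule A φ) :
    ∃ φ' : cocycles₂ B,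
      H2π B φ' = (groupCohomology.map (MonoidHom.id G) π 2).hom (H2π A φ) ∧
        IsClassModule B φ' := by
  generalize hu : (groupCohomology.map (MonoidHom.id G) π 2).hom (H2π A φ) = u
  induction u using H2_induction_on with | @h φ' =>
  exact ⟨φ', rfl, hπ.isClassModule hu.symm hA⟩

end Transfer

/-! ### Bijectivity on cohomology survives localisation -/

section Localise

open Fermat.Agent.CFT.A7.BaseChange

variable {R k : Type u} [CommRing R] [CommRing k] [Algebra R k] {M : Submonoid R}
variable {G : Type u} [Group G] [Finite G]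
variable {X X' : Rep.{u} R G} {Y Y' : Rep.{u} k G} {f : X.V →+ Y.V} {f' : X'.V →+ Y'.V}

/-- If `a : X ⟶ X'` is bijective on `Hⁿ` and `b : Y ⟶ Y'` is its localisation, then `b` is
bijective on `Hⁿ`. -/
theorem bijective_of_isLocRep (hf : IsLocRep M X Y f) (hf' : IsLocRep M X' Y' f')
    (hM : ∀ s ∈ M, IsUnit (algebraMap R k s)) (a : X ⟶ X') (b : Y ⟶ Y')
    (hab : ∀ x : X.V, f' (a.hom x) = b.hom (f x)) (n : ℕ)
    (ha : Function.Bijective (groupCohomology.map (MonoidHom.id G) a n).hom) :
    Function.Bijective (groupCohomology.map (MonoidHom.id G) b n).hom := by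
  have hnat : ∀ c : groupCohomology X n,
      hf'.locH n ((groupCohomology.map (MonoidHom.id G) a n).hom c) =
        (groupCohomology.map (MonoidHom.id G) b n).hom (hf.locH n c) :=
    fun c => hf.locH_map hf' (MonoidHom.id G) a b hab n c
  constructor
  · rw [injective_iff_map_eq_zero]
    intro y hy
    obtain ⟨s, hs, c, hc⟩ := hf.exists_smul_eq_locH n y
    have h1 : hf'.locH n ((groupCohomology.map (MonoidHom.id G) a n).hom c) = 0 := by
      rw [hnat, ← hc, map_smul, hy, smul_zero]
    obtain ⟨t, ht, htc⟩ := (hf'.locH_eq_zero_iff hM n _).1 h1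
    have h2 : t • c = 0 := by
      apply ha.1
      rw [map_smul, htc, map_zero]
    have h3 : algebraMap R k t • (algebraMap R k s • y) = 0 := by
      rw [hc, ← hf.locH_smul, h2, map_zero]
    obtain ⟨v, hv⟩ := hM s hs
    obtain ⟨w, hw⟩ := hM t ht
    rw [← hv, ← hw] at h3
    have h4 := congrArg (fun c => (↑v⁻¹ : k) • (↑w⁻¹ : k) • c) h3
    simpa [smul_smul] using h4
  · intro z
    obtain ⟨s, hs, c', hc'⟩ := hf'.exists_smul_eq_locH n z
    obtain ⟨c, rfl⟩ := ha.2 c'
    rw [hnat] at hc'
    obtain ⟨v, hv⟩ := hM s hs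
    refine ⟨(↑v⁻¹ : k) • hf.locH n c, ?_⟩
    rw [map_smul, ← hc', ← hv, smul_smul, Units.inv_mul, one_smul]

/-- `CohIso` survives localisation. -/
theorem cohIso_of_isLocRep (hf : IsLocRep M X Y f) (hf' : IsLocRep M X' Y' f')
    (hM : ∀ s ∈ M, IsUnit (algebraMap R k s)) (a : X ⟶ X') (b : Y ⟶ Y')
    (hab : ∀ x : X.V, f' (a.hom x) = b.hom (f x)) (ha : CohIso a) : CohIso b :=
  fun H n => bijective_of_isLocRep (hf.res H.subtype) (hf'.res H.subtype) hM
    ((Rep.resFunctor H.subtype).map a) ((Rep.resFunctor H.subtype).map b) hab (n + 1) (ha H n)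

end Localise

/-! ### The concrete statement: `C_L → C_S(L)` -/

section Concrete

open Fermat.Agent.CFT.Idele Fermat.Agent.CFT.C7.USCohTrivial Fermat.Agent.CFT.A7.BaseChange

variable {L : Type} [Field L] [NumberField L] {G : Type} [Group G] [Finite G]
  (φ : G →* (L ≃ₐ[ℚ] L)) {S : Set Nat.Primes}

variable (S) in
/-- The quotient map `C_L → C_S(L)` as a morphism of representations of `G`. -/
abbrev toCS : Rep.res φ (repC L) ⟶ Rep.res φ (repCS L S) :=
  (Rep.resFunctor φ).map (usSC L S).g

omit [Finite G] in
theorem toCS_apply (c : Additive (C L)) :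
    (toCS φ S).hom c = Additive.ofMul (C.toCS L S c.toMul) := rfl

/-- **`ℤ`-level**: `C_L → C_S(L)` is bijective on the positive-degree cohomology of every subgroup
of `G`, if `G` acts with trivial inertia above every `q ∉ S`. -/
theorem cohIso_usSC (hS : S.Nonempty) (h : ∀ q ∉ S, TrivialInertiaAt φ q) :
    CohIso (toCS φ S) :=
  cohIso_of_posAcyclic (S := (usSC L S).map (Rep.resFunctor φ))
    ((usSC_shortExact L hS).map_of_exact (Rep.resFunctor φ))
    (posAcyclic_of_isCohTrivial (isCohTrivial_res_repUS φ S h))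

variable {k : Type} [CommRing k] [Algebra ℤ k] {M : Submonoid ℤ}

/-- **`k`-level, model free**: for any localisations `Y` of `C_L` and `Y'` of `C_S(L)` at `M`
(`IsLocRep`), a morphism `b : Y ⟶ Y'` compatible with `C_L → C_S(L)` is bijective on the
positive-degree cohomology of every subgroup of `G`. -/
theorem cohIso_usSC_of_isLocRep (hS : S.Nonempty) (h : ∀ q ∉ S, TrivialInertiaAt φ q)
    (hM : ∀ s ∈ M, IsUnit (algebraMap ℤ k s)) {Y Y' : Rep.{0} k G}
    {f : (Rep.res φ (repC L)).V →+ Y.V} {f' : (Rep.res φ (repCS L S)).V →+ Y'.V}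
    (hf : IsLocRep M (Rep.res φ (repC L)) Y f) (hf' : IsLocRep M (Rep.res φ (repCS L S)) Y' f')
    (b : Y ⟶ Y') (hab : ∀ x, f' ((toCS φ S).hom x) = b.hom (f x)) : CohIso b :=
  cohIso_of_isLocRep hf hf' hM (toCS φ S) b hab (cohIso_usSC φ hS h)

/-- **`k`-level, tensor model**: `k ⊗ C_L → k ⊗ C_S(L)` is bijective on the positive-degree
cohomology of every subgroup of `G`, for `k` a localisation of `ℤ`. -/
theorem cohIso_usSC_tensor [IsLocalization M k] (hS : S.Nonempty)
    (h : ∀ q ∉ S, TrivialInertiaAt φ q) : CohIso (tensorMap k (toCS φ S)) :=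
  cohIso_usSC_of_isLocRep φ hS h (fun s hs => IsLocalization.map_units k ⟨s, hs⟩)
    (isLocRep_tensorRep M _) (isLocRep_tensorRep M _) (tensorMap k (toCS φ S))
    (tensorMap_toTensorRep k (toCS φ S))

end Concrete

end Fermat.Agent.CFT.C7.CSTransfer
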