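import Mathlib
import Fermat.Agent.CFT.C7.CSTransfer
import Fermat.Agent.CFT.A7.BaseChangeLift

/-!
# PROJECT C, slice C7-CF (transfer), model-free packaging

Companion of `C7/CSTransfer`: for ARBITRARY models `Y` of `C_L ⊗ k` and `Y'` of `C_S(L) ⊗ k`
(`A7.BaseChange.IsLocRep`, `k` a localisation of `ℤ`), the comparison morphism `Y ⟶ Y'` is
constructed by the universal property of localisation (`A7/BaseChangeLift`), it is bijective on the
positive-degree cohomology of every subgroup, and class-module structures transfer along it.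
-/

set_option autoImplicit false

noncomputable section

namespace Fermat.Agent.CFT.C7.CSTransfer

open CategoryTheory groupCohomology Fermat.Agent.CFT.Idele Fermat.Agent.CFT.C7.USCohTrivial
  Fermat.Agent.CFT.A7.BaseChange Fermat.Agent.CFT.A5.Tate Fermat.Agent.CFT.InfRes2

variable {L : Type} [Field L] [NumberField L] {G : Type} [Group G] [Finite G]
  (φ : G →* (L ≃ₐ[ℚ] L)) {S : Set Nat.Primes}
variable {k : Type} [CommRing k] [Algebra ℤ k] {M : Submonoid ℤ} [IsLocalization M k]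
  {Y Y' : Rep.{0} k G}
  {f : (Rep.res φ (repC L)).V →+ Y.V} {f' : (Rep.res φ (repCS L S)).V →+ Y'.V}
  (hf : IsLocRep M (Rep.res φ (repC L)) Y f) (hf' : IsLocRep M (Rep.res φ (repCS L S)) Y' f')

/-- The comparison morphism `C_L ⊗ k ⟶ C_S(L) ⊗ k` between arbitrary models. -/
abbrev toCSk : Y ⟶ Y' := hf.descHom hf' (toCS φ S)

omit [Finite G] in
theorem toCSk_apply (x : (Rep.res φ (repC L)).V) :
    f' ((toCS φ S).hom x) = (toCSk φ hf hf').hom (f x) :=
  hf.descHom_apply hf' (toCS φ S) x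

variable (hS : S.Nonempty) (h : ∀ q ∉ S, TrivialInertiaAt φ q)

include hS h hf hf'

/-- **`Hⁿ(S', C_L ⊗ k) ≅ Hⁿ(S', C_S(L) ⊗ k)` for all `n ≥ 1` and all subgroups `S' ≤ G`**, for
arbitrary models of the two localisations. -/
theorem cohIso_toCSk : CohIso (toCSk φ hf hf') :=
  cohIso_usSC_of_isLocRep φ hS h (fun _ hs => isUnit_algebraMap_of_mem M hs) hf hf'
    (toCSk φ hf hf') (toCSk_apply φ hf hf')

/-- **(H-a)** transfers from `C_L ⊗ k` to `C_S(L) ⊗ k`. -/
theorem ha_CS (S' : Subgroup G)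
    (h1 : Limits.IsZero (groupCohomology (Rep.res S'.subtype Y) 1))
    (h2 : Nat.card (groupCohomology (Rep.res S'.subtype Y) 2) ∣ Nat.card S') :
    Limits.IsZero (groupCohomology (Rep.res S'.subtype Y') 1) ∧
      Nat.card (groupCohomology (Rep.res S'.subtype Y') 2) ∣ Nat.card S' :=
  ⟨(cohIso_toCSk φ hf hf' hS h).isZero_H1 S' h1, (cohIso_toCSk φ hf hf' hS h).card_H2_dvd S' h2⟩

/-- **(H-b)** transfers from `C_L ⊗ k` to `C_S(L) ⊗ k`. -/
theorem hb_CS (ξ : groupCohomology Y 2)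
    (hξ : ∀ (S' : Subgroup G) (r : k), r • res₂ Y S' ξ = 0 → ((Nat.card S' : ℕ) : k) ∣ r) :
    ∃ ξ' : groupCohomology Y' 2,
      ∀ (S' : Subgroup G) (r : k), r • res₂ Y' S' ξ' = 0 → ((Nat.card S' : ℕ) : k) ∣ r :=
  ⟨_, (cohIso_toCSk φ hf hf' hS h).ord ξ hξ⟩

/-- **Class modules** transfer from `C_L ⊗ k` to `C_S(L) ⊗ k`. -/
theorem exists_isClassModule_CS {φ₀ : cocycles₂ Y} (hY : IsClassModule Y φ₀) :
    ∃ φ' : cocycles₂ Y',
      H2π Y' φ' = (groupCohomology.map (MonoidHom.id G) (toCSk φ hf hf') 2).hom (H2π Y φ₀) ∧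
        IsClassModule Y' φ' :=
  (cohIso_toCSk φ hf hf' hS h).exists_isClassModule hY

end Fermat.Agent.CFT.C7.CSTransfer
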