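import Fermat.Agent.CFT.C7.PlaceDict
import Fermat.Agent.CFT.Idele.Global

/-!
# PROJECT C, slice C7b-p: `p`-capitulation of `S`-ideal classes by Kummer theory

An `S`-ideal class of `F ⊂ ℚ_S` whose order `n` is an `S`-number becomes trivial in a finite
extension `F' ⊂ ℚ_S`: if `𝔞 ^ n = (a)` then `F' := F(a ^ (1/n))` is unramified outside `S`
(`n ∣ ord_w a` for `w ∤ S`, and `n` is an `S`-number) and `𝔞 𝓞_{F',S} = (a ^ (1/n))`.
No principal ideal theorem is needed.

* `dvd_log_valuation_of_pow_eq` (idelic, any number field): `x ^ n = a · t`, `t ∈ J_{L,T}` ⇒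
  `n ∣ ord_w a` for all `w ∤ T`;
* `mem_intUnits_of_pow_mem`, `mem_JTsub_of_pow_mem` : `J_{L,T}` is saturated in `J_L`;
* `map_mem_sup_of_root` (idelic): if moreover `f a = y ^ n` in `L' ⊇ L` then the image of `x` in
  `J_{L'}` lies in `L'ˣ · J_{L',T}`, i.e. its `T`-ideal class is trivial;
* `isUnramifiedOutside_adjoin_root_of_dvd` (field step, prelude language): `F` unramified outside
  `S`, `n` an `S`-number, `y ^ n = a ∈ Fˣ`, `n ∣ ord_w a` for all `w ∤ S` ⇒ `F(y)` is unramified
  outside `S`.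
-/

set_option autoImplicit false

open IsDedekindDomain NumberField

namespace Fermat.Agent.CFT.C7.Capitulation

open Fermat.Agent.CFT.Idele Fermat.Agent.CFT.Dict Fermat.Agent.CFT.C3.ClassGen
  Fermat.Agent.CFT.C7.KummerUnram Fermat.Agent.CFT.C7.PlaceDict

/-! ### Idelic part -/

section Idelic

variable {L : Type} [Field L] [NumberField L]

/-- If `x ^ n = a · t` with `t` a unit idele outside `T`, then `n ∣ ord_w a` for `w ∤ T`. -/
theorem dvd_log_valuation_of_pow_eq (T : Set Nat.Primes) {n : ℕ} (x : J L) (a : Lˣ) (t : J L)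
    (ht : t ∈ JTsub L T) (h : x ^ n = diag L a * t) (w : HeightOneSpectrum (𝓞 L))
    (q : Nat.Primes) (hq : (((q : ℕ) : 𝓞 L)) ∈ w.asIdeal) (hqT : q ∉ T) :
    (n : ℤ) ∣ WithZero.log (w.valuation L (a : L)) := by
  set v := primeOverOf w q hq with hv
  have h1 := toAdd_ordAt_diag v a
  rw [primeOverOf_toHeightOneSpectrum] at h1
  have h2 : (diag L a : ∀ q : Nat.Primes, (Loc L q)ˣ) q =
      ((x : ∀ q : Nat.Primes, (Loc L q)ˣ) q) ^ n * ((t : ∀ q : Nat.Primes, (Loc L q)ˣ) q)⁻¹ := by
    have h3 : diag L a = x ^ n * t⁻¹ := by rw [h, mul_inv_cancel_right]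
    rw [h3]
    rfl
  have h4 : v.ordAt ((t : ∀ q : Nat.Primes, (Loc L q)ˣ) q) = 1 :=
    (mem_intUnits_iff_forall_ordAt _).mp ((mem_JTsub L).mp ht q hqT) v
  rw [h2, map_mul, map_pow, map_inv, h4, inv_one, mul_one, toAdd_pow] at h1
  rw [← h1, nsmul_eq_mul]
  exact Dvd.intro _ rfl

/-- Same for an arbitrary `Algebra ℚ L` instance (e.g. `IntermediateField.algebra'`). -/
theorem dvd_log_valuation_of_pow_eq' [inst : Algebra ℚ L] [Algebra.IsAlgebraic ℚ L]
    (T : Set Nat.Primes) {n : ℕ}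
    (x : J L) (a : Lˣ) (t : J L) (ht : t ∈ JTsub L T)
    (h : x ^ n = diag L a * t) (w : HeightOneSpectrum (𝓞 L))
    (q : Nat.Primes) (hq : (((q : ℕ) : 𝓞 L)) ∈ w.asIdeal) (hqT : q ∉ T) :
    (n : ℤ) ∣ WithZero.log (w.valuation L (a : L)) := by
  obtain rfl : inst = DivisionRing.toRatAlgebra := Subsingleton.elim _ _
  exact dvd_log_valuation_of_pow_eq T x a t ht h w q hq hqT

end Idelic

section Saturated

variable {L : Type*} [Field L] [Algebra ℚ L]

/-- The integral units are saturated in `(L ⊗ ℚ_q)ˣ`. -/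
theorem mem_intUnits_of_pow_mem (q : Nat.Primes) {n : ℕ} (hn : n ≠ 0) {u : (Loc L q)ˣ}
    (h : u ^ n ∈ intUnits L q) : u ∈ intUnits L q := by
  let _ := (inclZ L q).toAlgebra
  have key : ∀ z : Loc L q, z ^ n ∈ intRing L q → z ∈ intRing L q := by
    intro z hz
    have hz' : IsIntegral ℤ_[(q : ℕ)] (z ^ n) := hz
    exact (IsIntegral.of_pow (Nat.pos_of_ne_zero hn) hz' : IsIntegral ℤ_[(q : ℕ)] z)
  refine ⟨key _ ?_, key _ ?_⟩
  · have := h.1
    rwa [Units.val_pow_eq_pow_val] at this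
  · have := h.2
    rwa [← inv_pow, Units.val_pow_eq_pow_val] at this

/-- `J_{L,T}` is saturated in `J_L`. -/
theorem mem_JTsub_of_pow_mem (T : Set Nat.Primes) {n : ℕ} (hn : n ≠ 0) {z : J L}
    (h : z ^ n ∈ JTsub L T) : z ∈ JTsub L T := by
  rw [mem_JTsub] at h ⊢
  intro q hq
  exact mem_intUnits_of_pow_mem q hn (h q hq)

end Saturated

section Root

variable {K L : Type*} [Field K] [Field L] [Algebra ℚ K] [Algebra ℚ L]
  [Algebra.IsAlgebraic ℚ K] [Algebra.IsAlgebraic ℚ L]

/-- **Capitulation, idelic form.** If `x ^ n = a · t` with `t ∈ J_{K,T}` and `a` becomes an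
`n`-th power `y ^ n` in `L`, then the image of `x` in `J_L` lies in `Lˣ · J_{L,T}`. -/
theorem map_mem_sup_of_root (f : K →ₐ[ℚ] L) (T : Set Nat.Primes) {n : ℕ} (hn : n ≠ 0)
    (x : J K) (a : Kˣ) (t : J K) (ht : t ∈ JTsub K T) (h : x ^ n = diag K a * t)
    (y : Lˣ) (hy : y ^ n = Units.map (f : K →* L) a) :
    J.map f x ∈ (diag L).range ⊔ JTsub L T := by
  have h1 : (J.map f x / diag L y) ^ n = J.map f t := by
    rw [div_pow, ← map_pow, ← map_pow, h, map_mul, J.map_diag, hy, mul_div_cancel_left]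
  have h2 : J.map f x / diag L y ∈ JTsub L T :=
    mem_JTsub_of_pow_mem T hn (by rw [h1]; exact (J.map_mem_JTsub_iff f t).mpr ht)
  have h3 : J.map f x = diag L y * (J.map f x / diag L y) := by rw [mul_div_cancel]
  rw [h3]
  exact Subgroup.mul_mem_sup ⟨y, rfl⟩ h2

end Root

/-! ### Field step -/

section Field

local notation "Qbar" => AlgebraicClosure ℚ

variable {S : Finset Nat.Primes}

/-- **Capitulation, field step.** Adjoining an `n`-th root of `a ∈ Fˣ` with `n ∣ ord_w a` at all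
places `w` of `F` not above `S` keeps the field unramified outside `S` (`n` an `S`-number). -/
theorem isUnramifiedOutside_adjoin_root_of_dvd (F : IntermediateField ℚ Qbar) [NumberField F]
    (hF : F.IsUnramifiedOutside S) {n : ℕ} (hn : IsSNat S n) {a : F} (ha : a ≠ 0) {y : Qbar}
    (hy : y ^ n = algebraMap F Qbar a)
    (hdiv : ∀ w : HeightOneSpectrum (𝓞 F), natPrime F w ∉ S →
      (n : ℤ) ∣ WithZero.log (w.valuation F a)) :
    (F ⊔ IntermediateField.adjoin ℚ {y}).IsUnramifiedOutside S := by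
  refine isUnramifiedOutside_adjoin_root hF hn (by rw [hy]; exact a.2) fun q hq A hA => ?_
  set w := placeOf (algebraMap F Qbar) q.2.ne_zero hA with hw
  have hwq : natPrime F w ∉ S := by rwa [hw, natPrime_placeOf]
  obtain ⟨m, hm⟩ := hdiv w hwq
  obtain ⟨π, hπ⟩ := w.valuation_exists_uniformizer F
  have hπ0 : π ≠ 0 := by
    rintro rfl
    rw [map_zero] at hπ
    exact WithZero.exp_ne_zero hπ.symm
  set z : F := π ^ (-m) with hz
  have hwa0 : w.valuation F a ≠ 0 := by rwa [Ne, map_eq_zero]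
  have hzn : w.valuation F (z ^ n) = w.valuation F a := by
    rw [map_pow, hz, map_zpow₀, hπ, ← WithZero.exp_zsmul, ← WithZero.exp_nsmul,
      ← WithZero.exp_log hwa0, hm]
    congr 1
    simp only [smul_eq_mul, nsmul_eq_mul]
    ring
  have h1 : A.valuation (algebraMap F Qbar (z ^ n)) = A.valuation (algebraMap F Qbar a) :=
    (valuation_placeOf_eq_iff (algebraMap F Qbar) q.2.ne_zero hA _ _).mp hzn
  rw [← hy, map_pow, map_pow, map_pow] at h1
  refine ⟨algebraMap F Qbar z, z.2, ?_⟩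
  exact ((pow_left_inj₀ zero_le zero_le hn.1).mp h1).symm

end Field

/-! ### The combined statement inside `AlgebraicClosure ℚ` -/

section Combined

local notation "Qbar" => AlgebraicClosure ℚ

attribute [local instance 2000] IntermediateField.algebra'

variable {S : Finset Nat.Primes}

/-- **`p`-capitulation in `ℚ_S`.** Let `F ⊂ AlgebraicClosure ℚ` be unramified outside `S` and `x` an
idele of `F` whose `n`-th power (`n` an `S`-number) is principal modulo `J_{F,S}` (i.e. the
`S`-ideal class of `x` is killed by `n`). Then there is a finite `F' ⊇ F`, still unramified outside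
`S`, in which `x` itself is principal modulo `J_{F',S}`. -/
theorem exists_isUnramifiedOutside_map_mem_sup (F : IntermediateField ℚ Qbar)
    (hF : F.IsUnramifiedOutside S) {n : ℕ} (hn : IsSNat S n) (x : J F)
    (hx : x ^ n ∈ (diag F).range ⊔ JTsub F (S : Set Nat.Primes)) :
    ∃ (F' : IntermediateField ℚ Qbar) (hle : F ≤ F'), F'.IsUnramifiedOutside S ∧
      J.map (IntermediateField.inclusion hle) x ∈
        (diag F').range ⊔ JTsub F' (S : Set Nat.Primes) := by
  have := hF.1
  have := numberField_of_finiteDimensional F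
  obtain ⟨_, ⟨a, rfl⟩, t, ht, h⟩ := Subgroup.mem_sup.mp hx
  obtain ⟨y, hy⟩ := IsAlgClosed.exists_pow_nat_eq (algebraMap F Qbar (a : F))
    (Nat.pos_of_ne_zero hn.1)
  have hdiv : ∀ w : HeightOneSpectrum (𝓞 F), natPrime F w ∉ S →
      (n : ℤ) ∣ WithZero.log (w.valuation F (a : F)) := fun w hw =>
    dvd_log_valuation_of_pow_eq' (S : Set Nat.Primes) x a t ht h.symm w (natPrime F w)
      (natPrime_mem F w) (fun h' => hw (Finset.mem_coe.mp h'))
  have hF' := isUnramifiedOutside_adjoin_root_of_dvd F hF hn a.ne_zero hy hdiv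
  have hle : F ≤ F ⊔ IntermediateField.adjoin ℚ {y} := le_sup_left
  have hyF' : y ∈ F ⊔ IntermediateField.adjoin ℚ {y} :=
    (le_sup_right : IntermediateField.adjoin ℚ {y} ≤ _)
      (IntermediateField.mem_adjoin_simple_self ℚ y)
  have hy0 : y ≠ 0 := by
    rintro rfl
    rw [zero_pow hn.1] at hy
    exact a.ne_zero ((map_eq_zero _).mp hy.symm)
  refine ⟨_, hle, hF', ?_⟩
  refine map_mem_sup_of_root (IntermediateField.inclusion hle) (S : Set Nat.Primes) hn.1 x a t ht
    h.symm (Units.mk0 ⟨y, hyF'⟩ (fun h0 => hy0 (congrArg Subtype.val h0))) ?_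
  ext
  exact hy

end Combined

end Fermat.Agent.CFT.C7.Capitulation
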