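import Mathlib
import Fermat.Agent.CFT.C6.SplitIdem
import Fermat.Agent.CFT.C6.IdeleNorm
import Fermat.Agent.CFT.Kummer.Classify
import Fermat.Agent.CFT.Idele.SIdele
import Fermat.Agent.CFT.C7.ExistCount

/-!
# PROJECT C, slice C7, (N3) step (F2): the `S`-split Kummer layer `K(B_S^{1/p})`

`K ∋ ζ_n` a number field, `L/K` a finite abelian extension of exponent dividing `n`
(`L = K(Δ^{1/n})`, `Δ = powFrom K L n = Kˣ ∩ Lˣⁿ`, helper2's `Kummer/Classify`).

* `apply_eq_of_smul_eq_of_local_pow` : one radical: if `α ^ n = a ∈ K` and `a` is an `n`-th power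
  in `K ⊗ ℚ_q`, every `σ ∈ Gal(L/K)` fixing a prime `W | q` of `L` fixes `α`
  (`θ = α / γ` is an `n`-th root of unity of `L ⊗ ℚ_q`; its `W`-component is a power of `ζ`);
* **`splitsCompletely_of_powFrom_local`** : if every `a ∈ Δ` is an `n`-th power in `K ⊗ ℚ_q`, then
  `q` splits completely in `L/K` (`C5.NonSplit.SplitsCompletely`, via helper12's
  `SplitIdem.splitsCompletely_of_trivial_stabilizer`) - multi-generator, no compositum argument;
* `JS_le_range_normJ` : if all `q ∈ S` split completely in `L/K`, every idele of `K` supported in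
  `S` is the norm of an idele of `L` (helper29's `exists_local_norm_of_split`);
* the instance `Δ ≤ B_S` (helper22's `ExistCount.BS`): `splitsCompletely_of_powFrom_le_BS`,
  `JS_le_range_normJ_of_powFrom_le_BS`.
-/

set_option autoImplicit false

open scoped TensorProduct NumberField Pointwise Fermat.Agent.CFT.Idele

open Fermat.Agent.CFT.Idele Fermat.Agent.CFT.Dict Fermat.Agent.CFT.C5.NonSplit
  Fermat.Agent.CFT.C6.SplitIdem Fermat.Agent.CFT.C6.IdeleNorm Fermat.Agent.CFT.Kummer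
  Fermat.Agent.CFT.C7.ExistCount

noncomputable section

namespace Fermat.Agent.CFT.C7.KummerSplitS

variable {K L : Type} [Field K] [NumberField K] [Field L] [NumberField L] [Algebra K L]

/-- **One radical.**  `α ∈ L` with `α ^ n = a ∈ K`, `a` an `n`-th power in `K ⊗ ℚ_q`, `ζ ∈ K` a
primitive `n`-th root of unity: an element of `Gal(L/K)` fixing a prime `W` of `L` over `q`
fixes `α`. -/
theorem apply_eq_of_smul_eq_of_local_pow {n : ℕ} [NeZero n] {ζ : K} (hζ : IsPrimitiveRoot ζ n)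
    {q : Nat.Primes} {a : K} {α : L} (hα : α ^ n = algebraMap K L a) (ha : a ≠ 0)
    {γ : (Loc K q)ˣ} (hγ : (γ : Loc K q) ^ n = inclL K q a)
    (W : PrimeOver (q : ℕ) (𝓞 L)) (σ : L ≃ₐ[K] L) (hσ : (σ.restrictScalars ℚ) • W = W) :
    σ α = α := by
  have hα0 : α ≠ 0 := by
    rintro rfl
    rw [zero_pow (NeZero.ne n)] at hα
    exact ha ((algebraMap K L).injective (by rw [← hα, map_zero]))
  set τ : L ≃ₐ[ℚ] L := σ.restrictScalars ℚ with hτ
  -- `θ = α / γ`, an `n`-th root of unity of `L ⊗ ℚ_q`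
  set Γ : (Loc L q)ˣ := Units.map (Loc.map q (inclHom K L) : Loc K q →* Loc L q) γ with hΓ
  set θ : Loc L q := inclL L q α * ((Γ⁻¹ : (Loc L q)ˣ) : Loc L q) with hθ
  have hΓn : (Γ : Loc L q) ^ n = inclL L q (algebraMap K L a) := by
    rw [hΓ, Units.coe_map, MonoidHom.coe_coe, ← map_pow, hγ, Loc.map_inclL]
    rfl
  have hθn : θ ^ n = 1 := by
    rw [hθ, mul_pow, ← map_pow, hα, ← hΓn, ← Units.val_pow_eq_pow_val, ← Units.val_pow_eq_pow_val,
      inv_pow, Units.mul_inv]
  -- the action of `σ` on `θ`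
  have hσΓ : Loc.aut L q τ ((Γ⁻¹ : (Loc L q)ˣ) : Loc L q) = ((Γ⁻¹ : (Loc L q)ˣ) : Loc L q) := by
    have h1 : ((Γ⁻¹ : (Loc L q)ˣ) : Loc L q)
        = Loc.map q (inclHom K L) ((γ⁻¹ : (Loc K q)ˣ) : Loc K q) := by
      rw [hΓ, ← map_inv]
      rfl
    rw [h1]
    exact Loc.aut_map_of_fixes q (inclHom K L) τ (fun b => σ.commutes b) _
  have hσθ : Loc.aut L q τ θ = inclL L q (σ α) * ((Γ⁻¹ : (Loc L q)ˣ) : Loc L q) := by
    rw [hθ, map_mul, hσΓ, Loc.aut_inclL]
    rfl
  -- the `W`-component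
  set π : Loc L q →+* W.Kv := W.locToKv with hπ
  have hπinj : Function.Injective (π.comp (inclL L q)) := W.locToKv_comp_inclL_injective
  set z : W.Kv := π (inclL L q (algebraMap K L ζ)) with hz
  have hzprim : IsPrimitiveRoot z n := by
    have h1 : IsPrimitiveRoot (algebraMap K L ζ) n :=
      hζ.map_of_injective (algebraMap K L).injective
    exact h1.map_of_injective hπinj
  have htn : π θ ^ n = 1 := by rw [← map_pow, hθn, map_one]
  obtain ⟨j, -, hj⟩ := hzprim.eq_pow_of_pow_eq_one htn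
  -- `θ - ζ ^ j` is killed by the idempotent of `W`
  have hkill : (θ - inclL L q (algebraMap K L ζ) ^ j) * primeIdem W = 0 := by
    rw [mul_primeIdem_eq_zero_iff, map_sub, map_pow, ← hz, hj, sub_self]
  -- apply `σ`
  have hkill' : (Loc.aut L q τ θ - inclL L q (algebraMap K L ζ) ^ j) * primeIdem W = 0 := by
    have h1 := congrArg (Loc.aut L q τ) hkill
    rw [map_mul, map_zero, aut_primeIdem, hσ, map_sub, map_pow, Loc.aut_inclL] at h1
    have h2 : τ (algebraMap K L ζ) = algebraMap K L ζ := σ.commutes ζ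
    rwa [h2] at h1
  rw [mul_primeIdem_eq_zero_iff, map_sub, map_pow, ← hz, hj, sub_eq_zero] at hkill'
  -- compare
  have hc : π (inclL L q (σ α)) = π (inclL L q α) := by
    have h1 : π (Loc.aut L q τ θ) = π θ := hkill'
    rw [hσθ, hθ, map_mul, map_mul] at h1
    have hu : IsUnit (π ((Γ⁻¹ : (Loc L q)ˣ) : Loc L q)) := (Γ⁻¹).isUnit.map π
    exact hu.mul_left_injective h1
  exact hπinj hc

/-- **(F2) core.**  `K ∋ ζ_n`, `L/K` finite abelian of exponent dividing `n`; if every element of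
`Kˣ` which becomes an `n`-th power in `L` is an `n`-th power in `K ⊗ ℚ_q`, then `q` splits
completely in `L/K`. -/
theorem splitsCompletely_of_powFrom_local [IsGalois K L] {n : ℕ} [NeZero n]
    (hζ : (primitiveRoots n K).Nonempty)
    (hcomm : ∀ σ τ : L ≃ₐ[K] L, σ * τ = τ * σ) (hexp : ∀ σ : L ≃ₐ[K] L, σ ^ n = 1)
    (q : Nat.Primes)
    (hloc : ∀ a ∈ powFrom K L n, ∃ γ : (Loc K q)ˣ, (γ : Loc K q) ^ n = inclL K q ((a : Kˣ) : K)) :
    SplitsCompletely K L q := by
  have hζ0 := hζ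
  obtain ⟨ζ, hζ'⟩ := hζ
  rw [mem_primitiveRoots (NeZero.pos n)] at hζ'
  refine splitsCompletely_of_trivial_stabilizer fun W σ hσ => ?_
  have hfix : ∀ x : radicals K L n, kum hζ0 x σ = 1 := by
    intro x
    obtain ⟨a, ha⟩ := x.2
    have ha' : ((x : Lˣ) : L) ^ n = algebraMap K L ((a : Kˣ) : K) := by
      have := congrArg Units.val ha
      simpa [unitsMap] using this.symm
    have hmem : a ∈ powFrom K L n := ⟨(x : Lˣ), ha.symm⟩
    obtain ⟨γ, hγ⟩ := hloc a hmem
    have h1 := apply_eq_of_smul_eq_of_local_pow hζ' ha' a.ne_zero hγ W σ hσ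
    rw [kum_apply, div_eq_one]
    apply Units.ext
    simpa [AlgEquiv.smul_units_def] using h1
  ext y
  have hy : y ∈ IntermediateField.adjoin K (((↑) : Lˣ → L) '' (radicals K L n : Set Lˣ)) := by
    rw [adjoin_radicals_eq_top hζ0 hcomm hexp]
    trivial
  exact apply_eq_of_kum_eq_one hζ0 hfix hy

/-! ### Consequence for norms -/

/-- if every prime of `S` splits completely in `L/K`, every idele of `K` supported in `S` is a norm
from `L` -/
theorem JS_le_range_normJ [IsGalois K L] (S : Set Nat.Primes)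
    (hS : ∀ q ∈ S, SplitsCompletely K L q) : JS K S ≤ (normJ K L).range := by
  classical
  intro x hx
  set xK : ∀ q : Nat.Primes, (Loc K q)ˣ := (x : ∀ q : Nat.Primes, (Loc K q)ˣ) with hxK
  have hloc : ∀ q : Nat.Primes, ∃ y : (Loc L q)ˣ,
      (xK q ∈ intUnits K q → y ∈ intUnits L q) ∧
        ∏ σ : L ≃ₐ[K] L, autUnits (galHom K L σ) q y = locUp (L := L) q (xK q) := by
    intro q
    by_cases hq : q ∈ S
    · exact exists_local_norm_of_split (hS q hq) (xK q)
    · refine ⟨1, fun _ => (intUnits L q).one_mem, ?_⟩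
      have h1 : xK q = 1 := (mem_JS.mp hx) q hq
      rw [h1]
      simp
  choose y hy1 hy2 using hloc
  have hyJ : y ∈ J L := by
    rw [mem_J]
    have hx2 : {q | xK q ∉ intUnits K q}.Finite := x.2
    refine hx2.subset ?_
    intro q hq
    by_contra hcon
    exact hq (hy1 q (not_not.mp hcon))
  refine ⟨⟨y, hyJ⟩, ?_⟩
  apply normJ_eq_of_forall
  intro q
  have h := congrArg Units.val (hy2 q)
  rw [Units.coe_prod] at h
  rw [← show ((locUp (L := L) q (xK q) : (Loc L q)ˣ) : Loc L q)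
    = Loc.map q (inclHom K L) ((xK q : (Loc K q)ˣ) : Loc K q) from rfl, ← h]
  exact Finset.prod_congr rfl fun σ _ => (autUnits_apply _ _ _).symm

/-! ### The layer `K(B_S^{1/p})` -/

/-- **(F2)**: if the Kummer radical group of `L/K` lies in `B_S`, every `q ∈ S` splits completely
in `L/K`. -/
theorem splitsCompletely_of_powFrom_le_BS [IsGalois K L] {p : ℕ} [NeZero p]
    (hζ : (primitiveRoots p K).Nonempty)
    (hcomm : ∀ σ τ : L ≃ₐ[K] L, σ * τ = τ * σ) (hexp : ∀ σ : L ≃ₐ[K] L, σ ^ p = 1)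
    {S : Set Nat.Primes} (hpow : powFrom K L p ≤ BS K S p) {q : Nat.Primes} (hq : q ∈ S) :
    SplitsCompletely K L q :=
  splitsCompletely_of_powFrom_local hζ hcomm hexp q fun _ ha =>
    exists_pow_eq_inclL_of_mem_BS (hpow ha) hq

/-- **(F2), norm form**: if the Kummer radical group of `L/K` lies in `B_S`, every idele of `K`
supported in `S` is the norm of an idele of `L`. -/
theorem JS_le_range_normJ_of_powFrom_le_BS [IsGalois K L] {p : ℕ} [NeZero p]
    (hζ : (primitiveRoots p K).Nonempty)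
    (hcomm : ∀ σ τ : L ≃ₐ[K] L, σ * τ = τ * σ) (hexp : ∀ σ : L ≃ₐ[K] L, σ ^ p = 1)
    {S : Set Nat.Primes} (hpow : powFrom K L p ≤ BS K S p) :
    JS K S ≤ (normJ K L).range :=
  JS_le_range_normJ S fun _ hq => splitsCompletely_of_powFrom_le_BS hζ hcomm hexp hpow hq

/-- element form -/
theorem exists_normJ_eq_of_mem_JS [IsGalois K L] {p : ℕ} [NeZero p]
    (hζ : (primitiveRoots p K).Nonempty)
    (hcomm : ∀ σ τ : L ≃ₐ[K] L, σ * τ = τ * σ) (hexp : ∀ σ : L ≃ₐ[K] L, σ ^ p = 1)
    {S : Set Nat.Primes} (hpow : powFrom K L p ≤ BS K S p) (x : J K) (hx : x ∈ JS K S) :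
    ∃ y : J L, normJ K L y = x :=
  JS_le_range_normJ_of_powFrom_le_BS hζ hcomm hexp hpow hx

end Fermat.Agent.CFT.C7.KummerSplitS
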