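/-
PROJECT C, (N3) route of record (#920/#955), slice (hF2), concrete half (helper24).

`K` a number field containing `ζ_p` (`p` odd, `p ∈ S`), `(G, 𝒰, C)` a class formation over `k`
(the localisation of `ℤ` prime to `p`), `U₁` the level of `K`, with the layer dictionary at `K`
as a hypothesis: `f₁ : C_S(K) → C^{U₁}` exhibiting `C^{U₁}` as `C_S(K) ⊗ k`.

* `relIndex_BS_le_index` : **(hF2)**.  `L = K(B_S^{1/p})` (a Galois extension of `K`, abelian of
  exponent `p`, with Kummer radical group `≤ B_S`), `U''` its level with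
  `[U₁ : U''] = [B_S : Kˣᵖ]`, and `g₂ : J_L → C^{U''}` compatible with norms.  Then
  `[B_S : Kˣᵖ] ≤ |Cl_S(K)/p|` (in helper22's index form).
* `n3_of_dict` : **(N3) at the level of `K`**: if moreover `U'` is a level with `U₁/U'` elementary
  abelian of exponent `p` and `[U₁ : U'] = [W_S : Kˣᵖ]` (`U' ↔ K(W_S^{1/p})`) then
  `Nm_{U₁/U'} C^{U'} ⊆ p C^{U₁}`.
-/
import Mathlib
import Fermat.Agent.CFT.A7.ExistenceF2
import Fermat.Agent.CFT.C7.KummerSplitS

set_option autoImplicit false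

noncomputable section

namespace Fermat.Agent.CFT.C7.ExistF2

open CategoryTheory Fermat.Agent.CFT.LC Fermat.Agent.CFT.A5 Fermat.Agent.CFT.A7
  Fermat.Agent.CFT.D.Realize Fermat.Agent.CFT.A7.ExistenceP Fermat.Agent.CFT.A7.ExistenceF2
  Fermat.Agent.CFT.Idele Fermat.Agent.CFT.C6.IdeleNorm Fermat.Agent.CFT.Kummer
  Fermat.Agent.CFT.C7.ExistCount Fermat.Agent.CFT.C7.KummerSplitS Fermat.Agent.CFT.C5.CountS

variable {K : Type} [Field K] [NumberField K] (P : Nat.Primes) (S : Finset Nat.Primes)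

/-- `K^× U_S · J_S J^p = K^× · (J_{K,S} J^p)`. -/
theorem sup_sup_eq (p : ℕ) :
    ((diag K).range ⊔ US K (S : Set Nat.Primes)) ⊔
        (JS K (S : Set Nat.Primes) ⊔ Pw (J K) p) =
      (diag K).range ⊔ (JTsub K (S : Set Nat.Primes) ⊔ Pw (J K) p) := by
  rw [← JS_sup_US]
  apply le_antisymm
  · refine sup_le (sup_le le_sup_left ?_) (sup_le ?_ ?_)
    · exact (le_sup_right.trans le_sup_left).trans le_sup_right
    · exact (le_sup_left.trans le_sup_left).trans le_sup_right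
    · exact le_sup_right.trans le_sup_right
  · refine sup_le (le_sup_left.trans le_sup_left) (sup_le (sup_le ?_ ?_) ?_)
    · exact le_sup_left.trans le_sup_right
    · exact le_sup_right.trans le_sup_left
    · exact le_sup_right.trans le_sup_right

theorem index_sup_JTsub_sup_ne_zero (p : ℕ) :
    ((diag K).range ⊔ (JTsub K (S : Set Nat.Primes) ⊔ Pw (J K) p)).index ≠ 0 := by
  have hle : (diag K).range ⊔ JTsub K (S : Set Nat.Primes) ≤
      (diag K).range ⊔ (JTsub K (S : Set Nat.Primes) ⊔ Pw (J K) p) :=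
    sup_le_sup_left le_sup_left _
  exact ne_zero_of_dvd_ne_zero (index_sup_JTsub_ne_zero _) (Subgroup.index_dvd_of_le hle)

variable {k G : Type} [CommRing k] [IsDomain k] [CharZero k] [Group G] {𝒰 : Levels G}
  {C : Rep.{0} k G}

/-- **(hF2)** from the class formation and the layer dictionary. -/
theorem relIndex_BS_le_index (cf : ClassFormation 𝒰 C) (hR : AddHomsLinear k)
    (σ : k →+* ZMod (P : ℕ))
    (U₁ U'' : Subgroup G) [U''.Normal] (hU'' : U'' ∈ 𝒰.sets) (hle : U'' ≤ U₁)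
    [Fintype (layerSub U₁ U'')]
    (hcomm : ∀ a b : layerSub U₁ U'', a * b = b * a)
    (hexp : ∀ a : layerSub U₁ U'', a ^ (P : ℕ) = 1)
    {L : Type} [Field L] [NumberField L] [Algebra K L] [IsGalois K L]
    (hζ : (primitiveRoots (P : ℕ) K).Nonempty)
    (hcommL : ∀ s t : L ≃ₐ[K] L, s * t = t * s) (hexpL : ∀ s : L ≃ₐ[K] L, s ^ (P : ℕ) = 1)
    (hpow : powFrom K L (P : ℕ) ≤ BS K (S : Set Nat.Primes) (P : ℕ))
    (hcard : Nat.card (layerSub U₁ U'') =
      ((powMonoidHom (P : ℕ) : Kˣ →* Kˣ).range).relIndex (BS K (S : Set Nat.Primes) (P : ℕ)))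
    (f₁ : Additive (CS K (S : Set Nat.Primes)) →+
      Representation.invariants (C.ρ.comp U₁.subtype))
    (hf₁ : IsLocAt (P : ℕ) k f₁)
    (g₂ : J L → (C.quotientToInvariants U'').V)
    (hnorm : ∀ x' : J L, ((∑ h : layerSub U₁ U'', (C.quotientToInvariants U'').ρ (h : G ⧸ U'')
        (g₂ x') : (C.quotientToInvariants U'').V) : C.V) =
      (f₁ (Additive.ofMul (toCS K (S : Set Nat.Primes) (normJ K L x'))) : C.V)) :
    ((powMonoidHom (P : ℕ) : Kˣ →* Kˣ).range).relIndex (BS K (S : Set Nat.Primes) (P : ℕ)) ≤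
      ((diag K).range ⊔ (JTsub K (S : Set Nat.Primes) ⊔ Pw (J K) (P : ℕ))).index := by
  have : NeZero (P : ℕ) := ⟨P.2.ne_zero⟩
  rw [← hcard, ← sup_sup_eq S (P : ℕ)]
  refine ClassFormation.card_layerSub_le_index_of_norm cf hR U₁ U'' hU'' hle (P : ℕ) σ hcomm hexp
    (normJ K L) ((diag K).range ⊔ US K (S : Set Nat.Primes)) f₁ hf₁ g₂ hnorm
    (JS K (S : Set Nat.Primes))
    (JS_le_range_normJ_of_powFrom_le_BS hζ hcommL hexpL hpow) ?_
  rw [sup_sup_eq S (P : ℕ)]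
  exact index_sup_JTsub_sup_ne_zero S (P : ℕ)

/-- **(N3) at the level of `K`** from the class formation, the two Kummer layers
`K(W_S^{1/p}) ↔ U'`, `K(B_S^{1/p}) ↔ U''` and the layer dictionary. -/
theorem n3_of_dict (hP2 : (P : ℕ) ≠ 2) {ζ : K} (hζ : IsPrimitiveRoot ζ (P : ℕ)) (hPS : P ∈ S)
    (cf : ClassFormation 𝒰 C) (hR : AddHomsLinear k) (σ : k →+* ZMod (P : ℕ))
    (U₁ U' U'' : Subgroup G) [U'.Normal] [U''.Normal] (hU' : U' ∈ 𝒰.sets) (hU'' : U'' ∈ 𝒰.sets)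
    (hle' : U' ≤ U₁) (hle'' : U'' ≤ U₁)
    [Fintype (layerSub U₁ U')] [Fintype (layerSub U₁ U'')]
    (hcomm' : ∀ a b : layerSub U₁ U', a * b = b * a)
    (hexp' : ∀ a : layerSub U₁ U', a ^ (P : ℕ) = 1)
    (hcomm'' : ∀ a b : layerSub U₁ U'', a * b = b * a)
    (hexp'' : ∀ a : layerSub U₁ U'', a ^ (P : ℕ) = 1)
    (hcard' : Nat.card (layerSub U₁ U') =
      ((powMonoidHom (P : ℕ) : Kˣ →* Kˣ).range).relIndex (WS K (S : Set Nat.Primes) (P : ℕ)))
    {L : Type} [Field L] [NumberField L] [Algebra K L] [IsGalois K L]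
    (hcommL : ∀ s t : L ≃ₐ[K] L, s * t = t * s) (hexpL : ∀ s : L ≃ₐ[K] L, s ^ (P : ℕ) = 1)
    (hpow : powFrom K L (P : ℕ) ≤ BS K (S : Set Nat.Primes) (P : ℕ))
    (hcard'' : Nat.card (layerSub U₁ U'') =
      ((powMonoidHom (P : ℕ) : Kˣ →* Kˣ).range).relIndex (BS K (S : Set Nat.Primes) (P : ℕ)))
    (f₁ : Additive (CS K (S : Set Nat.Primes)) →+
      Representation.invariants (C.ρ.comp U₁.subtype))
    (hf₁ : IsLocAt (P : ℕ) k f₁)
    (g₂ : J L → (C.quotientToInvariants U'').V)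
    (hnorm : ∀ x' : J L, ((∑ h : layerSub U₁ U'', (C.quotientToInvariants U'').ρ (h : G ⧸ U'')
        (g₂ x') : (C.quotientToInvariants U'').V) : C.V) =
      (f₁ (Additive.ofMul (toCS K (S : Set Nat.Primes) (normJ K L x'))) : C.V)) :
    N3 C ((P : ℕ) : k) U₁ U' := by
  have hζ' : (primitiveRoots (P : ℕ) K).Nonempty :=
    ⟨ζ, (mem_primitiveRoots P.2.pos).2 hζ⟩
  have hF2 := relIndex_BS_le_index P S cf hR σ U₁ U'' hU'' hle'' hcomm'' hexp'' hζ' hcommL hexpL
    hpow hcard'' f₁ hf₁ g₂ hnorm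
  have hidx := index_le_relIndex_WS K P S hP2 hζ hPS hF2
  have hcs : (PwSub (CS K (S : Set Nat.Primes)) (P : ℕ)).index =
      ((diag K).range ⊔ (US K (S : Set Nat.Primes) ⊔ Pw (J K) (P : ℕ))).index := by
    rw [Subgroup.index_eq_card]
    exact card_CS_quot K (S : Set Nat.Primes) (P : ℕ)
  refine ClassFormation.n3_of_index_le cf hR U₁ U' hU' hle' (P : ℕ) σ hcomm' hexp' f₁ hf₁ ?_ ?_
  · rw [hcs]
    exact (count_aux K P S hP2 hζ hPS).2.2
  · rw [hcs, hcard']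
    exact hidx

end Fermat.Agent.CFT.C7.ExistF2
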