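import Fermat.Agent.CFT.LocalBridge.Conjugacy
import Fermat.Agent.CFT.C3.ClassGen
import Fermat.Agent.CFT.C7.KummerUnram

/-!
# PROJECT C, slice C7c: valuation subrings of a big field ↔ finite places of a number field

`F` a number field, `ι : F →+* Ω` a ring homomorphism into a field, `A : ValuationSubring Ω`
lying over a rational prime `q`.

* `placeOf ι hq hA : HeightOneSpectrum (𝓞 F)` : the centre of `A` on `𝓞 F`;
* `valuation_placeOf_le_one_iff`, `valuation_placeOf_lt_one_iff`, `valuation_placeOf_eq_one_iff`,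
  `isEquiv_placeOf` : the `placeOf`-adic valuation of `F` is equivalent to `A.valuation ∘ ι`;
* `natPrime_placeOf` : the rational prime below `placeOf` is `q`;
* `exists_placeOf_eq` : every finite place of `F` arises from some valuation subring of `Ω`.
-/

set_option autoImplicit false

open IsDedekindDomain NumberField

namespace Fermat.Agent.CFT.C7.PlaceDict

open Fermat.Agent.CFT.LocalBridge Fermat.Agent.CFT.C3.ClassGen

variable {F : Type*} [Field F] [NumberField F] {Ω : Type*} [Field Ω] (ι : F →+* Ω)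

omit [NumberField F] in
/-- Algebraic integers of `F` land in every valuation subring of `Ω`. -/
theorem map_integer_mem (A : ValuationSubring Ω) (x : 𝓞 F) : ι (algebraMap (𝓞 F) F x) ∈ A :=
  isIntegral_int_mem A (map_isIntegral_int ι x.isIntegral_coe)

/-- The centre of a valuation subring of `Ω` on the ring of integers of `F`. -/
def centerIdeal (A : ValuationSubring Ω) : Ideal (𝓞 F) where
  carrier := {x | ι (algebraMap (𝓞 F) F x) ∈ A.nonunits}
  add_mem' := fun {a b} ha hb => by
    change ι (algebraMap (𝓞 F) F (a + b)) ∈ A.nonunits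
    rw [map_add, map_add]
    exact A.nonunits.add_mem ha hb
  zero_mem' := by
    change ι (algebraMap (𝓞 F) F 0) ∈ A.nonunits
    rw [map_zero, map_zero]
    exact A.nonunits.zero_mem
  smul_mem' := fun c b hb => by
    change ι (algebraMap (𝓞 F) F (c * b)) ∈ A.nonunits
    rw [map_mul, map_mul, mul_comm]
    exact mul_mem_nonunits A hb (map_integer_mem ι A c)

omit [NumberField F] in
theorem mem_centerIdeal_iff (A : ValuationSubring Ω) (x : 𝓞 F) :
    x ∈ centerIdeal ι A ↔ ι (algebraMap (𝓞 F) F x) ∈ A.nonunits := Iff.rfl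

omit [NumberField F] in
theorem centerIdeal_isPrime (A : ValuationSubring Ω) : (centerIdeal ι A).IsPrime := by
  refine ⟨?_, ?_⟩
  · intro h
    have : (1 : 𝓞 F) ∈ centerIdeal ι A := h ▸ Submodule.mem_top
    rw [mem_centerIdeal_iff, A.mem_nonunits_iff] at this
    simp at this
  · intro a b hab
    rw [mem_centerIdeal_iff, A.mem_nonunits_iff, map_mul, map_mul, map_mul] at hab
    rw [mem_centerIdeal_iff, mem_centerIdeal_iff, A.mem_nonunits_iff, A.mem_nonunits_iff]
    by_contra hcon
    push Not at hcon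
    have ha : A.valuation (ι (algebraMap (𝓞 F) F a)) = 1 :=
      le_antisymm ((A.valuation_le_one_iff _).mpr (map_integer_mem ι A a)) hcon.1
    have hb : A.valuation (ι (algebraMap (𝓞 F) F b)) = 1 :=
      le_antisymm ((A.valuation_le_one_iff _).mpr (map_integer_mem ι A b)) hcon.2
    rw [ha, hb, one_mul] at hab
    exact lt_irrefl _ hab

variable {ι}

omit [NumberField F] in
theorem natCast_mem_centerIdeal {q : ℕ} {A : ValuationSubring Ω} (hA : A.LiesOverPrime q) :
    ((q : ℕ) : 𝓞 F) ∈ centerIdeal ι A := by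
  rw [mem_centerIdeal_iff]
  have : ι (algebraMap (𝓞 F) F ((q : ℕ) : 𝓞 F)) = (q : Ω) := by
    rw [map_natCast, map_natCast]
  rw [this]
  exact hA

variable (ι)

/-- The finite place of `F` cut out by a valuation subring of `Ω` lying over `q ≠ 0`. -/
def placeOf {q : ℕ} (hq : q ≠ 0) {A : ValuationSubring Ω} (hA : A.LiesOverPrime q) :
    HeightOneSpectrum (𝓞 F) where
  asIdeal := centerIdeal ι A
  isPrime := centerIdeal_isPrime ι A
  ne_bot := by
    intro h
    have h1 : ((q : ℕ) : 𝓞 F) ∈ centerIdeal ι A := natCast_mem_centerIdeal hA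
    rw [h, Ideal.mem_bot] at h1
    exact hq (by exact_mod_cast h1)

variable {q : ℕ} (hq : q ≠ 0) {A : ValuationSubring Ω} (hA : A.LiesOverPrime q)

theorem mem_placeOf_iff (x : 𝓞 F) :
    x ∈ (placeOf ι hq hA).asIdeal ↔ ι (algebraMap (𝓞 F) F x) ∈ A.nonunits := Iff.rfl

theorem natCast_mem_placeOf : ((q : ℕ) : 𝓞 F) ∈ (placeOf ι hq hA).asIdeal :=
  natCast_mem_centerIdeal hA

/-- The rational prime below `placeOf ι hq hA` is `q`. -/
theorem natPrime_placeOf (q : Nat.Primes) {A : ValuationSubring Ω}
    (hA : A.LiesOverPrime (q : ℕ)) : natPrime F (placeOf ι q.2.ne_zero hA) = q :=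
  mem_iff_eq_natPrime.mp (natCast_mem_placeOf ι q.2.ne_zero hA)

/-- Integrality at `placeOf` is membership in `A`. -/
theorem valuation_placeOf_le_one_iff (x : F) :
    (placeOf ι hq hA).valuation F x ≤ 1 ↔ ι x ∈ A := by
  set w := placeOf ι hq hA with hw
  have key : ∀ y : F, w.valuation F y ≤ 1 → ι y ∈ A := by
    intro y hy
    obtain ⟨n, d, hnd⟩ := w.exists_primeCompl_mul_eq_of_integer y hy
    have hdw : ¬ A.valuation (ι (algebraMap (𝓞 F) F (d : 𝓞 F))) < 1 := fun h =>
      d.2 ((mem_placeOf_iff ι hq hA _).mpr ((A.mem_nonunits_iff).mpr h))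
    rw [not_lt] at hdw
    have hd1 : A.valuation (ι (algebraMap (𝓞 F) F (d : 𝓞 F))) = 1 :=
      le_antisymm ((A.valuation_le_one_iff _).mpr (map_integer_mem ι A d)) hdw
    have h1 := congrArg ι hnd
    rw [map_mul] at h1
    rw [← A.valuation_le_one_iff]
    have h2 : A.valuation (ι y) * A.valuation (ι (algebraMap (𝓞 F) F (d : 𝓞 F))) =
        A.valuation (ι (algebraMap (𝓞 F) F n)) := by
      rw [← map_mul]; exact congrArg _ h1
    rw [hd1, mul_one] at h2
    rw [h2]
    exact (A.valuation_le_one_iff _).mpr (map_integer_mem ι A n)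
  have key' : ∀ y : F, w.valuation F y < 1 → ι y ∈ A.nonunits := by
    intro y hy
    obtain ⟨n, d, hnd⟩ := w.exists_primeCompl_mul_eq_of_integer y hy.le
    have hdw' : (d : 𝓞 F) ∉ w.asIdeal := d.2
    have hdw : ¬ A.valuation (ι (algebraMap (𝓞 F) F (d : 𝓞 F))) < 1 := fun h =>
      d.2 ((mem_placeOf_iff ι hq hA _).mpr ((A.mem_nonunits_iff).mpr h))
    rw [not_lt] at hdw
    have hd1 : A.valuation (ι (algebraMap (𝓞 F) F (d : 𝓞 F))) = 1 :=
      le_antisymm ((A.valuation_le_one_iff _).mpr (map_integer_mem ι A d)) hdw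
    -- `n ∈ w`
    have hn : n ∈ w.asIdeal := by
      rw [← w.valuation_lt_one_iff_mem (K := F)]
      change w.valuation F (algebraMap (𝓞 F) F n) < 1
      rw [← hnd, map_mul]
      have : w.valuation F (algebraMap (𝓞 F) F (d : 𝓞 F)) = 1 :=
        (w.valuation_eq_one_iff_notMem (K := F)).mpr hdw'
      rw [this, mul_one]
      exact hy
    have hn' : A.valuation (ι (algebraMap (𝓞 F) F n)) < 1 :=
      (A.mem_nonunits_iff).mp ((mem_placeOf_iff ι hq hA _).mp hn)
    have h1 := congrArg ι hnd
    rw [map_mul] at h1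
    have h2 : A.valuation (ι y) * A.valuation (ι (algebraMap (𝓞 F) F (d : 𝓞 F))) =
        A.valuation (ι (algebraMap (𝓞 F) F n)) := by
      rw [← map_mul]; exact congrArg _ h1
    rw [hd1, mul_one] at h2
    rw [A.mem_nonunits_iff, h2]
    exact hn'
  refine ⟨key x, fun hx => ?_⟩
  by_contra hcon
  rw [not_le] at hcon
  have hx0 : x ≠ 0 := by
    rintro rfl
    simp at hcon
  have h1 : w.valuation F x⁻¹ < 1 := by
    rw [map_inv₀]
    exact inv_lt_one_of_one_lt₀ hcon
  have h2 := key' _ h1
  rw [map_inv₀, A.mem_nonunits_iff, map_inv₀] at h2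
  have h3 : A.valuation (ι x) ≤ 1 := (A.valuation_le_one_iff _).mpr hx
  have h4 : A.valuation (ι x) ≠ 0 := by
    rw [Ne, Valuation.zero_iff, map_eq_zero]
    exact hx0
  have h5 : 1 ≤ (A.valuation (ι x))⁻¹ := (one_le_inv₀ (zero_lt_iff.mpr h4)).mpr h3
  exact absurd h2 (not_lt.mpr h5)

/-- The `placeOf`-adic valuation on `F` is equivalent to the restriction of `A.valuation`. -/
theorem isEquiv_placeOf :
    ((placeOf ι hq hA).valuation F).IsEquiv (A.valuation.comap ι) := by
  rw [Valuation.isEquiv_iff_val_le_one]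
  intro x
  rw [valuation_placeOf_le_one_iff, Valuation.comap_apply, A.valuation_le_one_iff]

theorem valuation_placeOf_lt_one_iff (x : F) :
    (placeOf ι hq hA).valuation F x < 1 ↔ ι x ∈ A.nonunits := by
  rw [A.mem_nonunits_iff]
  exact Valuation.isEquiv_iff_val_lt_one.mp (isEquiv_placeOf ι hq hA)

theorem valuation_placeOf_eq_one_iff (x : F) :
    (placeOf ι hq hA).valuation F x = 1 ↔ A.valuation (ι x) = 1 :=
  Valuation.isEquiv_iff_val_eq_one.mp (isEquiv_placeOf ι hq hA)

theorem valuation_placeOf_eq_iff (x y : F) :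
    (placeOf ι hq hA).valuation F x = (placeOf ι hq hA).valuation F y ↔
      A.valuation (ι x) = A.valuation (ι y) := by
  have h := isEquiv_placeOf ι hq hA
  constructor
  · intro hxy
    exact le_antisymm ((h x y).mp hxy.le) ((h y x).mp hxy.ge)
  · intro hxy
    exact le_antisymm ((h x y).mpr hxy.le) ((h y x).mpr hxy.ge)

/-- **Every finite place of `F` is the centre of a valuation subring of `Ω`.** -/
theorem exists_placeOf_eq (w : HeightOneSpectrum (𝓞 F)) :
    ∃ (A : ValuationSubring Ω) (hA : A.LiesOverPrime ((natPrime F w : Nat.Primes) : ℕ)),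
      placeOf ι (natPrime F w).2.ne_zero hA = w := by
  set φ : 𝓞 F →+* Ω := ι.comp (algebraMap (𝓞 F) F) with hφ
  have hφinj : Function.Injective φ :=
    ι.injective.comp (FaithfulSMul.algebraMap_injective (𝓞 F) F)
  set g : 𝓞 F →+* φ.range := φ.rangeRestrict with hg
  have hgsurj : Function.Surjective g := φ.rangeRestrict_surjective
  have hI : w.asIdeal.map g ≠ ⊤ := by
    intro h
    have h1 : (1 : φ.range) ∈ w.asIdeal.map g := h ▸ Submodule.mem_top
    obtain ⟨x, hx, hx1⟩ := (Ideal.mem_map_iff_of_surjective g hgsurj).mp h1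
    have h2 : φ x = 1 := by
      have := congrArg (Subtype.val) hx1
      simpa [hg] using this
    have h3 : x = 1 := hφinj (by rw [h2, map_one])
    exact w.isPrime.ne_top ((Ideal.eq_top_iff_one _).mpr (h3 ▸ hx))
  obtain ⟨B, -, hB⟩ := Ideal.image_subset_nonunits_valuationSubring (w.asIdeal.map g) hI
  have hle : ∀ x ∈ w.asIdeal, ι (algebraMap (𝓞 F) F x) ∈ B.nonunits := by
    intro x hx
    apply hB
    exact ⟨g x, Ideal.mem_map_of_mem g hx, rfl⟩
  have hA : B.LiesOverPrime ((natPrime F w : Nat.Primes) : ℕ) := by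
    have := hle _ (natPrime_mem F w)
    rwa [map_natCast, map_natCast] at this
  refine ⟨B, hA, ?_⟩
  apply HeightOneSpectrum.ext
  have hmax : w.asIdeal.IsMaximal := w.isMaximal
  exact (hmax.eq_of_le (centerIdeal_isPrime ι B).ne_top hle).symm

/-! ### Subfields of `AlgebraicClosure ℚ` -/

section QbarSection

open Fermat.Agent.CFT.C7.KummerUnram Fermat.Agent.CFT.C3.SUnitRank

local notation "Qbar" => AlgebraicClosure ℚ

/-- A finite subextension of `AlgebraicClosure ℚ` is a number field (not an instance: use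
`haveI := numberField_of_finiteDimensional F`). -/
theorem numberField_of_finiteDimensional (F : IntermediateField ℚ Qbar)
    [FiniteDimensional ℚ F] : NumberField F := ⟨⟩

variable (F : IntermediateField ℚ Qbar) [NumberField F]

/-- **`S`-units in the prelude's valuation-subring language = Mathlib's `S`-units** (for the set
of places above `S`), for elements of a number field `F ⊂ AlgebraicClosure ℚ`. -/
theorem isSUnit_iff_mem_TUnits (S : Finset Nat.Primes) (x : Fˣ) :
    IsSUnit S (algebraMap F Qbar (x : F)) ↔ x ∈ TUnits F (aboveQ F S) := by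
  rw [mem_TUnits_aboveQ_iff]
  constructor
  · intro h w hw
    obtain ⟨A, hA, hAw⟩ := exists_placeOf_eq (algebraMap F Qbar) w
    rw [← hAw, valuation_placeOf_eq_one_iff]
    exact h _ hw A hA
  · intro h q hq A hA
    rw [← valuation_placeOf_eq_one_iff (algebraMap F Qbar) q.2.ne_zero hA]
    apply h
    rwa [natPrime_placeOf]

/-- Elementwise form for `x : F`, `x ≠ 0`. -/
theorem isSUnit_iff_forall_valuation_eq_one (S : Finset Nat.Primes) (x : F) :
    IsSUnit S (algebraMap F Qbar x) ↔
      ∀ w : HeightOneSpectrum (𝓞 F), natPrime F w ∉ S → w.valuation F x = 1 := by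
  constructor
  · intro h w hw
    obtain ⟨A, hA, hAw⟩ := exists_placeOf_eq (algebraMap F Qbar) w
    rw [← hAw, valuation_placeOf_eq_one_iff]
    exact h _ hw A hA
  · intro h q hq A hA
    rw [← valuation_placeOf_eq_one_iff (algebraMap F Qbar) q.2.ne_zero hA]
    apply h
    rwa [natPrime_placeOf]

end QbarSection

end Fermat.Agent.CFT.C7.PlaceDict
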