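import Mathlib
import Fermat.Agent.CFT.C7.KummerUnram
import Fermat.Agent.CFT.C7.PlaceDict
import Fermat.Agent.CFT.Kummer.Classify

/-!
# PROJECT C, slice (N3-D): ramification in Kummer extensions of exponent `p`

`K ∋ μ_p` a number field, `M/K` a finite abelian extension of exponent `p`, `ι : M → ℚ̄` an embedding
such that `ι K` is unramified outside `S ∋ p`.  Then `ι M` is unramified outside `S` as soon as every
Kummer radical `x ∈ Kˣ ∩ Mˣᵖ` has valuation divisible by `p` at all places of `K` outside `S`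
(`isUnramifiedOutside_fieldRange`, place form `isUnramifiedOutside_fieldRange_of_places`).
Contrapositive (`exists_radical_of_not_isUnramifiedOutside`): a ramified place outside `S`
produces `x ∈ Kˣ ∩ Mˣᵖ` and a place `w ∤ S` of `K` with `p ∤ w(x)`.
-/

set_option autoImplicit false
set_option linter.unusedSectionVars false

open scoped NumberField IntermediateField

noncomputable section

namespace Fermat.Agent.CFT.C7.KummerRam

open IsDedekindDomain IntermediateField
open Fermat.Agent.CFT.C7.KummerUnram Fermat.Agent.CFT.C7.PlaceDict Fermat.Agent.CFT.Kummer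
  Fermat.Agent.CFT.C3.ClassGen

local notation "Qbar" => AlgebraicClosure ℚ

variable {S : Finset Nat.Primes}

section Radicals

variable {K M : Type} [Field K] [Field M] [NumberField K] [NumberField M] [Algebra K M]
  [IsGalois K M] {p : ℕ} [NeZero p]

/-- the image of `K` in `ℚ̄` -/
abbrev baseRange (ι : M →ₐ[ℚ] Qbar) : IntermediateField ℚ Qbar :=
  (ι.comp (IsScalarTower.toAlgHom ℚ K M)).fieldRange

theorem map_algebraMap_mem_baseRange (ι : M →ₐ[ℚ] Qbar) (z : K) :
    ι (algebraMap K M z) ∈ baseRange (K := K) ι := ⟨z, rfl⟩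

/-- **(KR1)** valuation-subring form. -/
theorem isUnramifiedOutside_fieldRange (hpS : IsSNat S p) (hζ : (primitiveRoots p K).Nonempty)
    (hcomm : ∀ σ τ : M ≃ₐ[K] M, σ * τ = τ * σ) (hexp : ∀ σ : M ≃ₐ[K] M, σ ^ p = 1)
    (ι : M →ₐ[ℚ] Qbar) (hK : (baseRange (K := K) ι).IsUnramifiedOutside S)
    (hval : ∀ y : M, y ^ p ∈ Set.range (algebraMap K M) → ∀ q : Nat.Primes, q ∉ S →
      ∀ A : ValuationSubring Qbar, A.LiesOverPrime (q : ℕ) →
        ∃ z : K, A.valuation (ι y) = A.valuation (ι (algebraMap K M z))) :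
    ι.fieldRange.IsUnramifiedOutside S := by
  have hKQS : ∀ z : K, ι (algebraMap K M z) ∈ QS S := fun z =>
    le_QS_of_isUnramifiedOutside hK (map_algebraMap_mem_baseRange ι z)
  -- the subfield of `M` landing in `ℚ_S`
  let T : IntermediateField K M :=
    { carrier := {m | ι m ∈ QS S}
      mul_mem' := fun {a b} ha hb => by
        change ι (a * b) ∈ QS S
        rw [map_mul]
        exact mul_mem ha hb
      one_mem' := by
        change ι 1 ∈ QS S
        rw [map_one]
        exact one_mem _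
      add_mem' := fun {a b} ha hb => by
        change ι (a + b) ∈ QS S
        rw [map_add]
        exact add_mem ha hb
      zero_mem' := by
        change ι 0 ∈ QS S
        rw [map_zero]
        exact zero_mem _
      algebraMap_mem' := hKQS
      inv_mem' := fun a ha => by
        change ι a⁻¹ ∈ QS S
        rw [map_inv₀]
        exact inv_mem ha }
  have hrad : ((↑) : Mˣ → M) '' (radicals K M p : Set Mˣ) ⊆ (T : Set M) := by
    rintro _ ⟨y, hy, rfl⟩
    rw [SetLike.mem_coe, mem_radicals_iff, mem_baseUnits_iff'] at hy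
    have hy' : ((y : M)) ^ p ∈ Set.range (algebraMap K M) := by
      rwa [Units.val_pow_eq_pow_val] at hy
    obtain ⟨x, hx⟩ := hy'
    have h1 : ((baseRange (K := K) ι) ⊔ ℚ⟮ι (y : M)⟯).IsUnramifiedOutside S := by
      refine isUnramifiedOutside_adjoin_root hK hpS ?_ ?_
      · rw [← map_pow, ← hx]
        exact map_algebraMap_mem_baseRange ι x
      · intro q hq A hA
        obtain ⟨z, hz⟩ := hval y ⟨x, hx⟩ q hq A hA
        exact ⟨_, map_algebraMap_mem_baseRange ι z, hz⟩
    exact le_QS_of_isUnramifiedOutside h1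
      ((le_sup_right : ℚ⟮ι (y : M)⟯ ≤ _) (mem_adjoin_simple_self ℚ _))
  have htop : T = ⊤ := by
    rw [eq_top_iff, ← adjoin_radicals_eq_top hζ hcomm hexp]
    exact adjoin_le_iff.mpr hrad
  have hle : ι.fieldRange ≤ QS S := by
    rintro _ ⟨m, rfl⟩
    have : m ∈ T := by rw [htop]; exact mem_top
    exact this
  haveI : FiniteDimensional ℚ ι.fieldRange :=
    LinearEquiv.finiteDimensional (AlgEquiv.ofInjectiveField ι).toLinearEquiv
  exact isUnramifiedOutside_of_le_QS hle

/-- **(KR2)** place form: the Kummer radicals have valuation divisible by `p` at the places of `K`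
outside `S`. -/
theorem isUnramifiedOutside_fieldRange_of_places (hpS : IsSNat S p)
    (hζ : (primitiveRoots p K).Nonempty)
    (hcomm : ∀ σ τ : M ≃ₐ[K] M, σ * τ = τ * σ) (hexp : ∀ σ : M ≃ₐ[K] M, σ ^ p = 1)
    (ι : M →ₐ[ℚ] Qbar) (hK : (baseRange (K := K) ι).IsUnramifiedOutside S)
    (hplace : ∀ x : K, x ≠ 0 → (∃ y : M, y ^ p = algebraMap K M x) →
      ∀ w : HeightOneSpectrum (𝓞 K), natPrime K w ∉ S →
        ∃ z : K, w.valuation K x = w.valuation K (z ^ p)) :
    ι.fieldRange.IsUnramifiedOutside S := by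
  refine isUnramifiedOutside_fieldRange hpS hζ hcomm hexp ι hK ?_
  rintro y ⟨x, hx⟩ q hq A hA
  by_cases hx0 : x = 0
  · refine ⟨0, ?_⟩
    have hy0 : y = 0 := by
      rw [hx0, map_zero] at hx
      exact pow_eq_zero_iff (NeZero.ne p) |>.mp hx.symm
    simp only [hy0, map_zero]
  set ιK : K →+* Qbar := ((ι.comp (IsScalarTower.toAlgHom ℚ K M) : K →ₐ[ℚ] Qbar) : K →+* Qbar)
    with hιK
  have hιKapp : ∀ z : K, ιK z = ι (algebraMap K M z) := fun _ => rfl
  obtain ⟨z, hz⟩ := hplace x hx0 ⟨y, hx.symm⟩ (placeOf ιK q.2.ne_zero hA)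
    (by rw [natPrime_placeOf]; exact hq)
  refine ⟨z, ?_⟩
  rw [valuation_placeOf_eq_iff] at hz
  have h1 : A.valuation (ι y) ^ p = A.valuation (ι (algebraMap K M z)) ^ p := by
    rw [← map_pow, ← map_pow, ← map_pow, ← hx, ← hιKapp, hz, hιKapp, map_pow, map_pow]
  exact (pow_left_inj₀ zero_le zero_le (NeZero.ne p)).mp h1

/-- **(KR3)** contrapositive: if `ι M` is ramified somewhere outside `S`, some Kummer radical
`x ∈ Kˣ ∩ Mˣᵖ` has valuation prime to `p` at a place of `K` outside `S`. -/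
theorem exists_radical_of_not_isUnramifiedOutside (hpS : IsSNat S p)
    (hζ : (primitiveRoots p K).Nonempty)
    (hcomm : ∀ σ τ : M ≃ₐ[K] M, σ * τ = τ * σ) (hexp : ∀ σ : M ≃ₐ[K] M, σ ^ p = 1)
    (ι : M →ₐ[ℚ] Qbar) (hK : (baseRange (K := K) ι).IsUnramifiedOutside S)
    (hM : ¬ ι.fieldRange.IsUnramifiedOutside S) :
    ∃ x : K, x ≠ 0 ∧ (∃ y : M, y ^ p = algebraMap K M x) ∧
      ∃ w : HeightOneSpectrum (𝓞 K), natPrime K w ∉ S ∧
        ∀ z : K, w.valuation K x ≠ w.valuation K (z ^ p) := by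
  by_contra hcon
  apply hM
  refine isUnramifiedOutside_fieldRange_of_places hpS hζ hcomm hexp ι hK ?_
  intro x hx0 hy w hw
  by_contra hz
  exact hcon ⟨x, hx0, hy, w, hw, fun z hzz => hz ⟨z, hzz⟩⟩

end Radicals

end Fermat.Agent.CFT.C7.KummerRam
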