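import Mathlib
import Fermat.Agent.CFT.C7.KummerRam
import Fermat.Agent.CFT.Kummer.KummerField

/-!
# PROJECT C, slice (N3), common field-theoretic input: `K(Δ^{1/p})` as a number field

`K ∋ μ_p` a number field, `Kˣᵖ ≤ Δ ≤ Kˣ` with `[Δ : Kˣᵖ]` finite.

* `exists_kummer_numberField`: a number field `L` (a `Type`), Galois over `K`, with commutative
  Galois group of exponent `p`, `[L : K] = [Δ : Kˣᵖ]` and `Kˣ ∩ Lˣᵖ = Δ`
  (model: `kummerField p Δ (AlgebraicClosure K)` of `CFT/Kummer`);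
* `isUnramifiedOutside_of_powFrom_le`: for any embedding `ι : L → ℚ̄` with `ι K` unramified outside
  `S ∋ p`, if every `a ∈ Kˣ ∩ Lˣᵖ` has valuation divisible by `p` at all places of `K` outside `S`
  then `ι L` is unramified outside `S` (`L ⊂ ℚ_S`).
-/

set_option autoImplicit false
set_option linter.unusedSectionVars false

open scoped NumberField IntermediateField

noncomputable section

namespace Fermat.Agent.CFT.C7.KummerNF

open IsDedekindDomain IntermediateField Module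
open Fermat.Agent.CFT.C7.KummerUnram Fermat.Agent.CFT.C7.KummerRam Fermat.Agent.CFT.Kummer
  Fermat.Agent.CFT.C3.ClassGen

local notation "Qbar" => AlgebraicClosure ℚ

variable {S : Finset Nat.Primes}

/-- **The Kummer extension `K(Δ^{1/p})` as a number field.** -/
theorem exists_kummer_numberField (K : Type) [Field K] [NumberField K] (p : ℕ) [NeZero p]
    (hζ : (primitiveRoots p K).Nonempty) (Δ : Subgroup Kˣ)
    (hΔ : (powMonoidHom p : Kˣ →* Kˣ).range ≤ Δ)
    (hfin : ((powMonoidHom p : Kˣ →* Kˣ).range).relIndex Δ ≠ 0) :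
    ∃ (L : Type) (_ : Field L) (_ : NumberField L) (_ : Algebra K L) (_ : IsGalois K L),
      (∀ σ τ : L ≃ₐ[K] L, σ * τ = τ * σ) ∧ (∀ σ : L ≃ₐ[K] L, σ ^ p = 1) ∧
      finrank K L = ((powMonoidHom p : Kˣ →* Kˣ).range).relIndex Δ ∧
      powFrom K L p = Δ := by
  have hroot : ∀ a ∈ Δ, ∃ x : AlgebraicClosure K, x ^ p = algebraMap K (AlgebraicClosure K)
      ((a : Kˣ) : K) := fun a _ =>
    IsAlgClosed.exists_pow_nat_eq _ (Nat.pos_of_ne_zero (NeZero.ne p))
  haveI : IsGalois K (kummerField p Δ (AlgebraicClosure K)) := isGalois_kummerField hζ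
  haveI : FiniteDimensional K (kummerField p Δ (AlgebraicClosure K)) :=
    finiteDimensional_kummerField hfin
  haveI : FiniteDimensional ℚ (kummerField p Δ (AlgebraicClosure K)) :=
    Module.Finite.trans K (kummerField p Δ (AlgebraicClosure K))
  refine ⟨kummerField p Δ (AlgebraicClosure K), inferInstance, ⟨⟩, inferInstance, inferInstance,
    gal_kummerField_mul_comm hζ, gal_kummerField_pow_eq_one hζ,
    finrank_kummerField hζ hΔ hfin hroot, powFrom_kummerField hζ hΔ hfin hroot⟩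

section Unramified

variable {K L : Type} [Field K] [Field L] [NumberField K] [NumberField L] [Algebra K L]
  [IsGalois K L] {p : ℕ} [NeZero p]

/-- **`K(Δ^{1/p}) ⊂ ℚ_S`** when the elements of `Δ = Kˣ ∩ Lˣᵖ` have valuation divisible by `p`
outside `S` (and `p` is an `S`-number, `ι K ⊂ ℚ_S`). -/
theorem isUnramifiedOutside_of_powFrom_le (hpS : IsSNat S p) (hζ : (primitiveRoots p K).Nonempty)
    (hcomm : ∀ σ τ : L ≃ₐ[K] L, σ * τ = τ * σ) (hexp : ∀ σ : L ≃ₐ[K] L, σ ^ p = 1)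
    (ι : L →ₐ[ℚ] Qbar) (hK : (baseRange (K := K) ι).IsUnramifiedOutside S)
    (hΔ : ∀ a ∈ powFrom K L p, ∀ w : HeightOneSpectrum (𝓞 K), natPrime K w ∉ S →
      ∃ z : K, w.valuation K (a : K) = w.valuation K (z ^ p)) :
    ι.fieldRange.IsUnramifiedOutside S := by
  refine isUnramifiedOutside_fieldRange_of_places hpS hζ hcomm hexp ι hK ?_
  rintro x hx0 ⟨y, hy⟩ w hw
  have hy0 : y ≠ 0 := by
    rintro rfl
    rw [zero_pow (NeZero.ne p)] at hy
    exact hx0 ((map_eq_zero _).mp hy.symm)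
  have hmem : Units.mk0 x hx0 ∈ powFrom K L p := by
    refine ⟨Units.mk0 y hy0, ?_⟩
    apply Units.ext
    simpa using hy
  exact hΔ _ hmem w hw

end Unramified

section Embedding

variable {K L : Type} [Field K] [Field L] [NumberField K] [NumberField L] [Algebra K L]

/-- every embedding of `K` into `ℚ̄` extends to `L` -/
theorem exists_embedding_extending (ιK : K →ₐ[ℚ] Qbar) :
    ∃ ι : L →ₐ[ℚ] Qbar, ∀ z : K, ι (algebraMap K L z) = ιK z := by
  letI : Algebra K Qbar := ιK.toRingHom.toAlgebra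
  haveI : IsScalarTower ℚ K Qbar := IsScalarTower.of_algebraMap_eq fun r => (ιK.commutes r).symm
  let ι₀ : L →ₐ[K] Qbar := IsAlgClosed.lift
  exact ⟨ι₀.restrictScalars ℚ, fun z => ι₀.commutes z⟩

theorem baseRange_eq_of_extends (ιK : K →ₐ[ℚ] Qbar) (ι : L →ₐ[ℚ] Qbar)
    (h : ∀ z : K, ι (algebraMap K L z) = ιK z) : baseRange (K := K) ι = ιK.fieldRange := by
  ext x
  constructor
  · rintro ⟨z, rfl⟩
    exact ⟨z, (h z).symm⟩
  · rintro ⟨z, rfl⟩
    exact ⟨z, h z⟩

end Embedding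

/-- **`K(Δ^{1/p})` inside `ℚ_S`**: the packaged form.  `K ⊂ ℚ_S` (via `ιK`) a number field containing
`μ_p`, `p` an `S`-number, `Kˣᵖ ≤ Δ ≤ Kˣ` of finite index with `p ∣ w(a)` for `a ∈ Δ`, `w ∤ S`.  Then
there is a number field `L ⊇ K` with an embedding into `ℚ̄` extending `ιK`, unramified outside `S`,
Galois over `K` with commutative Galois group of exponent `p`, `[L : K] = [Δ : Kˣᵖ]`,
`Kˣ ∩ Lˣᵖ = Δ`. -/
theorem exists_kummer_in_QS {K : Type} [Field K] [NumberField K] {p : ℕ} [NeZero p]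
    (hpS : IsSNat S p) (hζ : (primitiveRoots p K).Nonempty) (ιK : K →ₐ[ℚ] Qbar)
    (hK : ιK.fieldRange.IsUnramifiedOutside S) (Δ : Subgroup Kˣ)
    (hΔ : (powMonoidHom p : Kˣ →* Kˣ).range ≤ Δ)
    (hfin : ((powMonoidHom p : Kˣ →* Kˣ).range).relIndex Δ ≠ 0)
    (hval : ∀ a ∈ Δ, ∀ w : HeightOneSpectrum (𝓞 K), natPrime K w ∉ S →
      ∃ z : K, w.valuation K (a : K) = w.valuation K (z ^ p)) :
    ∃ (L : Type) (_ : Field L) (_ : NumberField L) (_ : Algebra K L) (_ : IsGalois K L)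
      (ι : L →ₐ[ℚ] Qbar), (∀ z : K, ι (algebraMap K L z) = ιK z) ∧
      ι.fieldRange.IsUnramifiedOutside S ∧
      (∀ σ τ : L ≃ₐ[K] L, σ * τ = τ * σ) ∧ (∀ σ : L ≃ₐ[K] L, σ ^ p = 1) ∧
      finrank K L = ((powMonoidHom p : Kˣ →* Kˣ).range).relIndex Δ ∧
      powFrom K L p = Δ := by
  obtain ⟨L, _, _, _, _, hcomm, hexp, hdeg, hpow⟩ := exists_kummer_numberField K p hζ Δ hΔ hfin
  obtain ⟨ι, hι⟩ := exists_embedding_extending (L := L) ιK
  refine ⟨L, inferInstance, inferInstance, inferInstance, inferInstance, ι, hι, ?_, hcomm, hexp,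
    hdeg, hpow⟩
  refine isUnramifiedOutside_of_powFrom_le hpS hζ hcomm hexp ι ?_ ?_
  · rw [baseRange_eq_of_extends ιK ι hι]
    exact hK
  · intro a ha
    rw [hpow] at ha
    exact hval a ha

end Fermat.Agent.CFT.C7.KummerNF
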