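import Mathlib
import Fermat.Agent.CFT.C7.KummerNF
import Fermat.Agent.CFT.Idele.Global
import Fermat.Agent.CFT.Idele.SIdele
import Fermat.Agent.CFT.Bridge.Levels

/-!
# PROJECT C, slice (N3)/(F1)+(F2) common part: the Kummer field `K(Δ^{1/p})` gives a level of `G_{ℚ,S}`

`K ∋ μ_p` a number field, Galois over `ℚ`, embedded in `ℚ_S ⊂ ℚ̄` by `ιK`; `Kˣᵖ ≤ Δ ≤ Kˣ` of finite
index, stable under `Aut(K/ℚ)`, with `p ∣ w(a)` for `a ∈ Δ` and all places `w` of `K` outside `S`.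

* **(L1)** `exists_valuation_eq_pow_of_mem_JTsub`: the valuation hypothesis from the idelic
  description `diag K a * y ^ p ∈ JTsub K S` (so it holds for the groups `WS`, `BS` of the count);
  `smul_mem_JTsub_of_mem`: that description is stable under `Aut(K/ℚ)`;
* **(L2)** `normal_fieldRange`: `ι L` is normal over `ℚ` for `L = K(Δ^{1/p})`;
* **(L3)** the group shadow: with `U₀ := Gal(ℚ̄/ιK K)`, `U' := Gal(ℚ̄/ι L)`: `U' ≤ U₀`,
  commutators and `p`-th powers of `U₀` lie in `U'`, `[U₀ : U'] = [L : K]`;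
* `exists_kummer_level`: the package, in the shape consumed by
  `A7.ClassFormation.n3_of_card_invariants_le` / `card_layerSub_le_of_le_norms`.
-/

set_option autoImplicit false
set_option linter.unusedSectionVars false
set_option linter.style.haveILetI false

open scoped NumberField IntermediateField

noncomputable section

namespace Fermat.Agent.CFT.C7.KummerLevel

open IsDedekindDomain IntermediateField Module
open Fermat.Agent.CFT.C7.KummerUnram Fermat.Agent.CFT.C7.KummerRam Fermat.Agent.CFT.C7.KummerNF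
  Fermat.Agent.CFT.Kummer Fermat.Agent.CFT.C3.ClassGen Fermat.Agent.CFT.Idele Fermat.Agent.CFT.Dict
  Fermat.Agent.CFT.Bridge

local notation "Qbar" => AlgebraicClosure ℚ

attribute [local instance 2000] IntermediateField.algebra'

variable {S : Finset Nat.Primes}

section Idelic

variable {K : Type} [Field K] [NumberField K]

/-- **(L1)** an element of `Kˣ` which is, up to `p`-th powers of ideles, a unit outside `T` has valuation
divisible by `p` at all places outside `T`. -/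
theorem exists_valuation_eq_pow_of_mem_JTsub {T : Set Nat.Primes} {p : ℕ} (a : Kˣ) (y : J K)
    (h : diag K a * y ^ p ∈ JTsub K T) (w : HeightOneSpectrum (𝓞 K)) (hw : natPrime K w ∉ T) :
    ∃ z : K, w.valuation K (a : K) = w.valuation K (z ^ p) := by
  set q := natPrime K w with hq
  set v : PrimeOver (q : ℕ) (𝓞 K) := primeOverOf w q (natPrime_mem K w) with hv
  have hvw : v.toHeightOneSpectrum = w := primeOverOf_toHeightOneSpectrum w q _
  have h1 := (mem_intUnits_iff_forall_ordAt _).mp ((mem_JTsub K).mp h q hw) v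
  have h2 : ((diag K a * y ^ p : J K) : ∀ q : Nat.Primes, (Loc K q)ˣ) q
      = (diag K a : ∀ q : Nat.Primes, (Loc K q)ˣ) q
        * ((y : ∀ q : Nat.Primes, (Loc K q)ˣ) q) ^ p := rfl
  rw [h2, map_mul, map_pow] at h1
  have h3 : v.ordAt ((diag K a : ∀ q : Nat.Primes, (Loc K q)ˣ) q)
      = ((v.ordAt ((y : ∀ q : Nat.Primes, (Loc K q)ˣ) q))⁻¹) ^ p := by
    rw [inv_pow]
    exact eq_inv_of_mul_eq_one_left h1
  have h4 := v.coe_ordAt_inclL a
  rw [hvw] at h4
  have h5 : (diag K a : ∀ q : Nat.Primes, (Loc K q)ˣ) q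
      = Units.map (inclL K q : K →* Loc K q) a := rfl
  rw [h5] at h3
  obtain ⟨z, hz⟩ := w.valuation_surjective K
    (((v.ordAt ((y : ∀ q : Nat.Primes, (Loc K q)ˣ) q))⁻¹ : Multiplicative ℤ) : WithZero (Multiplicative ℤ))
  refine ⟨z, ?_⟩
  rw [map_pow, hz, ← h4, h3, WithZero.coe_pow]

end Idelic

section Stable

variable {K : Type} [Field K] [NumberField K]

/-- the idelic description of `WS`, `BS` is stable under `Aut(K/ℚ)` -/
theorem smul_mem_JTsub_of_mem {T : Set Nat.Primes} {p : ℕ} (τ : K ≃ₐ[ℚ] K) (a : Kˣ) (y : J K)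
    (h : diag K a * y ^ p ∈ JTsub K T) :
    diag K (Units.map (τ : K →* K) a) * (τ • y) ^ p ∈ JTsub K T := by
  rw [← smul_diag, ← smul_pow', ← smul_mul']
  exact (smul_mem_JTsub_iff τ T _).mpr h

theorem smul_mem_US_of_mem {T : Set Nat.Primes} {p : ℕ} (τ : K ≃ₐ[ℚ] K) (a : Kˣ) (y : J K)
    (h : diag K a * y ^ p ∈ US K T) :
    diag K (Units.map (τ : K →* K) a) * (τ • y) ^ p ∈ US K T := by
  rw [← smul_diag, ← smul_pow', ← smul_mul']
  exact smul_mem_US τ h

end Stable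

section GaloisOverQ

variable {K L : Type} [Field K] [Field L] [NumberField K] [NumberField L] [Algebra K L]
  [IsGalois K L] {p : ℕ} [NeZero p]

/-- a subfield of `ℚ̄` containing `ι K` and the images of the Kummer radicals contains `ι L`. -/
theorem fieldRange_le_of_radicals (hζ : (primitiveRoots p K).Nonempty)
    (hcomm : ∀ σ τ : L ≃ₐ[K] L, σ * τ = τ * σ) (hexp : ∀ σ : L ≃ₐ[K] L, σ ^ p = 1)
    (ι : L →ₐ[ℚ] Qbar) (F : IntermediateField ℚ Qbar)
    (hK : ∀ z : K, ι (algebraMap K L z) ∈ F)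
    (hrad : ∀ (y : Lˣ) (x : Kˣ), y ^ p = unitsMap K L x → ι (y : L) ∈ F) :
    ι.fieldRange ≤ F := by
  let T : IntermediateField K L :=
    { carrier := {m | ι m ∈ F}
      mul_mem' := fun {a b} ha hb => by
        change ι (a * b) ∈ F
        rw [map_mul]
        exact mul_mem ha hb
      one_mem' := by
        change ι 1 ∈ F
        rw [map_one]
        exact one_mem _
      add_mem' := fun {a b} ha hb => by
        change ι (a + b) ∈ F
        rw [map_add]
        exact add_mem ha hb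
      zero_mem' := by
        change ι 0 ∈ F
        rw [map_zero]
        exact zero_mem _
      algebraMap_mem' := hK
      inv_mem' := fun a ha => by
        change ι a⁻¹ ∈ F
        rw [map_inv₀]
        exact inv_mem ha }
  have hT : ((↑) : Lˣ → L) '' (radicals K L p : Set Lˣ) ⊆ (T : Set L) := by
    rintro _ ⟨y, hy, rfl⟩
    rw [SetLike.mem_coe, mem_radicals_iff, mem_baseUnits_iff] at hy
    obtain ⟨x, hx⟩ := hy
    exact hrad y x hx.symm
  have htop : T = ⊤ := by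
    rw [eq_top_iff, ← adjoin_radicals_eq_top hζ hcomm hexp]
    exact adjoin_le_iff.mpr hT
  rintro _ ⟨m, rfl⟩
  have : m ∈ T := by rw [htop]; exact mem_top
  exact this

/-- `p`-th roots of unity of `ℚ̄` lie in the image of `K ∋ μ_p`. -/
theorem root_of_unity_mem (hζ : (primitiveRoots p K).Nonempty) (ιK : K →ₐ[ℚ] Qbar) (ξ : Qbar)
    (hξ : ξ ^ p = 1) : ξ ∈ ιK.fieldRange := by
  obtain ⟨ζ, hζ'⟩ := hζ
  have hζ1 : IsPrimitiveRoot ζ p := (mem_primitiveRoots (Nat.pos_of_ne_zero (NeZero.ne p))).mp hζ'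
  have h2 : IsPrimitiveRoot (ιK ζ) p := hζ1.map_of_injective ιK.injective
  obtain ⟨i, -, hi⟩ := h2.eq_pow_of_pow_eq_one hξ
  rw [← hi, ← map_pow]
  exact ⟨ζ ^ i, rfl⟩

/-- **(L2)** `K/ℚ` Galois and `Δ = Kˣ ∩ Lˣᵖ` stable under `Aut(K/ℚ)`: then `ι L` is normal over
`ℚ`. -/
theorem normal_fieldRange [IsGalois ℚ K] (hζ : (primitiveRoots p K).Nonempty)
    (hcomm : ∀ σ τ : L ≃ₐ[K] L, σ * τ = τ * σ) (hexp : ∀ σ : L ≃ₐ[K] L, σ ^ p = 1)
    (ι : L →ₐ[ℚ] Qbar)
    (hstab : ∀ (τ : K ≃ₐ[ℚ] K) (a : Kˣ), a ∈ powFrom K L p →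
      Units.map (τ : K →* K) a ∈ powFrom K L p) :
    Normal ℚ ι.fieldRange := by
  rw [normal_iff_forall_map_le']
  intro σ
  set ιK : K →ₐ[ℚ] Qbar := ι.comp (IsScalarTower.toAlgHom ℚ K L) with hιK
  have hιKapp : ∀ z : K, ιK z = ι (algebraMap K L z) := fun _ => rfl
  have hKle : ιK.fieldRange ≤ ι.fieldRange := by
    rintro _ ⟨z, rfl⟩
    exact ⟨algebraMap K L z, rfl⟩
  -- `σ ∘ ιK = ιK ∘ τ`
  haveI : Normal ℚ ιK.fieldRange :=
    Normal.of_algEquiv (AlgEquiv.ofInjectiveField ιK)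
  have hστ : ∃ τ : K ≃ₐ[ℚ] K, ∀ z : K, σ (ιK z) = ιK (τ z) := by
    let e : K ≃ₐ[ℚ] ιK.fieldRange := AlgEquiv.ofInjectiveField ιK
    have he : ∀ z : K, ((e z : ιK.fieldRange) : Qbar) = ιK z := fun _ => rfl
    refine ⟨(e.trans (σ.restrictNormal ιK.fieldRange)).trans e.symm, fun z => ?_⟩
    have h1 := AlgEquiv.restrictNormal_commutes σ ιK.fieldRange (e z)
    rw [IntermediateField.algebraMap_apply, IntermediateField.algebraMap_apply, he] at h1
    rw [← h1, ← he]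
    simp only [AlgEquiv.trans_apply, AlgEquiv.apply_symm_apply]
  obtain ⟨τ, hτ⟩ := hστ
  -- apply the radical criterion to `σ ∘ ι`
  have key : ((σ : Qbar →ₐ[ℚ] Qbar).comp ι).fieldRange ≤ ι.fieldRange := by
    refine fieldRange_le_of_radicals hζ hcomm hexp _ _ ?_ ?_
    · intro z
      change σ (ι (algebraMap K L z)) ∈ _
      rw [← hιKapp, hτ]
      exact hKle ⟨τ z, rfl⟩
    · intro y x hyx
      change σ (ι (y : L)) ∈ _
      have hx : x ∈ powFrom K L p := mem_powFrom_iff.mpr ⟨y, hyx⟩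
      obtain ⟨y', hy'⟩ := mem_powFrom_iff.mp (hstab τ x hx)
      have hy'0 : ι (y' : L) ≠ 0 := (map_ne_zero _).mpr y'.ne_zero
      have h1 : (σ (ι (y : L)) / ι (y' : L)) ^ p = 1 := by
        rw [div_pow, ← map_pow, ← map_pow, ← map_pow, ← Units.val_pow_eq_pow_val,
          ← Units.val_pow_eq_pow_val, hyx, hy', coe_unitsMap, coe_unitsMap, ← hιKapp, ← hιKapp, hτ]
        exact div_self ((map_ne_zero _).mpr (by simp))
      have h2 := hKle (root_of_unity_mem hζ ιK _ h1)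
      have h3 : σ (ι (y : L)) = (σ (ι (y : L)) / ι (y' : L)) * ι (y' : L) := by
        rw [div_mul_cancel₀ _ hy'0]
      rw [h3]
      exact mul_mem h2 ⟨(y' : L), rfl⟩
  rintro _ ⟨x, ⟨m, rfl⟩, rfl⟩
  exact key ⟨m, rfl⟩

end GaloisOverQ

section Shadow

variable {K L : Type} [Field K] [Field L] [NumberField K] [NumberField L] [Algebra K L]
  [IsGalois K L] {p : ℕ}

/-- automorphisms of `ℚ̄` fixing `ι K` restrict to `K`-automorphisms of `L` -/
theorem exists_restrict (ι : L →ₐ[ℚ] Qbar) (σ : Qbar ≃ₐ[ℚ] Qbar)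
    (hσ : σ ∈ (baseRange (K := K) ι).fixingSubgroup) :
    ∃ g : L ≃ₐ[K] L, ∀ m : L, ι (g m) = σ (ι m) := by
  letI : Algebra K Qbar := (ι.toRingHom.comp (algebraMap K L)).toAlgebra
  letI : Algebra L Qbar := ι.toRingHom.toAlgebra
  haveI : IsScalarTower K L Qbar := IsScalarTower.of_algebraMap_eq (fun x => rfl)
  let σ' : Qbar ≃ₐ[K] Qbar :=
    { σ with
      commutes' := fun z =>
        (IntermediateField.mem_fixingSubgroup_iff _ σ).mp hσ _
          (map_algebraMap_mem_baseRange ι z) }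
  exact ⟨σ'.restrictNormal L, fun m => AlgEquiv.restrictNormal_commutes σ' L m⟩

theorem fixingSubgroup_fieldRange_le (ι : L →ₐ[ℚ] Qbar) :
    ι.fieldRange.fixingSubgroup ≤ (baseRange (K := K) ι).fixingSubgroup := by
  apply IntermediateField.fixingSubgroup_antitone
  rintro _ ⟨z, rfl⟩
  exact ⟨algebraMap K L z, rfl⟩

theorem mul_comm_mod (hcomm : ∀ σ τ : L ≃ₐ[K] L, σ * τ = τ * σ) (ι : L →ₐ[ℚ] Qbar)
    (σ τ : Qbar ≃ₐ[ℚ] Qbar) (hσ : σ ∈ (baseRange (K := K) ι).fixingSubgroup)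
    (hτ : τ ∈ (baseRange (K := K) ι).fixingSubgroup) :
    (τ * σ)⁻¹ * (σ * τ) ∈ ι.fieldRange.fixingSubgroup := by
  obtain ⟨g, hg⟩ := exists_restrict ι σ hσ
  obtain ⟨h, hh⟩ := exists_restrict ι τ hτ
  rw [IntermediateField.mem_fixingSubgroup_iff]
  rintro _ ⟨m, rfl⟩
  change (τ * σ)⁻¹ ((σ * τ) (ι m)) = ι m
  have e1 : (σ * τ) (ι m) = (τ * σ) (ι m) := by
    change σ (τ (ι m)) = τ (σ (ι m))
    rw [← hh, ← hg, ← hg, ← hh]
    exact congrArg ι (DFunLike.congr_fun (hcomm g h) m)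
  rw [e1]
  exact AlgEquiv.symm_apply_apply (τ * σ) _

theorem pow_mem_fixingSubgroup (hexp : ∀ σ : L ≃ₐ[K] L, σ ^ p = 1) (ι : L →ₐ[ℚ] Qbar)
    (σ : Qbar ≃ₐ[ℚ] Qbar) (hσ : σ ∈ (baseRange (K := K) ι).fixingSubgroup) :
    σ ^ p ∈ ι.fieldRange.fixingSubgroup := by
  obtain ⟨g, hg⟩ := exists_restrict ι σ hσ
  have key : ∀ n : ℕ, ∀ m : L, (σ ^ n) (ι m) = ι ((g ^ n) m) := by
    intro n
    induction n with
    | zero => intro m; simp
    | succ n ih =>
      intro m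
      rw [pow_succ, pow_succ]
      change (σ ^ n) (σ (ι m)) = ι ((g ^ n) (g m))
      rw [← hg, ih]
  rw [IntermediateField.mem_fixingSubgroup_iff]
  rintro _ ⟨m, rfl⟩
  change (σ ^ p) (ι m) = ι m
  rw [key, hexp]
  rfl

/-- `[U₀ : U'] = [L : K]` -/
theorem relIndex_fixingSubgroup (ι : L →ₐ[ℚ] Qbar) :
    ι.fieldRange.fixingSubgroup.relIndex (baseRange (K := K) ι).fixingSubgroup
      = Module.finrank K L := by
  have h1 : ι.fieldRange.fixingSubgroup.index = Module.finrank ℚ L := by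
    rw [← IntermediateField.finrank_eq_fixingSubgroup_index]
    exact (AlgEquiv.ofInjectiveField ι).toLinearEquiv.finrank_eq.symm
  have h2 : (baseRange (K := K) ι).fixingSubgroup.index = Module.finrank ℚ K := by
    rw [← IntermediateField.finrank_eq_fixingSubgroup_index]
    exact (AlgEquiv.ofInjectiveField
      (ι.comp (IsScalarTower.toAlgHom ℚ K L))).toLinearEquiv.finrank_eq.symm
  have h3 := Subgroup.relIndex_mul_index (fixingSubgroup_fieldRange_le (K := K) ι)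
  rw [h1, h2, ← Module.finrank_mul_finrank ℚ K L, mul_comm] at h3
  exact Nat.eq_of_mul_eq_mul_left Module.finrank_pos h3

/-- `[G_ℚ : U'] = [L : ℚ] = [K : ℚ] · [L : K]` -/
theorem index_fixingSubgroup_fieldRange (ι : L →ₐ[ℚ] Qbar) :
    ι.fieldRange.fixingSubgroup.index = Module.finrank ℚ K * Module.finrank K L := by
  rw [← IntermediateField.finrank_eq_fixingSubgroup_index, Module.finrank_mul_finrank ℚ K L]
  exact (AlgEquiv.ofInjectiveField ι).toLinearEquiv.finrank_eq.symm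

end Shadow

section Layer

variable {G : Type*} [Group G]

/-- the layer group `U₀/U'` (as a subgroup of `G ⧸ U'`) is commutative if commutators of `U₀` lie in
`U'` -/
theorem map_mk'_comm (U₀ U' : Subgroup G) [U'.Normal]
    (h : ∀ σ ∈ U₀, ∀ τ ∈ U₀, (τ * σ)⁻¹ * (σ * τ) ∈ U')
    (a b : U₀.map (QuotientGroup.mk' U')) : a * b = b * a := by
  obtain ⟨_, σ, hσ, rfl⟩ := a
  obtain ⟨_, τ, hτ, rfl⟩ := b
  apply Subtype.ext
  change QuotientGroup.mk' U' σ * QuotientGroup.mk' U' τ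
    = QuotientGroup.mk' U' τ * QuotientGroup.mk' U' σ
  rw [← map_mul, ← map_mul, eq_comm]
  exact (QuotientGroup.eq).mpr (h σ hσ τ hτ)

theorem map_mk'_pow (U₀ U' : Subgroup G) [U'.Normal] (p : ℕ) (h : ∀ σ ∈ U₀, σ ^ p ∈ U')
    (a : U₀.map (QuotientGroup.mk' U')) : a ^ p = 1 := by
  obtain ⟨_, σ, hσ, rfl⟩ := a
  apply Subtype.ext
  change (QuotientGroup.mk' U' σ) ^ p = 1
  rw [← map_pow]
  exact (QuotientGroup.eq_one_iff _).mpr (h σ hσ)

theorem card_map_mk' (U₀ U' : Subgroup G) [U'.Normal] :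
    Nat.card (U₀.map (QuotientGroup.mk' U')) = U'.relIndex U₀ := by
  rw [← Subgroup.relIndex_ker, QuotientGroup.ker_mk']

end Layer



/-- **The Kummer level.**  `K ∋ μ_p` Galois over `ℚ`, `ιK K ⊂ ℚ_S`, `p` an `S`-number,
`Kˣᵖ ≤ Δ ≤ Kˣ` of finite index, `Aut(K/ℚ)`-stable, `p ∣ w(a)` for `a ∈ Δ`, `w ∤ S`.  Then
`L = K(Δ^{1/p})` embeds in `ℚ_S`, is Galois over `ℚ`, and `U' := Gal(ℚ̄/L)` is a level of `G_{ℚ,S}`
inside `U₀ := Gal(ℚ̄/K)` with `U₀/U'` commutative of exponent `p` and order `[Δ : Kˣᵖ]`. -/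
theorem exists_kummer_level {K : Type} [Field K] [NumberField K] [IsGalois ℚ K] {p : ℕ} [NeZero p]
    (hpS : IsSNat S p) (hζ : (primitiveRoots p K).Nonempty) (ιK : K →ₐ[ℚ] Qbar)
    (hK : ιK.fieldRange.IsUnramifiedOutside S) (Δ : Subgroup Kˣ)
    (hΔ : (powMonoidHom p : Kˣ →* Kˣ).range ≤ Δ)
    (hfin : ((powMonoidHom p : Kˣ →* Kˣ).range).relIndex Δ ≠ 0)
    (hstab : ∀ (τ : K ≃ₐ[ℚ] K) (a : Kˣ), a ∈ Δ → Units.map (τ : K →* K) a ∈ Δ)
    (hval : ∀ a ∈ Δ, ∀ w : HeightOneSpectrum (𝓞 K), natPrime K w ∉ S →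
      ∃ z : K, w.valuation K (a : K) = w.valuation K (z ^ p)) :
    ∃ (L : Type) (_ : Field L) (_ : NumberField L) (_ : Algebra K L) (_ : IsGalois K L)
      (ι : L →ₐ[ℚ] Qbar) (_ : ι.fieldRange.fixingSubgroup.Normal),
      (∀ z : K, ι (algebraMap K L z) = ιK z) ∧
      ι.fieldRange.IsUnramifiedOutside S ∧
      ι.fieldRange.fixingSubgroup ∈ (levelsS S).sets ∧
      ι.fieldRange.fixingSubgroup ≤ ιK.fieldRange.fixingSubgroup ∧
      (∀ a b : (ιK.fieldRange.fixingSubgroup).map (QuotientGroup.mk' ι.fieldRange.fixingSubgroup),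
        a * b = b * a) ∧
      (∀ a : (ιK.fieldRange.fixingSubgroup).map (QuotientGroup.mk' ι.fieldRange.fixingSubgroup),
        a ^ p = 1) ∧
      Nat.card ((ιK.fieldRange.fixingSubgroup).map (QuotientGroup.mk' ι.fieldRange.fixingSubgroup))
        = ((powMonoidHom p : Kˣ →* Kˣ).range).relIndex Δ ∧
      (∀ σ τ : L ≃ₐ[K] L, σ * τ = τ * σ) ∧ (∀ σ : L ≃ₐ[K] L, σ ^ p = 1) ∧
      finrank K L = ((powMonoidHom p : Kˣ →* Kˣ).range).relIndex Δ ∧
      powFrom K L p = Δ := by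
  obtain ⟨L, _, _, _, _, ι, hι, hunr, hcomm, hexp, hdeg, hpow⟩ :=
    exists_kummer_in_QS hpS hζ ιK hK Δ hΔ hfin hval
  have hbase : baseRange (K := K) ι = ιK.fieldRange := baseRange_eq_of_extends ιK ι hι
  have hnormal : Normal ℚ ι.fieldRange :=
    normal_fieldRange hζ hcomm hexp ι (fun τ a ha => by rw [hpow] at ha ⊢; exact hstab τ a ha)
  haveI : IsGalois ℚ ι.fieldRange := ⟨⟩
  have hN : ι.fieldRange.fixingSubgroup.Normal := IsGalois.fixingSubgroup_normal_of_isGalois _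
  refine ⟨L, inferInstance, inferInstance, inferInstance, inferInstance, ι, hN, hι, hunr,
    ⟨hN, ι.fieldRange, hunr, rfl⟩, ?_, ?_, ?_, ?_, hcomm, hexp, hdeg, hpow⟩
  · rw [← hbase]
    exact fixingSubgroup_fieldRange_le ι
  · refine map_mk'_comm _ _ fun σ hσ τ hτ => ?_
    rw [← hbase] at hσ hτ
    exact mul_comm_mod hcomm ι σ τ hσ hτ
  · refine map_mk'_pow _ _ p fun σ hσ => ?_
    rw [← hbase] at hσ
    exact pow_mem_fixingSubgroup hexp ι σ hσ
  · rw [card_map_mk', ← hbase, relIndex_fixingSubgroup, hdeg]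

end Fermat.Agent.CFT.C7.KummerLevel
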