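import Mathlib
import Fermat.Agent.CFT.C7.KummerLevel
import Fermat.Agent.CFT.C7.KummerSplitS

/-!
# PROJECT C, slice (N3): the two Kummer levels `K(W_S^{1/p})` and `K(B_S^{1/p})`, hypothesis-free

`K ∋ ζ_P` a number field Galois over `ℚ`, embedded in `ℚ_S` (`P ∈ S` odd), `W_S`, `B_S` the groups of
the count (helper22's `ExistCount.WS`, `ExistCount.BS`).

* `hval_WS`: `p ∣ w(a)` for `a ∈ W_S`, `w ∤ S` (from `KummerLevel` (L1));
* `exists_kummer_level_WS`: (F1) `M = K(W_S^{1/P})` gives a level `U' ≤ U₀ = G_K` of `G_{ℚ,S}` with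
  `U₀/U'` elementary abelian of order `[W_S : Kˣᴾ]`, and `P ∣ [G_ℚ : U']`;
* `exists_kummer_level_BS`: (F2) `M' = K(B_S^{1/P})` gives a level `U'' ≤ U₀` with `U₀/U''`
  elementary abelian of order `[B_S : Kˣᴾ]`, every `q ∈ S` splits completely in `M'` and all ideles
  of `K` supported in `S` are norms from `M'`.
-/

set_option autoImplicit false
set_option linter.unusedSectionVars false

open scoped NumberField IntermediateField

noncomputable section

namespace Fermat.Agent.CFT.C7.KummerLevelWS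

open IsDedekindDomain IntermediateField Module
open Fermat.Agent.CFT.Idele Fermat.Agent.CFT.C5.NonSplit Fermat.Agent.CFT.C6.IdeleNorm
  Fermat.Agent.CFT.C7.KummerUnram Fermat.Agent.CFT.C7.KummerNF Fermat.Agent.CFT.Kummer
  Fermat.Agent.CFT.C3.ClassGen Fermat.Agent.CFT.C7.ExistCount Fermat.Agent.CFT.C7.KummerSplitS
  Fermat.Agent.CFT.C7.KummerLevel Fermat.Agent.CFT.Bridge

local notation "Qbar" => AlgebraicClosure ℚ

variable {K : Type} [Field K] [NumberField K]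

/-- **(L1) for `W_S`**: elements of `W_S` have valuation divisible by `p` outside `S`. -/
theorem hval_WS (S : Finset Nat.Primes) (p : ℕ) :
    ∀ a ∈ WS K (S : Set Nat.Primes) p, ∀ w : HeightOneSpectrum (𝓞 K), natPrime K w ∉ S →
      ∃ z : K, w.valuation K (a : K) = w.valuation K (z ^ p) := by
  intro a ha w hw
  obtain ⟨y, hy⟩ := mem_WS.mp ha
  exact exists_valuation_eq_pow_of_mem_JTsub a y hy w (fun h => hw (Finset.mem_coe.mp h))

theorem hval_BS (S : Finset Nat.Primes) (p : ℕ) :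
    ∀ a ∈ BS K (S : Set Nat.Primes) p, ∀ w : HeightOneSpectrum (𝓞 K), natPrime K w ∉ S →
      ∃ z : K, w.valuation K (a : K) = w.valuation K (z ^ p) :=
  fun a ha => hval_WS S p a (BS_le_WS K _ _ ha)

/-- **(F1)** the level of `M = K(W_S^{1/P})`. -/
theorem exists_kummer_level_WS [IsGalois ℚ K] (P : Nat.Primes) (S : Finset Nat.Primes)
    (hP2 : (P : ℕ) ≠ 2) {ζ : K} (hζ : IsPrimitiveRoot ζ (P : ℕ)) (hPS : P ∈ S)
    (ιK : K →ₐ[ℚ] Qbar) (hK : ιK.fieldRange.IsUnramifiedOutside S) :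
    ∃ (L : Type) (_ : Field L) (_ : NumberField L) (_ : Algebra K L) (_ : IsGalois K L)
      (ι : L →ₐ[ℚ] Qbar) (_ : ι.fieldRange.fixingSubgroup.Normal),
      (∀ z : K, ι (algebraMap K L z) = ιK z) ∧
      ι.fieldRange.IsUnramifiedOutside S ∧
      ι.fieldRange.fixingSubgroup ∈ (levelsS S).sets ∧
      ι.fieldRange.fixingSubgroup ≤ ιK.fieldRange.fixingSubgroup ∧
      (∀ a b : (ιK.fieldRange.fixingSubgroup).map (QuotientGroup.mk' ι.fieldRange.fixingSubgroup),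
        a * b = b * a) ∧
      (∀ a : (ιK.fieldRange.fixingSubgroup).map (QuotientGroup.mk' ι.fieldRange.fixingSubgroup),
        a ^ (P : ℕ) = 1) ∧
      Nat.card ((ιK.fieldRange.fixingSubgroup).map (QuotientGroup.mk' ι.fieldRange.fixingSubgroup))
        = ((powMonoidHom (P : ℕ) : Kˣ →* Kˣ).range).relIndex
          (WS K (S : Set Nat.Primes) (P : ℕ)) ∧
      (P : ℕ) ∣ Nat.card (GQ ⧸ ι.fieldRange.fixingSubgroup) ∧
      (∀ σ τ : L ≃ₐ[K] L, σ * τ = τ * σ) ∧ (∀ σ : L ≃ₐ[K] L, σ ^ (P : ℕ) = 1) ∧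
      finrank K L = ((powMonoidHom (P : ℕ) : Kˣ →* Kˣ).range).relIndex
        (WS K (S : Set Nat.Primes) (P : ℕ)) ∧
      powFrom K L (P : ℕ) = WS K (S : Set Nat.Primes) (P : ℕ) := by
  have : NeZero (P : ℕ) := ⟨P.2.ne_zero⟩
  have hζ' : (primitiveRoots (P : ℕ) K).Nonempty :=
    ⟨ζ, (mem_primitiveRoots P.2.pos).mpr hζ⟩
  obtain ⟨L, iF, iN, iA, iG, ι, hN, hι, hur, hlev, hle, hc, he, hcard, hcomm, hexp, hdeg, hpow⟩ :=
    exists_kummer_level (isSNat_prime hPS) hζ' ιK hK (WS K (S : Set Nat.Primes) (P : ℕ))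
      (range_pow_le_WS K _ _) (relIndex_WS_ne_zero K P S hP2 hζ hPS)
      (fun τ a ha => map_mem_WS τ ha) (hval_WS S (P : ℕ))
  refine ⟨L, iF, iN, iA, iG, ι, hN, hι, hur, hlev, hle, hc, he, hcard, ?_, hcomm, hexp, hdeg,
    hpow⟩
  have h1 : Nat.card (GQ ⧸ ι.fieldRange.fixingSubgroup) = ι.fieldRange.fixingSubgroup.index := rfl
  rw [h1, index_fixingSubgroup_fieldRange (K := K) ι, hdeg]
  exact dvd_mul_of_dvd_right (dvd_relIndex_WS P S hP2 hζ hPS) _

/-- **(F2)** the level of the `S`-split layer `M' = K(B_S^{1/P})`. -/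
theorem exists_kummer_level_BS [IsGalois ℚ K] (P : Nat.Primes) (S : Finset Nat.Primes)
    (hP2 : (P : ℕ) ≠ 2) {ζ : K} (hζ : IsPrimitiveRoot ζ (P : ℕ)) (hPS : P ∈ S)
    (ιK : K →ₐ[ℚ] Qbar) (hK : ιK.fieldRange.IsUnramifiedOutside S) :
    ∃ (L : Type) (_ : Field L) (_ : NumberField L) (_ : Algebra K L) (_ : IsGalois K L)
      (ι : L →ₐ[ℚ] Qbar) (_ : ι.fieldRange.fixingSubgroup.Normal),
      (∀ z : K, ι (algebraMap K L z) = ιK z) ∧
      ι.fieldRange.IsUnramifiedOutside S ∧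
      ι.fieldRange.fixingSubgroup ∈ (levelsS S).sets ∧
      ι.fieldRange.fixingSubgroup ≤ ιK.fieldRange.fixingSubgroup ∧
      (∀ a b : (ιK.fieldRange.fixingSubgroup).map (QuotientGroup.mk' ι.fieldRange.fixingSubgroup),
        a * b = b * a) ∧
      (∀ a : (ιK.fieldRange.fixingSubgroup).map (QuotientGroup.mk' ι.fieldRange.fixingSubgroup),
        a ^ (P : ℕ) = 1) ∧
      Nat.card ((ιK.fieldRange.fixingSubgroup).map (QuotientGroup.mk' ι.fieldRange.fixingSubgroup))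
        = ((powMonoidHom (P : ℕ) : Kˣ →* Kˣ).range).relIndex
          (BS K (S : Set Nat.Primes) (P : ℕ)) ∧
      (∀ σ τ : L ≃ₐ[K] L, σ * τ = τ * σ) ∧ (∀ σ : L ≃ₐ[K] L, σ ^ (P : ℕ) = 1) ∧
      finrank K L = ((powMonoidHom (P : ℕ) : Kˣ →* Kˣ).range).relIndex
        (BS K (S : Set Nat.Primes) (P : ℕ)) ∧
      powFrom K L (P : ℕ) = BS K (S : Set Nat.Primes) (P : ℕ) ∧
      (∀ q ∈ S, SplitsCompletely K L q) ∧
      JS K (S : Set Nat.Primes) ≤ (normJ K L).range := by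
  have : NeZero (P : ℕ) := ⟨P.2.ne_zero⟩
  have hζ' : (primitiveRoots (P : ℕ) K).Nonempty :=
    ⟨ζ, (mem_primitiveRoots P.2.pos).mpr hζ⟩
  obtain ⟨L, iF, iN, iA, iG, ι, hN, hι, hur, hlev, hle, hc, he, hcard, hcomm, hexp, hdeg, hpow⟩ :=
    exists_kummer_level (isSNat_prime hPS) hζ' ιK hK (BS K (S : Set Nat.Primes) (P : ℕ))
      (range_pow_le_BS K _ _) (relIndex_BS_ne_zero K P S hP2 hζ hPS)
      (fun τ a ha => map_mem_BS τ ha) (hval_BS S (P : ℕ))
  refine ⟨L, iF, iN, iA, iG, ι, hN, hι, hur, hlev, hle, hc, he, hcard, hcomm, hexp, hdeg,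
    hpow, ?_, ?_⟩
  · intro q hq
    exact splitsCompletely_of_powFrom_le_BS hζ' hcomm hexp hpow.le (Finset.mem_coe.mpr hq)
  · exact JS_le_range_normJ_of_powFrom_le_BS hζ' hcomm hexp hpow.le

end Fermat.Agent.CFT.C7.KummerLevelWS
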