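import Mathlib
import Fermat.Agent.CFT.C7.KummerLevelWS

/-!
# PROJECT C, slice (N3): the Kummer levels over a level FIELD `F ⊂ ℚ̄`

`F : IntermediateField ℚ ℚ̄` a level field of `G_{ℚ,S}` (finite, normal over `ℚ`, unramified outside
`S`) containing a primitive `P`-th root of unity, `P ∈ S` odd.  The `Type`-level statements of
`KummerLevelWS` are instantiated at `K := ↥F` (with its canonical `ℚ`-algebra structure
`DivisionRing.toRatAlgebra`, the one used by `NumberField`, `ExistCount.WS`, `Idele.J` ...):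

* `exists_val_of_field`: the embedding `ιK : ↥F →ₐ[ℚ] ℚ̄` (for that `ℚ`-algebra structure), with
  `ιK.fieldRange = F`, and `IsGalois ℚ ↥F`;
* `exists_level_WS_of_field`: a level `U' ≤ G_F` with `G_F/U'` elementary abelian of order
  `[W_S(F) : Fˣᴾ]` and `P ∣ [G_ℚ : U']` (pure group data: the fields of `N3Assembly.CountLevel`);
* `exists_level_BS_of_field`: the `S`-split layer `M' = F(B_S^{1/P})`, with the `Type`-level field
  `L` kept (for the norm statement).
-/

set_option autoImplicit false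
set_option linter.unusedSectionVars false

open scoped NumberField IntermediateField

noncomputable section

namespace Fermat.Agent.CFT.C7.KummerLevelField

open IsDedekindDomain IntermediateField Module
open Fermat.Agent.CFT.Idele Fermat.Agent.CFT.C5.NonSplit Fermat.Agent.CFT.C6.IdeleNorm
  Fermat.Agent.CFT.Kummer Fermat.Agent.CFT.C7.ExistCount Fermat.Agent.CFT.C7.KummerLevelWS
  Fermat.Agent.CFT.Bridge

local notation "Qbar" => AlgebraicClosure ℚ

/-- transport of `IsGalois ℚ K` to the canonical `ℚ`-algebra structure -/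
theorem isGalois_toRatAlgebra {K : Type} [Field K] [CharZero K] (inst : Algebra ℚ K)
    (h : @IsGalois ℚ _ K _ inst) : @IsGalois ℚ _ K _ DivisionRing.toRatAlgebra := by
  obtain rfl : inst = DivisionRing.toRatAlgebra := Subsingleton.elim _ _
  exact h

/-- **The embedding of a level field**, for the canonical `ℚ`-algebra structure on `↥F`. -/
theorem exists_val_of_field (F : IntermediateField ℚ Qbar) (hFn : F.fixingSubgroup.Normal) :
    ∃ ιK : F →ₐ[ℚ] Qbar, (∀ x : F, ιK x = (x : Qbar)) ∧ ιK.fieldRange = F ∧ IsGalois ℚ F := by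
  refine ⟨(algebraMap F Qbar).toRatAlgHom, fun x => rfl, ?_, ?_⟩
  · ext x
    constructor
    · rintro ⟨y, rfl⟩
      exact y.2
    · intro hx
      exact ⟨⟨x, hx⟩, rfl⟩
  · exact isGalois_toRatAlgebra _ ((InfiniteGalois.normal_iff_isGalois F).mp hFn)

variable (P : Nat.Primes) (S : Finset Nat.Primes)

/-- **(F1) over a level field**: the level of `F(W_S^{1/P})`, group data only. -/
theorem exists_level_WS_of_field (hP2 : (P : ℕ) ≠ 2) (hPS : P ∈ S)
    (F : IntermediateField ℚ Qbar) [NumberField F] (hF : F.IsUnramifiedOutside S)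
    (hFn : F.fixingSubgroup.Normal) {ζ : Qbar} (hζF : ζ ∈ F) (hζ : IsPrimitiveRoot ζ (P : ℕ)) :
    ∃ (U' : Subgroup GQ) (_ : U'.Normal), U' ∈ (levelsS S).sets ∧ U' ≤ F.fixingSubgroup ∧
      (∀ a b : (F.fixingSubgroup).map (QuotientGroup.mk' U'), a * b = b * a) ∧
      (∀ a : (F.fixingSubgroup).map (QuotientGroup.mk' U'), a ^ (P : ℕ) = 1) ∧
      Nat.card ((F.fixingSubgroup).map (QuotientGroup.mk' U'))
        = ((powMonoidHom (P : ℕ) : Fˣ →* Fˣ).range).relIndex
          (WS F (S : Set Nat.Primes) (P : ℕ)) ∧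
      (P : ℕ) ∣ Nat.card (GQ ⧸ U') := by
  obtain ⟨ιK, hιK, hrange, hgal⟩ := exists_val_of_field F hFn
  have hζ' : IsPrimitiveRoot (⟨ζ, hζF⟩ : F) (P : ℕ) :=
    IsPrimitiveRoot.of_map_of_injective (f := ιK) (by rw [hιK]; exact hζ) ιK.injective
  have hK : ιK.fieldRange.IsUnramifiedOutside S := by rw [hrange]; exact hF
  obtain ⟨L, iF, iN, iA, iG, ι, hN, -, -, hlev, hle, hc, he, hcard, hdvd, -⟩ :=
    exists_kummer_level_WS P S hP2 hζ' hPS ιK hK
  rw [hrange] at hle hc he hcard
  exact ⟨ι.fieldRange.fixingSubgroup, hN, hlev, hle, hc, he, hcard, hdvd⟩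

/-- **(F2) over a level field**: the level of the `S`-split layer `F(B_S^{1/P})`, keeping the
field `L` for the norm statement. -/
theorem exists_level_BS_of_field (hP2 : (P : ℕ) ≠ 2) (hPS : P ∈ S)
    (F : IntermediateField ℚ Qbar) [NumberField F] (hF : F.IsUnramifiedOutside S)
    (hFn : F.fixingSubgroup.Normal) {ζ : Qbar} (hζF : ζ ∈ F) (hζ : IsPrimitiveRoot ζ (P : ℕ)) :
    ∃ (ιK : F →ₐ[ℚ] Qbar) (L : Type) (_ : Field L) (_ : NumberField L) (_ : Algebra F L)
      (_ : IsGalois F L) (ι : L →ₐ[ℚ] Qbar) (_ : ι.fieldRange.fixingSubgroup.Normal),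
      (∀ x : F, ιK x = (x : Qbar)) ∧ ιK.fieldRange = F ∧
      (∀ z : F, ι (algebraMap F L z) = (z : Qbar)) ∧
      ι.fieldRange.IsUnramifiedOutside S ∧
      ι.fieldRange.fixingSubgroup ∈ (levelsS S).sets ∧
      ι.fieldRange.fixingSubgroup ≤ F.fixingSubgroup ∧
      (∀ a b : (F.fixingSubgroup).map (QuotientGroup.mk' ι.fieldRange.fixingSubgroup),
        a * b = b * a) ∧
      (∀ a : (F.fixingSubgroup).map (QuotientGroup.mk' ι.fieldRange.fixingSubgroup),
        a ^ (P : ℕ) = 1) ∧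
      Nat.card ((F.fixingSubgroup).map (QuotientGroup.mk' ι.fieldRange.fixingSubgroup))
        = ((powMonoidHom (P : ℕ) : Fˣ →* Fˣ).range).relIndex
          (BS F (S : Set Nat.Primes) (P : ℕ)) ∧
      finrank F L = ((powMonoidHom (P : ℕ) : Fˣ →* Fˣ).range).relIndex
        (BS F (S : Set Nat.Primes) (P : ℕ)) ∧
      (∀ q ∈ S, SplitsCompletely F L q) ∧
      JS F (S : Set Nat.Primes) ≤ (normJ F L).range := by
  obtain ⟨ιK, hιK, hrange, hgal⟩ := exists_val_of_field F hFn
  have hζ' : IsPrimitiveRoot (⟨ζ, hζF⟩ : F) (P : ℕ) :=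
    IsPrimitiveRoot.of_map_of_injective (f := ιK) (by rw [hιK]; exact hζ) ιK.injective
  have hK : ιK.fieldRange.IsUnramifiedOutside S := by rw [hrange]; exact hF
  obtain ⟨L, iF, iN, iA, iG, ι, hN, hι, hur, hlev, hle, hc, he, hcard, -, -, hdeg, -, hsplit,
    hnorm⟩ := exists_kummer_level_BS P S hP2 hζ' hPS ιK hK
  rw [hrange] at hle hc he hcard
  exact ⟨ιK, L, iF, iN, iA, iG, ι, hN, hιK, hrange, fun z => (hι z).trans (hιK z), hur, hlev, hle,
    hc, he, hcard, hdeg, hsplit, hnorm⟩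

end Fermat.Agent.CFT.C7.KummerLevelField
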