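/-
PROJECT C, slice C7-SES (helper27): the sequence `0 → E_S ⊗ k → J_S ⊗ k → C_S ⊗ k → 0` of smooth
representations of `GQ = Gal(ℚ̄/ℚ)` (levels `levelsS S`), `k` a localisation of `ℤ` at the integers
prime to `p ∈ S`.

Objects: helper11's `Idele/QS.lean` (`QS.E S`, `QS.J S`, `QS.C0 S = J_S/E_S`, `QS.C S = lim C_S(F)`).
This file adds

* the dictionary `ES S = ED (isFieldFilter_unram S) S` between helper1's `S`-units of `ℚ_S`
  (`C7/KummerUnram`, valuation subrings of `ℚ̄`) and helper11's (`TUnits` of the tensor model), hence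
  `QS.divisible_E` : `E_S` is `n`-divisible for every `S`-number `n` (Kummer theory);
* `QS.exists_smul_mem_range_incl` : the cokernel of `J_S/E_S → C_S` (`= lim Cl_S(F)`) is torsion
  and has no `p`-torsion for `p ∈ S` (finiteness of the class group + `p`-capitulation in `ℚ_S`);
* the generic fact that an injective map with `M`-torsion cokernel becomes bijective after
  localisation at `M`, and the resulting short exact sequence `QS.seqK`.
-/
import Mathlib
import Fermat.Agent.CFT.Idele.QS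
import Fermat.Agent.CFT.C7.Capitulation
import Fermat.Agent.S14.IdeleClassGroup
import Fermat.Agent.CFT.A7.BaseChangeExact
import Fermat.Agent.CFT.A7.BaseChangeCard

set_option autoImplicit false

open scoped TensorProduct

noncomputable section

namespace Fermat.Agent.CFT.C7.SES

open Fermat.Agent.CFT.Idele Fermat.Agent.CFT.Bridge Fermat.Agent.CFT.LC

open scoped Fermat.Agent.CFT.Idele

attribute [local instance 2000] IntermediateField.algebra'

variable {S : Finset Nat.Primes}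

/-! ### Dictionary: helper1's `S`-units of `ℚ_S` are the `S`-units of the tensor model -/

section Dictionary

open IsDedekindDomain NumberField Fermat.Agent.CFT.C7.PlaceDict Fermat.Agent.CFT.C3.ClassGen
  Fermat.Agent.CFT.C7.KummerUnram

/-- `mem_TUnits_iff_valuation` for an arbitrary `Algebra ℚ L` instance. -/
theorem mem_TUnits_iff_valuation' {L : Type} [Field L] [NumberField L] [inst : Algebra ℚ L]
    [Algebra.IsAlgebraic ℚ L] (T : Set Nat.Primes) (a : Lˣ) :
    a ∈ TUnits L T ↔ ∀ (w : HeightOneSpectrum (𝓞 L)) (q : Nat.Primes),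
      (((q : ℕ) : 𝓞 L)) ∈ w.asIdeal → q ∉ T → w.valuation L (a : L) = 1 := by
  obtain rfl : inst = DivisionRing.toRatAlgebra := Subsingleton.elim _ _
  exact mem_TUnits_iff_valuation T a

/-- For a unit of a number field `F ⊂ ℚ̄`: `S`-unit in the valuation-subring sense iff `S`-unit of
the tensor model of `ℚ̄`. -/
theorem isSUnit_iff_mem_TUnits_of_mem (F : IntermediateField ℚ Qbar) [FiniteDimensional ℚ F]
    (u : Qbarˣ) (hu : (u : Qbar) ∈ F) :
    IsSUnit S (u : Qbar) ↔ u ∈ TUnits Qbar (S : Set Nat.Primes) := by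
  have := numberField_of_finiteDimensional F
  have hx0 : (⟨(u : Qbar), hu⟩ : F) ≠ 0 := fun h => u.ne_zero (congrArg Subtype.val h)
  set x : Fˣ := Units.mk0 ⟨(u : Qbar), hu⟩ hx0 with hx
  have hxu : Units.map (F.val : F →* Qbar) x = u := Units.ext rfl
  rw [← hxu, map_mem_TUnits_iff, mem_TUnits_iff_valuation']
  have h1 := isSUnit_iff_forall_valuation_eq_one F S (x : F)
  have h2 : algebraMap F Qbar (x : F) = ((Units.map (F.val : F →* Qbar) x : Qbarˣ) : Qbar) := rfl
  rw [h2] at h1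
  rw [h1]
  constructor
  · intro h w q hq hqS
    apply h w
    have hqq : natPrime F w = q := mem_iff_eq_natPrime.mp hq
    rw [hqq]
    exact fun h' => hqS (Finset.mem_coe.mpr h')
  · intro h w hw
    exact h w (natPrime F w) (natPrime_mem F w) (fun h' => hw (Finset.mem_coe.mp h'))

theorem isSUnit_iff_mem_TUnits (u : Qbarˣ) :
    IsSUnit S (u : Qbar) ↔ u ∈ TUnits Qbar (S : Set Nat.Primes) := by
  have : FiniteDimensional ℚ (IntermediateField.adjoin ℚ {(u : Qbar)}) :=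
    IntermediateField.adjoin.finiteDimensional (Algebra.IsIntegral.isIntegral (u : Qbar))
  exact isSUnit_iff_mem_TUnits_of_mem _ u (IntermediateField.mem_adjoin_simple_self ℚ (u : Qbar))

theorem mem_ES_iff_TUnits {u : Qbarˣ} :
    u ∈ ES S ↔ (u : Qbar) ∈ KummerUnram.QS S ∧ u ∈ TUnits Qbar (S : Set Nat.Primes) := by
  rw [mem_ES_iff, isSUnit_iff_mem_TUnits]

/-- helper1's `S`-units of `ℚ_S` (valuation subrings of `ℚ̄`) are helper11's (tensor model). -/
theorem ES_eq_ED : ES S = ED (isFieldFilter_unram S) (S : Set Nat.Primes) := by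
  ext u
  rw [mem_ES_iff_TUnits, mem_ED, mem_UP, mem_QS_iff]

end Dictionary

/-! ### Divisibility of `E_S` -/

section Divisible

open Fermat.Agent.CFT.C7.KummerUnram

/-- **`E_S` is `n`-divisible** for every `S`-number `n` (subgroup form). -/
theorem ED_pow_surjective {n : ℕ} (hn : IsSNat S n)
    (u : ED (isFieldFilter_unram S) (S : Set Nat.Primes)) :
    ∃ w : ED (isFieldFilter_unram S) (S : Set Nat.Primes), w ^ n = u := by
  have hu : (u : Qbarˣ) ∈ ES S := by rw [ES_eq_ED]; exact u.2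
  obtain ⟨w, hw, hwn⟩ := ES_pow_surjective hn hu
  rw [ES_eq_ED] at hw
  exact ⟨⟨w, hw⟩, Subtype.ext hwn⟩

/-- **`E_S` is `n`-divisible** for every `S`-number `n` (`Rep` form, the hypothesis `hE` of
`D/Resolution.row_shortExact` / `D/TheoremI`). -/
theorem divisible_E {n : ℕ} (hn : IsSNat S n) (x : (QS.E S).V) :
    ∃ y : (QS.E S).V, (n : ℤ) • y = x := by
  change Additive (ED (isFieldFilter_unram S) (S : Set Nat.Primes)) at x
  obtain ⟨w, hw⟩ := ED_pow_surjective hn (Additive.toMul x)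
  refine ⟨Additive.ofMul w, ?_⟩
  rw [natCast_zsmul]
  exact congrArg Additive.ofMul hw

theorem divisible_E_prime_pow {p : Nat.Primes} (hp : p ∈ S) (a : ℕ) (x : (QS.E S).V) :
    ∃ y : (QS.E S).V, (((p : ℕ) ^ a : ℕ) : ℤ) • y = x :=
  divisible_E ((isSNat_prime hp).pow a) x

end Divisible

/-! ### The cokernel of `J_S/E_S → C_S` is torsion prime to `p` -/

section Cokernel

open NumberField Fermat.Agent.CFT.C7.KummerUnram Fermat.Agent.S14.IdeleClassGroup
  Fermat.Agent.CFT.C7.PlaceDict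

/-- The class group of a number field is killed by its order, idelically; for an arbitrary
`Algebra ℚ L` instance. -/
theorem pow_card_classGroup_mem_sup {L : Type} [Field L] [NumberField L] [inst : Algebra ℚ L]
    (y : J L) :
    y ^ Fintype.card (ClassGroup (𝓞 L)) ∈ (diag L).range ⊔ JTsub L (∅ : Set Nat.Primes) := by
  obtain rfl : inst = DivisionRing.toRatAlgebra := Subsingleton.elim _ _
  rw [← ker_toCl, MonoidHom.mem_ker, map_pow]
  exact pow_card_eq_one

/-- **The `S`-class group of `ℚ_S` is torsion without `p`-torsion** (`p ∈ S`): every `S`-idele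
class of `ℚ_S` has a prime-to-`p` power which is the class of an `S`-idele of `ℚ_S`. -/
theorem exists_pow_mem_CD0 {p : Nat.Primes} (hp : p ∈ S) {c : CS Qbar (S : Set Nat.Primes)}
    (hc : c ∈ CD (isFieldFilter_unram S) (S : Set Nat.Primes)) :
    ∃ m : ℕ, ¬ (p : ℕ) ∣ m ∧ c ^ m ∈ CD0 (isFieldFilter_unram S) (S : Set Nat.Primes) := by
  obtain ⟨x, ⟨F, hF, y, rfl⟩, rfl⟩ := hc
  have := hF.1
  have := numberField_of_finiteDimensional F
  -- the class number of `F`
  set h := Fintype.card (ClassGroup (𝓞 F)) with hh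
  have hh0 : h ≠ 0 := Fintype.card_ne_zero
  obtain ⟨a, m, hpm, hhm⟩ := Nat.exists_eq_pow_mul_and_not_dvd hh0 (p : ℕ) p.2.ne_one
  refine ⟨m, hpm, ?_⟩
  have h1 : (y ^ m) ^ ((p : ℕ) ^ a) ∈ (diag F).range ⊔ JTsub F (S : Set Nat.Primes) := by
    rw [← pow_mul, mul_comm, ← hhm]
    exact sup_le_sup_left (JTsub_mono F (Set.empty_subset _)) _ (pow_card_classGroup_mem_sup y)
  obtain ⟨F', hle, hF', h2⟩ :=
    Capitulation.exists_isUnramifiedOutside_map_mem_sup F hF ((isSNat_prime hp).pow a) (y ^ m) h1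
  obtain ⟨_, ⟨b, rfl⟩, t, ht, h3⟩ := Subgroup.mem_sup.mp h2
  -- transport to `ℚ̄`
  have h4 : J.map F.val (y ^ m) = J.map F'.val (diag F' b * t) := by
    rw [h3, ← J.map_comp]
    rfl
  have ht' : J.map F'.val t ∈ JTsub Qbar (S : Set Nat.Primes) :=
    (J.map_mem_JTsub_iff F'.val t).mpr ht
  have ht'P : J.map F'.val t ∈ JP (isFieldFilter_unram S) := J.map_val_mem_JP hF' t
  refine ⟨trunc Qbar (S : Set Nat.Primes) (J.map F'.val t),
    ⟨trunc_mem_JP _ ht'P, trunc_mem_JS _⟩, ?_⟩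
  rw [← map_pow, ← map_pow, h4, map_mul, map_mul, J.map_diag, toCS_diag, one_mul]
  conv_rhs => rw [← trunc_mul_trunc_compl (S := (S : Set Nat.Primes)) (J.map F'.val t)]
  rw [map_mul, toCS_of_mem_US (trunc_compl_mem_US_iff.mpr ht'), mul_one]

end Cokernel

/-! ### Generic: localisation kills torsion cokernels and preserves divisibility -/

section Generic

open Fermat.Agent.CFT.A7.BaseChange

universe u

variable {R k : Type u} [CommRing R] [CommRing k] [Algebra R k] {M : Submonoid R}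
  {G : Type u} [Group G] {X X' : Rep.{u} R G} {Y Y' : Rep.{u} k G} {f : X.V →+ Y.V}
  {f' : X'.V →+ Y'.V}

/-- A map with `M`-torsion cokernel becomes surjective after localisation at `M`. -/
theorem surjective_of_isLocRep_of_torsion_coker (_hf : IsLocRep M X Y f)
    (hf' : IsLocRep M X' Y' f') (hM : ∀ s ∈ M, IsUnit (algebraMap R k s)) (a : X ⟶ X')
    (a' : Y ⟶ Y') (ha : ∀ x, f' (a.hom x) = a'.hom (f x))
    (hcoker : ∀ x' : X'.V, ∃ s ∈ M, ∃ x : X.V, a.hom x = s • x') :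
    Function.Surjective a'.hom := by
  intro y'
  obtain ⟨s, hs, x', hx'⟩ := hf'.surj y'
  obtain ⟨t, ht, x, hx⟩ := hcoker x'
  obtain ⟨u, hu⟩ := hM s hs
  obtain ⟨v, hv⟩ := hM t ht
  refine ⟨((↑u⁻¹ : k) * (↑v⁻¹ : k)) • f x, ?_⟩
  rw [_root_.map_smul a'.hom, ← ha, hx, hf'.map_smul, ← hx', ← hu, ← hv, smul_smul, smul_smul]
  have : (↑u⁻¹ : k) * ↑v⁻¹ * ↑v * ↑u = 1 := by
    rw [mul_assoc (↑u⁻¹ : k), Units.inv_mul, mul_one, Units.inv_mul]
  rw [this, one_smul]

/-- An injective map with `M`-torsion cokernel becomes bijective after localisation at `M`. -/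
theorem bijective_of_isLocRep_of_torsion_coker (hf : IsLocRep M X Y f)
    (hf' : IsLocRep M X' Y' f') (hM : ∀ s ∈ M, IsUnit (algebraMap R k s)) (a : X ⟶ X')
    (a' : Y ⟶ Y') (ha : ∀ x, f' (a.hom x) = a'.hom (f x)) (hinj : Function.Injective a.hom)
    (hcoker : ∀ x' : X'.V, ∃ s ∈ M, ∃ x : X.V, a.hom x = s • x') :
    Function.Bijective a'.hom :=
  ⟨hf.injective_of_injective hf' hM a a' ha hinj,
    surjective_of_isLocRep_of_torsion_coker hf hf' hM a a' ha hcoker⟩

/-- The localisation of an `n`-divisible module is `n`-divisible. -/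
theorem divisible_of_isLocRep (hf : IsLocRep M X Y f) (hM : ∀ s ∈ M, IsUnit (algebraMap R k s))
    (n : R) (hdiv : ∀ x : X.V, ∃ x₀ : X.V, n • x₀ = x) (y : Y.V) :
    ∃ y₀ : Y.V, algebraMap R k n • y₀ = y := by
  obtain ⟨s, hs, x, hx⟩ := hf.surj y
  obtain ⟨x₀, rfl⟩ := hdiv x
  obtain ⟨u, hu⟩ := hM s hs
  refine ⟨(↑u⁻¹ : k) • f x₀, ?_⟩
  rw [smul_comm, ← hf.map_smul, ← hx, ← hu, smul_smul, Units.inv_mul, one_smul]

end Generic

/-! ### The sequence `E_S → J_S → C_S` and its localisation at `p` -/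

section Sequence

open CategoryTheory Fermat.Agent.CFT.A7.BaseChange Fermat.Agent.CFT.A5
  Fermat.Agent.CFT.C7.KummerUnram

variable (S)

theorem seq_f_comp_toC : (QS.seq S).f ≫ QS.toC S = 0 := by
  ext a
  exact congrArg Additive.ofMul (JD.toCD_diag (Additive.toMul a))

/-- `E_S → J_S → C_S` over `ℤ`: left exact, with cokernel `lim Cl_S(F)`. -/
def seqC : ShortComplex (Rep.{0} ℤ GQ) := ShortComplex.mk (QS.seq S).f (QS.toC S) (seq_f_comp_toC S)

theorem seqC_X₁ : (seqC S).X₁ = QS.E S := rfl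
theorem seqC_X₂ : (seqC S).X₂ = QS.J S := rfl
theorem seqC_X₃ : (seqC S).X₃ = QS.C S := rfl
theorem seqC_f : (seqC S).f = (QS.seq S).f := rfl
theorem seqC_g : (seqC S).g = QS.toC S := rfl

variable {S}

theorem seq_f_injective (hS : S.Nonempty) : Function.Injective (QS.seq S).f.hom := by
  intro a a' h
  exact congrArg Additive.ofMul
    (ED.diag_injective (Finset.coe_nonempty.mpr hS) (congrArg Additive.toMul h) :
      a.toMul = a'.toMul)

/-- Exactness at `J_S`. -/
theorem exists_seq_f_eq (hS : S.Nonempty) (j : (QS.J S).V) (hj : (QS.toC S).hom j = 0) :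
    ∃ e : (QS.E S).V, (QS.seq S).f.hom e = j := by
  change Additive (JD (isFieldFilter_unram S) (S : Set Nat.Primes)) at j
  have h1 : JD.toCD (isFieldFilter_unram S) (S : Set Nat.Primes) (Additive.toMul j) = 1 :=
    congrArg Additive.toMul hj
  obtain ⟨a, ha⟩ := (JD.toCD_eq_one_iff (Finset.coe_nonempty.mpr hS) _).mp h1
  exact ⟨Additive.ofMul a, congrArg Additive.ofMul ha⟩

/-- **The cokernel of `J_S → C_S` is torsion without `p`-torsion** (`p ∈ S`). -/
theorem exists_toC_eq_smul {p : Nat.Primes} (hp : p ∈ S) (c : (QS.C S).V) :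
    ∃ m : ℕ, ¬ (p : ℕ) ∣ m ∧ ∃ j : (QS.J S).V, (QS.toC S).hom j = (m : ℤ) • c := by
  change Additive (CD (isFieldFilter_unram S) (S : Set Nat.Primes)) at c
  obtain ⟨m, hm, x, hx, hxc⟩ := exists_pow_mem_CD0 hp (Additive.toMul c).2
  refine ⟨m, hm, Additive.ofMul ⟨x, hx⟩, ?_⟩
  rw [natCast_zsmul]
  exact congrArg Additive.ofMul (Subtype.ext hxc :
    JD.toCD (isFieldFilter_unram S) (S : Set Nat.Primes) ⟨x, hx⟩ = (Additive.toMul c) ^ m)

/-- The same for `J_S/E_S ⟶ C_S`. -/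
theorem exists_incl_eq_smul {p : Nat.Primes} (hp : p ∈ S) (c : (QS.C S).V) :
    ∃ m : ℕ, ¬ (p : ℕ) ∣ m ∧ ∃ c₀ : (QS.C0 S).V, (QS.incl S).hom c₀ = (m : ℤ) • c := by
  obtain ⟨m, hm, j, hj⟩ := exists_toC_eq_smul hp c
  exact ⟨m, hm, (QS.seq S).g.hom j, hj⟩

/-! #### Localisation at `p`, model-free -/

variable (p : ℕ) [Fact p.Prime] {k : Type} [CommRing k]

theorem exists_toC_eq_smul_primeTo (hp : (⟨p, Fact.out⟩ : Nat.Primes) ∈ S) (c : (QS.C S).V) :
    ∃ s ∈ primeTo p, ∃ j : (QS.J S).V, (QS.toC S).hom j = s • c := by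
  obtain ⟨m, hm, j, hj⟩ := exists_toC_eq_smul hp c
  exact ⟨(m : ℤ), fun h => hm (Int.natCast_dvd_natCast.mp h), j, hj⟩

/-- **`0 → E_S ⊗ k → J_S ⊗ k → C_S ⊗ k → 0` is exact** for `k` a localisation of `ℤ` away from
`p ∈ S`, for arbitrary models of the three localisations. -/
theorem shortExact_of_isLocRep (hp : (⟨p, Fact.out⟩ : Nat.Primes) ∈ S)
    (hM : ∀ s ∈ primeTo p, IsUnit (algebraMap ℤ k s))
    {YE YJ YC : Rep.{0} k GQ} {fE : (QS.E S).V →+ YE.V} {fJ : (QS.J S).V →+ YJ.V}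
    {fC : (QS.C S).V →+ YC.V} (hE : IsLocRep (primeTo p) (QS.E S) YE fE)
    (hJ : IsLocRep (primeTo p) (QS.J S) YJ fJ) (hC : IsLocRep (primeTo p) (QS.C S) YC fC)
    (a' : YE ⟶ YJ) (b' : YJ ⟶ YC) (ha : ∀ x, fJ ((QS.seq S).f.hom x) = a'.hom (fE x))
    (hb : ∀ x, fC ((QS.toC S).hom x) = b'.hom (fJ x)) :
    ∃ w' : a' ≫ b' = 0, (ShortComplex.mk a' b' w').ShortExact := by
  have hS : S.Nonempty := ⟨_, hp⟩
  have hw : ∀ x, (QS.toC S).hom ((QS.seq S).f.hom x) = 0 := fun x =>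
    congrArg Additive.ofMul (JD.toCD_diag (Additive.toMul x))
  have w' : a' ≫ b' = 0 := by
    ext y
    exact hE.comp_eq_zero hJ hC hM (QS.seq S).f (QS.toC S) a' b' ha hb hw y
  exact ⟨w', shortExact_of_functions a' b' w'
    (hE.injective_of_injective hJ hM (QS.seq S).f a' ha (seq_f_injective hS))
    (surjective_of_isLocRep_of_torsion_coker hJ hC hM (QS.toC S) b' hb
      (exists_toC_eq_smul_primeTo p hp))
    (hE.exact_of_exact hJ hC hM (QS.seq S).f (QS.toC S) a' b' ha hb (exists_seq_f_eq hS))⟩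

/-- `J_S/E_S ⊗ k → C_S ⊗ k` is bijective, for arbitrary models of the localisations. -/
theorem bijective_incl_of_isLocRep (hp : (⟨p, Fact.out⟩ : Nat.Primes) ∈ S)
    (hM : ∀ s ∈ primeTo p, IsUnit (algebraMap ℤ k s))
    {YC0 YC : Rep.{0} k GQ} {fC0 : (QS.C0 S).V →+ YC0.V} {fC : (QS.C S).V →+ YC.V}
    (hC0 : IsLocRep (primeTo p) (QS.C0 S) YC0 fC0) (hC : IsLocRep (primeTo p) (QS.C S) YC fC)
    (i' : YC0 ⟶ YC) (hi : ∀ x, fC ((QS.incl S).hom x) = i'.hom (fC0 x)) :
    Function.Bijective i'.hom :=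
  bijective_of_isLocRep_of_torsion_coker hC0 hC hM (QS.incl S) i' hi
    (cd0Incl_injective _ _) (fun c => by
      obtain ⟨m, hm, c₀, hc₀⟩ := exists_incl_eq_smul hp c
      exact ⟨(m : ℤ), fun h => hm (Int.natCast_dvd_natCast.mp h), c₀, hc₀⟩)

/-- `E_S ⊗ k` is `p^a`-divisible, for an arbitrary model of the localisation. -/
theorem divisible_E_of_isLocRep (hp : (⟨p, Fact.out⟩ : Nat.Primes) ∈ S)
    (hM : ∀ s ∈ primeTo p, IsUnit (algebraMap ℤ k s)) {YE : Rep.{0} k GQ}
    {fE : (QS.E S).V →+ YE.V} (hE : IsLocRep (primeTo p) (QS.E S) YE fE) (a : ℕ) (y : YE.V) :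
    ∃ y₀ : YE.V, ((p : k) ^ a) • y₀ = y := by
  obtain ⟨y₀, hy₀⟩ := divisible_of_isLocRep hE hM (((p ^ a : ℕ) : ℤ))
    (divisible_E_prime_pow hp a) y
  refine ⟨y₀, ?_⟩
  rw [← hy₀]
  congr 1
  simp

/-! #### The tensor product model -/

variable (S) (k)

/-- `E_S ⊗ k → J_S ⊗ k → C_S ⊗ k` (tensor product model of the localisations). -/
def seqK : ShortComplex (Rep.{0} k GQ) := (seqC S).map (tensorFunctor k)

theorem seqK_X₁ : (seqK S k).X₁ = tensorRep (k := k) (QS.E S) := rfl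
theorem seqK_X₂ : (seqK S k).X₂ = tensorRep (k := k) (QS.J S) := rfl
theorem seqK_X₃ : (seqK S k).X₃ = tensorRep (k := k) (QS.C S) := rfl
theorem seqK_f : (seqK S k).f = tensorMap k (QS.seq S).f := rfl
theorem seqK_g : (seqK S k).g = tensorMap k (QS.toC S) := rfl

variable {S}

/-- **`0 → E_S ⊗ k → J_S ⊗ k → C_S ⊗ k → 0` is short exact** (`p ∈ S`, `k = ℤ_(p)`). -/
theorem seqK_shortExact [IsLocalization (primeTo p) k] (hp : (⟨p, Fact.out⟩ : Nat.Primes) ∈ S) :
    (seqK S k).ShortExact := by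
  obtain ⟨_, h⟩ := shortExact_of_isLocRep (k := k) p hp
    (fun s hs => IsLocalization.map_units k ⟨s, hs⟩)
    (isLocRep_tensorRep (primeTo p) (QS.E S)) (isLocRep_tensorRep (primeTo p) (QS.J S))
    (isLocRep_tensorRep (primeTo p) (QS.C S)) (tensorMap k (QS.seq S).f) (tensorMap k (QS.toC S))
    (tensorMap_toTensorRep k (QS.seq S).f) (tensorMap_toTensorRep k (QS.toC S))
  exact h

variable (S)

theorem isLocRep_seqK_X₁ [IsLocalization (primeTo p) k] :
    IsLocRep (primeTo p) (QS.E S) (seqK S k).X₁ (toTensorRep (QS.E S)) :=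
  isLocRep_tensorRep (primeTo p) (QS.E S)

theorem isLocRep_seqK_X₂ [IsLocalization (primeTo p) k] :
    IsLocRep (primeTo p) (QS.J S) (seqK S k).X₂ (toTensorRep (QS.J S)) :=
  isLocRep_tensorRep (primeTo p) (QS.J S)

theorem isLocRep_seqK_X₃ [IsLocalization (primeTo p) k] :
    IsLocRep (primeTo p) (QS.C S) (seqK S k).X₃ (toTensorRep (QS.C S)) :=
  isLocRep_tensorRep (primeTo p) (QS.C S)

theorem isSmooth_seqK_X₁ [IsLocalization (primeTo p) k] : IsSmooth (levelsS S) (seqK S k).X₁ :=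
  isSmooth_tensorRep (primeTo p) (levelsS S) (QS.isSmooth_E S)

theorem isSmooth_seqK_X₂ [IsLocalization (primeTo p) k] : IsSmooth (levelsS S) (seqK S k).X₂ :=
  isSmooth_tensorRep (primeTo p) (levelsS S) (QS.isSmooth_J S)

theorem isSmooth_seqK_X₃ [IsLocalization (primeTo p) k] : IsSmooth (levelsS S) (seqK S k).X₃ :=
  isSmooth_tensorRep (primeTo p) (levelsS S) (QS.isSmooth_C S)

variable {S}

/-- `E_S ⊗ k` is `p^a`-divisible (the hypothesis `hE` of `D/Resolution.row_shortExact`). -/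
theorem divisible_seqK_X₁ [IsLocalization (primeTo p) k]
    (hp : (⟨p, Fact.out⟩ : Nat.Primes) ∈ S) (a : ℕ) (x : (seqK S k).X₁.V) :
    ∃ y : (seqK S k).X₁.V, ((p : k) ^ a) • y = x :=
  divisible_E_of_isLocRep p hp (fun s hs => IsLocalization.map_units k ⟨s, hs⟩)
    (isLocRep_seqK_X₁ S p k) a x

/-- `E_S ⊗ k` is `p`-divisible: the field `divE` of `D.Main.Datum`, verbatim. -/
theorem seqK_divE [IsLocalization (primeTo p) k] (hp : (⟨p, Fact.out⟩ : Nat.Primes) ∈ S)
    (x : (seqK S k).X₁.V) : ∃ y : (seqK S k).X₁.V, (p : k) • y = x := by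
  obtain ⟨y, hy⟩ := divisible_seqK_X₁ p k hp 1 x
  exact ⟨y, by rwa [pow_one] at hy⟩

/-- `J_S/E_S ⊗ k ≅ C_S ⊗ k`. -/
theorem bijective_tensorMap_incl [IsLocalization (primeTo p) k]
    (hp : (⟨p, Fact.out⟩ : Nat.Primes) ∈ S) :
    Function.Bijective (tensorMap k (QS.incl S)).hom :=
  bijective_incl_of_isLocRep p hp (fun s hs => IsLocalization.map_units k ⟨s, hs⟩)
    (isLocRep_tensorRep (primeTo p) (QS.C0 S)) (isLocRep_tensorRep (primeTo p) (QS.C S))
    (tensorMap k (QS.incl S)) (tensorMap_toTensorRep k (QS.incl S))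

end Sequence

end Fermat.Agent.CFT.C7.SES
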