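/-
PROJECT C, slice C7 (LD-k) (helper27): THE LAYER DICTIONARY AFTER LOCALISATION.

`LayerDict X U A` bundles the data `(e, e', he)` identifying the layer `(G ⧸ U, X^U)` of a smooth
`G`-module `X` with a finite-level model `(Γ, A)`:

  `e : G ⧸ U ≃* Γ`,  `e' : (X.quotientToInvariants U).V ≃ₗ[k] A.V`,
  `he : ∀ g, e' ∘ₗ (X^U).ρ g = A.ρ (e g) ∘ₗ e'`

(the argument triple of `A7.IsClassModule.of_equiv`, `A5.Transport.isClassModule_transport`,
`D.Realize.N3.of_equiv`, `D.Realize.NormDiv.of_equiv`).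

`LayerDict.localise` : a layer dictionary over `R` for `X` and localisations `X → XK`, `A → Y`
(`A7.BaseChange.IsLocRep`) give a layer dictionary over `k` for `XK` with model `Y`, compatible
with the localisation maps (`localise_e'_invMap`).  Instances for the sequence
`E_S ⊗ k → J_S ⊗ k → C_S ⊗ k` of `C7/SES.lean`.
-/
import Mathlib
import Fermat.Agent.CFT.C7.SES
import Fermat.Agent.CFT.A7.BaseChangeUnique
import Fermat.Agent.CFT.A7.ClassFormationBaseChange
import Fermat.Agent.CFT.A7.ExistenceP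
import Fermat.Agent.CFT.A7.Transport
import Fermat.Agent.CFT.D.RealizeAdapters

set_option autoImplicit false

noncomputable section

namespace Fermat.Agent.CFT.C7.LevelK

open Fermat.Agent.CFT.LC Fermat.Agent.CFT.A7.BaseChange Fermat.Agent.CFT.A7.CFBaseChange

/-- The identification of the layer `(G ⧸ U, X^U)` with a model `(Γ, A)`. -/
structure LayerDict {k G Γ : Type} [CommRing k] [Group G] [Group Γ] (X : Rep.{0} k G)
    (U : Subgroup G) [U.Normal] (A : Rep.{0} k Γ) where
  /-- the isomorphism of groups -/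
  e : G ⧸ U ≃* Γ
  /-- the isomorphism of modules -/
  e' : (X.quotientToInvariants U).V ≃ₗ[k] A.V
  /-- equivariance -/
  he : ∀ g, e'.toLinearMap ∘ₗ (X.quotientToInvariants U).ρ g = A.ρ (e g) ∘ₗ e'.toLinearMap

namespace LayerDict

section Basic

variable {k G Γ : Type} [CommRing k] [Group G] [Group Γ] {X : Rep.{0} k G} {U : Subgroup G}
  [U.Normal] {A : Rep.{0} k Γ} (d : LayerDict X U A)

theorem he_apply (g : G ⧸ U) (x : (X.quotientToInvariants U).V) :
    d.e' ((X.quotientToInvariants U).ρ g x) = A.ρ (d.e g) (d.e' x) :=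
  LinearMap.congr_fun (d.he g) x

/-- `G`-level form of the equivariance. -/
theorem e'_ρ (g : G) (x : (X.quotientToInvariants U).V) :
    d.e' ((X.quotientToInvariants U).ρ (g : G ⧸ U) x) = A.ρ (d.e (g : G ⧸ U)) (d.e' x) :=
  d.he_apply _ x

theorem symm_he_apply (γ : Γ) (a : A.V) :
    d.e'.symm (A.ρ γ a) = (X.quotientToInvariants U).ρ (d.e.symm γ) (d.e'.symm a) := by
  apply d.e'.injective
  rw [d.he_apply, LinearEquiv.apply_symm_apply, MulEquiv.apply_symm_apply,
    LinearEquiv.apply_symm_apply]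

/-- The equivariance of the inverse, in the `∘ₗ` shape (for transport in the other direction:
`A5.Transport.isClassModule_transport d.e.symm d.e'.symm d.symm_he`). -/
theorem symm_he (γ : Γ) :
    d.e'.symm.toLinearMap ∘ₗ A.ρ γ =
      (X.quotientToInvariants U).ρ (d.e.symm γ) ∘ₗ d.e'.symm.toLinearMap :=
  LinearMap.ext fun a => d.symm_he_apply γ a

end Basic

/-! ### Localisation of a layer dictionary -/

section Localise

variable {R k : Type} [CommRing R] [CommRing k] [Algebra R k] {M : Submonoid R}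
  [IsLocalization M k] {G Γ : Type} [Group G] [Group Γ] {X : Rep.{0} R G} {XK : Rep.{0} k G}
  {fX : X.V →+ XK.V} {U : Subgroup G} [U.Normal] {A : Rep.{0} R Γ} {Y : Rep.{0} k Γ}
  {f : A.V →+ Y.V}

theorem isUnit_algebraMap_of_mem (M : Submonoid R) [IsLocalization M k] :
    ∀ s ∈ M, IsUnit (algebraMap R k s) :=
  fun s hs => IsLocalization.map_units k ⟨s, hs⟩

/-- **Localisation of a layer dictionary**: if `(G ⧸ U, X^U) ≅ (Γ, A)` over `R` and `XK`, `Y` are
localisations of `X`, `A` then `(G ⧸ U, XK^U) ≅ (Γ, Y)` over `k`. -/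
def localise (d : LayerDict X U A) (hX : IsLocRep M X XK fX) (𝒰 : Levels G)
    (hfin : ∀ U ∈ 𝒰.sets, U.FiniteIndex) (hsm : IsSmooth 𝒰 X) (hf : IsLocRep M A Y f) :
    LayerDict XK U Y where
  e := d.e
  e' := (isLocRep_invariants hX 𝒰 hfin hsm U).liftEquiv hf (isUnit_algebraMap_of_mem M)
    d.e'.toAddEquiv (fun r x => map_smul d.e' r x)
  he g := LinearMap.ext fun y =>
    (isLocRep_invariants hX 𝒰 hfin hsm U).liftEquiv_ρ hf (isUnit_algebraMap_of_mem M)
      d.e'.toAddEquiv (fun r x => map_smul d.e' r x) (d.e : G ⧸ U →* Γ)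
      (fun g x => d.he_apply g x) g y

@[simp]
theorem localise_e (d : LayerDict X U A) (hX : IsLocRep M X XK fX) (𝒰 : Levels G)
    (hfin : ∀ U ∈ 𝒰.sets, U.FiniteIndex) (hsm : IsSmooth 𝒰 X) (hf : IsLocRep M A Y f) :
    (d.localise hX 𝒰 hfin hsm hf).e = d.e := rfl

/-- Compatibility with the localisation maps: `e'_k (fX x) = f (e' x)` for `x ∈ X^U`. -/
theorem localise_e'_invMap (d : LayerDict X U A) (hX : IsLocRep M X XK fX) (𝒰 : Levels G)
    (hfin : ∀ U ∈ 𝒰.sets, U.FiniteIndex) (hsm : IsSmooth 𝒰 X) (hf : IsLocRep M A Y f)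
    (x : (X.quotientToInvariants U).V) :
    (d.localise hX 𝒰 hfin hsm hf).e' (invMap hX U x) = f (d.e' x) :=
  (isLocRep_invariants hX 𝒰 hfin hsm U).liftEquiv_apply hf (isUnit_algebraMap_of_mem M)
    d.e'.toAddEquiv (fun r x => map_smul d.e' r x) x

/-- The localised layer module is a localisation of the finite-level model `A` through `e'`. -/
theorem isLocRep_localise_symm (d : LayerDict X U A) (hX : IsLocRep M X XK fX) (𝒰 : Levels G)
    (hfin : ∀ U ∈ 𝒰.sets, U.FiniteIndex) (hsm : IsSmooth 𝒰 X) (hf : IsLocRep M A Y f)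
    (a : A.V) :
    (d.localise hX 𝒰 hfin hsm hf).e'.symm (f a) = invMap hX U (d.e'.symm a) := by
  apply (d.localise hX 𝒰 hfin hsm hf).e'.injective
  rw [LinearEquiv.apply_symm_apply, localise_e'_invMap, LinearEquiv.apply_symm_apply]

end Localise

end LayerDict

/-! ### Maps out of a localisation are determined on the image -/

section Ext

variable {R k : Type} [CommRing R] [CommRing k] [Algebra R k] {M : Submonoid R}
  {G : Type} [Group G] {X : Rep.{0} R G} {Y : Rep.{0} k G} {f : X.V →+ Y.V}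

/-- Two `k`-linear maps out of a localisation which agree on the image of `X` are equal. -/
theorem linearMap_ext_of_isLocRep {Z : Type*} [AddCommGroup Z] [Module k Z]
    (hf : IsLocRep M X Y f) (hM : ∀ s ∈ M, IsUnit (algebraMap R k s)) {φ ψ : Y.V →ₗ[k] Z}
    (h : ∀ x, φ (f x) = ψ (f x)) (y : Y.V) : φ y = ψ y := by
  obtain ⟨s, hs, x, hx⟩ := hf.surj y
  obtain ⟨u, hu⟩ := hM s hs
  have h1 : algebraMap R k s • φ y = algebraMap R k s • ψ y := by
    rw [← map_smul, ← map_smul, hx, h]
  have := congrArg (fun z => (↑u⁻¹ : k) • z) h1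
  simpa [← hu, smul_smul] using this

end Ext

namespace LayerDict

/-! ### Compatibility of localised layer dictionaries with transition maps -/

section Compat

variable {R k : Type} [CommRing R] [CommRing k] [Algebra R k] {M : Submonoid R}
  [IsLocalization M k] {G Γ Γ' : Type} [Group G] [Group Γ] [Group Γ']
  {X X' : Rep.{0} R G} {XK XK' : Rep.{0} k G} {fX : X.V →+ XK.V} {fX' : X'.V →+ XK'.V}
  {U U' : Subgroup G} [U.Normal] [U'.Normal] {A : Rep.{0} R Γ} {A' : Rep.{0} R Γ'}
  {Y : Rep.{0} k Γ} {Y' : Rep.{0} k Γ'} {f : A.V →+ Y.V} {f' : A'.V →+ Y'.V}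

/-- **Transition maps**: let `t : X^U → X'^{U'}` be an additive map (an inclusion `X^U ⊆ X^{U'}`, a
norm `X^{U} → X^{U'}`, the map induced by a morphism `X ⟶ X'`, ...) which corresponds to
`τ : A → A'` on the models.  If `tK`, `τK` are `k`-linear maps extending `t`, `τ` to the
localisations, then `tK` corresponds to `τK` under the localised dictionaries. -/
theorem localise_compat (d : LayerDict X U A) (d' : LayerDict X' U' A')
    (hX : IsLocRep M X XK fX) (hX' : IsLocRep M X' XK' fX') (𝒰 : Levels G)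
    (hfin : ∀ U ∈ 𝒰.sets, U.FiniteIndex) (hsm : IsSmooth 𝒰 X) (hsm' : IsSmooth 𝒰 X')
    (hf : IsLocRep M A Y f) (hf' : IsLocRep M A' Y' f')
    (t : (X.quotientToInvariants U).V →+ (X'.quotientToInvariants U').V)
    (tK : (XK.quotientToInvariants U).V →ₗ[k] (XK'.quotientToInvariants U').V)
    (htK : ∀ x, tK (invMap hX U x) = invMap hX' U' (t x))
    (τ : A.V →+ A'.V) (τK : Y.V →ₗ[k] Y'.V) (hτK : ∀ a, τK (f a) = f' (τ a))
    (h : ∀ x, d'.e' (t x) = τ (d.e' x)) (y : (XK.quotientToInvariants U).V) :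
    (d'.localise hX' 𝒰 hfin hsm' hf').e' (tK y) = τK ((d.localise hX 𝒰 hfin hsm hf).e' y) := by
  have key := linearMap_ext_of_isLocRep (isLocRep_invariants hX 𝒰 hfin hsm U)
    (isUnit_algebraMap_of_mem M)
    (φ := (d'.localise hX' 𝒰 hfin hsm' hf').e'.toLinearMap ∘ₗ tK)
    (ψ := τK ∘ₗ (d.localise hX 𝒰 hfin hsm hf).e'.toLinearMap) (fun x => by
      simp only [LinearMap.comp_apply, LinearEquiv.coe_coe]
      rw [htK, localise_e'_invMap, localise_e'_invMap, h, hτK]) y
  simpa using key

end Compat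

/-! ### Card adapters (`|C^{U₀} / p|` in terms of the model) -/

section Card

open Fermat.Agent.CFT.A7.ExistenceP

variable {k G Γ : Type} [CommRing k] [Group G] [Group Γ] {X : Rep.{0} k G} {U : Subgroup G}
  [U.Normal] {A : Rep.{0} k Γ} (d : LayerDict X U A)

/-- `e'` as an equivalence out of the submodule of invariants (the `Inv₀` of `A7/ExistenceP`). -/
def invEquiv : Representation.invariants (X.ρ.comp U.subtype) ≃ₗ[k] A.V := d.e'

theorem invEquiv_apply (x : Representation.invariants (X.ρ.comp U.subtype)) :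
    d.invEquiv x = d.e' x := rfl

/-- `X^U / p X^U ≃ A / p A`. -/
def quotSmulEquiv (p : k) :
    (Representation.invariants (X.ρ.comp U.subtype) ⧸
        smulSub p (Representation.invariants (X.ρ.comp U.subtype))) ≃ₗ[k]
      (A.V ⧸ smulSub p A.V) :=
  quotSmulSubEquiv p d.invEquiv

/-- **Card adapter (i)**: `|X^U / p X^U| = |A / p A|`. -/
theorem card_quot_smulSub (d : LayerDict X U A) (p : k) :
    Nat.card (Representation.invariants (X.ρ.comp U.subtype) ⧸
        smulSub p (Representation.invariants (X.ρ.comp U.subtype))) =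
      Nat.card (A.V ⧸ smulSub p A.V) :=
  Nat.card_congr (d.quotSmulEquiv p).toEquiv

/-- The same with an extra submodule `Y₀ ≤ X^U` (the companion bound of `A7/ExistenceP`). -/
theorem card_quot_sup_smulSub (p : k)
    (Y₀ : Submodule k (Representation.invariants (X.ρ.comp U.subtype))) :
    Nat.card (Representation.invariants (X.ρ.comp U.subtype) ⧸
        (Y₀ ⊔ smulSub p (Representation.invariants (X.ρ.comp U.subtype)))) =
      Nat.card (A.V ⧸ (Y₀.map d.invEquiv.toLinearMap ⊔ smulSub p A.V)) := by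
  refine Nat.card_congr (Submodule.Quotient.equiv _ _ d.invEquiv ?_).toEquiv
  rw [Submodule.map_sup, smulSub_map_equiv]

end Card

/-! ### Consumers: the dictionary in the shapes of `of_equiv` / `isClassModule_transport` -/

section Consumers

open groupCohomology Fermat.Agent.CFT.A5.Tate Fermat.Agent.CFT.A5.Transport
  Fermat.Agent.CFT.D.Realize

variable {k G Γ : Type} [CommRing k] [Group G] [Group Γ] {X : Rep.{0} k G} {U : Subgroup G}
  [U.Normal] {A : Rep.{0} k Γ} (d : LayerDict X U A)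

/-- A class module structure on the model gives one on the layer (the fundamental cocycle is
transported by `e'⁻¹`). -/
theorem isClassModule_layer {ψ : cocycles₂ A} (hA : IsClassModule A ψ) :
    IsClassModule (X.quotientToInvariants U)
      (transCocycle d.e.symm d.e'.symm d.symm_he ψ) :=
  isClassModule_transport d.e.symm d.e'.symm d.symm_he hA

/-- The same through `A7.IsClassModule.of_equiv`, for given corresponding cocycles. -/
theorem isClassModule_layer' (φ : cocycles₂ A) (φ' : cocycles₂ (X.quotientToInvariants U))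
    (hφ : ∀ g h, d.e' (φ' (g, h)) = φ (d.e g, d.e h)) (hA : IsClassModule A φ) :
    IsClassModule (X.quotientToInvariants U) φ' :=
  Fermat.Agent.CFT.A7.IsClassModule.of_equiv d.e d.e' d.he φ φ' hφ hA

/-- `(N3)` for the layer from `NormDiv` on the model. -/
theorem n3_of_normDiv {n : k} {U₀ : Subgroup G} (H : Subgroup Γ)
    (hH : (layerSub U₀ U).map (d.e : G ⧸ U →* Γ) = H) [Fintype (layerSub U₀ U)] [Fintype H]
    (h : NormDiv A H n) : N3 X n U₀ U :=
  N3.of_equiv d.e d.e' d.he H hH h

end Consumers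

end LayerDict

/-! ### The layers of `E_S ⊗ k → J_S ⊗ k → C_S ⊗ k` -/

section QS

open Fermat.Agent.CFT.Idele Fermat.Agent.CFT.Bridge Fermat.Agent.CFT.C7.SES

variable (S : Finset Nat.Primes) (p : ℕ) [Fact p.Prime] (k : Type) [CommRing k]
  [IsLocalization (primeTo p) k] {Γ : Type} [Group Γ] {U : Subgroup GQ} [U.Normal]
  {A : Rep.{0} ℤ Γ} {Y : Rep.{0} k Γ} {f : A.V →+ Y.V}

theorem finiteIndex_levelsS : ∀ U ∈ (levelsS S).sets, U.FiniteIndex :=
  fun U hU => Levels.IsFin.finiteIndex U hU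

/-- The layer `(GQ ⧸ U, (C_S ⊗ k)^U)` from the layer `(GQ ⧸ U, C_S^U) ≅ (Γ, A)` over `ℤ` and a
localisation `Y` of the model `A`. -/
def layerC (d : LayerDict (QS.C S) U A) (hf : IsLocRep (primeTo p) A Y f) :
    LayerDict (seqK S k).X₃ U Y :=
  d.localise (isLocRep_seqK_X₃ S p k) (levelsS S) (finiteIndex_levelsS S) (QS.isSmooth_C S) hf

/-- The layer `(GQ ⧸ U, (J_S ⊗ k)^U)`. -/
def layerJ (d : LayerDict (QS.J S) U A) (hf : IsLocRep (primeTo p) A Y f) :
    LayerDict (seqK S k).X₂ U Y :=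
  d.localise (isLocRep_seqK_X₂ S p k) (levelsS S) (finiteIndex_levelsS S) (QS.isSmooth_J S) hf

/-- The layer `(GQ ⧸ U, (E_S ⊗ k)^U)`. -/
def layerE (d : LayerDict (QS.E S) U A) (hf : IsLocRep (primeTo p) A Y f) :
    LayerDict (seqK S k).X₁ U Y :=
  d.localise (isLocRep_seqK_X₁ S p k) (levelsS S) (finiteIndex_levelsS S) (QS.isSmooth_E S) hf

/-- The layer `(GQ ⧸ U, (J_q ⊗ k)^U)`. -/
def layerJq (q : Nat.Primes) (d : LayerDict (QS.Jq S q) U A) (hf : IsLocRep (primeTo p) A Y f) :
    LayerDict (tensorRep (k := k) (QS.Jq S q)) U Y :=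
  d.localise (isLocRep_tensorRep (primeTo p) (QS.Jq S q)) (levelsS S) (finiteIndex_levelsS S)
    (QS.isSmooth_Jq S q) hf

variable {S p k}

@[simp] theorem layerC_e (d : LayerDict (QS.C S) U A) (hf : IsLocRep (primeTo p) A Y f) :
    (layerC S p k d hf).e = d.e := rfl

@[simp] theorem layerJ_e (d : LayerDict (QS.J S) U A) (hf : IsLocRep (primeTo p) A Y f) :
    (layerJ S p k d hf).e = d.e := rfl

@[simp] theorem layerE_e (d : LayerDict (QS.E S) U A) (hf : IsLocRep (primeTo p) A Y f) :
    (layerE S p k d hf).e = d.e := rfl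

@[simp] theorem layerJq_e (q : Nat.Primes) (d : LayerDict (QS.Jq S q) U A)
    (hf : IsLocRep (primeTo p) A Y f) : (layerJq S p k q d hf).e = d.e := rfl

/-- `e'_k (1 ⊗ c) = f (e' c)` for `c ∈ C_S^U`. -/
theorem layerC_e'_invMap (d : LayerDict (QS.C S) U A) (hf : IsLocRep (primeTo p) A Y f)
    (c : ((QS.C S).quotientToInvariants U).V) :
    (layerC S p k d hf).e' (invMap (isLocRep_seqK_X₃ S p k) U c) = f (d.e' c) :=
  d.localise_e'_invMap _ _ _ _ hf c

theorem layerJ_e'_invMap (d : LayerDict (QS.J S) U A) (hf : IsLocRep (primeTo p) A Y f)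
    (x : ((QS.J S).quotientToInvariants U).V) :
    (layerJ S p k d hf).e' (invMap (isLocRep_seqK_X₂ S p k) U x) = f (d.e' x) :=
  d.localise_e'_invMap _ _ _ _ hf x

theorem layerE_e'_invMap (d : LayerDict (QS.E S) U A) (hf : IsLocRep (primeTo p) A Y f)
    (x : ((QS.E S).quotientToInvariants U).V) :
    (layerE S p k d hf).e' (invMap (isLocRep_seqK_X₁ S p k) U x) = f (d.e' x) :=
  d.localise_e'_invMap _ _ _ _ hf x

theorem layerJq_e'_invMap (q : Nat.Primes) (d : LayerDict (QS.Jq S q) U A)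
    (hf : IsLocRep (primeTo p) A Y f) (x : ((QS.Jq S q).quotientToInvariants U).V) :
    (layerJq S p k q d hf).e' (invMap (isLocRep_tensorRep (primeTo p) (QS.Jq S q)) U x) =
      f (d.e' x) :=
  d.localise_e'_invMap _ _ _ _ hf x

end QS

end Fermat.Agent.CFT.C7.LevelK
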