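/-
PROJECT C, slice C7 (LD-k), part 2 (helper27): THE LEVEL MAPS `f_F : A → (X ⊗ k)^U`.

For a layer dictionary `d : LayerDict X U (Rep.ofMulDistribMulAction Γ A)` over `ℤ` (e.g.
`X = QS.C S`, `A = CS F S`, helper11's `Idele/LevelIso`) and a localisation `XK` of `X` away from
`p`, the map

  `levelMap : Additive A →+ (XK)^U`,   `a ↦ 1 ⊗ (the element of X^U corresponding to a)`

exhibits `(XK)^U` as the localisation of `A` in the elementary sense `A7.ExistenceF2.IsLocAt`
(hypothesis (d1) of the (N3) assembly), and transports `ℤ`-level norm compatibilities to `k`-level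
ones (hypothesis `hnorm` of `ClassFormation.card_layerSub_le_index_of_norm`).
-/
import Mathlib
import Fermat.Agent.CFT.C7.LevelK
import Fermat.Agent.CFT.A7.ExistenceF2

set_option autoImplicit false
set_option linter.unusedSectionVars false

noncomputable section

namespace Fermat.Agent.CFT.C7.LevelK

open Fermat.Agent.CFT.LC Fermat.Agent.CFT.A7.BaseChange Fermat.Agent.CFT.A7.CFBaseChange
  Fermat.Agent.CFT.A7.ExistenceF2 Fermat.Agent.CFT.D.Realize

/-! ### Sums over a layer commute with localisation -/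

section Sum

variable {R k : Type} [CommRing R] [CommRing k] [Algebra R k] {M : Submonoid R}
  {G : Type} [Group G] {X : Rep.{0} R G} {XK : Rep.{0} k G} {fX : X.V →+ XK.V}

theorem invMap_ρ (hX : IsLocRep M X XK fX) (U : Subgroup G) [U.Normal] (g : G ⧸ U)
    (x : (X.quotientToInvariants U).V) :
    invMap hX U ((X.quotientToInvariants U).ρ g x) =
      (XK.quotientToInvariants U).ρ g (invMap hX U x) := by
  induction g using QuotientGroup.induction_on with
  | H g => exact Subtype.ext (hX.map_ρ g x.1)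

theorem sum_ρ_invMap (hX : IsLocRep M X XK fX) (U : Subgroup G) [U.Normal]
    (H : Subgroup (G ⧸ U)) [Fintype H] (x : (X.quotientToInvariants U).V) :
    ∑ h : H, (XK.quotientToInvariants U).ρ (h : G ⧸ U) (invMap hX U x) =
      invMap hX U (∑ h : H, (X.quotientToInvariants U).ρ (h : G ⧸ U) x) := by
  rw [map_sum]
  exact Finset.sum_congr rfl fun h _ => (invMap_ρ hX U h x).symm

end Sum

/-! ### The level map -/

namespace LayerDict

section LevelMap

variable {k : Type} [CommRing k] {p : ℕ} [Fact p.Prime] [IsLocalization (primeTo p) k]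
  {G Γ : Type} [Group G] [Group Γ] {A : Type} [CommGroup A] [MulDistribMulAction Γ A]
  {X : Rep.{0} ℤ G} {XK : Rep.{0} k G} {fX : X.V →+ XK.V} {U : Subgroup G} [U.Normal]

/-- The level map `A → (XK)^U`: `a ↦ fX (the element of X^U corresponding to a)`. -/
def levelMap (d : LayerDict X U (Rep.ofMulDistribMulAction Γ A))
    (hX : IsLocRep (primeTo p) X XK fX) :
    Additive A →+ Representation.invariants (XK.ρ.comp U.subtype) where
  toFun a := invMap hX U (d.e'.symm ((Rep.toAdditive (M := Γ) (G := A)).symm a))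
  map_zero' := by rw [map_zero, map_zero, map_zero]
  map_add' a b := by rw [map_add, map_add, map_add]

theorem levelMap_apply (d : LayerDict X U (Rep.ofMulDistribMulAction Γ A))
    (hX : IsLocRep (primeTo p) X XK fX) (a : Additive A) :
    d.levelMap hX a = invMap hX U (d.e'.symm ((Rep.toAdditive (M := Γ) (G := A)).symm a)) :=
  rfl

/-- The underlying vector of `levelMap a` is the image under `X → XK` of the underlying vector of
the element of `X^U` corresponding to `a`. -/
theorem levelMap_coe (d : LayerDict X U (Rep.ofMulDistribMulAction Γ A))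
    (hX : IsLocRep (primeTo p) X XK fX) (a : Additive A) :
    ((d.levelMap hX a : Representation.invariants (XK.ρ.comp U.subtype)) : XK.V) =
      fX ((d.e'.symm ((Rep.toAdditive (M := Γ) (G := A)).symm a)).1) := rfl

/-- **(d1)**: `(XK)^U` is the localisation away from `p` of the finite-level group `A`. -/
theorem isLocAt_levelMap (d : LayerDict X U (Rep.ofMulDistribMulAction Γ A))
    (hX : IsLocRep (primeTo p) X XK fX) (𝒰 : Levels G) (hfin : ∀ U ∈ 𝒰.sets, U.FiniteIndex)
    (hsm : IsSmooth 𝒰 X) : IsLocAt p k (d.levelMap hX) := by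
  have hA := isLocRep_tensorRep (k := k) (primeTo p) (Rep.ofMulDistribMulAction Γ A)
  have h1 := (IsLocAt.of_isLocRep hA).comp_equiv (d.localise hX 𝒰 hfin hsm hA).e'.symm
  have h2 : (d.localise hX 𝒰 hfin hsm hA).e'.symm.toLinearMap.toAddMonoidHom.comp
      (addHomOfRep (toTensorRep (k := k) (Rep.ofMulDistribMulAction Γ A))) = d.levelMap hX := by
    refine AddMonoidHom.ext fun a => ?_
    exact d.isLocRep_localise_symm hX 𝒰 hfin hsm hA _
  rw [← h2]
  exact h1

/-- Equivariance of the level map. -/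
theorem levelMap_smul (d : LayerDict X U (Rep.ofMulDistribMulAction Γ A))
    (hX : IsLocRep (primeTo p) X XK fX) (γ : Γ) (a : A) :
    d.levelMap hX (Additive.ofMul (γ • a)) =
      (XK.quotientToInvariants U).ρ (d.e.symm γ) (d.levelMap hX (Additive.ofMul a)) := by
  rw [levelMap_apply, levelMap_apply, ← invMap_ρ, ← d.symm_he_apply]
  rfl

end LevelMap

/-! ### Norm compatibility -/

section Norm

variable {k : Type} [CommRing k] {p : ℕ} [Fact p.Prime] [IsLocalization (primeTo p) k]
  {G Γ₁ Γ₂ : Type} [Group G] [Group Γ₁] [Group Γ₂] {A₁ A₂ : Type} [CommGroup A₁] [CommGroup A₂]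
  [MulDistribMulAction Γ₁ A₁] [MulDistribMulAction Γ₂ A₂]
  {X : Rep.{0} ℤ G} {XK : Rep.{0} k G} {fX : X.V →+ XK.V} {U₁ U' : Subgroup G} [U₁.Normal]
  [U'.Normal]

/-- **(d2), `ℤ`-level ⇒ `k`-level**: if the sum over the layer `U₁/U'` of the element of `X^{U'}`
attached to `c : A₂` is the element of `X^{U₁}` attached to `c₁ : A₁` (e.g. `c₁ = N(c)`), the same
holds for the level maps into `XK`. -/
theorem levelMap_norm_compat (d₁ : LayerDict X U₁ (Rep.ofMulDistribMulAction Γ₁ A₁))
    (d₂ : LayerDict X U' (Rep.ofMulDistribMulAction Γ₂ A₂)) (hX : IsLocRep (primeTo p) X XK fX)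
    [Fintype (layerSub U₁ U')] (c : A₂) (c₁ : A₁)
    (hZ : ((∑ h : layerSub U₁ U', (X.quotientToInvariants U').ρ (h : G ⧸ U')
        (d₂.e'.symm ((Rep.toAdditive (M := Γ₂) (G := A₂)).symm (Additive.ofMul c))) :
          (X.quotientToInvariants U').V) : X.V) =
      ((d₁.e'.symm ((Rep.toAdditive (M := Γ₁) (G := A₁)).symm (Additive.ofMul c₁))).1 : X.V)) :
    ((∑ h : layerSub U₁ U', (XK.quotientToInvariants U').ρ (h : G ⧸ U')
        (d₂.levelMap hX (Additive.ofMul c)) : (XK.quotientToInvariants U').V) : XK.V) =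
      ((d₁.levelMap hX (Additive.ofMul c₁) :
        Representation.invariants (XK.ρ.comp U₁.subtype)) : XK.V) := by
  rw [levelMap_coe, ← hZ, levelMap_apply]
  have := sum_ρ_invMap hX U' (layerSub U₁ U')
    (d₂.e'.symm ((Rep.toAdditive (M := Γ₂) (G := A₂)).symm (Additive.ofMul c)))
  exact congrArg Subtype.val this

end Norm

end LayerDict

/-! ### The level maps of `C_S ⊗ k`, `J_S ⊗ k`, `E_S ⊗ k` -/

section QS

open Fermat.Agent.CFT.Idele Fermat.Agent.CFT.Bridge Fermat.Agent.CFT.C7.SES

variable (S : Finset Nat.Primes) (p : ℕ) [Fact p.Prime] (k : Type) [CommRing k]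
  [IsLocalization (primeTo p) k] {Γ : Type} [Group Γ] {A : Type} [CommGroup A]
  [MulDistribMulAction Γ A] {U : Subgroup GQ} [U.Normal]

/-- `f_F : C_S(F) → (C_S ⊗ k)^{U_F}` (for `A = CS F S`, `d` = helper11's `LevelIso` dictionary). -/
def levelMapC (d : LayerDict (QS.C S) U (Rep.ofMulDistribMulAction Γ A)) :
    Additive A →+ Representation.invariants ((seqK S k).X₃.ρ.comp U.subtype) :=
  d.levelMap (isLocRep_seqK_X₃ S p k)

/-- `J_S(F) → (J_S ⊗ k)^{U_F}`. -/
def levelMapJ (d : LayerDict (QS.J S) U (Rep.ofMulDistribMulAction Γ A)) :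
    Additive A →+ Representation.invariants ((seqK S k).X₂.ρ.comp U.subtype) :=
  d.levelMap (isLocRep_seqK_X₂ S p k)

/-- `E_S(F) → (E_S ⊗ k)^{U_F}`. -/
def levelMapE (d : LayerDict (QS.E S) U (Rep.ofMulDistribMulAction Γ A)) :
    Additive A →+ Representation.invariants ((seqK S k).X₁.ρ.comp U.subtype) :=
  d.levelMap (isLocRep_seqK_X₁ S p k)

variable {S p k}

/-- **(d1) for `C_S ⊗ k`.** -/
theorem isLocAt_levelMapC (d : LayerDict (QS.C S) U (Rep.ofMulDistribMulAction Γ A)) :
    IsLocAt p k (levelMapC S p k d) :=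
  d.isLocAt_levelMap _ (levelsS S) (finiteIndex_levelsS S) (QS.isSmooth_C S)

theorem isLocAt_levelMapJ (d : LayerDict (QS.J S) U (Rep.ofMulDistribMulAction Γ A)) :
    IsLocAt p k (levelMapJ S p k d) :=
  d.isLocAt_levelMap _ (levelsS S) (finiteIndex_levelsS S) (QS.isSmooth_J S)

theorem isLocAt_levelMapE (d : LayerDict (QS.E S) U (Rep.ofMulDistribMulAction Γ A)) :
    IsLocAt p k (levelMapE S p k d) :=
  d.isLocAt_levelMap _ (levelsS S) (finiteIndex_levelsS S) (QS.isSmooth_E S)

/-- The underlying vector: `f_F a = 1 ⊗ (the element of C_S^U attached to a)`. -/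
theorem levelMapC_coe (d : LayerDict (QS.C S) U (Rep.ofMulDistribMulAction Γ A))
    (a : Additive A) :
    ((levelMapC S p k d a : Representation.invariants ((seqK S k).X₃.ρ.comp U.subtype)) :
        (seqK S k).X₃.V) =
      toTensorRep (k := k) (QS.C S)
        ((d.e'.symm ((Rep.toAdditive (M := Γ) (G := A)).symm a)).1) := rfl

/-- **(d2) for `C_S ⊗ k`**, from the `ℤ`-level norm compatibility. -/
theorem levelMapC_norm_compat {Γ₂ : Type} [Group Γ₂] {A₂ : Type} [CommGroup A₂]
    [MulDistribMulAction Γ₂ A₂] {U' : Subgroup GQ} [U'.Normal]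
    (d₁ : LayerDict (QS.C S) U (Rep.ofMulDistribMulAction Γ A))
    (d₂ : LayerDict (QS.C S) U' (Rep.ofMulDistribMulAction Γ₂ A₂))
    [Fintype (layerSub U U')] (c : A₂) (c₁ : A)
    (hZ : ((∑ h : layerSub U U', ((QS.C S).quotientToInvariants U').ρ (h : GQ ⧸ U')
        (d₂.e'.symm ((Rep.toAdditive (M := Γ₂) (G := A₂)).symm (Additive.ofMul c))) :
          ((QS.C S).quotientToInvariants U').V) : (QS.C S).V) =
      ((d₁.e'.symm ((Rep.toAdditive (M := Γ) (G := A)).symm (Additive.ofMul c₁))).1 :
        (QS.C S).V)) :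
    ((∑ h : layerSub U U', ((seqK S k).X₃.quotientToInvariants U').ρ (h : GQ ⧸ U')
        (levelMapC S p k d₂ (Additive.ofMul c)) :
          ((seqK S k).X₃.quotientToInvariants U').V) : (seqK S k).X₃.V) =
      ((levelMapC S p k d₁ (Additive.ofMul c₁) :
        Representation.invariants ((seqK S k).X₃.ρ.comp U.subtype)) : (seqK S k).X₃.V) :=
  LayerDict.levelMap_norm_compat d₁ d₂ (isLocRep_seqK_X₃ S p k) c c₁ hZ

end QS

end Fermat.Agent.CFT.C7.LevelK
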