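/-
PROJECT C, slice (N3), FINAL ASSEMBLY, part 1 (helper5): the abstract wiring of the field `n3` of
`D.Main.Datum` (route of record: board #920/#955).

* `N3.of_le_left`      : (N3) is stable under ENLARGING `U₀` (`Nm_{U₀/U'} = Nm_{U₀/U₁} ∘ Nm_{U₁/U'}`);
  so `U₀` may be shrunk to `G_K` with `ζ_p ∈ K` (`D/RealizeMono` shrinks `U'` only);
* `exists_level_field` : level fields containing `μ_p` are cofinal in `Bridge.levelsS S` (`p ∈ S`):
  a finite normal `K ⊂ ℚ̄`, unramified outside `S`, `ζ_p ∈ K`, `G_K ≤ U₀`;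
* `CountLevel`, `CountLevel.n3`, `n3_of_countLevel` : the field `n3` of the datum from the counting
  data `|C^{U₁}/p| ≤ [U₁ : U']`, `U₁/U'` elementary abelian, at cofinally many pairs of levels
  (via `A7.ClassFormation.n3_of_card_invariants_le`, helper24).
-/
import Mathlib
import Fermat.Agent.CFT.D.RealizeMono
import Fermat.Agent.CFT.A7.ExistenceP
import Fermat.Agent.CFT.Bridge.Cyclo

set_option autoImplicit false

noncomputable section

namespace Fermat.Agent.CFT.C7.N3Assembly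

open Fermat.Agent.CFT.D.Realize Fermat.Agent.CFT.LC Fermat.Agent.CFT.A7 Fermat.Agent.CFT.A5
  Fermat.Agent.CFT.A7.ExistenceP Fermat.Agent.CFT.Bridge ExtCitation

section Abstract

variable {k Γ V : Type*} [CommRing k] [Group Γ] [AddCommGroup V] [Module k V]

/-- For `v` fixed by a subgroup `K`, `ρ x v` only depends on the coset `x K`. -/
lemma rho_eq_rho_out (ρ : Representation k Γ V) (K : Subgroup Γ) (v : V)
    (hv : ∀ κ ∈ K, ρ κ v = v) (x : Γ) : ρ x v = ρ ((x : Γ ⧸ K)).out v := by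
  have hκ : ((x : Γ ⧸ K)).out⁻¹ * x ∈ K := by
    rw [← QuotientGroup.eq]
    exact QuotientGroup.out_eq' _
  have : x = ((x : Γ ⧸ K)).out * (((x : Γ ⧸ K)).out⁻¹ * x) := (mul_inv_cancel_left _ _).symm
  conv_lhs => rw [this, map_mul, Module.End.mul_apply, hv _ hκ]

/-- The partial norm `∑_{q ∈ Γ/K} ρ(q.out) v` of a `K`-invariant vector is `Γ`-invariant. -/
lemma rho_sum_out (ρ : Representation k Γ V) (K : Subgroup Γ) [Fintype (Γ ⧸ K)] (v : V)
    (hv : ∀ κ ∈ K, ρ κ v = v) (g : Γ) :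
    ρ g (∑ q : Γ ⧸ K, ρ q.out v) = ∑ q : Γ ⧸ K, ρ q.out v := by
  rw [map_sum]
  refine Fintype.sum_equiv (MulAction.toPerm g : Equiv.Perm (Γ ⧸ K)) _ _ (fun q => ?_)
  have hq : ((g * q.out : Γ) : Γ ⧸ K) = g • q := by
    conv_rhs => rw [← QuotientGroup.out_eq' q]
    rfl
  rw [← Module.End.mul_apply, ← map_mul, rho_eq_rho_out ρ K v hv (g * q.out), hq]
  rfl

/-- Norm in stages: `∑_{x ∈ Γ} ρ x c = ∑_{q ∈ Γ/K} ρ(q.out) (∑_{κ ∈ K} ρ κ c)`. -/
lemma sum_rho_eq_sum_out (ρ : Representation k Γ V) (K : Subgroup Γ) [Fintype Γ] [Fintype K]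
    [Fintype (Γ ⧸ K)] (c : V) :
    ∑ x : Γ, ρ x c = ∑ q : Γ ⧸ K, ρ q.out (∑ κ : K, ρ (κ : Γ) c) := by
  rw [← Equiv.sum_comp (outMulEquiv K) (fun x : Γ => ρ x c), Fintype.sum_prod_type]
  refine Finset.sum_congr rfl fun q _ => ?_
  rw [map_sum]
  refine Finset.sum_congr rfl fun κ _ => ?_
  rw [outMulEquiv_apply, map_mul]
  rfl

end Abstract

section Left

variable {k G : Type} [CommRing k] [Group G] {C : Rep.{0} k G}

/-- **(N3) is stable under enlarging `U₀`**: if `U' ≤ U₁ ≤ U₀` and `Nm_{U₁/U'} C^{U'} ⊆ n • C^{U₁}`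
then `Nm_{U₀/U'} C^{U'} ⊆ n • C^{U₀}`, because `Nm_{U₀/U'} = Nm_{U₀/U₁} ∘ Nm_{U₁/U'}`. -/
theorem N3.of_le_left {n : k} {U₁ U' : Subgroup G} [U'.Normal] [Fintype (layerSub U₁ U')]
    (h : N3 C n U₁ U') (U₀ : Subgroup G) (hle : U₁ ≤ U₀) [Fintype (layerSub U₀ U')] :
    N3 C n U₀ U' := by
  classical
  intro c
  let A := C.quotientToInvariants U'
  have hH : layerSub U₁ U' ≤ layerSub U₀ U' := Subgroup.map_mono hle
  -- the representation of `H₀ = U₀/U'` on `C^{U'}`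
  let ρ₀ : Representation k (layerSub U₀ U') A.V := A.ρ.comp (layerSub U₀ U').subtype
  let K : Subgroup (layerSub U₀ U') := (layerSub U₁ U').subgroupOf (layerSub U₀ U')
  have : Fintype K := Fintype.ofFinite _
  have : Fintype (layerSub U₀ U' ⧸ K) := Fintype.ofFinite _
  obtain ⟨c', hc'inv, hc'⟩ := h c
  -- the inner sum is the `U₁/U'`-norm
  have hinner : ∑ κ : K, ρ₀ (κ : layerSub U₀ U') c = n • c' := by
    rw [← hc']
    refine Fintype.sum_equiv (Subgroup.subgroupOfEquivOfLe hH).toEquiv _ _ (fun κ => ?_)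
    rfl
  have hc'K : ∀ κ ∈ K, ρ₀ κ c' = c' := fun κ hκ => hc'inv _ hκ
  refine ⟨∑ q : layerSub U₀ U' ⧸ K, ρ₀ q.out c', ?_, ?_⟩
  · intro g hg
    exact rho_sum_out ρ₀ K c' hc'K ⟨g, hg⟩
  · have h1 : ∑ x : layerSub U₀ U', (C.quotientToInvariants U').ρ (x : G ⧸ U') c =
        ∑ x : layerSub U₀ U', ρ₀ x c := rfl
    rw [h1, sum_rho_eq_sum_out ρ₀ K c, hinner, Finset.smul_sum]
    refine Finset.sum_congr rfl fun q _ => ?_
    rw [map_smul]

end Left

section LevelField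

variable (p : ℕ) [Fact p.Prime] {S : Finset Nat.Primes}

/-- `ℚ(ζ_p)` is unramified outside `S ∋ p`. -/
theorem isUnramifiedOutside_adjoin_zeta (hpS : pPrime p ∈ S) {ζ : Qbar}
    (hζ : IsPrimitiveRoot ζ p) : (IntermediateField.adjoin ℚ {ζ}).IsUnramifiedOutside S := by
  have halg : Algebra.IsAlgebraic ℚ Qbar := AlgebraicClosure.isAlgebraic ℚ
  have hint : IsIntegral ℚ ζ := (halg.isAlgebraic ζ).isIntegral
  refine ⟨IntermediateField.adjoin.finiteDimensional hint, fun q hq A hA g hg => ?_⟩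
  have hqp : (q : ℕ) ≠ p := by
    intro h
    apply hq
    have : q = pPrime p := Subtype.ext h
    rw [this]
    exact hpS
  have hχ : cycloChar p g = 1 := cycloChar_eq_one_of_mem_inertia p q.2 hqp A hA hg
  have hgζ : g ζ = ζ := by
    have h1 := apply_eq_pow_cycloChar p hζ g
    rw [hχ] at h1
    have : Fact (1 < p) := ⟨(Fact.out : p.Prime).one_lt⟩
    simpa [ZMod.val_one] using h1
  have hle : IntermediateField.adjoin ℚ {ζ} ≤ IntermediateField.fixedField (Subgroup.zpowers g) := by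
    rw [IntermediateField.adjoin_le_iff]
    rintro x hx
    rw [Set.mem_singleton_iff] at hx
    subst hx
    rintro ⟨h, hh⟩
    obtain ⟨n, rfl⟩ := Subgroup.mem_zpowers_iff.1 hh
    change (g ^ n) x = x
    have hfix : g ∈ MulAction.stabilizer GQ x := hgζ
    exact (Subgroup.zpow_mem _ hfix n)
  have h2 := (IntermediateField.le_iff_le (Subgroup.zpowers g) _).1 hle
  exact h2 (Subgroup.mem_zpowers g)

/-- **Level fields containing `μ_p` are cofinal**: every level of `G_{ℚ,S}` (`p ∈ S`) contains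
the fixing subgroup of a finite normal extension `K ⊂ ℚ̄` unramified outside `S` with
`ζ_p ∈ K`. -/
theorem exists_level_field (hpS : pPrime p ∈ S) {U₀ : Subgroup GQ}
    (hU₀ : U₀ ∈ (levelsS S).sets) :
    ∃ K : IntermediateField ℚ Qbar, K.IsUnramifiedOutside S ∧ K.fixingSubgroup.Normal ∧
      K.fixingSubgroup ∈ (levelsS S).sets ∧ K.fixingSubgroup ≤ U₀ ∧
      ∃ ζ : Qbar, ζ ∈ K ∧ IsPrimitiveRoot ζ p := by
  obtain ⟨ζ, hζ⟩ := exists_isPrimitiveRoot_Qbar p
  obtain ⟨-, F, hF, rfl⟩ := hU₀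
  have h1 := isUnramifiedOutside_adjoin_zeta p hpS hζ
  have h2 : (F ⊔ IntermediateField.adjoin ℚ {ζ}).IsUnramifiedOutside S := hF.sup h1
  have h3 := isUnramifiedOutside_nc h2
  have hn := normal_fixingSubgroup_nc (F ⊔ IntermediateField.adjoin ℚ {ζ})
  refine ⟨nc (F ⊔ IntermediateField.adjoin ℚ {ζ}), h3, hn, ⟨hn, _, h3, rfl⟩, ?_, ζ, ?_, hζ⟩
  · exact IntermediateField.fixingSubgroup_antitone (le_sup_left.trans (le_nc _))
  · exact le_nc _ ((le_sup_right : IntermediateField.adjoin ℚ {ζ} ≤ _)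
      (IntermediateField.mem_adjoin_simple_self ℚ ζ))

end LevelField

section Field

variable {k G : Type} [CommRing k] [IsDomain k] [CharZero k] [Group G] {𝒰 : Levels G}
  {C : Rep.{0} k G}

/-- The level data of the counting form of the existence theorem at `U₁`: a level `U' ≤ U₁` with
`U₁/U'` elementary abelian of exponent `p`, `p ∣ [G : U']` and `|C^{U₁}/p| ≤ [U₁ : U']`. -/
structure CountLevel (𝒰 : Levels G) (C : Rep.{0} k G) (p : ℕ) (U₁ U' : Subgroup G) : Prop where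
  normal : U'.Normal
  mem : U' ∈ 𝒰.sets
  le : U' ≤ U₁
  dvd : ((p : ℕ) : k) ∣ ((Nat.card (G ⧸ U') : ℕ) : k)
  comm : ∀ a b : U₁.map (QuotientGroup.mk' U'), a * b = b * a
  exp : ∀ a : U₁.map (QuotientGroup.mk' U'), a ^ p = 1
  finite : Finite (Representation.invariants (C.ρ.comp U₁.subtype) ⧸
    smulSub ((p : ℕ) : k) (Representation.invariants (C.ρ.comp U₁.subtype)))
  card_le : Nat.card (Representation.invariants (C.ρ.comp U₁.subtype) ⧸
      smulSub ((p : ℕ) : k) (Representation.invariants (C.ρ.comp U₁.subtype))) ≤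
    Nat.card (U₁.map (QuotientGroup.mk' U'))

/-- **(N3) at a level with counting data.** -/
theorem CountLevel.n3 (cf : ClassFormation 𝒰 C) (hR : AddHomsLinear k) {p : ℕ} [Fact p.Prime]
    (σ : k →+* ZMod p) {U₁ U' : Subgroup G} (h : CountLevel 𝒰 C p U₁ U') :
    haveI := h.normal
    ∀ [Fintype (layerSub U₁ U')], N3 C ((p : ℕ) : k) U₁ U' := by
  have := h.normal
  intro _
  have := h.finite
  exact cf.n3_of_card_invariants_le hR U₁ U' h.mem h.le p σ h.comm h.exp h.card_le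

/-- **The field `n3` of `D.Main.Datum`** from counting data at cofinally many pairs of levels. -/
theorem n3_of_countLevel (cf : ClassFormation 𝒰 C) (hR : AddHomsLinear k) {p : ℕ} [Fact p.Prime]
    (σ : k →+* ZMod p)
    (h : ∀ U₀ ∈ 𝒰.sets, ∃ U₁ U' : Subgroup G, U₁ ≤ U₀ ∧ CountLevel 𝒰 C p U₁ U') :
    ∀ U₀ ∈ 𝒰.sets, ∃ U' : Subgroup G, ∃ _ : U'.Normal,
      U' ∈ 𝒰.sets ∧ U' ≤ U₀ ∧ ((p : ℕ) : k) ∣ ((Nat.card (G ⧸ U') : ℕ) : k) ∧
        ∀ [Fintype (layerSub U₀ U')], N3 C ((p : ℕ) : k) U₀ U' := by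
  classical
  intro U₀ hU₀
  obtain ⟨U₁, U', hle, hcl⟩ := h U₀ hU₀
  have := hcl.normal
  refine ⟨U', hcl.normal, hcl.mem, hcl.le.trans hle, hcl.dvd, ?_⟩
  intro _
  have hfinite : Finite (layerSub U₁ U') := by
    have : Finite (layerSub U₀ U') := inferInstance
    exact Finite.of_injective (Subgroup.inclusion (Subgroup.map_mono hle :
      layerSub U₁ U' ≤ layerSub U₀ U')) (Subgroup.inclusion_injective _)
  have : Fintype (layerSub U₁ U') := Fintype.ofFinite _
  exact N3.of_le_left (hcl.n3 cf hR σ) U₀ hle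

end Field

end Fermat.Agent.CFT.C7.N3Assembly
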