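import Mathlib
import Fermat.Agent.CFT.C7.N3Assembly
import Fermat.Agent.CFT.C7.KummerLevel
import Fermat.Agent.CFT.C7.ExistCount
import Fermat.Agent.CFT.C7.LevelK
import Fermat.Agent.CFT.A7.ExistenceF2
import Fermat.Agent.CFT.LocalBridge.Levels

/-!
# PROJECT C, slice (N3), FINAL ASSEMBLY, part 2 (helper5): the field `n3` of `D.Main.Datum` for
`C = C_S ⊗ k`

Route of record (board #920/#955).  For a level field `K ⊂ ℚ̄` (finite normal over `ℚ`, unramified
outside `S ∋ p`, `ζ_p ∈ K`), `U₁ := Gal(ℚ̄/K)`, `M := K(W_S^{1/p})`, `U' := Gal(ℚ̄/M)`: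

* `U'` is a level inside `U₁` with `U₁/U'` elementary abelian of order `[W_S : Kˣᵖ]`
  (`C7/KummerLevel`, helper15), divisible by `p` (`ExistCount.dvd_relIndex_WS`, helper22);
* `|C^{U₁}/p| = |C_S(K)/p|` (layer dictionary `C7/LevelK`, helper27/helper11, + the card adapter
  of `A7/ExistenceF2`, helper24) `≤ [W_S : Kˣᵖ]` (the count `ExistCount.card_CS_quot_le`, helper22,
  under (F2));
* hence `(N3)` at `(U₁, U')` (`A7/ExistenceP`, helper24) and at every `U₀ ⊇ U₁`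
  (`N3Assembly.N3.of_le_left`).

`n3_of_levelDict_of_F2` : the field `n3` from the two remaining hypotheses `HasLevelDict S`
(the `ℤ`-level layer dictionary (LD-Z)) and `HasF2 S P` (the inequality (F2)).
-/

set_option autoImplicit false

noncomputable section

namespace Fermat.Agent.CFT.C7.N3Level

open Fermat.Agent.CFT.D.Realize Fermat.Agent.CFT.LC Fermat.Agent.CFT.A7 Fermat.Agent.CFT.A5
  Fermat.Agent.CFT.A7.ExistenceP Fermat.Agent.CFT.A7.ExistenceF2 Fermat.Agent.CFT.A7.BaseChange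
  Fermat.Agent.CFT.Bridge Fermat.Agent.CFT.Idele Fermat.Agent.CFT.C7.SES
  Fermat.Agent.CFT.C7.LevelK Fermat.Agent.CFT.C7.KummerLevel Fermat.Agent.CFT.C7.ExistCount
  Fermat.Agent.CFT.C7.KummerUnram Fermat.Agent.CFT.C7.N3Assembly

variable (S : Finset Nat.Primes) (P : Nat.Primes)

theorem isSNat_of_mem (hPS : P ∈ S) : IsSNat S (P : ℕ) := by
  refine ⟨P.2.ne_zero, fun q hq => ?_⟩
  have : (q : ℕ) = P := (Nat.prime_dvd_prime_iff_eq q.2 P.2).1 hq
  have h : q = P := Subtype.ext this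
  rw [h]
  exact hPS

variable (k : Type) [CommRing k] [IsLocalization (primeTo (P : ℕ)) k]

/-- **The counting data at a level field `K ∋ μ_p`** (`U₁ := Gal(ℚ̄/K)`, `U' := Gal(ℚ̄/K(W_S^{1/p}))`)
from the layer dictionary at `K` and the inequality (F2). -/
theorem exists_countLevel {K : Type} [Field K] [NumberField K] [IsGalois ℚ K]
    (hP2 : (P : ℕ) ≠ 2) {ζ : K} (hζ : IsPrimitiveRoot ζ (P : ℕ)) (hPS : P ∈ S)
    (ιK : K →ₐ[ℚ] Qbar) (F : IntermediateField ℚ Qbar) (hr : ιK.fieldRange = F)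
    (hK : F.IsUnramifiedOutside S) [F.fixingSubgroup.Normal]
    (d : LayerDict (QS.C S) F.fixingSubgroup (repCS K (S : Set Nat.Primes)))
    (hF2 : ((powMonoidHom (P : ℕ) : Kˣ →* Kˣ).range).relIndex
        (BS K (S : Set Nat.Primes) (P : ℕ)) ≤
      Nat.card (ClS K (S : Set Nat.Primes) ⧸
        (powMonoidHom (P : ℕ) : ClS K (S : Set Nat.Primes) →* ClS K (S : Set Nat.Primes)).range)) :
    ∃ U' : Subgroup GQ, CountLevel (levelsS S) (seqK S k).X₃ (P : ℕ) F.fixingSubgroup U' := by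
  subst hr
  have : Fact (P : ℕ).Prime := ⟨P.2⟩
  have : NeZero (P : ℕ) := ⟨P.2.ne_zero⟩
  have hζ' : (primitiveRoots (P : ℕ) K).Nonempty :=
    ⟨ζ, (mem_primitiveRoots P.2.pos).2 hζ⟩
  obtain ⟨L, _, _, _, _, ι, hN, -, -, hmem, hle, hcomm, hexp, hcard, -, -, -, -⟩ :=
    exists_kummer_level (S := S) (p := (P : ℕ)) (isSNat_of_mem S P hPS) hζ' ιK hK
      (WS K (S : Set Nat.Primes) (P : ℕ)) (range_pow_le_WS K _ _)
      (relIndex_WS_ne_zero K P S hP2 hζ hPS) (fun τ a ha => map_mem_WS τ ha)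
      (fun a ha w hw => by
        obtain ⟨y, hy⟩ := mem_WS.1 ha
        exact exists_valuation_eq_pow_of_mem_JTsub a y hy w
          (fun h => hw (Finset.mem_coe.1 h)))
  -- the dictionary at `K` after localisation
  let dk : LayerDict (seqK S k).X₃ ιK.fieldRange.fixingSubgroup
      (tensorRep (k := k) (repCS K (S : Set Nat.Primes))) :=
    layerC S (P : ℕ) k d (isLocRep_tensorRep (primeTo (P : ℕ)) (repCS K (S : Set Nat.Primes)))
  have hf0 : IsLocAt (P : ℕ) k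
      (addHomOfRep (toTensorRep (k := k) (repCS K (S : Set Nat.Primes)))) :=
    IsLocAt.of_isLocRep (isLocRep_tensorRep (primeTo (P : ℕ)) (repCS K (S : Set Nat.Primes)))
  have hf := hf0.comp_equiv dk.invEquiv.symm
  have hc := card_quot_smulSub hf
  have hidx : (PwSub (CS K (S : Set Nat.Primes)) (P : ℕ)).index =
      Nat.card (CS K (S : Set Nat.Primes) ⧸
        (powMonoidHom (P : ℕ) : CS K (S : Set Nat.Primes) →* CS K (S : Set Nat.Primes)).range) :=
    rfl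
  refine ⟨ι.fieldRange.fixingSubgroup, hN, hmem, hle, ?_, hcomm, hexp, ?_, ?_⟩
  · have h1 : (P : ℕ) ∣ Nat.card ((ιK.fieldRange.fixingSubgroup).map
        (QuotientGroup.mk' ι.fieldRange.fixingSubgroup)) := by
      rw [hcard]
      exact dvd_relIndex_WS P S hP2 hζ hPS
    have h2 := h1.trans (Subgroup.card_subgroup_dvd_card _)
    exact Nat.cast_dvd_cast h2
  · refine Nat.finite_of_card_ne_zero ?_
    rw [hc, hidx]
    exact card_CS_quot_ne_zero K P S hP2 hζ hPS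
  · rw [hc, hidx, hcard]
    exact card_CS_quot_le K P S hP2 hζ hPS hF2

/-- The hypothesis (LD-Z): the layer dictionary `(GQ ⧸ U_F, C_S^{U_F}) ≅ (Gal(F/ℚ), C_S(F))` at every
level field `F ⊂ ℚ̄`. -/
def HasLevelDict : Prop :=
  ∀ (F : IntermediateField ℚ Qbar) [NumberField F] [F.fixingSubgroup.Normal],
    F.IsUnramifiedOutside S →
      Nonempty (LayerDict (QS.C S) F.fixingSubgroup (repCS F (S : Set Nat.Primes)))

/-- The hypothesis (F2): `[B_S : Kˣᵖ] ≤ |Cl_S(K)/p|` at every level field containing `μ_p`. -/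
def HasF2 : Prop :=
  ∀ (F : IntermediateField ℚ Qbar) [NumberField F] [F.fixingSubgroup.Normal],
    F.IsUnramifiedOutside S → (∃ ζ : F, IsPrimitiveRoot ζ (P : ℕ)) →
      ((powMonoidHom (P : ℕ) : Fˣ →* Fˣ).range).relIndex (BS F (S : Set Nat.Primes) (P : ℕ)) ≤
        Nat.card (ClS F (S : Set Nat.Primes) ⧸
          (powMonoidHom (P : ℕ) :
            ClS F (S : Set Nat.Primes) →* ClS F (S : Set Nat.Primes)).range)

/-- The counting data at a level field `F ⊂ ℚ̄` containing `μ_p`. -/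
theorem exists_countLevel_intermediateField (hP2 : (P : ℕ) ≠ 2) (hPS : P ∈ S)
    (hD : HasLevelDict S) (hF2 : HasF2 S P)
    (F : IntermediateField ℚ Qbar) (hF : F.IsUnramifiedOutside S) (hN : F.fixingSubgroup.Normal)
    {ζ : Qbar} (hζF : ζ ∈ F) (hζ : IsPrimitiveRoot ζ (P : ℕ)) :
    ∃ U' : Subgroup GQ, CountLevel (levelsS S) (seqK S k).X₃ (P : ℕ) F.fixingSubgroup U' := by
  have h1 := hF.1
  have : NumberField F := ⟨⟩
  have hnorm : Normal ℚ F := Fermat.Agent.CFT.LocalBridge.normal_of_normal_fixingSubgroup F hN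
  have : IsGalois ℚ F := ⟨⟩
  have hr : (F.val : F →ₐ[ℚ] Qbar).fieldRange = F := IntermediateField.fieldRange_val F
  have hζ' : IsPrimitiveRoot (⟨ζ, hζF⟩ : F) (P : ℕ) :=
    IsPrimitiveRoot.of_map_of_injective (f := (F.val : F →ₐ[ℚ] Qbar)) hζ
      (F.val : F →ₐ[ℚ] Qbar).injective
  obtain ⟨d⟩ := hD F hF
  exact exists_countLevel S P k hP2 hζ' hPS F.val F hr hF d (hF2 F hF ⟨_, hζ'⟩)

variable [IsDomain k] [CharZero k]

/-- **The field `n3` of `D.Main.Datum` for `C_S ⊗ k`**, from the layer dictionary (LD-Z) and the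
inequality (F2). -/
theorem n3_of_levelDict_of_F2 (hP2 : (P : ℕ) ≠ 2) (hPS : P ∈ S)
    (cf : ClassFormation (levelsS S) (seqK S k).X₃) (hR : AddHomsLinear k)
    (σ : k →+* ZMod (P : ℕ)) (hD : HasLevelDict S) (hF2 : HasF2 S P) :
    ∀ U₀ ∈ (levelsS S).sets, ∃ U' : Subgroup GQ, ∃ _ : U'.Normal,
      U' ∈ (levelsS S).sets ∧ U' ≤ U₀ ∧
        (((P : ℕ) : ℕ) : k) ∣ ((Nat.card (GQ ⧸ U') : ℕ) : k) ∧
        ∀ [Fintype (layerSub U₀ U')], N3 (seqK S k).X₃ (((P : ℕ) : ℕ) : k) U₀ U' := by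
  have : Fact (P : ℕ).Prime := ⟨P.2⟩
  refine n3_of_countLevel cf hR σ fun U₀ hU₀ => ?_
  obtain ⟨K, hK, hN, -, hle, ζ, hζK, hζ⟩ :=
    exists_level_field (P : ℕ) (S := S) hPS hU₀
  obtain ⟨U', hU'⟩ := exists_countLevel_intermediateField S P k hP2 hPS hD hF2 K hK hN hζK hζ
  exact ⟨K.fixingSubgroup, U', hle, hU'⟩

end Fermat.Agent.CFT.C7.N3Level
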