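import Fermat.Agent.CFT.C7.UnramDict

/-!
# PROJECT C, slice C7d part 2: trivial inertia at primes of ramification index one, (U4)

* `eq_self_of_forall_sub_mem`: Dedekind domain `R`, nonzero prime `w` with finite residue field,
  `π ∈ w \ w²`, `τ` a ring endomorphism with `τ π = π` acting trivially on `R ⧸ w`: `τ = id`.
  (Elementary: by induction `τ` is trivial modulo every `w ^ n`, using `y ≡ y ^ N` modulo `w`
  with `N = #(R ⧸ w)`, `w = w² + (π)`, and Krull's intersection theorem. No Galois theory.)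
* `eq_one_of_forall_sub_mem_of_notMem_sq`: number field form (any number field `L`, any
  `σ : L ≃ₐ[ℚ] L`, no Galois hypothesis).
* `eq_one_of_forall_sub_mem`: the prelude form for `F.IsUnramifiedOutside S`, `q ∉ S`.
-/

set_option autoImplicit false

namespace Fermat.Agent.CFT.C7.TrivialInertia

open Ideal Finset NumberField IsDedekindDomain

section general

variable {R : Type*} [CommRing R] [IsDedekindDomain R]

/-- In a Dedekind domain, if `π ∈ w \ w²` then `w = w² ⊔ (π)`. -/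
theorem sq_sup_span_eq_of_notMem_sq (w : Ideal R) [w.IsPrime] (hw0 : w ≠ ⊥) (π : R)
    (hπ : π ∈ w) (hπ2 : π ∉ w ^ 2) : w ^ 2 ⊔ Ideal.span {π} = w := by
  have hprime : Prime w := Ideal.prime_of_isPrime hw0 inferInstance
  have hle : w ^ 2 ⊔ Ideal.span {π} ≤ w :=
    sup_le (Ideal.pow_le_self two_ne_zero) ((Ideal.span_singleton_le_iff_mem _).2 hπ)
  have hdvd : (w ^ 2 ⊔ Ideal.span {π}) ∣ w ^ 2 := Ideal.dvd_iff_le.2 le_sup_left
  obtain ⟨i, hi, hassoc⟩ := (dvd_prime_pow hprime 2).1 hdvd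
  have heq : w ^ 2 ⊔ Ideal.span {π} = w ^ i := associated_iff_eq.1 hassoc
  interval_cases i
  · exfalso
    rw [pow_zero, Ideal.one_eq_top] at heq
    exact (Ideal.IsPrime.ne_top inferInstance) (top_le_iff.1 (heq ▸ hle))
  · rw [heq, pow_one]
  · exfalso
    apply hπ2
    rw [← heq]
    exact Ideal.mem_sup_right (Ideal.mem_span_singleton_self π)

/-- Frobenius-type congruence: if `x - y ∈ J ≤ w` and the residue ring `R ⧸ w` is a finite
field with `N` elements then `x ^ N - y ^ N ∈ w * J`. -/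
theorem pow_card_sub_pow_card_mem (w : Ideal R) [w.IsPrime] (hw0 : w ≠ ⊥) [Finite (R ⧸ w)]
    (J : Ideal R) (hJ : J ≤ w) (x y : R) (hxy : x - y ∈ J) :
    x ^ Nat.card (R ⧸ w) - y ^ Nat.card (R ⧸ w) ∈ w * J := by
  have hmax : w.IsMaximal := Ideal.IsPrime.isMaximal inferInstance hw0
  let _ : Field (R ⧸ w) := Ideal.Quotient.field w
  let _ : Fintype (R ⧸ w) := Fintype.ofFinite _
  rw [← (Commute.all x y).geom_sum₂_mul]
  refine Ideal.mul_mem_mul ?_ hxy
  rw [← Ideal.Quotient.eq_zero_iff_mem, map_sum]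
  have hbar : Ideal.Quotient.mk w x = Ideal.Quotient.mk w y := by
    rw [← sub_eq_zero, ← map_sub, Ideal.Quotient.eq_zero_iff_mem]
    exact hJ hxy
  have : ∀ i ∈ range (Nat.card (R ⧸ w)), Ideal.Quotient.mk w (x ^ i * y ^ (Nat.card (R ⧸ w) - 1 - i))
      = (Ideal.Quotient.mk w y) ^ (Nat.card (R ⧸ w) - 1) := by
    intro i hi
    have hi' := Finset.mem_range.1 hi
    rw [map_mul, map_pow, map_pow, hbar, ← pow_add]
    congr 1
    omega
  rw [Finset.sum_congr rfl this, Finset.sum_const, Finset.card_range, nsmul_eq_mul,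
    Nat.card_eq_fintype_card, FiniteField.cast_card_eq_zero, zero_mul]

theorem pow_card_sub_self_mem (w : Ideal R) [w.IsPrime] (hw0 : w ≠ ⊥) [Finite (R ⧸ w)] (y : R) :
    y ^ Nat.card (R ⧸ w) - y ∈ w := by
  have hmax : w.IsMaximal := Ideal.IsPrime.isMaximal inferInstance hw0
  let _ : Field (R ⧸ w) := Ideal.Quotient.field w
  let _ : Fintype (R ⧸ w) := Fintype.ofFinite _
  rw [← Ideal.Quotient.eq_zero_iff_mem, map_sub, map_pow, Nat.card_eq_fintype_card,
    FiniteField.pow_card, sub_self]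

/-- **Trivial inertia, ideal-theoretic core.** Let `w` be a nonzero prime with finite residue
field of a Dedekind domain `R`, `π ∈ w \ w²` and `τ` a ring endomorphism fixing `π` and acting
trivially modulo `w`. Then `τ` acts trivially modulo every power of `w`. -/
theorem sub_mem_pow_of_forall_sub_mem (w : Ideal R) [w.IsPrime] (hw0 : w ≠ ⊥) [Finite (R ⧸ w)]
    (π : R) (hπ : π ∈ w) (hπ2 : π ∉ w ^ 2) (τ : R →+* R) (hτπ : τ π = π)
    (hτ : ∀ x, τ x - x ∈ w) (n : ℕ) : ∀ x, τ x - x ∈ w ^ (n + 1) := by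
  induction n with
  | zero => simpa using hτ
  | succ n ih =>
    have hle : w ^ (n + 1) ≤ w := Ideal.pow_le_self (Nat.succ_ne_zero n)
    have hτw : ∀ a ∈ w, τ a ∈ w := fun a ha => by
      have := w.add_mem (hτ a) ha
      simpa using this
    -- the target ideal
    have htarget : w ^ (n + 1 + 1) = w * w ^ (n + 1) := pow_succ' w (n + 1)
    -- products of two elements of `w`
    have hsq : ∀ z ∈ w ^ 2, τ z - z ∈ w ^ (n + 1 + 1) := by
      intro z hz
      rw [pow_two] at hz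
      refine Submodule.mul_induction_on hz ?_ ?_
      · intro a ha b hb
        have : τ (a * b) - a * b = τ a * (τ b - b) + b * (τ a - a) := by
          rw [map_mul]; ring
        rw [this, htarget]
        exact Ideal.add_mem _ (Ideal.mul_mem_mul (hτw a ha) (ih b))
          (Ideal.mul_mem_mul hb (ih a))
      · intro a b ha hb
        have : τ (a + b) - (a + b) = (τ a - a) + (τ b - b) := by
          rw [map_add]; ring
        rw [this]
        exact Ideal.add_mem _ ha hb
    intro y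
    set N := Nat.card (R ⧸ w) with hN
    have hz : y - y ^ N ∈ w := by
      have := pow_card_sub_self_mem w hw0 y
      rw [← neg_sub]
      exact w.neg_mem this
    rw [← sq_sup_span_eq_of_notMem_sq w hw0 π hπ hπ2] at hz
    obtain ⟨z', hz', c, hc, hsum⟩ := Submodule.mem_sup.1 hz
    obtain ⟨u, rfl⟩ := Ideal.mem_span_singleton'.1 hc
    have hy : y = y ^ N + z' + u * π := by
      rw [add_assoc, hsum]; ring
    have key : τ y - y = ((τ y) ^ N - y ^ N) + (τ z' - z') + π * (τ u - u) := by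
      conv_lhs => rw [hy]
      rw [map_add, map_add, map_mul, map_pow, hτπ]
      ring
    rw [key]
    refine Ideal.add_mem _ (Ideal.add_mem _ ?_ (hsq z' hz')) ?_
    · rw [htarget]
      exact pow_card_sub_pow_card_mem w hw0 _ hle _ _ (ih y)
    · rw [htarget]
      exact Ideal.mul_mem_mul hπ (ih u)

/-- **Trivial inertia.** With the hypotheses of `sub_mem_pow_of_forall_sub_mem`, `τ` is the
identity. -/
theorem eq_self_of_forall_sub_mem (w : Ideal R) [w.IsPrime] (hw0 : w ≠ ⊥) [Finite (R ⧸ w)]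
    (π : R) (hπ : π ∈ w) (hπ2 : π ∉ w ^ 2) (τ : R →+* R) (hτπ : τ π = π)
    (hτ : ∀ x, τ x - x ∈ w) (x : R) : τ x = x := by
  have hbot : (⨅ i : ℕ, w ^ i) = ⊥ :=
    Ideal.iInf_pow_eq_bot_of_isDomain w (Ideal.IsPrime.ne_top inferInstance)
  have hmem : τ x - x ∈ ⨅ i : ℕ, w ^ i := by
    rw [Ideal.mem_iInf]
    intro i
    have := sub_mem_pow_of_forall_sub_mem w hw0 π hπ hπ2 τ hτπ hτ i x
    exact Ideal.pow_le_pow_right (Nat.le_succ i) this
  rw [hbot, Ideal.mem_bot, sub_eq_zero] at hmem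
  exact hmem

end general

section numberField

variable {L : Type*} [Field L] [NumberField L]

/-- **Trivial inertia at a prime of ramification index one** (number field form, (U4)).
`L` any number field, `w` a prime of `𝓞 L` containing the natural number `q` with `q ∉ w²`
(i.e. `e(w | q) = 1`), `σ` any `ℚ`-automorphism of `L` (no Galois hypothesis) acting trivially
on `𝓞 L ⧸ w`. Then `σ = 1`. -/
theorem eq_one_of_forall_sub_mem_of_notMem_sq (q : ℕ) (w : Ideal (𝓞 L)) [w.IsPrime]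
    (hqw : (q : 𝓞 L) ∈ w) (hq2 : (q : 𝓞 L) ∉ w ^ 2) (σ : L ≃ₐ[ℚ] L)
    (hσ : ∀ x : 𝓞 L, ∃ y ∈ w, σ (x : L) - (x : L) = (y : L)) : σ = 1 := by
  have hw0 : w ≠ ⊥ := by
    rintro rfl
    apply hq2
    rw [Ideal.mem_bot.1 hqw]
    exact zero_mem _
  have hfin : Finite (𝓞 L ⧸ w) := Ideal.finiteQuotientOfFreeOfNeBot w hw0
  set τ : 𝓞 L →+* 𝓞 L := RingOfIntegers.mapRingHom (σ : L →+* L) with hτdef
  have hτ : ∀ x, τ x - x ∈ w := by
    intro x
    obtain ⟨y, hy, hxy⟩ := hσ x
    have : τ x - x = y := by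
      apply RingOfIntegers.ext
      rw [← hxy]
      simp [hτdef]
    rw [this]
    exact hy
  have hfix : ∀ x : 𝓞 L, σ (x : L) = (x : L) := by
    intro x
    have := eq_self_of_forall_sub_mem w hw0 (q : 𝓞 L) hqw hq2 τ (map_natCast τ q) hτ x
    have h2 := congrArg (fun z : 𝓞 L => (z : L)) this
    simpa [hτdef] using h2
  ext z
  obtain ⟨a, b, hb, rfl⟩ := IsFractionRing.div_surjective (A := 𝓞 L) z
  rw [map_div₀]
  have ha' := hfix a
  have hb' := hfix b
  simp only [AlgEquiv.one_apply]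
  rw [ha', hb']

end numberField

section prelude

local notation "Qbar" => AlgebraicClosure ℚ

variable {S : Finset Nat.Primes}

/-- **(U4), EXACT SHAPE of helper22 #823.** `F ⊂ ℚ̄` a number field unramified outside `S`
(prelude notion), `q ∉ S`, `w` a prime of `𝓞 F` containing `q` (cast `ℕ → 𝓞 F` of `(q : ℕ)`),
`σ` ANY `ℚ`-automorphism of `↥F` acting trivially on `𝓞 F ⧸ w`: then `σ = 1`. -/
theorem eq_one_of_forall_sub_mem (F : IntermediateField ℚ Qbar) [NumberField F]
    (hF : F.IsUnramifiedOutside S) (q : Nat.Primes) (hq : q ∉ S)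
    (w : Ideal (𝓞 F)) [hw : w.IsPrime] (hqw : (((q : ℕ) : 𝓞 F)) ∈ w)
    (σ : F ≃ₐ[ℚ] F) (hσ : ∀ x : 𝓞 F, ∃ y ∈ w, σ (x : F) - (x : F) = (y : F)) : σ = 1 := by
  have hq0 : (((q : ℕ) : 𝓞 F)) ≠ 0 := by exact_mod_cast q.2.ne_zero
  have hw0 : w ≠ ⊥ := by
    rintro rfl
    exact hq0 ((Ideal.mem_bot).mp hqw)
  refine eq_one_of_forall_sub_mem_of_notMem_sq (q : ℕ) w hqw ?_ σ hσ
  set v : HeightOneSpectrum (𝓞 F) := ⟨w, hw, hw0⟩ with hv
  have h1 := UnramDict.valuation_natCast_eq_exp_neg_one' F hF q hq v hqw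
  have h3 : algebraMap (𝓞 F) F (((q : Nat.Primes) : ℕ) : 𝓞 F) = (((q : Nat.Primes) : ℕ) : F) :=
    map_natCast _ _
  rw [← h3, HeightOneSpectrum.valuation_of_algebraMap] at h1
  intro hmem
  have h2 : v.intValuation (((q : ℕ) : 𝓞 F)) ≤ WithZero.exp (-((2 : ℕ) : ℤ)) :=
    (HeightOneSpectrum.intValuation_le_pow_iff_mem v _ 2).2 hmem
  rw [h1, WithZero.exp_le_exp] at h2
  omega

end prelude

end Fermat.Agent.CFT.C7.TrivialInertia
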