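/-
PROJECT C, slice (N3), FINAL ASSEMBLY, part 3 (helper5): the hypothesis `HasLevelDict S` of
`C7/N3Level` is discharged by helper11's `Idele/LevelIso` (`eC`, `eC_compat`,
`GaloisDict.Infinite.layerQuotEquiv`); so the field `n3` of `D.Main.Datum` follows from `HasF2 S P`
alone (`n3_of_F2`).
-/
import Mathlib
import Fermat.Agent.CFT.C7.N3Level
import Fermat.Agent.CFT.Idele.LevelIso

set_option autoImplicit false

noncomputable section

namespace Fermat.Agent.CFT.C7.N3Dict

open Fermat.Agent.CFT.Bridge Fermat.Agent.CFT.Idele Fermat.Agent.CFT.C7.LevelK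
  Fermat.Agent.CFT.C7.N3Level Fermat.Agent.CFT.Idele.LevelIso Fermat.Agent.CFT.GaloisDict.Infinite

section Alg

attribute [local instance 2000] IntermediateField.algebra'

/-- The layer dictionary of `Idele/LevelIso`, packed as a `LayerDict` (instances: `algebra'`). -/
def levelDict (S : Finset Nat.Primes) (hS : S.Nonempty) (F : IntermediateField ℚ Qbar)
    [Normal ℚ F] (hF : F.IsUnramifiedOutside S) [F.fixingSubgroup.Normal] :
    LayerDict (QS.C S) F.fixingSubgroup (repCS F (S : Set Nat.Primes)) where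
  e := layerQuotEquiv F F.fixingSubgroup rfl
  e' := eC S F hF F.fixingSubgroup rfl hS
  he := eC_compat S F hF F.fixingSubgroup rfl hS

theorem normal_of_normal {S : Finset Nat.Primes} (F : IntermediateField ℚ Qbar)
    (hF : F.IsUnramifiedOutside S) (hN : F.fixingSubgroup.Normal) : Normal ℚ F := by
  have := hF.1
  exact Fermat.Agent.CFT.LocalBridge.normal_of_normal_fixingSubgroup F hN

end Alg

/-- **(LD-Z)**: the layer dictionary at every level field (helper11 `Idele/LevelIso`). -/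
theorem hasLevelDict (S : Finset Nat.Primes) (hS : S.Nonempty) : HasLevelDict S := by
  intro F _ hN hF
  have hnorm := normal_of_normal F hF hN
  exact ⟨@levelDict S hS F hnorm hF hN⟩

section N3

open Fermat.Agent.CFT.D.Realize Fermat.Agent.CFT.LC Fermat.Agent.CFT.A7 Fermat.Agent.CFT.A5
  Fermat.Agent.CFT.A7.BaseChange Fermat.Agent.CFT.C7.SES

/-- **The field `n3` of `D.Main.Datum` for `C_S ⊗ k`** from the inequality (F2) alone. -/
theorem n3_of_F2 (S : Finset Nat.Primes) (P : Nat.Primes) (k : Type) [CommRing k]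
    [IsLocalization (primeTo (P : ℕ)) k] [IsDomain k] [CharZero k] (hP2 : (P : ℕ) ≠ 2)
    (hPS : P ∈ S) (cf : ClassFormation (levelsS S) (seqK S k).X₃) (hR : AddHomsLinear k)
    (σ : k →+* ZMod (P : ℕ)) (hF2 : HasF2 S P) :
    ∀ U₀ ∈ (levelsS S).sets, ∃ U' : Subgroup GQ, ∃ _ : U'.Normal,
      U' ∈ (levelsS S).sets ∧ U' ≤ U₀ ∧
        (((P : ℕ) : ℕ) : k) ∣ ((Nat.card (GQ ⧸ U') : ℕ) : k) ∧
        ∀ [Fintype (layerSub U₀ U')], N3 (seqK S k).X₃ (((P : ℕ) : ℕ) : k) U₀ U' :=
  n3_of_levelDict_of_F2 S P k hP2 hPS cf hR σ (hasLevelDict S ⟨P, hPS⟩) hF2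

end N3

end Fermat.Agent.CFT.C7.N3Dict
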