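/-
PROJECT C, slice (N3), FINAL ASSEMBLY, part 4 (helper5): `GlobalInputs.n3` of `D/Datum/Build` in its
VERBATIM field type (`k := ZpModel.Zp p`, `p : ℕ` with `[Fact p.Prime]`), from the class formation and
the inequality (F2) `N3Level.HasF2 S (pPrime p)`.  (The instance `IsLocalization (primeTo ↑(pPrime p))`
is not found by instance search - it is supplied by hand here.)
-/
import Mathlib
import Fermat.Agent.CFT.C7.N3Dict
import Fermat.Agent.CFT.D.ZpModel

set_option autoImplicit false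

noncomputable section

namespace Fermat.Agent.CFT.C7.N3Zp

open Fermat.Agent.CFT.D.Realize Fermat.Agent.CFT.LC Fermat.Agent.CFT.A7 Fermat.Agent.CFT.A5
  Fermat.Agent.CFT.A7.BaseChange Fermat.Agent.CFT.C7.SES Fermat.Agent.CFT.Bridge
  Fermat.Agent.CFT.C7.N3Level Fermat.Agent.CFT.C7.N3Dict Fermat.Agent.CFT.D.ZpModel ExtCitation
  Fermat.Agent.CFT.Idele

/-- **`GlobalInputs.n3`** (`D/Datum/Build`) from the class formation and (F2). -/
theorem n3_Zp (p : ℕ) [Fact p.Prime] (S : Finset Nat.Primes) (hp2 : p ≠ 2) (hpS : pPrime p ∈ S)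
    (cf : ClassFormation (levelsS S) (seqK S (Zp p)).X₃) (hF2 : HasF2 S (pPrime p)) :
    ∀ U₀ ∈ (levelsS S).sets, ∃ U' : Subgroup GQ, ∃ _ : U'.Normal,
      U' ∈ (levelsS S).sets ∧ U' ≤ U₀ ∧
        ((p : ℕ) : Zp p) ∣ ((Nat.card (GQ ⧸ U') : ℕ) : Zp p) ∧
        ∀ [Fintype (layerSub U₀ U')], N3 (seqK S (Zp p)).X₃ ((p : ℕ) : Zp p) U₀ U' := by
  have inst : IsLocalization (primeTo ((pPrime p : Nat.Primes) : ℕ)) (Zp p) :=
    (inferInstance : IsLocalization (primeTo p) (Zp p))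
  exact n3_of_F2 S (pPrime p) (Zp p) hp2 hpS cf (addHomsLinear p) (phi p) hF2

end Fermat.Agent.CFT.C7.N3Zp
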