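/-
PROJECT C, slice (N3), (hF2) CLOSED (helper22): the inequality (F2) `N3Level.HasF2 S P` and the field
`n3` of `D/Datum/Build.GlobalInputs` FROM THE CLASS FORMATION ALONE.

For a level field `F ⊂ ℚ̄` (finite normal over `ℚ`, unramified outside `S ∋ P`, `ζ_P ∈ F`) and
`L = F(B_S^{1/P})` (helper15 `KummerLevelWS.exists_kummer_level_BS`, a `Type` with an embedding
`ι : L →ₐ[ℚ] ℚ̄`):

* the `ℤ`-level dictionaries at `(↥F, ιK)` and `(L, ι)` are helper11's `LevelIsoK` (`dictK`);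
* the `k`-level maps `f₁`, `g₂` are helper27's `LevelK.levelMapC` ((d1) = `isLocAt_levelMapC`);
* the norm compatibility (d2) is helper14's `LevelNorm.sum_ρ_toLayerOfEmb` transported by
  helper27's `levelMapC_norm_compat`;
* `J_S(F) ⊆ N_{L/F} J_L` (d4) is helper25's, inside `exists_kummer_level_BS`;
* the bound `[U_F : U_L] ≤ [J_F : Fˣ U^S J_S J^P]` is helper24's
  `ClassFormation.card_layerSub_le_index_of_norm`, and `[U_F : U_L] = [B_S : Fˣᴾ]` (d3) is helper15's.

`relIndex_BS_le_of_field`, `hasF2 : N3Level.HasF2 S P`, `n3_of_cf`, and `n3_Zp_of_cf` (the field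
`GlobalInputs.n3` VERBATIM, from `cf` only).
-/
import Mathlib
import Fermat.Agent.CFT.C7.N3Zp
import Fermat.Agent.CFT.Idele.LevelIsoK
import Fermat.Agent.CFT.Idele.LevelNorm
import Fermat.Agent.CFT.C7.KummerLevelField
import Fermat.Agent.CFT.C7.LevelMap

set_option autoImplicit false
set_option linter.style.haveILetI false
set_option linter.overlappingInstances false

open scoped NumberField IntermediateField

noncomputable section

namespace Fermat.Agent.CFT.C7.F2Final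

open Fermat.Agent.CFT.D.Realize Fermat.Agent.CFT.LC Fermat.Agent.CFT.A7 Fermat.Agent.CFT.A5
  Fermat.Agent.CFT.A7.ExistenceP Fermat.Agent.CFT.A7.ExistenceF2 Fermat.Agent.CFT.A7.BaseChange
  Fermat.Agent.CFT.Bridge Fermat.Agent.CFT.Idele Fermat.Agent.CFT.C7.SES
  Fermat.Agent.CFT.C7.LevelK Fermat.Agent.CFT.C7.ExistCount Fermat.Agent.CFT.C7.N3Level
  Fermat.Agent.CFT.Idele.LevelIsoK Fermat.Agent.CFT.Idele.LevelNorm
  Fermat.Agent.CFT.C6.IdeleNorm Fermat.Agent.CFT.C7.KummerLevelWS Fermat.Agent.CFT.C5.CountS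

variable (S : Finset Nat.Primes) (P : Nat.Primes)

/-- The `ℤ`-level dictionary at a field `K` embedded in `ℚ̄` (helper11's `LevelIsoK`), as a
`LayerDict`. -/
def dictK {K : Type} [Field K] [Algebra ℚ K] [Algebra.IsAlgebraic ℚ K] [Normal ℚ K]
    (ι : K →ₐ[ℚ] Qbar) (hι : ι.fieldRange.IsUnramifiedOutside S) (U : Subgroup GQ) [U.Normal]
    (h : ι.fieldRange.fixingSubgroup = U) (hS : S.Nonempty) :
    LayerDict (QS.C S) U (repCS K (S : Set Nat.Primes)) :=
  ⟨eK ι U h, eCK S ι hι U h hS, eCK_compat S ι hι U h hS⟩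

/-- The element of `(C_S)^U` attached to a class `c ∈ C_S(K)` by `dictK` is helper14's
`toLayerOfEmb c`. -/
theorem dictK_symm_coe {K : Type} [Field K] [Algebra ℚ K] [Algebra.IsAlgebraic ℚ K] [Normal ℚ K]
    (ι : K →ₐ[ℚ] Qbar) (hι : ι.fieldRange.IsUnramifiedOutside S) (U : Subgroup GQ) [U.Normal]
    (h : ι.fieldRange.fixingSubgroup = U) (hS : S.Nonempty) (c : CS K (S : Set Nat.Primes)) :
    (dictK S ι hι U h hS).e'.symm
        ((Rep.toAdditive (M := K ≃ₐ[ℚ] K) (G := CS K (S : Set Nat.Primes))).symm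
          (Additive.ofMul c)) =
      toLayerOfEmb (isFieldFilter_unram S) (S : Set Nat.Primes) ι hι U h (Additive.ofMul c) := by
  apply Subtype.ext
  apply congrArg Additive.ofMul
  apply Subtype.ext
  exact CDι_val S ι hι c

section
attribute [local instance 2000] IntermediateField.algebra'

/-- A field embedded in `ℚ̄` whose image has a normal fixing subgroup is normal over `ℚ`. -/
theorem normal_of_fieldRange_normal {L : Type} [Field L] [Algebra ℚ L] (ι : L →ₐ[ℚ] Qbar)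
    (hN : ι.fieldRange.fixingSubgroup.Normal) : Normal ℚ L := by
  have h1 : IsGalois ℚ ι.fieldRange := (InfiniteGalois.normal_iff_isGalois ι.fieldRange).mp hN
  have h2 : Normal ℚ ι.fieldRange := h1.to_normal
  exact Normal.of_algEquiv (toRange ι).symm

end

variable (k : Type) [CommRing k] [IsLocalization (primeTo (P : ℕ)) k] [IsDomain k] [CharZero k]

/-- **(hF2) at a level field `F ∋ ζ_P`**: `[B_S : Fˣᴾ] ≤ |Cl_S(F)/P|`, from the class formation
`(G_{ℚ,S}, C_S ⊗ k)`. -/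
theorem relIndex_BS_le_of_field (hP2 : (P : ℕ) ≠ 2) (hPS : P ∈ S)
    (cf : ClassFormation (levelsS S) (seqK S k).X₃) (hR : AddHomsLinear k)
    (σ : k →+* ZMod (P : ℕ))
    (F : IntermediateField ℚ Qbar) [NumberField F] (hN : F.fixingSubgroup.Normal)
    (hF : F.IsUnramifiedOutside S) {ζ : F} (hζ : IsPrimitiveRoot ζ (P : ℕ)) :
    ((powMonoidHom (P : ℕ) : Fˣ →* Fˣ).range).relIndex (BS F (S : Set Nat.Primes) (P : ℕ)) ≤
      Nat.card (ClS F (S : Set Nat.Primes) ⧸
        (powMonoidHom (P : ℕ) :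
          ClS F (S : Set Nat.Primes) →* ClS F (S : Set Nat.Primes)).range) := by
  have : Fact (P : ℕ).Prime := ⟨P.2⟩
  have hS : S.Nonempty := ⟨P, hPS⟩
  obtain ⟨ιK, hιK, hrange, hgal⟩ := KummerLevelField.exists_val_of_field F hN
  haveI := hgal
  have hK : ιK.fieldRange.IsUnramifiedOutside S := by rw [hrange]; exact hF
  obtain ⟨L, iF, iN, iA, iG, ι, hN'', hι, hur, hlev, hle, hc, he, hcard, hcommL, hexpL, hdeg,
    hpow, hsplit, hJS⟩ := exists_kummer_level_BS P S hP2 hζ hPS ιK hK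
  haveI : Normal ℚ F := hgal.to_normal
  haveI hNK : (ιK.fieldRange.fixingSubgroup).Normal := by rw [hrange]; exact hN
  haveI : Normal ℚ L := normal_of_fieldRange_normal ι hN''
  let d₁ := dictK S ιK hK ιK.fieldRange.fixingSubgroup rfl hS
  let d₂ := dictK S ι hur ι.fieldRange.fixingSubgroup rfl hS
  haveI : Finite (GQ ⧸ ι.fieldRange.fixingSubgroup) := by
    have := finiteIndex_levelsS S _ hlev
    exact Subgroup.finite_quotient_of_finiteIndex
  haveI : Fintype (layerSub ιK.fieldRange.fixingSubgroup ι.fieldRange.fixingSubgroup) :=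
    Fintype.ofFinite _
  -- (d2): the norm compatibility of the level maps
  have hnorm : ∀ x' : J L,
      ((∑ h : layerSub ιK.fieldRange.fixingSubgroup ι.fieldRange.fixingSubgroup,
        ((seqK S k).X₃.quotientToInvariants ι.fieldRange.fixingSubgroup).ρ
          (h : GQ ⧸ ι.fieldRange.fixingSubgroup)
          (levelMapC S (P : ℕ) k d₂ (Additive.ofMul (toCS L (S : Set Nat.Primes) x'))) :
          ((seqK S k).X₃.quotientToInvariants ι.fieldRange.fixingSubgroup).V) :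
          (seqK S k).X₃.V) =
      ((levelMapC S (P : ℕ) k d₁
        (Additive.ofMul (QuotientGroup.mk' ((diag F).range ⊔ US F (S : Set Nat.Primes))
          (normJ F L x'))) :
        Representation.invariants ((seqK S k).X₃.ρ.comp ιK.fieldRange.fixingSubgroup.subtype)) :
        (seqK S k).X₃.V) := by
    intro x'
    refine levelMapC_norm_compat d₁ d₂ (toCS L (S : Set Nat.Primes) x')
      (toCS F (S : Set Nat.Primes) (normJ F L x')) ?_
    rw [dictK_symm_coe, dictK_symm_coe]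
    exact sum_ρ_toLayerOfEmb (isFieldFilter_unram S) (S : Set Nat.Primes) ιK ι hι hK hur
      ιK.fieldRange.fixingSubgroup ι.fieldRange.fixingSubgroup rfl rfl x'
  have key := ClassFormation.card_layerSub_le_index_of_norm cf hR ιK.fieldRange.fixingSubgroup
    ι.fieldRange.fixingSubgroup hlev hle (P : ℕ) σ hc he (normJ F L)
    ((diag F).range ⊔ US F (S : Set Nat.Primes)) (levelMapC S (P : ℕ) k d₁)
    (isLocAt_levelMapC d₁)
    (fun x' => levelMapC S (P : ℕ) k d₂ (Additive.ofMul (toCS L (S : Set Nat.Primes) x')))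
    hnorm (JS F (S : Set Nat.Primes)) hJS
    (index_sup_US_sup_JS_sup_Pw_ne_zero F (S : Set Nat.Primes) (P : ℕ))
  rw [card_ClS_quot', ← hcard]
  exact key

/-- **(F2)** at every level field containing `μ_P`, from the class formation. -/
theorem hasF2 (hP2 : (P : ℕ) ≠ 2) (hPS : P ∈ S)
    (cf : ClassFormation (levelsS S) (seqK S k).X₃) (hR : AddHomsLinear k)
    (σ : k →+* ZMod (P : ℕ)) : HasF2 S P := by
  intro F _ hN hF hζ
  obtain ⟨ζ, hζ⟩ := hζ
  exact relIndex_BS_le_of_field S P k hP2 hPS cf hR σ F hN hF hζ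

/-- **The field `n3` of `D.Main.Datum` for `C_S ⊗ k`** from the class formation alone. -/
theorem n3_of_cf (hP2 : (P : ℕ) ≠ 2) (hPS : P ∈ S)
    (cf : ClassFormation (levelsS S) (seqK S k).X₃) (hR : AddHomsLinear k)
    (σ : k →+* ZMod (P : ℕ)) :
    ∀ U₀ ∈ (levelsS S).sets, ∃ U' : Subgroup GQ, ∃ _ : U'.Normal,
      U' ∈ (levelsS S).sets ∧ U' ≤ U₀ ∧
        (((P : ℕ) : ℕ) : k) ∣ ((Nat.card (GQ ⧸ U') : ℕ) : k) ∧
        ∀ [Fintype (layerSub U₀ U')], N3 (seqK S k).X₃ (((P : ℕ) : ℕ) : k) U₀ U' :=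
  N3Dict.n3_of_F2 S P k hP2 hPS cf hR σ (hasF2 S P k hP2 hPS cf hR σ)

end Fermat.Agent.CFT.C7.F2Final

namespace Fermat.Agent.CFT.C7.F2Final

open Fermat.Agent.CFT.D.Realize Fermat.Agent.CFT.LC Fermat.Agent.CFT.A7 Fermat.Agent.CFT.A5
  Fermat.Agent.CFT.A7.BaseChange Fermat.Agent.CFT.C7.SES Fermat.Agent.CFT.Bridge
  Fermat.Agent.CFT.C7.N3Level Fermat.Agent.CFT.D.ZpModel ExtCitation Fermat.Agent.CFT.Idele

/-- (F2) for `P := pPrime p`, from the class formation over `Zp p`. -/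
theorem hasF2_Zp (p : ℕ) [Fact p.Prime] (S : Finset Nat.Primes) (hp2 : p ≠ 2)
    (hpS : pPrime p ∈ S) (cf : ClassFormation (levelsS S) (seqK S (Zp p)).X₃) :
    HasF2 S (pPrime p) := by
  have inst : IsLocalization (primeTo ((pPrime p : Nat.Primes) : ℕ)) (Zp p) :=
    (inferInstance : IsLocalization (primeTo p) (Zp p))
  exact hasF2 S (pPrime p) (Zp p) hp2 hpS cf (addHomsLinear p) (phi p)

/-- **`GlobalInputs.n3`** of `D/Datum/Build`, VERBATIM, from the class formation ALONE. -/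
theorem n3_Zp_of_cf (p : ℕ) [Fact p.Prime] (S : Finset Nat.Primes) (hp2 : p ≠ 2)
    (hpS : pPrime p ∈ S) (cf : ClassFormation (levelsS S) (seqK S (Zp p)).X₃) :
    ∀ U₀ ∈ (levelsS S).sets, ∃ U' : Subgroup GQ, ∃ _ : U'.Normal,
      U' ∈ (levelsS S).sets ∧ U' ≤ U₀ ∧
        ((p : ℕ) : Zp p) ∣ ((Nat.card (GQ ⧸ U') : ℕ) : Zp p) ∧
        ∀ [Fintype (layerSub U₀ U')], N3 (seqK S (Zp p)).X₃ ((p : ℕ) : Zp p) U₀ U' :=
  N3Zp.n3_Zp p S hp2 hpS cf (hasF2_Zp p S hp2 hpS cf)

end Fermat.Agent.CFT.C7.F2Final
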