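import Mathlib
import Fermat.Agent.CFT.C7.CSTransferLift
import Fermat.Agent.CFT.C5.PrimeDegree
import Fermat.Agent.CFT.C5.SecondInequalityFinal
import Fermat.Agent.CFT.A7.ClassFormationExists
import Fermat.Agent.CFT.C7.TrivialInertia
import Fermat.Agent.CFT.A7.BaseChangeCard
import Fermat.Agent.CFT.A7.BaseChangeTensor

/-!
# PROJECT C, slice C7-HA: hypothesis (H-a) of the global class formation at finite level

`L` a number field, Galois over `ℚ`; `G` a finite group acting FAITHFULLY on `L` through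
`φ : G →* Gal(L/ℚ)` (for non-injective `φ` the statements are false: `H¹(ker φ, C_L) ≠ 0` in
general); `p` an odd prime, `k` a model of `ℤ_(p)` (`IsLocalization (primeTo p) k`).

* `ℤ`-level (`hSI : SecondInequality p`): `exists_coprime_nsmul_H1_res`,
  `card_pPrimary_H2_dvd_res` : for every subgroup `S' ≤ G`, `H¹(S', C_L)` has no `p`-torsion and
  `|H²(S', C_L)(p)|` divides `|S'|` (helper18's dévissage `C5/PrimeDegree`, through `PairIso`);
* `ha_C` : for ANY model `Y` of `C_L ⊗ k`: `H¹(S', Y) = 0`, `|H²(S', Y)| ∣ |S'|`;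
* `ha_CS_finite` : the same for ANY model `Y'` of `C_S(L) ⊗ k` (`S ≠ ∅`, trivial inertia outside
  `S`; via `C7/CSTransferLift.ha_CS`);
* `haAt_of_isLocRep`, `haAt_of_layerDict` : `A7.CFExists.HAat C U` when the layer
  `(G₀ ⧸ U, C^U)` is (isomorphic to) such a model;
* `haAt_of_levelField`, `haAt_of_levelField'` : the same for `L = F ⊂ ℚ̄` unramified outside `S₀`
  (trivial inertia discharged by helper1's `TrivialInertia.eq_one_of_forall_sub_mem`);
* section `Unconditional`: the same statements with the second inequality discharged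
  (`C5/SecondInequalityFinal`): `ha_C'`, `ha_CS_finite'`, `haAt_levelField`, `haAt_levelField'`.
-/

set_option autoImplicit false

noncomputable section

namespace Fermat.Agent.CFT.C7.HAFinite

open CategoryTheory groupCohomology Fermat.Agent.CFT.Idele Fermat.Agent.CFT.C7.USCohTrivial
  Fermat.Agent.CFT.A7.BaseChange Fermat.Agent.CFT.BrauerUpper
  Fermat.Agent.CFT.C5.ClassDevissage Fermat.Agent.CFT.C5.PrimeDegree
  Fermat.Agent.CFT.C7.CSTransfer

/-- The two `p`-primary parts on `main` (`A7/BaseChangeCard` and `C5/DevissageP`) have the same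
cardinality along an additive isomorphism. -/
theorem card_pPrimary_congr (p : ℕ) {X X' : Type*} [AddCommGroup X] [AddCommGroup X']
    (i : X ≃+ X') :
    Nat.card (Fermat.Agent.CFT.A7.BaseChange.pPrimary p X) =
      Nat.card (Fermat.Agent.CFT.C5.DevissageP.pPrimary p X') := by
  refine Nat.card_congr ⟨fun x => ⟨i x.1, ?_⟩, fun y => ⟨i.symm y.1, ?_⟩, fun x => ?_, fun y => ?_⟩
  · obtain ⟨j, hj⟩ := x.2
    exact ⟨j, by rw [← map_nsmul, hj, map_zero]⟩
  · obtain ⟨j, hj⟩ := y.2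
    exact ⟨j, by rw [← map_nsmul, hj, map_zero]⟩
  · exact Subtype.ext (i.symm_apply_apply _)
  · exact Subtype.ext (i.apply_symm_apply _)

/-- Transport of a localisation along an isomorphism of pairs on the target side. -/
theorem isLocRep_of_equiv {R k : Type} [CommRing R] [CommRing k] [Algebra R k] {M : Submonoid R}
    {Γ Γ' : Type} [Group Γ] [Group Γ'] {X : Rep.{0} R Γ'} {Y' : Rep.{0} k Γ'} {A : Rep.{0} k Γ}
    {f' : X.V →+ Y'.V} (hf' : IsLocRep M X Y' f') (e : Γ ≃* Γ') (e' : A.V ≃ₗ[k] Y'.V)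
    (he : ∀ g, e'.toLinearMap ∘ₗ A.ρ g = Y'.ρ (e g) ∘ₗ e'.toLinearMap) :
    IsLocRep M (Rep.res (e : Γ →* Γ') X) A
      ((e'.symm : Y'.V →+ A.V).comp f') where
  map_smul r x := by
    change e'.symm (f' (r • x)) = _
    rw [hf'.map_smul, map_smul]
    rfl
  map_ρ g x := by
    change e'.symm (f' (X.ρ (e g) x)) = A.ρ g (e'.symm (f' x))
    rw [hf'.map_ρ, LinearEquiv.symm_apply_eq]
    have := congr($(he g) (e'.symm (f' x)))
    simp only [LinearMap.comp_apply, LinearEquiv.coe_coe, LinearEquiv.apply_symm_apply] at this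
    exact this.symm
  surj y := by
    obtain ⟨s, hs, x, hx⟩ := hf'.surj (e' y)
    refine ⟨s, hs, x, ?_⟩
    change _ = e'.symm (f' x)
    rw [← hx, map_smul, LinearEquiv.symm_apply_apply]
  eq_zero x hx := hf'.eq_zero x (by
    have : e'.symm (f' x) = 0 := hx
    simpa using this)

variable {L : Type} [Field L] [NumberField L] {G : Type} [Group G]
  (φ : G →* (L ≃ₐ[ℚ] L))

theorem galHom_rat (σ : L ≃ₐ[ℚ] L) : galHom ℚ L σ = σ := AlgEquiv.ext fun _ => rfl

/-- For injective `φ`, the pair `(S', C_L)` is a layer of the idele class formation. -/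
theorem pairIso_res_res (hφ : Function.Injective φ) (S' : Subgroup G) :
    PairIso (Rep.res S'.subtype (Rep.res φ (repC L)))
      (Rep.res (S'.map φ).subtype (classRep ℚ L)) :=
  ⟨S'.equivMapOfInjective φ hφ, AddEquiv.refl _, fun s b => by
    change (repC L).ρ (φ s) b = (repC L).ρ (galHom ℚ L _) b
    rw [galHom_rat]
    rfl⟩

variable (p : ℕ) [hp : Fact p.Prime] (hp2 : p ≠ 2) (hSI : SecondInequality p) [IsGalois ℚ L]

include hp2 hSI in
/-- `ℤ`-level: `H¹(S', C_L)` has no `p`-torsion. -/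
theorem exists_coprime_nsmul_H1_res (hφ : Function.Injective φ) (S' : Subgroup G)
    (x : groupCohomology (Rep.res S'.subtype (Rep.res φ (repC L))) 1) :
    ∃ s : ℕ, ¬ p ∣ s ∧ s • x = 0 := by
  obtain ⟨i⟩ := (pairIso_res_res φ hφ S').nonempty_iso 1
  obtain ⟨s, hs, hs0⟩ := exists_coprime_nsmul_H1 p hp2 hSI ℚ L (S'.map φ) (i x)
  refine ⟨s, hs, i.injective ?_⟩
  rw [map_nsmul, hs0, map_zero]

include hp2 hSI in
/-- `ℤ`-level: the `p`-primary part of `H²(S', C_L)` has order dividing `|S'|`. -/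
theorem card_pPrimary_H2_dvd_res (hφ : Function.Injective φ) (S' : Subgroup G) :
    Nat.card (Fermat.Agent.CFT.A7.BaseChange.pPrimary p
      (groupCohomology (Rep.res S'.subtype (Rep.res φ (repC L))) 2)) ∣ Nat.card S' := by
  obtain ⟨i⟩ := (pairIso_res_res φ hφ S').nonempty_iso 2
  rw [card_pPrimary_congr p i, (pairIso_res_res φ hφ S').card_group]
  exact (card_pPrimary_H2_dvd p hp2 hSI ℚ L (S'.map φ)).trans (Nat.ordProj_dvd _ p)

section KLevel

variable [Finite G] {k : Type} [CommRing k] [Algebra ℤ k] [IsLocalization (primeTo p) k]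

include hp2 hSI in
/-- **(H-a) for `C_L ⊗ k`**, any model `Y`: `H¹(S', Y) = 0` and `|H²(S', Y)|` divides `|S'|` for
every subgroup `S'`. -/
theorem ha_C (hφ : Function.Injective φ) {Y : Rep.{0} k G}
    {f : (Rep.res φ (repC L)).V →+ Y.V} (hf : IsLocRep (primeTo p) (Rep.res φ (repC L)) Y f)
    (S' : Subgroup G) :
    Limits.IsZero (groupCohomology (Rep.res S'.subtype Y) 1) ∧
      Nat.card (groupCohomology (Rep.res S'.subtype Y) 2) ∣ Nat.card S' := by
  have hM : ∀ s ∈ primeTo p, IsUnit (algebraMap ℤ k s) := fun s hs =>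
    IsLocalization.map_units k (⟨s, hs⟩ : primeTo p)
  refine ⟨((hf.res S'.subtype).isZero_iff hM 1).2 fun c => ?_,
    (hf.res S'.subtype).card_dvd_of_card_pPrimary_dvd p hM
      (fun s hs j => isCoprime_pow_of_mem_primeTo hs j) (exists_card_eq_pow_mul S') 1
      (card_pPrimary_H2_dvd_res φ p hp2 hSI hφ S')⟩
  obtain ⟨s, hs, hs0⟩ := exists_coprime_nsmul_H1_res φ p hp2 hSI hφ S' c
  refine ⟨(s : ℤ), fun h => hs (Int.natCast_dvd_natCast.1 h), ?_⟩
  rw [← hs0]
  exact Nat.cast_smul_eq_nsmul ℤ s c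

variable {S : Set Nat.Primes}

include hp2 hSI in
/-- **(H-a) for `C_S(L) ⊗ k`**, any model `Y'`: `H¹(S', Y') = 0` and `|H²(S', Y')|` divides `|S'|`
for every subgroup `S'`. -/
theorem ha_CS_finite (hφ : Function.Injective φ) (hS : S.Nonempty)
    (h : ∀ q ∉ S, TrivialInertiaAt φ q) {Y' : Rep.{0} k G}
    {f' : (Rep.res φ (repCS L S)).V →+ Y'.V}
    (hf' : IsLocRep (primeTo p) (Rep.res φ (repCS L S)) Y' f') (S' : Subgroup G) :
    Limits.IsZero (groupCohomology (Rep.res S'.subtype Y') 1) ∧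
      Nat.card (groupCohomology (Rep.res S'.subtype Y') 2) ∣ Nat.card S' := by
  have hY := isLocRep_tensorRep (k := k) (primeTo p) (Rep.res φ (repC L))
  obtain ⟨h1, h2⟩ := ha_C φ p hp2 hSI hφ hY S'
  exact ha_CS φ hY hf' hS h S' h1 h2

end KLevel

/-! ### `(H-a)` at a level of a class formation datum -/

section HAat

open Fermat.Agent.CFT.A7.CFExists

variable {G₀ : Type} [Group G₀] {k : Type} [CommRing k] [Algebra ℤ k]
  [IsLocalization (primeTo p) k] {C : Rep.{0} k G₀} (U : Subgroup G₀) [U.Normal]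
  [Finite (G₀ ⧸ U)] {S : Set Nat.Primes}

include hp2 hSI in
/-- **`HAat C U`** when the layer `C^U` is a model of `C_S(L) ⊗ k`, `G₀ ⧸ U` acting through an
injective `ψ : G₀ ⧸ U →* Gal(L/ℚ)`. -/
theorem haAt_of_isLocRep (ψ : G₀ ⧸ U →* (L ≃ₐ[ℚ] L)) (hψ : Function.Injective ψ)
    (hS : S.Nonempty) (h : ∀ q ∉ S, TrivialInertiaAt ψ q)
    {f' : (Rep.res ψ (repCS L S)).V →+ (C.quotientToInvariants U).V}
    (hf' : IsLocRep (primeTo p) (Rep.res ψ (repCS L S)) (C.quotientToInvariants U) f') :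
    HAat C U :=
  fun S' => ha_CS_finite ψ p hp2 hSI hψ hS h hf' S'

include hp2 hSI in
/-- **`HAat C U`** from a layer dictionary `(e, e', he)` identifying `(G₀ ⧸ U, C^U)` with
`(Γ, Y')`, `Y'` any model of `C_S(L) ⊗ k` with `Γ` acting through an injective
`ψ : Γ →* Gal(L/ℚ)`. -/
theorem haAt_of_layerDict {Γ : Type} [Group Γ] (ψ : Γ →* (L ≃ₐ[ℚ] L))
    (hψ : Function.Injective ψ) (hS : S.Nonempty) (h : ∀ q ∉ S, TrivialInertiaAt ψ q)
    {Y' : Rep.{0} k Γ} {f' : (Rep.res ψ (repCS L S)).V →+ Y'.V}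
    (hf' : IsLocRep (primeTo p) (Rep.res ψ (repCS L S)) Y' f')
    (e : G₀ ⧸ U ≃* Γ) (e' : (C.quotientToInvariants U).V ≃ₗ[k] Y'.V)
    (he : ∀ g, e'.toLinearMap ∘ₗ (C.quotientToInvariants U).ρ g =
      Y'.ρ (e g) ∘ₗ e'.toLinearMap) :
    HAat C U :=
  haAt_of_isLocRep p hp2 hSI U (ψ.comp (e : G₀ ⧸ U →* Γ)) (hψ.comp e.injective) hS
    (fun q hq => (h q hq).comp _ e.injective) (isLocRep_of_equiv hf' e e' he)

end HAat

/-! ### Level fields inside `ℚ̄` -/

section LevelField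

open Fermat.Agent.CFT.A7.CFExists

local notation "Qbar" => AlgebraicClosure ℚ

variable {S₀ : Finset Nat.Primes} (F : IntermediateField ℚ Qbar) [NumberField F]

omit hp in
/-- A field unramified outside `S₀` has trivial inertia at all `q ∉ S₀`, for every group acting
faithfully. -/
theorem trivialInertiaAt_of_isUnramifiedOutside (hF : F.IsUnramifiedOutside S₀) {Γ : Type}
    [Group Γ] (ψ : Γ →* (F ≃ₐ[ℚ] F)) (hψ : Function.Injective ψ) (q : Nat.Primes)
    (hq : q ∉ (S₀ : Set Nat.Primes)) : TrivialInertiaAt ψ q :=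
  trivialInertiaAt_of_injective hψ fun w hw hqw σ hσ =>
    haveI := hw
    Fermat.Agent.CFT.C7.TrivialInertia.eq_one_of_forall_sub_mem F hF q
      (fun hmem => hq (Finset.mem_coe.2 hmem)) w hqw σ hσ

variable {G₀ : Type} [Group G₀] {k : Type} [CommRing k] [Algebra ℤ k]
  [IsLocalization (primeTo p) k] {C : Rep.{0} k G₀} (U : Subgroup G₀) [U.Normal]
  [Finite (G₀ ⧸ U)] [IsGalois ℚ F]

include hp2 hSI in
/-- **`HAat C U` for a level field `F ⊂ ℚ̄`** (finite Galois over `ℚ`, unramified outside `S₀`),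
from a layer dictionary `(e, e', he)` identifying `(G₀ ⧸ U, C^U)` with `(Γ, Y')`, `Y'` any model of
`C_{S₀}(F) ⊗ k`, `Γ` acting faithfully through `ψ`.  No arithmetic hypothesis besides the second
inequality. -/
theorem haAt_of_levelField (hF : F.IsUnramifiedOutside S₀) (hS₀ : S₀.Nonempty) {Γ : Type}
    [Group Γ] (ψ : Γ →* (F ≃ₐ[ℚ] F)) (hψ : Function.Injective ψ)
    {Y' : Rep.{0} k Γ} {f' : (Rep.res ψ (repCS F (S₀ : Set Nat.Primes))).V →+ Y'.V}
    (hf' : IsLocRep (primeTo p) (Rep.res ψ (repCS F (S₀ : Set Nat.Primes))) Y' f')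
    (e : G₀ ⧸ U ≃* Γ) (e' : (C.quotientToInvariants U).V ≃ₗ[k] Y'.V)
    (he : ∀ g, e'.toLinearMap ∘ₗ (C.quotientToInvariants U).ρ g =
      Y'.ρ (e g) ∘ₗ e'.toLinearMap) :
    HAat C U :=
  haAt_of_layerDict p hp2 hSI U ψ hψ (Finset.coe_nonempty.2 hS₀)
    (fun q hq => trivialInertiaAt_of_isUnramifiedOutside F hF ψ hψ q hq) hf' e e' he

include hp2 hSI in
/-- The same with the layer `C^U` itself as the model. -/
theorem haAt_of_levelField' (hF : F.IsUnramifiedOutside S₀) (hS₀ : S₀.Nonempty)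
    (ψ : G₀ ⧸ U →* (F ≃ₐ[ℚ] F)) (hψ : Function.Injective ψ)
    {f' : (Rep.res ψ (repCS F (S₀ : Set Nat.Primes))).V →+ (C.quotientToInvariants U).V}
    (hf' : IsLocRep (primeTo p) (Rep.res ψ (repCS F (S₀ : Set Nat.Primes)))
      (C.quotientToInvariants U) f') :
    HAat C U :=
  haAt_of_isLocRep p hp2 hSI U ψ hψ (Finset.coe_nonempty.2 hS₀)
    (fun q hq => trivialInertiaAt_of_isUnramifiedOutside F hF ψ hψ q hq) hf'

end LevelField

/-! ### Unconditional forms -/

section Unconditional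

open Fermat.Agent.CFT.A7.CFExists Fermat.Agent.CFT.C5.SecondInequalityFinal

local notation "Qbar" => AlgebraicClosure ℚ

/-- **(H-a) for `C_L ⊗ k`, unconditional.** -/
theorem ha_C' [Finite G] {k : Type} [CommRing k] [Algebra ℤ k] [IsLocalization (primeTo p) k]
    (hp2 : p ≠ 2) (hφ : Function.Injective φ) {Y : Rep.{0} k G}
    {f : (Rep.res φ (repC L)).V →+ Y.V} (hf : IsLocRep (primeTo p) (Rep.res φ (repC L)) Y f)
    (S' : Subgroup G) :
    Limits.IsZero (groupCohomology (Rep.res S'.subtype Y) 1) ∧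
      Nat.card (groupCohomology (Rep.res S'.subtype Y) 2) ∣ Nat.card S' :=
  ha_C φ p hp2 (secondInequality p hp2) hφ hf S'

/-- **(H-a) for `C_S(L) ⊗ k`, unconditional.** -/
theorem ha_CS_finite' [Finite G] {k : Type} [CommRing k] [Algebra ℤ k]
    [IsLocalization (primeTo p) k] {S : Set Nat.Primes} (hp2 : p ≠ 2)
    (hφ : Function.Injective φ) (hS : S.Nonempty) (h : ∀ q ∉ S, TrivialInertiaAt φ q)
    {Y' : Rep.{0} k G} {f' : (Rep.res φ (repCS L S)).V →+ Y'.V}
    (hf' : IsLocRep (primeTo p) (Rep.res φ (repCS L S)) Y' f') (S' : Subgroup G) :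
    Limits.IsZero (groupCohomology (Rep.res S'.subtype Y') 1) ∧
      Nat.card (groupCohomology (Rep.res S'.subtype Y') 2) ∣ Nat.card S' :=
  ha_CS_finite φ p hp2 (secondInequality p hp2) hφ hS h hf' S'

variable {S₀ : Finset Nat.Primes} (F : IntermediateField ℚ Qbar) [NumberField F] [IsGalois ℚ F]
  {G₀ : Type} [Group G₀] {k : Type} [CommRing k] [Algebra ℤ k] [IsLocalization (primeTo p) k]
  {C : Rep.{0} k G₀} (U : Subgroup G₀) [U.Normal] [Finite (G₀ ⧸ U)]

omit [IsGalois ℚ L] in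
/-- **`HAat C U` for a level field, unconditional** (layer dictionary `(e, e', he)`). -/
theorem haAt_levelField (hp2 : p ≠ 2) (hF : F.IsUnramifiedOutside S₀) (hS₀ : S₀.Nonempty)
    {Γ : Type} [Group Γ] (ψ : Γ →* (F ≃ₐ[ℚ] F)) (hψ : Function.Injective ψ)
    {Y' : Rep.{0} k Γ} {f' : (Rep.res ψ (repCS F (S₀ : Set Nat.Primes))).V →+ Y'.V}
    (hf' : IsLocRep (primeTo p) (Rep.res ψ (repCS F (S₀ : Set Nat.Primes))) Y' f')
    (e : G₀ ⧸ U ≃* Γ) (e' : (C.quotientToInvariants U).V ≃ₗ[k] Y'.V)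
    (he : ∀ g, e'.toLinearMap ∘ₗ (C.quotientToInvariants U).ρ g =
      Y'.ρ (e g) ∘ₗ e'.toLinearMap) :
    HAat C U :=
  haAt_of_levelField p hp2 (secondInequality p hp2) F U hF hS₀ ψ hψ hf' e e' he

omit [IsGalois ℚ L] in
/-- **`HAat C U` for a level field, unconditional** (the layer itself as the model). -/
theorem haAt_levelField' (hp2 : p ≠ 2) (hF : F.IsUnramifiedOutside S₀) (hS₀ : S₀.Nonempty)
    (ψ : G₀ ⧸ U →* (F ≃ₐ[ℚ] F)) (hψ : Function.Injective ψ)
    {f' : (Rep.res ψ (repCS F (S₀ : Set Nat.Primes))).V →+ (C.quotientToInvariants U).V}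
    (hf' : IsLocRep (primeTo p) (Rep.res ψ (repCS F (S₀ : Set Nat.Primes)))
      (C.quotientToInvariants U) f') :
    HAat C U :=
  haAt_of_levelField' p hp2 (secondInequality p hp2) F U hF hS₀ ψ hψ hf'

end Unconditional

end Fermat.Agent.CFT.C7.HAFinite
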