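/-
PROJECT C, slice C7-CF part 2 (helper21): THE GLOBAL CLASS FORMATION on
`C = (seqK S k).X₃ = C_S(ℚ_S) ⊗ k`.

Section `Level` (abstract): for a finite group `G`, an isomorphism `e : G ≃* Gal(L/ℚ)` and a model
`Y'` of `C_S(L) ⊗ k` on which `G` acts through `e`, a class-module structure on any model of
`C_L ⊗ k` (the output of C6-(P)) induces one on `Y'`.
-/
import Mathlib
import Fermat.Agent.CFT.A7.ClassFormationExists
import Fermat.Agent.CFT.C7.CSTransferLift
import Fermat.Agent.CFT.A7.BaseChangeTensor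
import Fermat.Agent.CFT.A7.ClassFormationBaseChange
import Fermat.Agent.CFT.C7.HAFinite
import Fermat.Agent.CFT.C7.SES
import Fermat.Agent.CFT.C6.PPrimaryFinal
import Fermat.Agent.CFT.Idele.LevelIso
import Fermat.Agent.CFT.D.ZpModel

set_option autoImplicit false

noncomputable section

namespace Fermat.Agent.CFT.C7.GlobalCF

open CategoryTheory groupCohomology Fermat.Agent.CFT.Idele Fermat.Agent.CFT.C7.USCohTrivial
  Fermat.Agent.CFT.A7.BaseChange Fermat.Agent.CFT.A5.Tate Fermat.Agent.CFT.A5.Transport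
  Fermat.Agent.CFT.InfRes2 Fermat.Agent.CFT.C7.CSTransfer Fermat.Agent.CFT.A7.CFExists
  Fermat.Agent.CFT.LC

/-! ### One level -/

section Level

variable {L : Type} [Field L] [NumberField L] {G : Type} [Group G] [Finite G]
  (e : G ≃* (L ≃ₐ[ℚ] L)) {S : Set Nat.Primes}
variable {k : Type} [CommRing k] [Algebra ℤ k] {M : Submonoid ℤ} [IsLocalization M k]

/-- Transport of a class-module structure from `Gal(L/ℚ)` to `G` along `e`. -/
theorem isClassModule_res_equiv {A : Rep.{0} k (L ≃ₐ[ℚ] L)} {φ₀ : cocycles₂ A}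
    (hφ₀ : IsClassModule A φ₀) :
    ∃ φ₁ : cocycles₂ (Rep.res (e : G →* (L ≃ₐ[ℚ] L)) A),
      IsClassModule (Rep.res (e : G →* (L ≃ₐ[ℚ] L)) A) φ₁ := by
  have he : ∀ g : L ≃ₐ[ℚ] L, (LinearEquiv.refl k A.V).toLinearMap ∘ₗ A.ρ g =
      (Rep.res (e : G →* (L ≃ₐ[ℚ] L)) A).ρ (e.symm g) ∘ₗ (LinearEquiv.refl k A.V).toLinearMap := by
    intro g
    ext x
    change A.ρ g x = A.ρ (e (e.symm g)) x
    rw [e.apply_symm_apply]
  exact ⟨_, isClassModule_transport (A := Rep.res (e : G →* (L ≃ₐ[ℚ] L)) A) (B := A) e.symm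
    (LinearEquiv.refl k A.V) he hφ₀⟩

/-- **One level of the global class formation**: if `G` acts on a model `Y'` of `C_S(L) ⊗ k`
through an isomorphism `e : G ≃* Gal(L/ℚ)` (all primes outside `S` having trivial inertia in `L`),
every class-module structure on a model `A` of `C_L ⊗ k` induces a class-module structure on
`Y'`. -/
theorem exists_isClassModule_level {Y' : Rep.{0} k G}
    {f' : (Rep.res (e : G →* (L ≃ₐ[ℚ] L)) (repCS L S)).V →+ Y'.V}
    (hf' : IsLocRep M (Rep.res (e : G →* (L ≃ₐ[ℚ] L)) (repCS L S)) Y' f')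
    (hS : S.Nonempty) (h : ∀ q ∉ S, TrivialInertiaAt (e : G →* (L ≃ₐ[ℚ] L)) q)
    {A : Rep.{0} k (L ≃ₐ[ℚ] L)} {fA : (repC L).V →+ A.V} (hA : IsLocRep M (repC L) A fA)
    {φ₀ : cocycles₂ A} (hφ₀ : IsClassModule A φ₀) :
    ∃ φ' : cocycles₂ Y', IsClassModule Y' φ' := by
  have hY : IsLocRep M (Rep.res (e : G →* (L ≃ₐ[ℚ] L)) (repC L))
      (Rep.res (e : G →* (L ≃ₐ[ℚ] L)) A) fA := hA.res _
  obtain ⟨φ₁, hφ₁⟩ := isClassModule_res_equiv e hφ₀
  obtain ⟨φ', -, hφ'⟩ := exists_isClassModule_CS (e : G →* (L ≃ₐ[ℚ] L)) hY hf' hS h hφ₁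
  exact ⟨φ', hφ'⟩

end Level

/-! ### From levelwise class modules to the hypotheses of `nonempty_classFormation` -/

section Hyp

variable {k G : Type} [CommRing k] [Group G] {C : Rep.{0} k G} {𝒰 : Levels G}

/-- `(H-a)` and a class module at every level give the hypotheses `Hyp`. -/
theorem hyp_of_levels (hfin : ∀ U ∈ 𝒰.sets, U.FiniteIndex)
    (ha : ∀ (U : Subgroup G) [U.Normal], U ∈ 𝒰.sets → HAat C U)
    (hcm : ∀ (U : Subgroup G) [U.Normal], U ∈ 𝒰.sets →
      ∃ φ : cocycles₂ (C.quotientToInvariants U), IsClassModule (C.quotientToInvariants U) φ) :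
    Hyp C 𝒰 where
  finiteIndex := hfin
  ha := ha
  hb U hU := by
    haveI := 𝒰.normal U hU
    obtain ⟨φ, hφ⟩ := hcm U hU
    exact ⟨U, inferInstance, hU, le_rfl, _, isFund_of_isClassModule hφ⟩

end Hyp

/-! ### The levels of `G_{ℚ,S}` -/

section Inst

open Fermat.Agent.CFT.Bridge

/-- `IsGalois ℚ ↥F` for the canonical `ℚ`-algebra structure of the field `↥F`. -/
theorem isGalois_can (F : IntermediateField ℚ Qbar) [Normal ℚ F] : IsGalois ℚ F := ⟨⟩

end Inst

section Concrete

open Fermat.Agent.CFT.Bridge Fermat.Agent.CFT.Idele.LevelIso Fermat.Agent.CFT.C7.SES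
  Fermat.Agent.CFT.GaloisDict.Infinite Fermat.Agent.CFT.A7.CFBaseChange
  Fermat.Agent.CFT.C6.TateArgument

attribute [local instance 2000] IntermediateField.algebra'

variable (S : Finset Nat.Primes) (p : ℕ) [Fact p.Prime] {k : Type} [CommRing k]
  [IsLocalization (primeTo p) k]
  {C : Rep.{0} k GQ} {f : (QS.C S).V →+ C.V} (hC : IsLocRep (primeTo p) (QS.C S) C f)
  (F : IntermediateField ℚ Qbar) [Normal ℚ F] (hF : F.IsUnramifiedOutside S)
  (U : Subgroup GQ) [U.Normal] (h : F.fixingSubgroup = U) (hS : S.Nonempty)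

theorem finiteIndex_levelsS' : ∀ U ∈ (levelsS S).sets, U.FiniteIndex :=
  fun U hU => Levels.IsFin.finiteIndex U hU

/-- The localisation map `C_S(F) → (C_S ⊗ k)^U` of the level `U = Gal(ℚ̄/F)`. -/
def levelMap :
    (Rep.res (layerQuotEquiv F U h : GQ ⧸ U →* (F ≃ₐ[ℚ] F)) (repCS F (S : Set Nat.Primes))).V →+
      (C.quotientToInvariants U).V :=
  (invMap hC U).comp
    ((eC S F hF U h hS).symm : (repCS F (S : Set Nat.Primes)).V →+
      ((QS.C S).quotientToInvariants U).V)

theorem levelMap_apply (x : (repCS F (S : Set Nat.Primes)).V) :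
    levelMap S p hC F hF U h hS x = invMap hC U ((eC S F hF U h hS).symm x) := rfl

/-- **The layer `(G_S ⧸ U, (C_S ⊗ k)^U)` is a model of `C_S(F) ⊗ k`.** -/
theorem isLocRep_levelMap :
    IsLocRep (primeTo p)
      (Rep.res (layerQuotEquiv F U h : GQ ⧸ U →* (F ≃ₐ[ℚ] F)) (repCS F (S : Set Nat.Primes)))
      (C.quotientToInvariants U) (levelMap S p hC F hF U h hS) := by
  have hinv := isLocRep_invariants hC (levelsS S) (finiteIndex_levelsS' S) (QS.isSmooth_C S) U
  refine ⟨fun r x => ?_, fun g x => ?_, fun y => ?_, fun x hx => ?_⟩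
  · have h1 : (eC S F hF U h hS).symm (r • x) = r • (eC S F hF U h hS).symm x := map_smul _ _ _
    calc levelMap S p hC F hF U h hS (r • x)
        = invMap hC U (r • (eC S F hF U h hS).symm x) := congrArg (invMap hC U) h1
      _ = algebraMap ℤ k r • invMap hC U ((eC S F hF U h hS).symm x) := hinv.map_smul r _
  · have h1 : (eC S F hF U h hS).symm
        ((repCS F (S : Set Nat.Primes)).ρ (layerQuotEquiv F U h g) x) =
        ((QS.C S).quotientToInvariants U).ρ g ((eC S F hF U h hS).symm x) := by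
      rw [LinearEquiv.symm_apply_eq]
      have h2 : (eC S F hF U h hS) (((QS.C S).quotientToInvariants U).ρ g
          ((eC S F hF U h hS).symm x)) =
          (repCS F (S : Set Nat.Primes)).ρ (layerQuotEquiv F U h g)
            ((eC S F hF U h hS) ((eC S F hF U h hS).symm x)) :=
        LinearMap.congr_fun (eC_compat S F hF U h hS g) ((eC S F hF U h hS).symm x)
      rw [LinearEquiv.apply_symm_apply] at h2
      exact h2.symm
    change levelMap S p hC F hF U h hS
      ((repCS F (S : Set Nat.Primes)).ρ (layerQuotEquiv F U h g) x) = _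
    rw [levelMap_apply, h1, hinv.map_ρ]
    rfl
  · obtain ⟨s, hs, x₀, hx₀⟩ := hinv.surj y
    refine ⟨s, hs, eC S F hF U h hS x₀, ?_⟩
    rw [levelMap_apply, LinearEquiv.symm_apply_apply]
    exact hx₀
  · rw [levelMap_apply] at hx
    obtain ⟨s, hs, h0⟩ := hinv.eq_zero _ hx
    refine ⟨s, hs, ?_⟩
    have := congrArg (eC S F hF U h hS) h0
    rwa [map_smul, LinearEquiv.apply_symm_apply, map_zero] at this

include hF in
/-- The instances on the Type `↥F` for the canonical `ℚ`-algebra structure. -/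
theorem numberField_level : @NumberField F _ :=
  haveI : FiniteDimensional ℚ F := hF.1
  ⟨⟩

theorem finite_quot_level (hU : U ∈ (levelsS S).sets) : Finite (GQ ⧸ U) :=
  haveI := finiteIndex_levelsS' S U hU
  Subgroup.finite_quotient_of_finiteIndex

include hC hF h hS in
/-- **(H-a) at the level `U`**. -/
theorem haAt_level (hp2 : p ≠ 2) (hU : U ∈ (levelsS S).sets) : HAat C U := by
  haveI := numberField_level S F hF
  haveI : @IsGalois ℚ _ F _ DivisionRing.toRatAlgebra := @isGalois_can F (by exact ‹Normal ℚ F›)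
  haveI := finite_quot_level S U hU
  exact HAFinite.haAt_levelField' (p := p) (F := F) (U := U) hp2 hF hS
    (layerQuotEquiv F U h : GQ ⧸ U →* (F ≃ₐ[ℚ] F)) (layerQuotEquiv F U h).injective
    (isLocRep_levelMap S p hC F hF U h hS)

include hC hF h hS in
/-- **The layer `(G_S ⧸ U, (C_S ⊗ k)^U)` is a class module.** -/
theorem exists_isClassModule_layer [IsDomain k] (hp2 : p ≠ 2) (hU : U ∈ (levelsS S).sets) :
    ∃ φ : cocycles₂ (C.quotientToInvariants U), IsClassModule (C.quotientToInvariants U) φ := by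
  haveI := numberField_level S F hF
  haveI : @IsGalois ℚ _ F _ DivisionRing.toRatAlgebra := @isGalois_can F (by exact ‹Normal ℚ F›)
  haveI := finite_quot_level S U hU
  obtain ⟨φ₀, hφ₀⟩ := C6.PPrimaryFinal.exists_isClassModule_repC p hp2 F (k := k)
    (isLocRep_tensorRep (primeTo p) (repC F))
  exact exists_isClassModule_level (layerQuotEquiv F U h) (isLocRep_levelMap S p hC F hF U h hS)
    (Finset.coe_nonempty.2 hS)
    (fun q hq => HAFinite.trivialInertiaAt_of_isUnramifiedOutside F hF _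
      (layerQuotEquiv F U h).injective q hq)
    (isLocRep_tensorRep (primeTo p) (repC F)) hφ₀

end Concrete

/-! ### The global class formation -/

section Global

open Fermat.Agent.CFT.Bridge Fermat.Agent.CFT.C7.SES Fermat.Agent.CFT.C6.TateArgument
  Fermat.Agent.CFT.D.ZpModel

attribute [local instance 2000] IntermediateField.algebra'

variable (S : Finset Nat.Primes) (p : ℕ) [Fact p.Prime] {k : Type} [CommRing k]
  [IsLocalization (primeTo p) k] [IsDomain k]
  {C : Rep.{0} k GQ} {f : (QS.C S).V →+ C.V} (hC : IsLocRep (primeTo p) (QS.C S) C f)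

include hC in
/-- **The hypotheses `(H-a)`, `(H-b)` for any model `C` of `C_S(ℚ_S) ⊗ k`** (`p` odd, `S ≠ ∅`). -/
theorem hyp (hp2 : p ≠ 2) (hS : S.Nonempty) : Hyp C (levelsS S) := by
  refine hyp_of_levels (finiteIndex_levelsS' S) (fun U _ hU => ?_) (fun U _ hU => ?_)
  · obtain ⟨hUn, F, hF, h⟩ := hU
    haveI : FiniteDimensional ℚ F := hF.1
    haveI : Normal ℚ F := by
      exact Fermat.Agent.CFT.LocalBridge.normal_of_normal_fixingSubgroup F (h ▸ hUn)
    exact haAt_level S p hC F hF U h hS hp2 ⟨hUn, F, hF, h⟩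
  · obtain ⟨hUn, F, hF, h⟩ := hU
    haveI : FiniteDimensional ℚ F := hF.1
    haveI : Normal ℚ F := by
      exact Fermat.Agent.CFT.LocalBridge.normal_of_normal_fixingSubgroup F (h ▸ hUn)
    exact exists_isClassModule_layer S p hC F hF U h hS hp2 ⟨hUn, F, hF, h⟩

include hC in
/-- **Existence of the global class formation** on any model `C` of `C_S(ℚ_S) ⊗ k`, `k` a model
of `ℤ_(p)`, `p` odd, `S ≠ ∅`. -/
theorem nonempty_classFormation_QS [CharZero k] (hp2 : p ≠ 2) (hS : S.Nonempty) :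
    Nonempty (A7.ClassFormation (levelsS S) C) :=
  nonempty_classFormation (C6.LocalisedTate.cyclicCriterion_of_primeTo p k) (hyp S p hC hp2 hS)

/-- **THE GLOBAL CLASS FORMATION** of `(G_{ℚ,S}, C_S ⊗ ℤ_(p))` (field `cf` of helper8's
`D.Datum.Build.GlobalInputs`). -/
def globalCF (hp2 : p ≠ 2) (hS : S.Nonempty) :
    A7.ClassFormation (levelsS S) (seqK S (Zp p)).X₃ :=
  Classical.choice (nonempty_classFormation_QS S p (isLocRep_seqK_X₃ S p (Zp p)) hp2 hS)

end Global

end Fermat.Agent.CFT.C7.GlobalCF
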