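import Mathlib
import Fermat.Agent.CFT.C7.HAFinite
import Fermat.Agent.CFT.Idele.LevelIso
import Fermat.Agent.CFT.C7.LevelK
import Fermat.Agent.CFT.LocalBridge.Levels

/-!
# PROJECT C, slice C7-HA (concrete end): hypothesis (H-a) for `C_S ⊗ k` on `G_{ℚ,S}`

`haAt_global` : for every odd prime `p`, every non-empty finite set `S` of primes, every model `k`
of `ℤ_(p)` and every level `U ∈ levelsS S`:
`A7.CFExists.HAat (seqK S k).X₃ U`, i.e. `H¹(S', (C_S ⊗ k)^U) = 0` and
`|H²(S', (C_S ⊗ k)^U)|` divides `|S'|` for every subgroup `S' ≤ G_{ℚ,S} ⧸ U`.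

This is the field `ha` of `A7.CFExists.Hyp (seqK S k).X₃ (levelsS S)` (`ha_global`).  Wiring:
helper11's `(LD-Z)` (`Idele/LevelIso`: `layerQuotEquiv`, `eC`, `eC_compat`), helper27's `(LD-k)`
(`C7/LevelK.layerC`), and `C7/HAFinite.haAt_levelField` (second inequality + dévissage +
`C_L ⊗ k → C_S(L) ⊗ k` transfer) for the tensor model of `C_S(F) ⊗ k`.
-/

set_option autoImplicit false
set_option linter.style.haveILetI false

noncomputable section

namespace Fermat.Agent.CFT.C7.GlobalHA

open CategoryTheory groupCohomology Fermat.Agent.CFT.Idele Fermat.Agent.CFT.Bridge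
  Fermat.Agent.CFT.A7.BaseChange Fermat.Agent.CFT.A7.CFExists Fermat.Agent.CFT.C7.SES
  Fermat.Agent.CFT.C7.LevelK Fermat.Agent.CFT.Idele.LevelIso
  Fermat.Agent.CFT.GaloisDict.Infinite Fermat.Agent.CFT.C7.HAFinite

local notation "Qbar" => AlgebraicClosure ℚ

variable (p : ℕ) [hp : Fact p.Prime] (S : Finset Nat.Primes) (k : Type) [CommRing k]
  [IsLocalization (primeTo p) k]

/-- **(H-a) for the global module `C_S ⊗ k` at every level of `G_{ℚ,S}`.** -/
theorem haAt_global (hp2 : p ≠ 2) (hS : S.Nonempty) (U : Subgroup GQ) [U.Normal]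
    (hU : U ∈ (levelsS S).sets) : HAat (seqK S k).X₃ U := by
  obtain ⟨_, F, hF, h⟩ := hU
  haveI : FiniteDimensional ℚ F := hF.1
  haveI hN : Normal ℚ F :=
    Fermat.Agent.CFT.LocalBridge.normal_of_normal_fixingSubgroup F (h ▸ inferInstance)
  haveI : NumberField F := ⟨⟩
  haveI : IsGalois ℚ F := ⟨⟩
  haveI : Finite (GQ ⧸ U) := by
    have := (inferInstance : (levelsS S).IsFin).finiteIndex U ⟨inferInstance, F, hF, h⟩
    exact Subgroup.finite_quotient_of_finiteIndex
  -- helper11's dictionary is elaborated with `IntermediateField.algebra'` as `Algebra ℚ ↥F`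
  have hN' : @Normal ℚ F _ _ (IntermediateField.algebra' F) := hN
  let dZ : LayerDict (QS.C S) U
      (@repCS F _ (IntermediateField.algebra' F) _ (S : Set Nat.Primes)) :=
    ⟨@layerQuotEquiv _ _ _ _ _ F hN' U _ h _, @eC S F hN' hF U _ h hS,
      @eC_compat S F hN' hF U _ h hS⟩
  have hf := isLocRep_tensorRep (k := k) (primeTo p)
    (@repCS F _ (IntermediateField.algebra' F) _ (S : Set Nat.Primes))
  let d := layerC S p k dZ hf
  exact haAt_levelField p F U hp2 hF hS (MonoidHom.id _) (fun _ _ h => h) hf d.e d.e' d.he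

/-- The field `ha` of `A7.CFExists.Hyp (seqK S k).X₃ (levelsS S)`. -/
theorem ha_global (hp2 : p ≠ 2) (hS : S.Nonempty) :
    ∀ (U : Subgroup GQ) [U.Normal], U ∈ (levelsS S).sets → HAat (seqK S k).X₃ U :=
  fun U _ hU => haAt_global p S k hp2 hS U hU

end Fermat.Agent.CFT.C7.GlobalHA
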