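import Mathlib
import Fermat.Agent.CFT.C6.PPrimaryFinal
import Fermat.Agent.CFT.C7.HAFinite
import Fermat.Agent.CFT.C7.LevelK
import Fermat.Agent.CFT.A5.ClassModuleTransport

/-!
# PROJECT C, slice C7-CF part 2 (glue): the hypotheses `(H-a)`, `(H-b)` of
`A7.CFExists.nonempty_classFormation` from layerwise data

Companion of helper26's `C7/HAFinite` (which provides `(H-a)`), in the same shapes, for `(H-b)`:

* `exists_isClassModule_C` : `L/ℚ` finite Galois, `ψ : Γ ≃* Gal(L/ℚ)`, `p` odd, `k` a model of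
  `ℤ_(p)`: ANY model `Y` of `C_L ⊗ k` (as a `Γ`-module through `ψ`) is a class module
  (helper9's `C6/PPrimaryFinal` + transport);
* `exists_isClassModule_CS_finite` : the same for ANY model `Y'` of `C_S(L) ⊗ k` (`S ≠ ∅`, trivial
  inertia outside `S`; helper26's `CSTransfer.exists_isClassModule_CS`);
* `exists_isClassModule_of_isLocRep`, `exists_isClassModule_of_layerDict` : the layer
  `(G₀ ⧸ U, C^U)` of a `G₀`-module `C` is a class module when it is (isomorphic to) such a model;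
  `exists_isFund_of_layerDict` : hence it carries a class `ξ` with `A7.CFExists.IsFund C U ξ`;
* `exists_isClassModule_levelField`, `exists_isClassModule_levelField'` : the same for a level
  field `F ⊂ ℚ̄` unramified outside `S₀` (trivial inertia discharged);
* `hyp_of_levels` : `A7.CFExists.Hyp C 𝒰` from `(H-a)` and a class-module structure at every level
  (`W := U`, no cofinality needed); `nonempty_classFormation_of_levels`.
-/

set_option autoImplicit false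

noncomputable section

namespace Fermat.Agent.CFT.C7.HypFromLayers

open CategoryTheory groupCohomology Fermat.Agent.CFT.Idele Fermat.Agent.CFT.C7.USCohTrivial
  Fermat.Agent.CFT.A7.BaseChange Fermat.Agent.CFT.A5.Tate Fermat.Agent.CFT.A5.Transport
  Fermat.Agent.CFT.C7.CSTransfer Fermat.Agent.CFT.A7.CFExists Fermat.Agent.CFT.A7
  Fermat.Agent.CFT.LC Fermat.Agent.CFT.C6.TateArgument Fermat.Agent.CFT.C7.LevelK

/-! ### Generic transport lemmas -/

section Generic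

/-- A model of `Rep.res ψ X` (`ψ` an isomorphism of groups), viewed through `ψ⁻¹`, is a model of
`X`. -/
theorem isLocRep_res_symm {R k : Type} [CommRing R] [CommRing k] [Algebra R k] {M : Submonoid R}
    {Γ H : Type} [Group Γ] [Group H] (ψ : Γ ≃* H) {X : Rep.{0} R H} {Y : Rep.{0} k Γ}
    {f : X.V →+ Y.V} (hf : IsLocRep M (Rep.res (ψ : Γ →* H) X) Y f) :
    IsLocRep M X (Rep.res (ψ.symm : H →* Γ) Y) f where
  map_smul := hf.map_smul
  map_ρ g x := by
    have h := hf.map_ρ (ψ.symm g) x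
    change f (X.ρ (ψ (ψ.symm g)) x) = _ at h
    rw [MulEquiv.apply_symm_apply] at h
    exact h
  surj := hf.surj
  eq_zero := hf.eq_zero

/-- Class modules are invariant under change of the group along an isomorphism. -/
theorem exists_isClassModule_of_res_symm {k Γ H : Type} [CommRing k] [Group Γ] [Group H]
    (ψ : Γ ≃* H) {Y : Rep.{0} k Γ} {φ : cocycles₂ (Rep.res (ψ.symm : H →* Γ) Y)}
    (hφ : IsClassModule (Rep.res (ψ.symm : H →* Γ) Y) φ) :
    ∃ φ' : cocycles₂ Y, IsClassModule Y φ' :=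
  ⟨_, isClassModule_transport (A := Y) (B := Rep.res (ψ.symm : H →* Γ) Y) ψ.symm
    (LinearEquiv.refl k _) (fun _ => rfl) hφ⟩

/-- Class modules transport along an isomorphism of pairs `(e, e', he)` (the fields of helper27's
`LayerDict`), from the model `(Γ, Y')` to `(Q, Z)`. -/
theorem exists_isClassModule_of_pairEquiv {k Q Γ : Type} [CommRing k] [Group Q] [Group Γ]
    {Z : Rep.{0} k Q} {Y' : Rep.{0} k Γ} (e : Q ≃* Γ) (e' : Z.V ≃ₗ[k] Y'.V)
    (he : ∀ g, e'.toLinearMap ∘ₗ Z.ρ g = Y'.ρ (e g) ∘ₗ e'.toLinearMap)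
    {φ : cocycles₂ Y'} (hφ : IsClassModule Y' φ) :
    ∃ φ' : cocycles₂ Z, IsClassModule Z φ' := by
  refine ⟨_, isClassModule_transport (A := Z) (B := Y') e.symm e'.symm (fun γ => ?_) hφ⟩
  ext a
  apply e'.injective
  have h := LinearMap.congr_fun (he (e.symm γ)) (e'.symm a)
  simp only [LinearMap.comp_apply, LinearEquiv.coe_coe, LinearEquiv.apply_symm_apply,
    MulEquiv.apply_symm_apply] at h ⊢
  exact h.symm

end Generic

/-! ### `(H-b)` at finite level -/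

section Finite

variable {L : Type} [Field L] [NumberField L] [IsGalois ℚ L] {Γ : Type} [Group Γ]
  (ψ : Γ ≃* (L ≃ₐ[ℚ] L)) (p : ℕ) [hp : Fact p.Prime] (hp2 : p ≠ 2)
  {k : Type} [CommRing k] [IsDomain k] [IsLocalization (primeTo p) k]

include hp2 in
/-- **(H-b) for `C_L ⊗ k`**: any model `Y` (a `Γ`-module through `ψ : Γ ≃* Gal(L/ℚ)`) is a class
module. -/
theorem exists_isClassModule_C {Y : Rep.{0} k Γ}
    {f : (Rep.res (ψ : Γ →* (L ≃ₐ[ℚ] L)) (repC L)).V →+ Y.V}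
    (hf : IsLocRep (primeTo p) (Rep.res (ψ : Γ →* (L ≃ₐ[ℚ] L)) (repC L)) Y f) :
    ∃ φ : cocycles₂ Y, IsClassModule Y φ := by
  obtain ⟨φA, hA⟩ := Fermat.Agent.CFT.C6.PPrimaryFinal.exists_isClassModule_repC p hp2 L
    (isLocRep_res_symm ψ hf)
  exact exists_isClassModule_of_res_symm ψ hA

variable {S : Set Nat.Primes}

include hp2 in
/-- **(H-b) for `C_S(L) ⊗ k`**: any model `Y'` is a class module. -/
theorem exists_isClassModule_CS_finite [Finite Γ] (hS : S.Nonempty)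
    (h : ∀ q ∉ S, TrivialInertiaAt (ψ : Γ →* (L ≃ₐ[ℚ] L)) q) {Y' : Rep.{0} k Γ}
    {f' : (Rep.res (ψ : Γ →* (L ≃ₐ[ℚ] L)) (repCS L S)).V →+ Y'.V}
    (hf' : IsLocRep (primeTo p) (Rep.res (ψ : Γ →* (L ≃ₐ[ℚ] L)) (repCS L S)) Y' f') :
    ∃ φ : cocycles₂ Y', IsClassModule Y' φ := by
  have hY := isLocRep_tensorRep (k := k) (primeTo p) (Rep.res (ψ : Γ →* (L ≃ₐ[ℚ] L)) (repC L))
  obtain ⟨φ₀, h₀⟩ := exists_isClassModule_C ψ p hp2 hY
  obtain ⟨φ', -, hφ'⟩ := exists_isClassModule_CS (ψ : Γ →* (L ≃ₐ[ℚ] L)) hY hf' hS h h₀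
  exact ⟨φ', hφ'⟩

end Finite

/-! ### `(H-b)` at a level of a class formation datum -/

section Level

variable {L : Type} [Field L] [NumberField L] [IsGalois ℚ L] (p : ℕ) [hp : Fact p.Prime]
  (hp2 : p ≠ 2) {k : Type} [CommRing k] [IsDomain k] [IsLocalization (primeTo p) k]
  {G₀ : Type} [Group G₀] {C : Rep.{0} k G₀} (U : Subgroup G₀) [U.Normal] [Finite (G₀ ⧸ U)]
  {S : Set Nat.Primes}

include hp2 in
/-- The layer `C^U` is a class module when it is a model of `C_S(L) ⊗ k`, `G₀ ⧸ U` acting through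
an isomorphism `ψ : G₀ ⧸ U ≃* Gal(L/ℚ)`. -/
theorem exists_isClassModule_of_isLocRep (ψ : G₀ ⧸ U ≃* (L ≃ₐ[ℚ] L)) (hS : S.Nonempty)
    (h : ∀ q ∉ S, TrivialInertiaAt (ψ : G₀ ⧸ U →* (L ≃ₐ[ℚ] L)) q)
    {f' : (Rep.res (ψ : G₀ ⧸ U →* (L ≃ₐ[ℚ] L)) (repCS L S)).V →+ (C.quotientToInvariants U).V}
    (hf' : IsLocRep (primeTo p) (Rep.res (ψ : G₀ ⧸ U →* (L ≃ₐ[ℚ] L)) (repCS L S))
      (C.quotientToInvariants U) f') :
    ∃ φ : cocycles₂ (C.quotientToInvariants U), IsClassModule (C.quotientToInvariants U) φ :=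
  exists_isClassModule_CS_finite ψ p hp2 hS h hf'

include hp2 in
/-- The layer `C^U` is a class module, from a layer dictionary `(e, e', he)` identifying
`(G₀ ⧸ U, C^U)` with `(Γ, Y')`, `Y'` any model of `C_S(L) ⊗ k`, `Γ` acting through an isomorphism
`ψ : Γ ≃* Gal(L/ℚ)`. -/
theorem exists_isClassModule_of_layerDict {Γ : Type} [Group Γ] (ψ : Γ ≃* (L ≃ₐ[ℚ] L))
    (hS : S.Nonempty) (h : ∀ q ∉ S, TrivialInertiaAt (ψ : Γ →* (L ≃ₐ[ℚ] L)) q)
    {Y' : Rep.{0} k Γ} {f' : (Rep.res (ψ : Γ →* (L ≃ₐ[ℚ] L)) (repCS L S)).V →+ Y'.V}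
    (hf' : IsLocRep (primeTo p) (Rep.res (ψ : Γ →* (L ≃ₐ[ℚ] L)) (repCS L S)) Y' f')
    (e : G₀ ⧸ U ≃* Γ) (e' : (C.quotientToInvariants U).V ≃ₗ[k] Y'.V)
    (he : ∀ g, e'.toLinearMap ∘ₗ (C.quotientToInvariants U).ρ g =
      Y'.ρ (e g) ∘ₗ e'.toLinearMap) :
    ∃ φ : cocycles₂ (C.quotientToInvariants U), IsClassModule (C.quotientToInvariants U) φ := by
  have : Finite Γ := Finite.of_equiv _ e.toEquiv
  obtain ⟨φ, hφ⟩ := exists_isClassModule_CS_finite ψ p hp2 hS h hf'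
  exact exists_isClassModule_of_pairEquiv e e' he hφ

include hp2 in
/-- **(H-b) at the level `U`**: a class all of whose restrictions have maximal order. -/
theorem exists_isFund_of_layerDict {Γ : Type} [Group Γ] (ψ : Γ ≃* (L ≃ₐ[ℚ] L))
    (hS : S.Nonempty) (h : ∀ q ∉ S, TrivialInertiaAt (ψ : Γ →* (L ≃ₐ[ℚ] L)) q)
    {Y' : Rep.{0} k Γ} {f' : (Rep.res (ψ : Γ →* (L ≃ₐ[ℚ] L)) (repCS L S)).V →+ Y'.V}
    (hf' : IsLocRep (primeTo p) (Rep.res (ψ : Γ →* (L ≃ₐ[ℚ] L)) (repCS L S)) Y' f')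
    (e : G₀ ⧸ U ≃* Γ) (e' : (C.quotientToInvariants U).V ≃ₗ[k] Y'.V)
    (he : ∀ g, e'.toLinearMap ∘ₗ (C.quotientToInvariants U).ρ g =
      Y'.ρ (e g) ∘ₗ e'.toLinearMap) :
    ∃ ξ : groupCohomology (C.quotientToInvariants U) 2, IsFund C U ξ := by
  obtain ⟨φ, hφ⟩ := exists_isClassModule_of_layerDict p hp2 U ψ hS h hf' e e' he
  exact ⟨_, isFund_of_isClassModule hφ⟩

end Level

/-! ### Level fields inside `ℚ̄` -/

section LevelField

local notation "Qbar" => AlgebraicClosure ℚ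

variable (p : ℕ) [hp : Fact p.Prime] {S₀ : Finset Nat.Primes} (F : IntermediateField ℚ Qbar)
  [NumberField F] [IsGalois ℚ F] {k : Type} [CommRing k] [IsDomain k]
  [IsLocalization (primeTo p) k] {G₀ : Type} [Group G₀] {C : Rep.{0} k G₀} (U : Subgroup G₀)
  [U.Normal] [Finite (G₀ ⧸ U)]

/-- **The layer `C^U` is a class module, for a level field `F ⊂ ℚ̄`** (finite Galois over `ℚ`,
unramified outside `S₀`), from a layer dictionary `(e, e', he)` identifying `(G₀ ⧸ U, C^U)` with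
`(Γ, Y')`, `Y'` any model of `C_{S₀}(F) ⊗ k`, `ψ : Γ ≃* Gal(F/ℚ)`.  Unconditional. -/
theorem exists_isClassModule_levelField (hp2 : p ≠ 2) (hF : F.IsUnramifiedOutside S₀)
    (hS₀ : S₀.Nonempty) {Γ : Type} [Group Γ] (ψ : Γ ≃* (F ≃ₐ[ℚ] F))
    {Y' : Rep.{0} k Γ}
    {f' : (Rep.res (ψ : Γ →* (F ≃ₐ[ℚ] F)) (repCS F (S₀ : Set Nat.Primes))).V →+ Y'.V}
    (hf' : IsLocRep (primeTo p) (Rep.res (ψ : Γ →* (F ≃ₐ[ℚ] F)) (repCS F (S₀ : Set Nat.Primes)))
      Y' f')
    (e : G₀ ⧸ U ≃* Γ) (e' : (C.quotientToInvariants U).V ≃ₗ[k] Y'.V)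
    (he : ∀ g, e'.toLinearMap ∘ₗ (C.quotientToInvariants U).ρ g =
      Y'.ρ (e g) ∘ₗ e'.toLinearMap) :
    ∃ φ : cocycles₂ (C.quotientToInvariants U), IsClassModule (C.quotientToInvariants U) φ :=
  exists_isClassModule_of_layerDict p hp2 U ψ (Finset.coe_nonempty.2 hS₀)
    (fun q hq => Fermat.Agent.CFT.C7.HAFinite.trivialInertiaAt_of_isUnramifiedOutside F hF
      (ψ : Γ →* (F ≃ₐ[ℚ] F)) ψ.injective q hq) hf' e e' he

/-- The same with the layer `C^U` itself as the model. -/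
theorem exists_isClassModule_levelField' (hp2 : p ≠ 2) (hF : F.IsUnramifiedOutside S₀)
    (hS₀ : S₀.Nonempty) (ψ : G₀ ⧸ U ≃* (F ≃ₐ[ℚ] F))
    {f' : (Rep.res (ψ : G₀ ⧸ U →* (F ≃ₐ[ℚ] F)) (repCS F (S₀ : Set Nat.Primes))).V →+
      (C.quotientToInvariants U).V}
    (hf' : IsLocRep (primeTo p)
      (Rep.res (ψ : G₀ ⧸ U →* (F ≃ₐ[ℚ] F)) (repCS F (S₀ : Set Nat.Primes)))
      (C.quotientToInvariants U) f') :
    ∃ φ : cocycles₂ (C.quotientToInvariants U), IsClassModule (C.quotientToInvariants U) φ :=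
  exists_isClassModule_of_isLocRep p hp2 U ψ (Finset.coe_nonempty.2 hS₀)
    (fun q hq => Fermat.Agent.CFT.C7.HAFinite.trivialInertiaAt_of_isUnramifiedOutside F hF
      (ψ : G₀ ⧸ U →* (F ≃ₐ[ℚ] F)) ψ.injective q hq) hf'

/-- `HAat C U` and a class-module structure on `C^U` together, from ONE layer dictionary
(helper27's `LayerDict`) with model `Y'` of `C_{S₀}(F) ⊗ k`. -/
theorem haAt_and_exists_isClassModule_of_dict (hp2 : p ≠ 2) (hF : F.IsUnramifiedOutside S₀)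
    (hS₀ : S₀.Nonempty) {Γ : Type} [Group Γ] (ψ : Γ ≃* (F ≃ₐ[ℚ] F))
    {Y' : Rep.{0} k Γ}
    {f' : (Rep.res (ψ : Γ →* (F ≃ₐ[ℚ] F)) (repCS F (S₀ : Set Nat.Primes))).V →+ Y'.V}
    (hf' : IsLocRep (primeTo p) (Rep.res (ψ : Γ →* (F ≃ₐ[ℚ] F)) (repCS F (S₀ : Set Nat.Primes)))
      Y' f')
    (d : LayerDict C U Y') :
    HAat C U ∧
      ∃ φ : cocycles₂ (C.quotientToInvariants U), IsClassModule (C.quotientToInvariants U) φ :=
  ⟨Fermat.Agent.CFT.C7.HAFinite.haAt_levelField p F U hp2 hF hS₀ (ψ : Γ →* (F ≃ₐ[ℚ] F))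
      ψ.injective hf' d.e d.e' d.he,
    exists_isClassModule_levelField p F U hp2 hF hS₀ ψ hf' d.e d.e' d.he⟩

end LevelField

/-! ### The hypotheses of `nonempty_classFormation` -/

section Hyp

variable {k G : Type} [CommRing k] [Group G] {C : Rep.{0} k G} {𝒰 : Levels G}

/-- **`Hyp C 𝒰` from layerwise data**: `(H-a)` and a class-module structure at every level
(`(H-b)` with `W := U`). -/
theorem hyp_of_levels (hfin : ∀ U ∈ 𝒰.sets, U.FiniteIndex)
    (ha : ∀ (U : Subgroup G) [U.Normal], U ∈ 𝒰.sets → HAat C U)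
    (hcm : ∀ (U : Subgroup G) [U.Normal], U ∈ 𝒰.sets →
      ∃ φ : cocycles₂ (C.quotientToInvariants U), IsClassModule (C.quotientToInvariants U) φ) :
    Hyp C 𝒰 where
  finiteIndex := hfin
  ha := ha
  hb U hU := by
    have := 𝒰.normal U hU
    obtain ⟨φ, hφ⟩ := hcm U hU
    exact ⟨U, inferInstance, hU, le_rfl, _, isFund_of_isClassModule hφ⟩

/-- The same from the conjunction at every level. -/
theorem hyp_of_levels' (hfin : ∀ U ∈ 𝒰.sets, U.FiniteIndex)
    (h : ∀ (U : Subgroup G) [U.Normal], U ∈ 𝒰.sets → HAat C U ∧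
      ∃ φ : cocycles₂ (C.quotientToInvariants U), IsClassModule (C.quotientToInvariants U) φ) :
    Hyp C 𝒰 :=
  hyp_of_levels hfin (fun U _ hU => (h U hU).1) (fun U _ hU => (h U hU).2)

/-- **Existence of a class formation** from `(H-a)` and a class-module structure at every level. -/
theorem nonempty_classFormation_of_levels [IsDomain k] [CharZero k] (hk : CyclicCriterion k)
    (hfin : ∀ U ∈ 𝒰.sets, U.FiniteIndex)
    (ha : ∀ (U : Subgroup G) [U.Normal], U ∈ 𝒰.sets → HAat C U)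
    (hcm : ∀ (U : Subgroup G) [U.Normal], U ∈ 𝒰.sets →
      ∃ φ : cocycles₂ (C.quotientToInvariants U), IsClassModule (C.quotientToInvariants U) φ) :
    Nonempty (ClassFormation 𝒰 C) :=
  nonempty_classFormation hk (hyp_of_levels hfin ha hcm)

/-- **Existence of a class formation over a model `k` of `ℤ_(p)`** (`p` any prime) from `(H-a)` and
a class-module structure at every level. -/
theorem nonempty_classFormation_of_levels_primeTo (p : ℕ) [Fact p.Prime] [IsDomain k]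
    [IsLocalization (Fermat.Agent.CFT.A7.BaseChange.primeTo p) k]
    (hfin : ∀ U ∈ 𝒰.sets, U.FiniteIndex)
    (ha : ∀ (U : Subgroup G) [U.Normal], U ∈ 𝒰.sets → HAat C U)
    (hcm : ∀ (U : Subgroup G) [U.Normal], U ∈ 𝒰.sets →
      ∃ φ : cocycles₂ (C.quotientToInvariants U), IsClassModule (C.quotientToInvariants U) φ) :
    Nonempty (ClassFormation 𝒰 C) := by
  have : CharZero k := ⟨fun a b hab => by
    have h1 : algebraMap ℤ k (a : ℤ) = algebraMap ℤ k (b : ℤ) := by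
      simpa using hab
    exact Int.natCast_inj.1
      (Fermat.Agent.CFT.C6.LocalisedTate.algebraMap_int_injective p k h1)⟩
  exact nonempty_classFormation_of_levels
    (Fermat.Agent.CFT.C6.LocalisedTate.cyclicCriterion_of_primeTo p k) hfin ha hcm

end Hyp

end Fermat.Agent.CFT.C7.HypFromLayers
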