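import Mathlib
import Fermat.Agent.CFT.C7.GlobalHA
import Fermat.Agent.CFT.C7.HypFromLayers
import Fermat.Agent.CFT.D.ZpModel

/-!
# PROJECT C, slice C7-CF (concrete end): THE GLOBAL CLASS FORMATION on `C_S ⊗ ℤ_(p)`

For every odd prime `p`, every non-empty finite set `S` of primes and every model `k` of `ℤ_(p)`
(a domain with `IsLocalization (primeTo p) k`):

* `hcm_global` : every layer `((C_S ⊗ k)^U, G_{ℚ,S} ⧸ U)`, `U ∈ levelsS S`, is a class module
  (helper9's `(P)` `C6/PPrimaryFinal`, helper26's transfer `C_L ⊗ k → C_S(L) ⊗ k`, helper11's and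
  helper27's layer dictionaries, through `C7/HypFromLayers.exists_isClassModule_levelField`);
* `nonempty_globalCF` : `Nonempty (A7.ClassFormation (levelsS S) (seqK S k).X₃)` (helper21's
  `A7/ClassFormationExists.nonempty_classFormation` with `(H-a)` = helper26's `GlobalHA.ha_global`);
* `globalCF` : the class formation for `k = ZpModel.Zp p` - the field `cf` of
  `D/Datum/Build.GlobalInputs`.
-/

set_option autoImplicit false
set_option linter.style.haveILetI false

noncomputable section

namespace Fermat.Agent.CFT.C7.GlobalClassFormation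

open CategoryTheory groupCohomology Fermat.Agent.CFT.Idele Fermat.Agent.CFT.Bridge
  Fermat.Agent.CFT.A7.BaseChange Fermat.Agent.CFT.A7.CFExists Fermat.Agent.CFT.C7.SES
  Fermat.Agent.CFT.C7.LevelK Fermat.Agent.CFT.Idele.LevelIso
  Fermat.Agent.CFT.GaloisDict.Infinite Fermat.Agent.CFT.C7.HAFinite
  Fermat.Agent.CFT.A5.Tate Fermat.Agent.CFT.A7 Fermat.Agent.CFT.D.ZpModel

local notation "Qbar" => AlgebraicClosure ℚ

variable (p : ℕ) [hp : Fact p.Prime] (S : Finset Nat.Primes) (k : Type) [CommRing k] [IsDomain k]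
  [IsLocalization (primeTo p) k]

/-- **(H-b) for the global module `C_S ⊗ k` at every level of `G_{ℚ,S}`**: the layer is a class
module. -/
theorem hcm_global (hp2 : p ≠ 2) (hS : S.Nonempty) (U : Subgroup GQ) [U.Normal]
    (hU : U ∈ (levelsS S).sets) :
    ∃ φ : cocycles₂ ((seqK S k).X₃.quotientToInvariants U),
      IsClassModule ((seqK S k).X₃.quotientToInvariants U) φ := by
  obtain ⟨_, F, hF, h⟩ := hU
  haveI : FiniteDimensional ℚ F := hF.1
  haveI hN : Normal ℚ F :=
    Fermat.Agent.CFT.LocalBridge.normal_of_normal_fixingSubgroup F (h ▸ inferInstance)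
  haveI : NumberField F := ⟨⟩
  haveI : IsGalois ℚ F := ⟨⟩
  haveI : Finite (GQ ⧸ U) := by
    have := (inferInstance : (levelsS S).IsFin).finiteIndex U ⟨inferInstance, F, hF, h⟩
    exact Subgroup.finite_quotient_of_finiteIndex
  -- helper11's dictionary is elaborated with `IntermediateField.algebra'` as `Algebra ℚ ↥F`
  have hN' : @Normal ℚ F _ _ (IntermediateField.algebra' F) := hN
  let dZ : LayerDict (QS.C S) U
      (@repCS F _ (IntermediateField.algebra' F) _ (S : Set Nat.Primes)) :=
    ⟨@layerQuotEquiv _ _ _ _ _ F hN' U _ h _, @eC S F hN' hF U _ h hS,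
      @eC_compat S F hN' hF U _ h hS⟩
  have hf := isLocRep_tensorRep (k := k) (primeTo p)
    (@repCS F _ (IntermediateField.algebra' F) _ (S : Set Nat.Primes))
  let d := layerC S p k dZ hf
  exact Fermat.Agent.CFT.C7.HypFromLayers.exists_isClassModule_levelField p F U hp2 hF hS
    (MulEquiv.refl _) hf d.e d.e' d.he

/-- The hypotheses `(H-a)`, `(H-b)` of helper21's existence theorem hold for `C_S ⊗ k`. -/
theorem hyp_global (hp2 : p ≠ 2) (hS : S.Nonempty) : Hyp (seqK S k).X₃ (levelsS S) :=
  Fermat.Agent.CFT.C7.HypFromLayers.hyp_of_levels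
    (fun U hU => (inferInstance : (levelsS S).IsFin).finiteIndex U hU)
    (Fermat.Agent.CFT.C7.GlobalHA.ha_global p S k hp2 hS)
    (fun U _ hU => hcm_global p S k hp2 hS U hU)

/-- **There is a class formation on `C_S ⊗ k`** for `G_{ℚ,S}` (`p` odd, `S ≠ ∅`, `k` a model of
`ℤ_(p)`). -/
theorem nonempty_globalCF (hp2 : p ≠ 2) (hS : S.Nonempty) :
    Nonempty (ClassFormation (levelsS S) (seqK S k).X₃) :=
  Fermat.Agent.CFT.C7.HypFromLayers.nonempty_classFormation_of_levels_primeTo p
    (fun U hU => (inferInstance : (levelsS S).IsFin).finiteIndex U hU)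
    (Fermat.Agent.CFT.C7.GlobalHA.ha_global p S k hp2 hS)
    (fun U _ hU => hcm_global p S k hp2 hS U hU)

/-- **The global class formation on `C_S ⊗ ℤ_(p)`** (the field `cf` of
`D/Datum/Build.GlobalInputs`). -/
def globalCF (hp2 : p ≠ 2) (hS : S.Nonempty) : ClassFormation (levelsS S) (seqK S (Zp p)).X₃ :=
  Classical.choice (nonempty_globalCF p S (Zp p) hp2 hS)

end Fermat.Agent.CFT.C7.GlobalClassFormation
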