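/-
PROJECT C, slice (N3-hF2), FINAL (helper24): the inequality (F2)

  `[B_S(K) : Kˣᵖ] ≤ |Cl_S(K)/p|`

at every level field `K ⊂ ℚ̄` (finite normal over `ℚ`, unramified outside `S ∋ p`, `p` odd)
containing `μ_p`, from the class formation of `C_S ⊗ k` (`k` the localisation of `ℤ` prime to `p`):
`N3Level.HasF2 S P`, the only open input of `N3Dict.n3_of_F2` / `N3Zp.n3_Zp`.

Route (board #920/#955): `L = K(B_S^{1/p})` (helper15 `KummerLevelWS.exists_kummer_level_BS`), its
level `U'' ≤ U₁ = G_K` with `[U₁ : U''] = [B_S : Kˣᵖ]`; the layer dictionary at `K` over `ℤ`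
(helper11 `Idele/LevelIsoK`) localised to `k` (helper27 `C7/LevelMap`) gives `f₁ : C_S(K) → C^{U₁}`;
the map `g₂ : J_L → C^{U''}` is compatible with norms (helper14 `Idele/LevelNorm`); the reciprocity
count `ExistF2.relIndex_BS_le_index` (helper24) concludes.

* `dictK` : the layer dictionary of `C_S` for a field given as a type with an embedding in `ℚ̄`;
* `relIndex_BS_le_card` : (F2) for a number field `K` Galois over `ℚ` embedded in `ℚ_S`;
* `hasF2` : `N3Level.HasF2 S P`.
-/
import Mathlib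
import Fermat.Agent.CFT.C7.ExistF2
import Fermat.Agent.CFT.C7.KummerLevelField
import Fermat.Agent.CFT.C7.LevelMap
import Fermat.Agent.CFT.C7.N3Level
import Fermat.Agent.CFT.Idele.LevelNorm
import Fermat.Agent.CFT.Idele.LevelIsoK

set_option autoImplicit false
set_option linter.unusedSectionVars false
set_option linter.overlappingInstances false
set_option linter.style.haveILetI false

noncomputable section

namespace Fermat.Agent.CFT.C7.HasF2

open Fermat.Agent.CFT.D.Realize Fermat.Agent.CFT.LC Fermat.Agent.CFT.A7 Fermat.Agent.CFT.A5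
  Fermat.Agent.CFT.A7.ExistenceF2 Fermat.Agent.CFT.A7.BaseChange Fermat.Agent.CFT.A7.CFBaseChange
  Fermat.Agent.CFT.Bridge Fermat.Agent.CFT.Idele Fermat.Agent.CFT.C7.SES
  Fermat.Agent.CFT.C7.LevelK Fermat.Agent.CFT.C7.ExistCount Fermat.Agent.CFT.C6.IdeleNorm
  Fermat.Agent.CFT.Kummer Fermat.Agent.CFT.Idele.LevelIsoK Fermat.Agent.CFT.Idele.LevelNorm
  Fermat.Agent.CFT.C7.KummerLevelWS

variable (S : Finset Nat.Primes) (P : Nat.Primes)

/-! ### The layer dictionary of `C_S` at a field given as a type -/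

section Dict

variable {K : Type} [Field K] [Algebra ℚ K] [Algebra.IsAlgebraic ℚ K] [Normal ℚ K]
  (ι : K →ₐ[ℚ] Qbar) (hι : ι.fieldRange.IsUnramifiedOutside S)
  (U : Subgroup GQ) [U.Normal] (h : ι.fieldRange.fixingSubgroup = U) (hS : S.Nonempty)

/-- The layer dictionary of `C_S` at a field `K` (a type) embedded in `ℚ_S` by `ι`. -/
def dictK : LayerDict (QS.C S) U (repCS K (S : Set Nat.Primes)) where
  e := eK ι U h
  e' := eCK S ι hι U h hS
  he := eCK_compat S ι hι U h hS

/-- Evaluation: the class of `C_S` underlying `e'⁻¹ c` is the image of `c ∈ C_S(K)` under `ι`. -/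
theorem dictK_e'_symm (c : CS K (S : Set Nat.Primes)) :
    (((dictK S ι hι U h hS).e'.symm (Additive.ofMul c)).1 : (QS.C S).V) =
      Additive.ofMul (CDι S ι hι c) := rfl

/-- `CDι` is `LevelNorm.ofEmb`. -/
theorem CDι_eq_ofEmb (c : CS K (S : Set Nat.Primes)) :
    CDι S ι hι c = ofEmb (isFieldFilter_unram S) (S : Set Nat.Primes) ι
      (map_mem_JP_of_fieldRange (isFieldFilter_unram S) ι hι) c := by
  apply Subtype.ext
  rw [CDι_val, ofEmb_val]

end Dict

/-! ### Normality of a field from its level -/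

section Normal

attribute [local instance 2000] IntermediateField.algebra'

/-- A field embedded in `ℚ̄` whose level is a normal subgroup is normal over `ℚ`. -/
theorem normal_of_normal_fixingSubgroup_fieldRange {L : Type} [Field L] [Algebra ℚ L]
    (ι : L →ₐ[ℚ] Qbar) (hN : ι.fieldRange.fixingSubgroup.Normal) : Normal ℚ L := by
  have h1 : Normal ℚ ι.fieldRange :=
    ((InfiniteGalois.normal_iff_isGalois ι.fieldRange).1 hN).to_normal
  exact Normal.of_algEquiv (toRange ι).symm

end Normal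

/-! ### (F2) -/

section Main

variable (k : Type) [CommRing k] [IsLocalization (primeTo (P : ℕ)) k] [IsDomain k] [CharZero k]

/-- **(F2)** for a number field `K ∋ ζ_p`, Galois over `ℚ`, embedded in `ℚ_S`:
`[B_S : Kˣᵖ] ≤ |Cl_S(K)/p|`, from the class formation of `C_S ⊗ k`. -/
theorem relIndex_BS_le_card {K : Type} [Field K] [NumberField K] [IsGalois ℚ K]
    (hP2 : (P : ℕ) ≠ 2) {ζ : K} (hζ : IsPrimitiveRoot ζ (P : ℕ)) (hPS : P ∈ S)
    (ιK : K →ₐ[ℚ] Qbar) (hK : ιK.fieldRange.IsUnramifiedOutside S)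
    (cf : ClassFormation (levelsS S) (seqK S k).X₃) (hR : AddHomsLinear k)
    (σ : k →+* ZMod (P : ℕ)) :
    ((powMonoidHom (P : ℕ) : Kˣ →* Kˣ).range).relIndex (BS K (S : Set Nat.Primes) (P : ℕ)) ≤
      Nat.card (ClS K (S : Set Nat.Primes) ⧸
        (powMonoidHom (P : ℕ) :
          ClS K (S : Set Nat.Primes) →* ClS K (S : Set Nat.Primes)).range) := by
  have : Fact (P : ℕ).Prime := ⟨P.2⟩
  have hS : S.Nonempty := ⟨P, hPS⟩
  have hζ' : (primitiveRoots (P : ℕ) K).Nonempty := ⟨ζ, (mem_primitiveRoots P.2.pos).2 hζ⟩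
  obtain ⟨L, iF, iN, iA, iG, ι, hN, hιι, hur, hlev, hle, hc, he, hcard, hcommL, hexpL, -, hpow,
    -, -⟩ := exists_kummer_level_BS P S hP2 hζ hPS ιK hK
  have hNL : Normal ℚ L := normal_of_normal_fixingSubgroup_fieldRange ι hN
  have hN₁ : ιK.fieldRange.fixingSubgroup.Normal :=
    normal_of_mem_iff ιK _ (mem_fixingSubgroup_fieldRange_iff ιK)
  have hfi : ι.fieldRange.fixingSubgroup.FiniteIndex := finiteIndex_levelsS S _ hlev
  letI : Fintype (layerSub ιK.fieldRange.fixingSubgroup ι.fieldRange.fixingSubgroup) :=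
    Fintype.ofFinite _
  rw [card_ClS_quot]
  let d₁ : LayerDict (QS.C S) ιK.fieldRange.fixingSubgroup (repCS K (S : Set Nat.Primes)) :=
    dictK S ιK hK ιK.fieldRange.fixingSubgroup rfl hS
  refine ExistF2.relIndex_BS_le_index P S cf hR σ ιK.fieldRange.fixingSubgroup
    ι.fieldRange.fixingSubgroup hlev hle hc he hζ' hcommL hexpL hpow.le hcard
    (levelMapC S (P : ℕ) k d₁) (isLocAt_levelMapC d₁)
    (fun x' => invMap (isLocRep_seqK_X₃ S (P : ℕ) k) ι.fieldRange.fixingSubgroup
      (toLayerOfEmb (isFieldFilter_unram S) (S : Set Nat.Primes) ι hur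
        ι.fieldRange.fixingSubgroup rfl (Additive.ofMul (toCS L (S : Set Nat.Primes) x')))) ?_
  intro x'
  have h1 := sum_ρ_invMap (isLocRep_seqK_X₃ S (P : ℕ) k) ι.fieldRange.fixingSubgroup
    (layerSub ιK.fieldRange.fixingSubgroup ι.fieldRange.fixingSubgroup)
    (toLayerOfEmb (isFieldFilter_unram S) (S : Set Nat.Primes) ι hur
      ι.fieldRange.fixingSubgroup rfl (Additive.ofMul (toCS L (S : Set Nat.Primes) x')))
  have h2 := sum_ρ_toLayerOfEmb (isFieldFilter_unram S) (S : Set Nat.Primes) ιK ι hιι hK hur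
    ιK.fieldRange.fixingSubgroup ι.fieldRange.fixingSubgroup rfl rfl x'
  have h3 : (Additive.ofMul (ofEmb (isFieldFilter_unram S) (S : Set Nat.Primes) ιK
      (map_mem_JP_of_fieldRange (isFieldFilter_unram S) ιK hK)
      (toCS K (S : Set Nat.Primes) (normJ K L x'))) : (QS.C S).V) =
      ((d₁.e'.symm (Additive.ofMul (toCS K (S : Set Nat.Primes) (normJ K L x')))).1 :
        (QS.C S).V) :=
    (congrArg Additive.ofMul (CDι_eq_ofEmb S ιK hK _)).symm
  exact (congrArg Subtype.val h1).trans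
    (congrArg (fun v => toTensorRep (k := k) (QS.C S) v) (h2.trans h3))

/-- **(F2) at every level field**: `N3Level.HasF2 S P` from the class formation. -/
theorem hasF2 (hP2 : (P : ℕ) ≠ 2) (hPS : P ∈ S)
    (cf : ClassFormation (levelsS S) (seqK S k).X₃) (hR : AddHomsLinear k)
    (σ : k →+* ZMod (P : ℕ)) : N3Level.HasF2 S P := by
  intro F _ hFn hF hζ
  obtain ⟨ζ, hζ⟩ := hζ
  obtain ⟨ιK, -, hrange, hgal⟩ := KummerLevelField.exists_val_of_field F hFn
  have hK : ιK.fieldRange.IsUnramifiedOutside S := by rw [hrange]; exact hF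
  exact relIndex_BS_le_card S P k hP2 hζ hPS ιK hK cf hR σ

end Main

end Fermat.Agent.CFT.C7.HasF2
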