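/-
PROJECT C, slice (N3), the inequality (F2) (helper15): `N3Level.HasF2 S P` from the class formation.

For a level field `F ∋ ζ_P`: the `S`-split Kummer layer `L = F(B_S^{1/P})` (`KummerLevelField`,
`KummerSplitS`) gives a level `U'' ≤ U_F` with `U_F/U''` elementary abelian of order `[B_S : Fˣᴾ]`
and `J_S(F) ≤ N_{L/F} J_L`; with the layer dictionary at `F` (`N3Dict.levelDict`, `LevelMap`) and the
norm compatibility (`Idele/LevelNorm`), `A7.ExistenceF2.card_layerSub_le_index_of_norm` yields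
`[B_S : Fˣᴾ] ≤ |Cl_S(F)/P|`.  Consequently the field `n3` of `D.Main.Datum` follows from the class
formation alone (`n3_of_classFormation`).
-/
import Mathlib
import Fermat.Agent.CFT.C7.N3Dict
import Fermat.Agent.CFT.C7.LevelMap
import Fermat.Agent.CFT.Idele.LevelNorm
import Fermat.Agent.CFT.C7.ExistF2
import Fermat.Agent.CFT.C7.KummerLevelWS
import Fermat.Agent.CFT.C7.KummerLevelField

set_option autoImplicit false
set_option linter.unusedSectionVars false
set_option linter.style.haveILetI false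

open scoped NumberField IntermediateField

noncomputable section

namespace Fermat.Agent.CFT.C7.HasF2Kummer

open CategoryTheory Fermat.Agent.CFT.LC Fermat.Agent.CFT.A5 Fermat.Agent.CFT.A7
  Fermat.Agent.CFT.D.Realize Fermat.Agent.CFT.A7.ExistenceP Fermat.Agent.CFT.A7.ExistenceF2
  Fermat.Agent.CFT.A7.BaseChange Fermat.Agent.CFT.A7.CFBaseChange
  Fermat.Agent.CFT.Idele Fermat.Agent.CFT.C6.IdeleNorm Fermat.Agent.CFT.Kummer
  Fermat.Agent.CFT.C7.ExistCount Fermat.Agent.CFT.C7.KummerSplitS Fermat.Agent.CFT.C5.CountS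
  Fermat.Agent.CFT.Bridge Fermat.Agent.CFT.C7.SES Fermat.Agent.CFT.C7.LevelK
  Fermat.Agent.CFT.C7.N3Level Fermat.Agent.CFT.C7.N3Dict Fermat.Agent.CFT.Idele.LevelNorm
  Fermat.Agent.CFT.Idele.LevelIso Fermat.Agent.CFT.C7.KummerLevelWS

attribute [local instance 2000] IntermediateField.algebra'

variable (S : Finset Nat.Primes) (P : Nat.Primes) (k : Type) [CommRing k]
  [IsLocalization (primeTo (P : ℕ)) k] [IsDomain k] [CharZero k]

theorem hasF2 (hP2 : (P : ℕ) ≠ 2) (hPS : P ∈ S)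
    (cf : ClassFormation (levelsS S) (seqK S k).X₃) (hR : AddHomsLinear k)
    (σ : k →+* ZMod (P : ℕ)) : HasF2 S P := by
  intro F _ hN hF hζ
  obtain ⟨ζ, hζ⟩ := hζ
  have : Fact (P : ℕ).Prime := ⟨P.2⟩
  have hS : S.Nonempty := ⟨P, hPS⟩
  have hnormal : Normal ℚ F := normal_of_normal F hF hN
  have hgal : IsGalois ℚ F := ⟨⟩
  haveI hgal' : @IsGalois ℚ _ F _ DivisionRing.toRatAlgebra :=
    Fermat.Agent.CFT.C7.KummerLevelField.isGalois_toRatAlgebra _ hgal
  have hζQ : IsPrimitiveRoot ((ζ : F) : Qbar) (P : ℕ) :=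
    hζ.map_of_injective (f := algebraMap F Qbar) (algebraMap F Qbar).injective
  obtain ⟨ιK, L, iF, iN, iA, iG, ι, hNL, hιK, hrange, hι, hur, hlev, hle, hc, he, hcard, hdeg, hsplit,
    hJS⟩ := Fermat.Agent.CFT.C7.KummerLevelField.exists_level_BS_of_field P S hP2 hPS F hF hN ζ.2 hζQ
  have hr : (F.val : F →ₐ[ℚ] Qbar).fieldRange = F := IntermediateField.fieldRange_val F
  have hK : (F.val : F →ₐ[ℚ] Qbar).fieldRange.IsUnramifiedOutside S := by rw [hr]; exact hF
  have hKU : (F.val : F →ₐ[ℚ] Qbar).fieldRange.fixingSubgroup = F.fixingSubgroup := by rw [hr]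
  -- finiteness of the layer
  have hfinite : Finite ((F.fixingSubgroup).map (QuotientGroup.mk' ι.fieldRange.fixingSubgroup)) := by
    refine Nat.finite_of_card_ne_zero ?_
    rw [hcard]
    exact relIndex_BS_ne_zero F P S hP2 hζ hPS
  have : Fintype (layerSub F.fixingSubgroup ι.fieldRange.fixingSubgroup) := Fintype.ofFinite _
  -- `L` is normal over `ℚ`
  have hnL : Normal ℚ L := by
    have h1 : IsGalois ℚ ι.fieldRange := (InfiniteGalois.normal_iff_isGalois ι.fieldRange).mp hNL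
    exact Normal.of_algEquiv ι.equivFieldRange.symm
  -- the two level maps
  set hX := isLocRep_seqK_X₃ S (P : ℕ) k with hXdef
  set d₁ := levelDict S hS F hF with hd₁
  set f₁ := levelMapC S (P : ℕ) k d₁ with hf₁def
  have hf₁ : IsLocAt (P : ℕ) k f₁ := isLocAt_levelMapC d₁
  set g₂ : J L → ((seqK S k).X₃.quotientToInvariants ι.fieldRange.fixingSubgroup).V := fun x' =>
    invMap hX ι.fieldRange.fixingSubgroup
      (toLayerOfEmb (isFieldFilter_unram S) (S : Set Nat.Primes) ι hur ι.fieldRange.fixingSubgroup rfl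
        (Additive.ofMul (toCS L (S : Set Nat.Primes) x'))) with hg₂
  rw [card_ClS_quot' F (S : Set Nat.Primes) (P : ℕ), ← hcard]
  refine ClassFormation.card_layerSub_le_index_of_norm cf hR F.fixingSubgroup
    ι.fieldRange.fixingSubgroup hlev hle (P : ℕ) σ hc he (normJ F L)
    ((diag F).range ⊔ US F (S : Set Nat.Primes)) f₁ hf₁ g₂ ?_ (JS F (S : Set Nat.Primes)) hJS
    (index_sup_US_sup_JS_sup_Pw_ne_zero F (S : Set Nat.Primes) (P : ℕ))
  intro x'
  have h1 := sum_ρ_invMap hX ι.fieldRange.fixingSubgroup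
    (layerSub F.fixingSubgroup ι.fieldRange.fixingSubgroup)
    (toLayerOfEmb (isFieldFilter_unram S) (S : Set Nat.Primes) ι hur ι.fieldRange.fixingSubgroup rfl
      (Additive.ofMul (toCS L (S : Set Nat.Primes) x')))
  have h2 := sum_ρ_toLayerOfEmb (isFieldFilter_unram S) (S : Set Nat.Primes)
    (F.val : F →ₐ[ℚ] Qbar) ι (fun a => hι a) hK hur F.fixingSubgroup ι.fieldRange.fixingSubgroup
    hKU rfl x'
  have h3 := congrArg Subtype.val h1
  refine h3.trans ?_
  refine (congrArg (toTensorRep (k := k) (QS.C S)) h2).trans ?_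
  rfl

/-- **The field `n3` of `D.Main.Datum` for `C_S ⊗ k`** from the class formation alone. -/
theorem n3_of_classFormation (hP2 : (P : ℕ) ≠ 2) (hPS : P ∈ S)
    (cf : ClassFormation (levelsS S) (seqK S k).X₃) (hR : AddHomsLinear k)
    (σ : k →+* ZMod (P : ℕ)) :
    ∀ U₀ ∈ (levelsS S).sets, ∃ U' : Subgroup GQ, ∃ _ : U'.Normal,
      U' ∈ (levelsS S).sets ∧ U' ≤ U₀ ∧
        (((P : ℕ) : ℕ) : k) ∣ ((Nat.card (GQ ⧸ U') : ℕ) : k) ∧
        ∀ [Fintype (layerSub U₀ U')], N3 (seqK S k).X₃ (((P : ℕ) : ℕ) : k) U₀ U' :=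
  n3_of_F2 S P k hP2 hPS cf hR σ (hasF2 S P k hP2 hPS cf hR σ)

end Fermat.Agent.CFT.C7.HasF2Kummer
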