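/-
PROJECT C, Layer C7 (helper4): discharge of the hypothesis `N3Level.HasLevelDict S` (LD-Z) of
helper5's `N3Level.n3_of_levelDict_of_F2`.

For a level field `F ⊂ ℚ̄` (a number field, normal over `ℚ`, unramified outside `S`) helper11's
`LevelIso.eC` / `eC_compat` and helper21's `layerQuotEquiv` at `U := F.fixingSubgroup` are packed
into helper27's `LevelK.LayerDict (QS.C S) F.fixingSubgroup (repCS F S)`.

* `levelDictC S hS F hF`      : the explicit dictionary (stated, like `LevelIso`, with
  `IntermediateField.algebra'` as the `ℚ`-algebra structure of `↥F`);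
* `hasLevelDict S hS`         : `N3Level.HasLevelDict S` (default `ℚ`-algebra structure on `↥F`).
-/
import Fermat.Agent.CFT.C7.N3Level
import Fermat.Agent.CFT.Idele.LevelIso

set_option autoImplicit false

noncomputable section

namespace Fermat.Agent.CFT.C7.HasLevelDict

open Fermat.Agent.CFT.Bridge Fermat.Agent.CFT.Idele Fermat.Agent.CFT.Idele.LevelIso
  Fermat.Agent.CFT.GaloisDict.Infinite Fermat.Agent.CFT.C7.LevelK Fermat.Agent.CFT.C7.N3Level

variable (S : Finset Nat.Primes) (hS : S.Nonempty)

section Dict

attribute [local instance 2000] IntermediateField.algebra'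

/-- **The `ℤ`-level layer dictionary for `C_S` at a level field `F`**:
`(GQ ⧸ U_F, C_S^{U_F}) ≅ (Gal(F/ℚ), C_S(F))`. -/
def levelDictC (F : IntermediateField ℚ Qbar) [Normal ℚ F] [F.fixingSubgroup.Normal]
    (hF : F.IsUnramifiedOutside S) :
    LayerDict (QS.C S) F.fixingSubgroup (repCS F (S : Set Nat.Primes)) where
  e := layerQuotEquiv F F.fixingSubgroup rfl
  e' := eC S F hF F.fixingSubgroup rfl hS
  he := eC_compat S F hF F.fixingSubgroup rfl hS

@[simp] lemma levelDictC_e (F : IntermediateField ℚ Qbar) [Normal ℚ F] [F.fixingSubgroup.Normal]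
    (hF : F.IsUnramifiedOutside S) :
    (levelDictC S hS F hF).e = layerQuotEquiv F F.fixingSubgroup rfl := rfl

@[simp] lemma levelDictC_e' (F : IntermediateField ℚ Qbar) [Normal ℚ F] [F.fixingSubgroup.Normal]
    (hF : F.IsUnramifiedOutside S) :
    (levelDictC S hS F hF).e' = eC S F hF F.fixingSubgroup rfl hS := rfl

end Dict

include hS in
/-- **(LD-Z)**: the hypothesis `HasLevelDict S` of `N3Level.n3_of_levelDict_of_F2`. -/
theorem hasLevelDict : HasLevelDict S := by
  intro F _ hN hF
  have hnormal : Normal ℚ F :=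
    Fermat.Agent.CFT.LocalBridge.normal_of_normal_fixingSubgroup F hN
  exact ⟨@levelDictC S hS F hnormal hN hF⟩

end Fermat.Agent.CFT.C7.HasLevelDict
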