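import Mathlib
import Fermat.Agent.CFT.Idele.Smooth
import Fermat.Agent.CFT.D.Biprod
import Fermat.Agent.CFT.A5.PGroupFree

/-!
# PROJECT C, slice C7-J (a): `J_S = ⊕_{q ∈ S} J_q`, model-independently

`Ω/ℚ` an algebraic extension (e.g. `ℚ̄`), `G = Ω ≃ₐ[ℚ] Ω`, `S` a finite set of rational primes and
`Good` a family of intermediate fields closed under `⊔` and containing `⊥` (e.g. the finite
extensions unramified outside `S`).

* `smoothAt Good q : Subgroup (Loc Ω q)ˣ` : the units of `Ω ⊗ ℚ_q` defined over a `Good` field;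
* `smoothJS Good S : Subgroup (J Ω)` : the ideles supported in `S` and defined over a `Good` field;
* `mem_smoothJS_iff` : an idele supported in `S` is `Good`-smooth iff all its components are;
* `IsJModel`, `IsJqModel` : what it means for a representation `X : Rep ℤ G` to be a model of the
  `G`-module `smoothJS Good S`, resp. `smoothAt Good q` (an injective equivariant additive map onto
  it) — any model of Layers C/D can be plugged in;
* `biprodData` : the biproduct data `D.BiprodData X Xq` (index type `↥S`) for models `X` of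
  `smoothJS Good S` and `Xq q` of `smoothAt Good q`, with `eval_p`, `eval_i`.
-/

set_option autoImplicit false

open scoped TensorProduct

noncomputable section

namespace Fermat.Agent.CFT.C7.JDecomp

open CategoryTheory Fermat.Agent.CFT.Idele Fermat.Agent.CFT.D

attribute [local instance 2000] IntermediateField.algebra'

/-! ### Smooth local units and smooth `S`-ideles -/

section Smooth

variable {Ω : Type*} [Field Ω] [Algebra ℚ Ω] (Good : IntermediateField ℚ Ω → Prop)

/-- The unit-level version of `Loc.range_map_mono`. -/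
theorem units_range_map_mono (q : Nat.Primes) {F F' : IntermediateField ℚ Ω} (h : F ≤ F') :
    (Units.map (Loc.map q F.val : Loc F q →* Loc Ω q)).range ≤
      (Units.map (Loc.map q F'.val : Loc F' q →* Loc Ω q)).range := by
  rintro _ ⟨v, rfl⟩
  refine ⟨Units.map (Loc.map q (IntermediateField.inclusion h) : Loc F q →* Loc F' q) v, ?_⟩
  apply Units.ext
  have e : F'.val.comp (IntermediateField.inclusion h) = F.val := by
    ext a
    rfl
  show Loc.map q F'.val (Loc.map q (IntermediateField.inclusion h) (v : Loc F q)) =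
    Loc.map q F.val (v : Loc F q)
  rw [← Loc.map_comp_apply, e]

/-- A family of intermediate fields containing `⊥` and closed under `⊔`. -/
structure IsGoodFamily : Prop where
  bot : Good ⊥
  sup : ∀ F F', Good F → Good F' → Good (F ⊔ F')

variable {Good}

theorem IsGoodFamily.finset_sup (hG : IsGoodFamily Good) {ι : Type*} (s : Finset ι)
    (F : ι → IntermediateField ℚ Ω) (hF : ∀ i ∈ s, Good (F i)) : Good (s.sup F) :=
  Finset.sup_induction hG.bot (fun _ h₁ _ h₂ => hG.sup _ _ h₁ h₂) hF

variable (Good)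

/-- The units of `Ω ⊗ ℚ_q` which are defined over a `Good` field. -/
def smoothAt (hG : IsGoodFamily Good) (q : Nat.Primes) : Subgroup (Loc Ω q)ˣ where
  carrier := {u | ∃ F : IntermediateField ℚ Ω, Good F ∧
    u ∈ (Units.map (Loc.map q F.val : Loc F q →* Loc Ω q)).range}
  mul_mem' := by
    rintro x y ⟨F₁, h₁, hx⟩ ⟨F₂, h₂, hy⟩
    exact ⟨F₁ ⊔ F₂, hG.sup _ _ h₁ h₂, Subgroup.mul_mem _
      (units_range_map_mono q le_sup_left hx) (units_range_map_mono q le_sup_right hy)⟩
  one_mem' := ⟨⊥, hG.bot, Subgroup.one_mem _⟩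
  inv_mem' := by
    rintro x ⟨F, h, hx⟩
    exact ⟨F, h, Subgroup.inv_mem _ hx⟩

/-- The ideles supported in `S` which are defined over a `Good` field. -/
def smoothJS (hG : IsGoodFamily Good) (S : Set Nat.Primes) : Subgroup (J Ω) where
  carrier := {x | x ∈ JS Ω S ∧ ∃ F : IntermediateField ℚ Ω, Good F ∧ x ∈ (J.map F.val).range}
  mul_mem' := by
    rintro x y ⟨hx, F₁, h₁, hx'⟩ ⟨hy, F₂, h₂, hy'⟩
    exact ⟨(JS Ω S).mul_mem hx hy, F₁ ⊔ F₂, hG.sup _ _ h₁ h₂, Subgroup.mul_mem _
      (J.range_map_mono Ω le_sup_left hx') (J.range_map_mono Ω le_sup_right hy')⟩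
  one_mem' := ⟨(JS Ω S).one_mem, ⊥, hG.bot, Subgroup.one_mem _⟩
  inv_mem' := by
    rintro x ⟨hx, F, h, hx'⟩
    exact ⟨(JS Ω S).inv_mem hx, F, h, Subgroup.inv_mem _ hx'⟩

variable {Good}

theorem mem_smoothAt {hG : IsGoodFamily Good} {q : Nat.Primes} {u : (Loc Ω q)ˣ} :
    u ∈ smoothAt Good hG q ↔ ∃ F : IntermediateField ℚ Ω, Good F ∧
      u ∈ (Units.map (Loc.map q F.val : Loc F q →* Loc Ω q)).range := Iff.rfl

theorem mem_smoothJS {hG : IsGoodFamily Good} {S : Set Nat.Primes} {x : J Ω} :
    x ∈ smoothJS Good hG S ↔ x ∈ JS Ω S ∧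
      ∃ F : IntermediateField ℚ Ω, Good F ∧ x ∈ (J.map F.val).range := Iff.rfl

/-- The components of a smooth idele are smooth. -/
theorem component_mem_smoothAt {hG : IsGoodFamily Good} {S : Set Nat.Primes} {x : J Ω}
    (hx : x ∈ smoothJS Good hG S) (q : Nat.Primes) :
    (x : ∀ q : Nat.Primes, (Loc Ω q)ˣ) q ∈ smoothAt Good hG q := by
  obtain ⟨-, F, hF, y, rfl⟩ := hx
  exact ⟨F, hF, (y : ∀ q : Nat.Primes, (Loc F q)ˣ) q, rfl⟩

/-- **Assembly**: a family of smooth local units supported in a finite set `S` is a smooth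
`S`-idele. -/
theorem exists_mem_smoothJS (hG : IsGoodFamily Good) (S : Finset Nat.Primes)
    (u : ∀ q : Nat.Primes, (Loc Ω q)ˣ) (hu1 : ∀ q, q ∉ S → u q = 1)
    (hu : ∀ q, q ∈ S → u q ∈ smoothAt Good hG q) :
    ∃ x : J Ω, x ∈ smoothJS Good hG (S : Set Nat.Primes) ∧
      (x : ∀ q : Nat.Primes, (Loc Ω q)ˣ) = u := by
  classical
  have h1 : ∀ q : Nat.Primes, ∃ F : IntermediateField ℚ Ω, Good F ∧
      ∃ v : (Loc F q)ˣ, Units.map (Loc.map q F.val : Loc F q →* Loc Ω q) v = u q := by
    intro q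
    by_cases hq : q ∈ S
    · obtain ⟨F, hF, v, hv⟩ := hu q hq
      exact ⟨F, hF, v, hv⟩
    · exact ⟨⊥, hG.bot, 1, by rw [map_one, hu1 q hq]⟩
  choose F hF v hv using h1
  set Ft : IntermediateField ℚ Ω := S.sup F with hFt
  have hGt : Good Ft := hG.finset_sup S F fun q _ => hF q
  have hle : ∀ q, q ∈ S → F q ≤ Ft := fun q hq => Finset.le_sup hq
  let y : ∀ q : Nat.Primes, (Loc Ft q)ˣ := fun q =>
    if hq : q ∈ S then
      Units.map (Loc.map q (IntermediateField.inclusion (hle q hq)) : Loc (F q) q →* Loc Ft q) (v q)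
    else 1
  have hyJ : y ∈ J Ft := by
    rw [mem_J]
    refine S.finite_toSet.subset ?_
    intro q hq
    by_contra hqS
    apply hq
    have : y q = 1 := dif_neg hqS
    rw [this]
    exact (intUnits Ft q).one_mem
  have hyu : ∀ q, Units.map (Loc.map q Ft.val : Loc Ft q →* Loc Ω q) (y q) = u q := by
    intro q
    by_cases hq : q ∈ S
    · have : y q = Units.map (Loc.map q (IntermediateField.inclusion (hle q hq)) :
          Loc (F q) q →* Loc Ft q) (v q) := dif_pos hq
      rw [this, ← hv q]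
      apply Units.ext
      have e : Ft.val.comp (IntermediateField.inclusion (hle q hq)) = (F q).val := by
        ext a
        rfl
      show Loc.map q Ft.val (Loc.map q (IntermediateField.inclusion (hle q hq))
        ((v q : (Loc (F q) q)ˣ) : Loc (F q) q)) = Loc.map q (F q).val ((v q : (Loc (F q) q)ˣ) : _)
      rw [← Loc.map_comp_apply, e]
    · have : y q = 1 := dif_neg hq
      rw [this, map_one, hu1 q hq]
  have hxu : ((J.map Ft.val ⟨y, hyJ⟩ : J Ω) : ∀ q : Nat.Primes, (Loc Ω q)ˣ) = u := by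
    funext q
    exact hyu q
  refine ⟨J.map Ft.val ⟨y, hyJ⟩, ⟨?_, Ft, hGt, ⟨y, hyJ⟩, rfl⟩, hxu⟩
  intro q hq
  rw [hxu]
  exact hu1 q (fun h => hq h)

/-- An idele supported in the finite set `S` is smooth iff all its components are. -/
theorem mem_smoothJS_iff (hG : IsGoodFamily Good) (S : Finset Nat.Primes) (x : J Ω)
    (hx : x ∈ JS Ω (S : Set Nat.Primes)) :
    x ∈ smoothJS Good hG (S : Set Nat.Primes) ↔
      ∀ q, q ∈ S → (x : ∀ q : Nat.Primes, (Loc Ω q)ˣ) q ∈ smoothAt Good hG q := by
  constructor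
  · intro h q _
    exact component_mem_smoothAt h q
  · intro h
    obtain ⟨x', hx', hxx'⟩ := exists_mem_smoothJS hG S (x : ∀ q : Nat.Primes, (Loc Ω q)ˣ)
      (fun q hq => hx q (fun hqS => hq hqS)) h
    have : x' = x := Subtype.ext hxx'
    rwa [this] at hx'

end Smooth

/-! ### Models and the biproduct decomposition -/

section Models

variable {k G : Type} [CommRing k] [Group G] (hk : Fermat.Agent.CFT.A5.AddHomsLinear k)

/-- An additive equivariant map between representations is a morphism, over a ring `k` all of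
whose additive maps are linear (`k = ℤ`; stated for generic `k` to avoid instance diamonds). -/
def homOfAdd {X Y : Rep.{0} k G} (f : X.V →+ Y.V) (hf : ∀ g x, f (X.ρ g x) = Y.ρ g (f x)) :
    X ⟶ Y :=
  Rep.ofHom (ρ := X.ρ) (σ := Y.ρ)
    ⟨{ toFun := f
       map_add' := f.map_add
       map_smul' := fun c x => hk X.V Y.V f c x },
      fun g => LinearMap.ext fun x => hf g x⟩

@[simp] theorem homOfAdd_hom_apply {X Y : Rep.{0} k G} (f : X.V →+ Y.V)
    (hf : ∀ g x, f (X.ρ g x) = Y.ρ g (f x)) (x : X.V) : (homOfAdd hk f hf).hom x = f x := rfl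

omit hk in
theorem sum_hom_apply' {A B : Rep.{0} k G} {ι : Type*} (s : Finset ι) (f : ι → (A ⟶ B))
    (x : A.V) : (∑ i ∈ s, f i).hom x = ∑ i ∈ s, (f i).hom x := by
  classical
  induction s using Finset.induction_on with
  | empty => simp
  | insert a s ha ih =>
    rw [Finset.sum_insert ha, Finset.sum_insert ha, ← ih]
    rfl

end Models

section Biprod

variable {Ω : Type} [Field Ω] [Algebra ℚ Ω] {Good : IntermediateField ℚ Ω → Prop}
  (hG : IsGoodFamily Good) (S : Finset Nat.Primes)
  {k : Type} [CommRing k] (hk : Fermat.Agent.CFT.A5.AddHomsLinear k)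

/-- `X` (with the evaluation map `E`) is a model of the `Gal(Ω/ℚ)`-module of `Good`-smooth
`S`-ideles. -/
structure IsJModel (X : Rep.{0} k (Ω ≃ₐ[ℚ] Ω)) (E : X.V →+ Additive (J Ω)) : Prop where
  inj : Function.Injective E
  equivariant : ∀ (σ : Ω ≃ₐ[ℚ] Ω) (x : X.V), E (X.ρ σ x) = Additive.ofMul (σ • (E x).toMul)
  range : ∀ z : J Ω, (∃ x, E x = Additive.ofMul z) ↔ z ∈ smoothJS Good hG (S : Set Nat.Primes)

/-- `Xq` (with the evaluation map `e`) is a model of the `Gal(Ω/ℚ)`-module of `Good`-smooth units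
of `Ω ⊗ ℚ_q`. -/
structure IsJqModel (q : Nat.Primes) (Xq : Rep.{0} k (Ω ≃ₐ[ℚ] Ω))
    (e : Xq.V →+ Additive (Loc Ω q)ˣ) : Prop where
  inj : Function.Injective e
  equivariant : ∀ (σ : Ω ≃ₐ[ℚ] Ω) (x : Xq.V),
    e (Xq.ρ σ x) = Additive.ofMul (autUnits σ q (e x).toMul)
  range : ∀ u : (Loc Ω q)ˣ, (∃ x, e x = Additive.ofMul u) ↔ u ∈ smoothAt Good hG q

variable {hG S}
variable {X : Rep.{0} k (Ω ≃ₐ[ℚ] Ω)} {E : X.V →+ Additive (J Ω)} (hX : IsJModel hG S X E)
  {Xq : ↥S → Rep.{0} k (Ω ≃ₐ[ℚ] Ω)} {e : ∀ q : ↥S, (Xq q).V →+ Additive (Loc Ω (q : Nat.Primes))ˣ}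
  (hXq : ∀ q : ↥S, IsJqModel hG (q : Nat.Primes) (Xq q) (e q))

/-- The component at `q` of an element of a model of `J_S`. -/
def comp (x : X.V) (q : Nat.Primes) : (Loc Ω q)ˣ :=
  ((E x).toMul : ∀ q : Nat.Primes, (Loc Ω q)ˣ) q

omit hk in
include hX in
theorem comp_mem (x : X.V) (q : Nat.Primes) : comp (E := E) x q ∈ smoothAt Good hG q :=
  component_mem_smoothAt ((hX.range _).1 ⟨x, rfl⟩) q

omit hk in
include hX in
theorem comp_eq_one (x : X.V) {q : Nat.Primes} (hq : q ∉ S) : comp (E := E) x q = 1 :=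
  ((hX.range _).1 ⟨x, rfl⟩).1 q (fun h => hq h)

omit hk in
theorem comp_add (x y : X.V) (q : Nat.Primes) :
    comp (E := E) (x + y) q = comp (E := E) x q * comp (E := E) y q := by
  unfold comp
  rw [map_add]
  rfl

omit hk in
theorem comp_zero (q : Nat.Primes) : comp (E := E) 0 q = 1 := by
  unfold comp
  rw [map_zero]
  rfl

omit hk in
include hX in
theorem comp_ρ (σ : Ω ≃ₐ[ℚ] Ω) (x : X.V) (q : Nat.Primes) :
    comp (E := E) (X.ρ σ x) q = autUnits σ q (comp (E := E) x q) := by
  unfold comp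
  rw [hX.equivariant]
  rfl

omit hk in
include hX in
theorem ext_comp {x y : X.V} (h : ∀ q, q ∈ S → comp (E := E) x q = comp (E := E) y q) : x = y := by
  apply hX.inj
  have : (E x).toMul = (E y).toMul := by
    apply J.ext'
    intro q
    by_cases hq : q ∈ S
    · exact h q hq
    · exact (comp_eq_one hX x hq).trans (comp_eq_one hX y hq).symm
  exact this

/-! #### the projections -/

/-- The projection `J_S → J_q` on elements. -/
def pFun (q : ↥S) (x : X.V) : (Xq q).V :=
  (((hXq q).range _).2 (comp_mem hX x q)).choose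

omit hk in
theorem e_pFun (q : ↥S) (x : X.V) :
    e q (pFun hX hXq q x) = Additive.ofMul (comp (E := E) x q) :=
  (((hXq q).range _).2 (comp_mem hX x q)).choose_spec

/-- The projection `J_S → J_q` as an additive map. -/
def pAdd (q : ↥S) : X.V →+ (Xq q).V where
  toFun := pFun hX hXq q
  map_zero' := by
    apply (hXq q).inj
    rw [e_pFun, map_zero]
    unfold comp
    rw [map_zero]
    rfl
  map_add' x y := by
    apply (hXq q).inj
    rw [map_add, e_pFun, e_pFun, e_pFun, comp_add]
    rfl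

omit hk in
theorem pAdd_ρ (q : ↥S) (σ : Ω ≃ₐ[ℚ] Ω) (x : X.V) :
    pAdd hX hXq q (X.ρ σ x) = (Xq q).ρ σ (pAdd hX hXq q x) := by
  apply (hXq q).inj
  rw [(hXq q).equivariant]
  show e q (pFun hX hXq q (X.ρ σ x)) = _
  rw [e_pFun, comp_ρ hX]
  congr 2
  exact (congrArg Additive.toMul (e_pFun hX hXq q x)).symm

/-! #### the inclusions -/

/-- The family of local units with the single non-trivial component `u` at `q`. -/
def single (q : Nat.Primes) (u : (Loc Ω q)ˣ) : ∀ q' : Nat.Primes, (Loc Ω q')ˣ :=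
  Pi.mulSingle (M := fun q' : Nat.Primes => (Loc Ω q')ˣ) q u

omit hk in
theorem single_same (q : Nat.Primes) (u : (Loc Ω q)ˣ) : single q u q = u :=
  Pi.mulSingle_eq_same (M := fun q' : Nat.Primes => (Loc Ω q')ˣ) q u

omit hk in
theorem single_of_ne {q q' : Nat.Primes} (h : q' ≠ q) (u : (Loc Ω q)ˣ) : single q u q' = 1 :=
  Pi.mulSingle_eq_of_ne (M := fun q' : Nat.Primes => (Loc Ω q')ˣ) h u

omit hk in
include hX in
theorem exists_single (q : ↥S) (u : (Loc Ω (q : Nat.Primes))ˣ)
    (hu : u ∈ smoothAt Good hG (q : Nat.Primes)) :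
    ∃ x : X.V, ∀ q' : Nat.Primes, comp (E := E) x q' = single (q : Nat.Primes) u q' := by
  obtain ⟨z, hz, hzu⟩ := exists_mem_smoothJS hG S (single (q : Nat.Primes) u)
    (fun q' hq' => by
      apply single_of_ne
      rintro rfl
      exact hq' q.2)
    (fun q' _ => by
      by_cases h : q' = (q : Nat.Primes)
      · subst h
        rw [single_same]
        exact hu
      · rw [single_of_ne h]
        exact Subgroup.one_mem _)
  obtain ⟨x, hx⟩ := (hX.range z).2 hz
  refine ⟨x, fun q' => ?_⟩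
  unfold comp
  rw [hx]
  exact congrFun hzu q'

/-- The inclusion `J_q → J_S` on elements. -/
def iFun (q : ↥S) (y : (Xq q).V) : X.V :=
  (exists_single hX q (e q y).toMul (((hXq q).range _).1 ⟨y, rfl⟩)).choose

omit hk in
theorem comp_iFun (q : ↥S) (y : (Xq q).V) (q' : Nat.Primes) :
    comp (E := E) (iFun hX hXq q y) q' = single (q : Nat.Primes) (e q y).toMul q' :=
  (exists_single hX q (e q y).toMul (((hXq q).range _).1 ⟨y, rfl⟩)).choose_spec q'

omit hk in
theorem comp_iFun_same (q : ↥S) (y : (Xq q).V) :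
    comp (E := E) (iFun hX hXq q y) q = (e q y).toMul := by
  rw [comp_iFun, single_same]

omit hk in
theorem comp_iFun_of_ne (q : ↥S) (y : (Xq q).V) {q' : Nat.Primes} (h : q' ≠ (q : Nat.Primes)) :
    comp (E := E) (iFun hX hXq q y) q' = 1 := by
  rw [comp_iFun, single_of_ne h]

/-- The inclusion `J_q → J_S` as an additive map. -/
def iAdd (q : ↥S) : (Xq q).V →+ X.V where
  toFun := iFun hX hXq q
  map_zero' := by
    apply ext_comp hX
    intro q' _
    rw [comp_zero]
    by_cases h : q' = (q : Nat.Primes)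
    · subst h
      rw [comp_iFun_same, map_zero]
      rfl
    · rw [comp_iFun_of_ne hX hXq q _ h]
  map_add' y y' := by
    apply ext_comp hX
    intro q' _
    rw [comp_add]
    by_cases h : q' = (q : Nat.Primes)
    · subst h
      rw [comp_iFun_same, comp_iFun_same, comp_iFun_same, map_add]
      rfl
    · rw [comp_iFun_of_ne hX hXq q _ h, comp_iFun_of_ne hX hXq q _ h,
        comp_iFun_of_ne hX hXq q _ h, one_mul]

omit hk in
theorem iAdd_ρ (q : ↥S) (σ : Ω ≃ₐ[ℚ] Ω) (y : (Xq q).V) :
    iAdd hX hXq q ((Xq q).ρ σ y) = X.ρ σ (iAdd hX hXq q y) := by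
  apply ext_comp hX
  intro q' _
  rw [comp_ρ hX]
  show comp (E := E) (iFun hX hXq q _) q' = autUnits σ q' (comp (E := E) (iFun hX hXq q y) q')
  by_cases h : q' = (q : Nat.Primes)
  · subst h
    rw [comp_iFun_same, comp_iFun_same, (hXq q).equivariant]
    rfl
  · rw [comp_iFun_of_ne hX hXq q _ h, comp_iFun_of_ne hX hXq q _ h, map_one]

/-! #### the biproduct data -/

/-- **`J_S = ⊕_{q ∈ S} J_q`**: biproduct data for any models of the smooth `S`-ideles and of the
smooth local units. -/
def biprodData : BiprodData X Xq where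
  p q := homOfAdd hk (pAdd hX hXq q) (fun σ x => pAdd_ρ hX hXq q σ x)
  i q := homOfAdd hk (iAdd hX hXq q) (fun σ y => iAdd_ρ hX hXq q σ y)
  i_p_self q := by
    ext y
    apply (hXq q).inj
    show e q (pFun hX hXq q (iFun hX hXq q y)) = e q y
    rw [e_pFun, comp_iFun_same]
    rfl
  i_p_ne q q' hqq' := by
    ext y
    apply (hXq q').inj
    show e q' (pFun hX hXq q' (iFun hX hXq q y)) = e q' 0
    rw [e_pFun, comp_iFun_of_ne hX hXq q y (fun h => hqq' (Subtype.ext h).symm), map_zero]
    rfl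
  sum_p_i := by
    classical
    ext x
    refine Eq.trans (sum_hom_apply' Finset.univ _ x) ?_
    apply ext_comp hX
    intro q hq
    show comp (E := E) (∑ v : ↥S, iFun hX hXq v (pFun hX hXq v x)) q = comp (E := E) x q
    have hsum : ∀ (s : Finset ↥S), comp (E := E) (∑ v ∈ s, iFun hX hXq v (pFun hX hXq v x)) q =
        ∏ v ∈ s, comp (E := E) (iFun hX hXq v (pFun hX hXq v x)) q := by
      intro s
      induction s using Finset.induction_on with
      | empty =>
        rw [Finset.sum_empty, Finset.prod_empty]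
        unfold comp
        rw [map_zero]
        rfl
      | insert a s ha ih => rw [Finset.sum_insert ha, Finset.prod_insert ha, comp_add, ih]
    rw [hsum, Finset.prod_eq_single (⟨q, hq⟩ : ↥S)]
    · rw [comp_iFun_same, e_pFun]
      rfl
    · intro v _ hv
      exact comp_iFun_of_ne hX hXq v _ (fun h => hv (Subtype.ext h.symm))
    · intro h
      exact absurd (Finset.mem_univ _) h

/-- The projection `p q` of `biprodData` is "take the `q`-component". -/
theorem eval_p (q : ↥S) (x : X.V) :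
    e q ((biprodData hk hX hXq).p q |>.hom x) = Additive.ofMul (comp (E := E) x q) :=
  e_pFun hX hXq q x

/-- The inclusion `i q` of `biprodData` is "the idele with the single non-trivial component `y` at
`q`". -/
theorem eval_i (q : ↥S) (y : (Xq q).V) (q' : Nat.Primes) :
    comp (E := E) ((biprodData hk hX hXq).i q |>.hom y) q' =
      single (q : Nat.Primes) (e q y).toMul q' :=
  comp_iFun hX hXq q y q'

end Biprod

end Fermat.Agent.CFT.C7.JDecomp
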