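import Mathlib
import Fermat.Agent.CFT.D.H4.LocalData

/-!
# PROJECT C, slice C7-J (b): the induced-module criterion from local data at a level

`J : Rep k G`, `U` a normal subgroup (a level), `P` a finite *transitive* `G ⧸ U`-set (the places of
the level field above one rational prime), `F : ProjFamily J U P`, and `LocalData F x0 φ V hVU π`
(decomposition group = local Galois group, block at `x0` = local module `Y^V`), in the sense of
`D/H4`.  Then `J^U` is the module induced from `Y^V`: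

* `eq_zero_of_forall_π_eq_zero` **(Inj)**: a `U`-invariant `a` with `π (g a) = 0` for all `g` is `0`;
* `exists_forall_π_eq` **(Ind_U)**: every `f : G → Y` with `f (φ d * g) = d • f g` and
  `f (g * u) = f g` (`u ∈ U`) is `g ↦ π (g a)` for a `U`-invariant `a`.

These are the hypotheses of the per-place Frobenius reciprocity of Layer D.
-/

set_option autoImplicit false

universe u

namespace Fermat.Agent.CFT.C7.JFrobenius

open CategoryTheory Fermat.Agent.CFT.D.H4

variable {k G G' : Type u} [CommRing k] [Group G] [Group G']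
  {J : Rep.{u} k G} {U : Subgroup G} [U.Normal] {P : Type*} [MulAction (G ⧸ U) P] [Fintype P]
  {F : ProjFamily J U P} {x0 : P} {φ : G' →* G} {V : Subgroup G'} [V.Normal]
  {hVU : V ≤ U.comap φ} {Y : Rep.{u} k G'} {π : Rep.res φ J ⟶ Y}

omit [Fintype P] in
private lemma ρ_ρ (g h : G) (a : J.V) : J.ρ g (J.ρ h a) = J.ρ (g * h) a := by
  rw [map_mul]
  rfl

/-- `g a` is `U`-invariant if `a` is (`U` normal). -/
lemma ρ_invariant (g : G) {a : J.V} (ha : ∀ u ∈ U, J.ρ u a = a) :
    ∀ u ∈ U, J.ρ u (J.ρ g a) = J.ρ g a := by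
  intro u hu
  have h1 : g⁻¹ * u * g ∈ U := by
    have := (inferInstance : U.Normal).conj_mem u hu g⁻¹
    simpa using this
  have h2 : u * g = g * (g⁻¹ * u * g) := by group
  rw [ρ_ρ, h2, ← ρ_ρ, ha _ h1]

/-- **(Inj)** at the level `U`. -/
theorem eq_zero_of_forall_π_eq_zero (L : LocalData F x0 φ V hVU π)
    (htrans : ∀ x : P, ∃ g : G, (g : G ⧸ U) • x = x0)
    (a : J.V) (haU : ∀ u ∈ U, J.ρ u a = a) (h : ∀ g : G, π.hom (J.ρ g a) = 0) : a = 0 := by
  have h1 : ∀ x, F.p x a = 0 := by
    intro x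
    obtain ⟨g, hg⟩ := htrans x
    have h2 : J.ρ g (F.p x a) = F.p x0 (J.ρ g a) := by rw [F.equivariant, hg]
    have h3 : F.p x0 (J.ρ g a) = 0 := by
      refine L.injOn _ (fun u hu => ?_) (F.idem _ _) ?_
      · rw [F.ρ_p_of_mem hu, ρ_invariant g haU u hu]
      · rw [L.π_p]
        exact h g
    rw [h3] at h2
    have h4 := congrArg (J.ρ g⁻¹) h2
    rw [ρ_ρ, inv_mul_cancel, map_one, map_zero] at h4
    exact h4
  rw [← F.complete a]
  exact Finset.sum_eq_zero fun x _ => h1 x

/-- **(Ind_U)**: `J^U` is induced from `Y^V`. -/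
theorem exists_forall_π_eq (L : LocalData F x0 φ V hVU π)
    (htrans : ∀ x : P, ∃ g : G, (g : G ⧸ U) • x = x0)
    (f : G → Y.V) (hf1 : ∀ (d : G') (g : G), f (φ d * g) = Y.ρ d (f g))
    (hf2 : ∀ (g u : G), u ∈ U → f (g * u) = f g) :
    ∃ a : J.V, (∀ u ∈ U, J.ρ u a = a) ∧ ∀ g : G, π.hom (J.ρ g a) = f g := by
  classical
  -- the values of `f` are `V`-invariant
  have hfV : ∀ g : G, f g ∈ LocalData.invSub V Y := by
    intro g v hv
    have h1 : g⁻¹ * φ v * g ∈ U := by
      have := (inferInstance : U.Normal).conj_mem (φ v) (hVU hv) g⁻¹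
      simpa using this
    have h2 : φ v * g = g * (g⁻¹ * φ v * g) := by group
    rw [← hf1, h2, hf2 _ _ h1]
  choose γ hγ using htrans
  let s : G → J.V := fun g => L.section_ ⟨f g, hfV g⟩
  have hsU : ∀ g, ∀ u ∈ U, J.ρ u (s g) = s g := fun g => (L.section_mem ⟨f g, hfV g⟩).1
  have hsp : ∀ g, F.p x0 (s g) = s g := fun g => (L.section_mem ⟨f g, hfV g⟩).2
  have hsπ : ∀ g, π.hom (s g) = f g := fun g => L.π_section ⟨f g, hfV g⟩
  refine ⟨∑ x, J.ρ (γ x)⁻¹ (s (γ x)), fun u hu => ?_, fun g => ?_⟩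
  · rw [map_sum]
    refine Finset.sum_congr rfl fun x _ => ?_
    exact ρ_invariant _ (hsU _) u hu
  · rw [map_sum, map_sum]
    set y : P := ((g : G ⧸ U))⁻¹ • x0 with hy
    have hgy : (g : G ⧸ U) • y = x0 := by rw [hy, smul_inv_smul]
    rw [Finset.sum_eq_single y]
    · -- the surviving term
      have hstab : ((g * (γ y)⁻¹ : G) : G ⧸ U) ∈ MulAction.stabilizer (G ⧸ U) x0 := by
        rw [MulAction.mem_stabilizer_iff, QuotientGroup.mk_mul, mul_smul]
        have : (((γ y)⁻¹ : G) : G ⧸ U) • x0 = y := by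
          rw [← hγ y, QuotientGroup.mk_inv, inv_smul_smul]
        rw [this, hgy]
      rw [← L.range_quot] at hstab
      obtain ⟨c, hc⟩ := hstab
      induction c using QuotientGroup.induction_on with
      | H d =>
      rw [quotHom_mk] at hc
      -- `g γ⁻¹ = φ d * u`
      have hu : (φ d)⁻¹ * (g * (γ y)⁻¹) ∈ U := by
        rw [← QuotientGroup.eq]
        exact hc
      set u := (φ d)⁻¹ * (g * (γ y)⁻¹) with hu_def
      have hgu : g * (γ y)⁻¹ = φ d * u := by rw [hu_def]; group
      rw [ρ_ρ, hgu, ← ρ_ρ, hsU _ u hu]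
      have h1 := Rep.hom_comm_apply π d (s (γ y))
      have h2 : (Rep.res φ J).ρ d (s (γ y)) = J.ρ (φ d) (s (γ y)) := rfl
      rw [h2] at h1
      rw [h1, hsπ, ← hf1]
      -- `f (φ d * γ y) = f g`
      have h3 : g = φ d * γ y * ((γ y)⁻¹ * u * γ y) := by
        have : g = φ d * u * γ y := by rw [← hgu]; group
        rw [this]; group
      have h4 : (γ y)⁻¹ * u * γ y ∈ U := by
        have := (inferInstance : U.Normal).conj_mem u hu (γ y)⁻¹
        simpa using this
      conv_rhs => rw [h3]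
      rw [hf2 _ _ h4]
    · intro x _ hxy
      rw [ρ_ρ, ← L.π_p, ← hsp (γ x), F.equivariant]
      have hne : ((g * (γ x)⁻¹ : G) : G ⧸ U) • x0 ≠ x0 := by
        intro h
        apply hxy
        rw [QuotientGroup.mk_mul, mul_smul] at h
        have h5 : (((γ x)⁻¹ : G) : G ⧸ U) • x0 = x := by
          rw [← hγ x, QuotientGroup.mk_inv, inv_smul_smul]
        rw [h5] at h
        rw [hy, ← h, inv_smul_smul]
      rw [F.ortho _ _ (Ne.symm hne), map_zero]
    · intro h
      exact absurd (Finset.mem_univ y) h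

end Fermat.Agent.CFT.C7.JFrobenius
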