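import Mathlib
import Fermat.Agent.CFT.C7.JFrobenius
import Fermat.Agent.CFT.D.H4.Main
import Fermat.Agent.CFT.D.Frobenius

/-!
# PROJECT C, slice C7-J (b), wrapper: `InducedFrom` from the arithmetic contract `LevelData`

For a smooth representation `Jv` of `G` with *one* place (`ι` with a unique element, e.g. the
`q`-ideles `J_q`), the arithmetic contract of `D/H4/Main.lean` (a `LevelData` below every level)
implies that `(Jv, π')` is smoothly induced from `D` in the sense of `D/Frobenius.lean`; hence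
Frobenius reciprocity `(R ⟶ Jv) ≃+ (Res R ⟶ D)` for every smooth `R`
(`D.Frobenius.InducedFrom.exists_lift`, `frobEquiv`, `frob_of_inducedFrom`).
-/

set_option autoImplicit false

universe u w

namespace Fermat.Agent.CFT.C7.JInduced

open CategoryTheory Fermat.Agent.CFT.LC Fermat.Agent.CFT.D.H4 Fermat.Agent.CFT.D.Frobenius
  Fermat.Agent.CFT.C7.JFrobenius

variable {k G : Type u} [CommRing k] [Group G] {ι : Type*} {Gv : ι → Type u}
  [∀ v, Group (Gv v)]
  {J : Rep.{u} k G} {φ : ∀ v, Gv v →* G} {𝒰 : Levels G} {𝒰v : ∀ v, Levels (Gv v)}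
  {Y : ∀ v, Rep.{u} k (Gv v)} {π : ∀ v, Rep.res (φ v) J ⟶ Y v}

/-- With a unique place, the places of a level form one orbit. -/
lemma levelData_trans [Unique ι] {U : Subgroup G} [U.Normal] (D : LevelData.{u, w} J φ 𝒰v π U)
    (x : D.P) : ∃ g : G, (g : G ⧸ U) • x = D.r default := by
  obtain ⟨i, c, hc⟩ := D.r_surj x
  obtain ⟨g, hg⟩ := QuotientGroup.mk_surjective c⁻¹
  refine ⟨g, ?_⟩
  rw [Unique.eq_default i] at hc
  have hc' : c • D.r default = x := hc
  rw [hg, ← hc', inv_smul_smul]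

variable [Unique ι] (hsm : IsSmooth 𝒰 J)
  (hdata : ∀ U₀ ∈ 𝒰.sets, ∃ (U : Subgroup G) (_ : U.Normal) (_ : U ∈ 𝒰.sets) (_ : U ≤ U₀),
    Nonempty (LevelData.{u, w} J φ 𝒰v π U))

include hsm hdata in
/-- **(Inj)** for a smooth `J` with one place. -/
theorem sepPoints : SepPoints (φ default) (π default) := by
  intro x hx
  obtain ⟨U₀, hU₀, hxU₀⟩ := hsm x
  obtain ⟨U, hN, hU, hUle, ⟨D⟩⟩ := hdata U₀ hU₀
  exact eq_zero_of_forall_π_eq_zero (D.loc default) (levelData_trans D) x
    (fun u hu => hxU₀ u (hUle hu)) hx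

include hsm hdata in
/-- **`(J, π)` is smoothly induced** from `Y` along `φ`, for a smooth `J` with one place. -/
theorem inducedFrom : InducedFrom 𝒰 (φ default) (π default) where
  sep := sepPoints hsm hdata
  ind f hf1 hf2 := by
    obtain ⟨U₀, hU₀, hfU₀⟩ := hf2
    obtain ⟨U, hN, hU, hUle, ⟨D⟩⟩ := hdata U₀ hU₀
    obtain ⟨a, -, ha⟩ := exists_forall_π_eq (D.loc default) (levelData_trans D) f hf1
      (fun g u hu => hfU₀ g u (hUle hu))
    exact ⟨a, ha⟩

end Fermat.Agent.CFT.C7.JInduced
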