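import Mathlib
import Fermat.Agent.CFT.D.H4.Main

/-!
# PROJECT C, slice C7-J: injectivity of the localisation maps on `Hⁿ_LC(G, J)` itself

`D/H4/Main.lean` proves the joint injectivity of the localisation maps on
`Hⁿ_LC(G, Hom(B, J))`, `n = 1, 2`.  Here are the same statements for `J` itself (no `Hom(B, -)`),
from the same arithmetic contract `LevelData`:

* `levelData_eq_zero_of_forall_finMap_eq_zero` : joint injectivity at a finite level, any degree;
* `h4_one_plain` : the maps `H¹_LC(G, J) → H¹_LC(Gv v, Y v)` are jointly injective;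
* `h4_two_plain` : the maps `H²_LC(G, J) → H²_LC(Gv v, Y v)` are jointly injective if Hilbert 90
  holds for the layers of every `Y v`.

With one place (`ι = Unit`, `J = J_q`) these are the hypotheses `hinj` of
`D.BiprodData.eq_zero_of_forall_map` / `D.BiprodData.localGlobal`.
-/

set_option autoImplicit false

universe u w

namespace Fermat.Agent.CFT.C7.JInj

open CategoryTheory groupCohomology Fermat.Agent.CFT.LC Fermat.Agent.CFT.D.H4
  Fermat.Agent.CFT.C1 Fermat.Agent.CFT.InfRes2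

variable {k G : Type u} [CommRing k] [Group G] {ι : Type*} {Gv : ι → Type u}
  [∀ v, Group (Gv v)]
  {J : Rep.{u} k G} {φ : ∀ v, Gv v →* G} {𝒰 : Levels G} {𝒰v : ∀ v, Levels (Gv v)}
  {Y : ∀ v, Rep.{u} k (Gv v)} {π : ∀ v, Rep.res (φ v) J ⟶ Y v}

/-- Joint injectivity at a finite level, for `J` itself. -/
theorem levelData_eq_zero_of_forall_finMap_eq_zero [Fintype ι] {U : Subgroup G} [U.Normal]
    (D : LevelData.{u, w} J φ 𝒰v π U) (n : ℕ)
    (y : groupCohomology (J.quotientToInvariants U) n)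
    (hy : ∀ v, finMap (φ v) (π v) U (D.V v) (D.le v) n y = 0) : y = 0 :=
  CompareData.eq_zero_of_forall_map_eq_zero D.F.invSystem D.r D.r_surj D.r_inj
    (fun v => (D.loc v).compareData) n y hy

variable [Fintype ι] (hφ : ∀ v, Levels.Continuous (φ v) (𝒰v v) 𝒰)
  (hdata : ∀ U₀ ∈ 𝒰.sets, ∃ (U : Subgroup G) (_ : U.Normal) (_ : U ∈ 𝒰.sets) (_ : U ≤ U₀),
    Nonempty (LevelData.{u, w} J φ 𝒰v π U))

include hdata in
/-- Joint injectivity on `H¹_LC(G, J)`. -/
theorem h4_one_plain (x : H 𝒰 J 1) (hx : ∀ v, LC.map (hφ v) (π v) 1 x = 0) : x = 0 := by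
  refine eq_zero_of_forall_map_eq_zero_of_finLevel π hφ 1 ?_ x hx
  intro U₀ hU₀
  obtain ⟨U, hN, hU, hUle, ⟨D⟩⟩ := hdata U₀ hU₀
  refine ⟨U, hN, hU, hUle, D.V, D.normal, D.mem, D.le, ?_, ?_⟩
  · exact levelData_eq_zero_of_forall_finMap_eq_zero D 1
  · intro v
    exact infl_one_injective _ (𝒰v v) (D.V v) (D.mem v)

include hdata in
/-- Joint injectivity on `H²_LC(G, J)`, when Hilbert 90 holds for all the layers of the local
representations `Y v`. -/
theorem h4_two_plain
    (h90 : ∀ v (V W : Subgroup (Gv v)) (_ : V.Normal) (_ : W.Normal), V ∈ (𝒰v v).sets →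
      W ∈ (𝒰v v).sets → W ≤ V → H1Vanishes ((Y v).quotientToInvariants W) (layer V W))
    (x : H 𝒰 J 2) (hx : ∀ v, LC.map (hφ v) (π v) 2 x = 0) : x = 0 := by
  refine eq_zero_of_forall_map_eq_zero_of_finLevel π hφ 2 ?_ x hx
  intro U₀ hU₀
  obtain ⟨U, hN, hU, hUle, ⟨D⟩⟩ := hdata U₀ hU₀
  refine ⟨U, hN, hU, hUle, D.V, D.normal, D.mem, D.le, ?_, ?_⟩
  · exact levelData_eq_zero_of_forall_finMap_eq_zero D 2
  · intro v
    refine infl_two_injective (Y v) (𝒰v v) (D.V v) (D.mem v) ?_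
    intro W hNW hW hWV
    exact h90 v (D.V v) W (D.normal v) hNW (D.mem v) hW hWV

end Fermat.Agent.CFT.C7.JInj
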