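import Mathlib
import Fermat.Agent.CFT.C7.KummerLevel

/-!
# PROJECT C, slice (N3), (d2) group half: the layer group `U_K/U_L` is `Gal(L/K)`

`K ⊆ L` number fields (`Type`s), `L/K` Galois, `ι : L →ₐ[ℚ] ℚ̄`, `U_K := Gal(ℚ̄/ι K)`,
`U_L := Gal(ℚ̄/ι L)` normal in `G_ℚ`.

* `restrictHom ι : U_K →* (L ≃ₐ[K] L)` with `ι (restrictHom ι σ m) = σ (ι m)`, kernel `U_L`;
* `exists_layerEquiv ι : ∃ e : U_K.map (QuotientGroup.mk' U_L) ≃* (L ≃ₐ[K] L),
    ∀ σ ∈ U_K, ∀ m, ι (e [σ] m) = σ (ι m)` (the layer group of `D.Realize.layerSub U_K U_L`);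
* `sum_layer_eq_sum_gal`: re-indexing of the layer norm `∑_{h ∈ U_K/U_L}` as `∑_{g ∈ Gal(L/K)}`.
-/

set_option autoImplicit false
set_option linter.unusedSectionVars false
set_option linter.style.haveILetI false

open scoped NumberField IntermediateField

noncomputable section

namespace Fermat.Agent.CFT.C7.KummerLayerEquiv

open IntermediateField Module
open Fermat.Agent.CFT.C7.KummerRam Fermat.Agent.CFT.C7.KummerNF Fermat.Agent.CFT.C7.KummerLevel
  Fermat.Agent.CFT.Bridge

local notation "Qbar" => AlgebraicClosure ℚ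

attribute [local instance 2000] IntermediateField.algebra'

variable {K L : Type} [Field K] [Field L] [NumberField K] [NumberField L] [Algebra K L]
  [IsGalois K L]

/-- the restriction of `σ ∈ Gal(ℚ̄/ι K)` to `L` -/
def restrictFun (ι : L →ₐ[ℚ] Qbar) (σ : (baseRange (K := K) ι).fixingSubgroup) : L ≃ₐ[K] L :=
  (exists_restrict ι σ.1 σ.2).choose

theorem restrictFun_spec (ι : L →ₐ[ℚ] Qbar) (σ : (baseRange (K := K) ι).fixingSubgroup) (m : L) :
    ι (restrictFun ι σ m) = (σ : GQ) (ι m) :=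
  (exists_restrict ι σ.1 σ.2).choose_spec m

theorem restrictFun_unique (ι : L →ₐ[ℚ] Qbar) (σ : (baseRange (K := K) ι).fixingSubgroup)
    (g : L ≃ₐ[K] L) (hg : ∀ m : L, ι (g m) = (σ : GQ) (ι m)) : restrictFun ι σ = g := by
  apply AlgEquiv.ext
  intro m
  apply ι.injective
  change ι (restrictFun ι σ m) = ι (g m)
  rw [restrictFun_spec, hg]

/-- the restriction homomorphism `Gal(ℚ̄/ι K) → Gal(L/K)` -/
def restrictHom (ι : L →ₐ[ℚ] Qbar) : (baseRange (K := K) ι).fixingSubgroup →* (L ≃ₐ[K] L) :=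
  MonoidHom.mk' (restrictFun ι) (fun σ τ => by
    refine restrictFun_unique ι (σ * τ) _ fun m => ?_
    change ι (restrictFun ι σ (restrictFun ι τ m)) = (σ : GQ) ((τ : GQ) (ι m))
    rw [restrictFun_spec, restrictFun_spec])

theorem restrictHom_spec (ι : L →ₐ[ℚ] Qbar) (σ : (baseRange (K := K) ι).fixingSubgroup) (m : L) :
    ι (restrictHom ι σ m) = (σ : GQ) (ι m) :=
  restrictFun_spec ι σ m

theorem restrictHom_eq_one_iff (ι : L →ₐ[ℚ] Qbar) (σ : (baseRange (K := K) ι).fixingSubgroup) :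
    restrictHom ι σ = 1 ↔ (σ : GQ) ∈ ι.fieldRange.fixingSubgroup := by
  rw [IntermediateField.mem_fixingSubgroup_iff]
  constructor
  · rintro h _ ⟨m, rfl⟩
    change (σ : GQ) (ι m) = ι m
    rw [← restrictHom_spec, h]
    rfl
  · intro h
    apply AlgEquiv.ext
    intro m
    apply ι.injective
    change ι (restrictHom ι σ m) = ι m
    rw [restrictHom_spec]
    exact h _ ⟨m, rfl⟩

section Layer

variable (ι : L →ₐ[ℚ] Qbar) [hN : ι.fieldRange.fixingSubgroup.Normal]

/-- the projection `U_K → U_K/U_L` (layer group as a subgroup of `G_ℚ ⧸ U_L`) -/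
abbrev layerProj : (baseRange (K := K) ι).fixingSubgroup →*
    ((baseRange (K := K) ι).fixingSubgroup).map (QuotientGroup.mk' ι.fieldRange.fixingSubgroup) :=
  (QuotientGroup.mk' ι.fieldRange.fixingSubgroup).subgroupMap _

theorem layerProj_surjective : Function.Surjective (layerProj (K := K) ι) :=
  MonoidHom.subgroupMap_surjective _ _

theorem layerProj_eq_one_iff (σ : (baseRange (K := K) ι).fixingSubgroup) :
    layerProj ι σ = 1 ↔ (σ : GQ) ∈ ι.fieldRange.fixingSubgroup := by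
  rw [Subtype.ext_iff]
  change QuotientGroup.mk' ι.fieldRange.fixingSubgroup (σ : GQ) = 1 ↔ _
  exact QuotientGroup.eq_one_iff _

theorem ker_layerProj_le : (layerProj (K := K) ι).ker ≤ (restrictHom (K := K) ι).ker := by
  intro σ hσ
  rw [MonoidHom.mem_ker] at hσ ⊢
  rw [restrictHom_eq_one_iff]
  exact (layerProj_eq_one_iff ι σ).mp hσ

/-- the induced map `U_K/U_L → Gal(L/K)` -/
def layerHom : ((baseRange (K := K) ι).fixingSubgroup).map
    (QuotientGroup.mk' ι.fieldRange.fixingSubgroup) →* (L ≃ₐ[K] L) :=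
  (layerProj (K := K) ι).liftOfRightInverse (Function.surjInv (layerProj_surjective ι))
    (Function.rightInverse_surjInv (layerProj_surjective ι))
    ⟨restrictHom ι, ker_layerProj_le ι⟩

theorem layerHom_layerProj (σ : (baseRange (K := K) ι).fixingSubgroup) :
    layerHom ι (layerProj ι σ) = restrictHom ι σ :=
  MonoidHom.liftOfRightInverse_comp_apply _ _ _ _ σ

theorem layerHom_injective : Function.Injective (layerHom (K := K) ι) := by
  rw [injective_iff_map_eq_one]
  intro h hh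
  obtain ⟨σ, rfl⟩ := layerProj_surjective ι h
  rw [layerHom_layerProj, restrictHom_eq_one_iff] at hh
  exact (layerProj_eq_one_iff ι σ).mpr hh

theorem layerHom_bijective : Function.Bijective (layerHom (K := K) ι) := by
  haveI : Finite (L ≃ₐ[K] L) := inferInstance
  refine (layerHom_injective ι).bijective_of_nat_card_le ?_
  rw [card_map_mk', relIndex_fixingSubgroup, IsGalois.card_aut_eq_finrank]

/-- **the layer group is `Gal(L/K)`** -/
def layerEquiv : ((baseRange (K := K) ι).fixingSubgroup).map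
    (QuotientGroup.mk' ι.fieldRange.fixingSubgroup) ≃* (L ≃ₐ[K] L) :=
  MulEquiv.ofBijective (layerHom ι) (layerHom_bijective ι)

theorem layerEquiv_spec (σ : GQ) (hσ : σ ∈ (baseRange (K := K) ι).fixingSubgroup) (m : L) :
    ι (layerEquiv ι ⟨QuotientGroup.mk' ι.fieldRange.fixingSubgroup σ,
      Subgroup.mem_map_of_mem _ hσ⟩ m) = σ (ι m) := by
  have h1 : (⟨QuotientGroup.mk' ι.fieldRange.fixingSubgroup σ, Subgroup.mem_map_of_mem _ hσ⟩ :
      ((baseRange (K := K) ι).fixingSubgroup).map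
        (QuotientGroup.mk' ι.fieldRange.fixingSubgroup)) = layerProj ι ⟨σ, hσ⟩ := rfl
  rw [h1]
  change ι (layerHom ι (layerProj ι ⟨σ, hσ⟩) m) = σ (ι m)
  rw [layerHom_layerProj, restrictHom_spec]

/-- every element of the layer group is the class of a `σ ∈ U_K`, and acts on `ι L` through
`layerEquiv` -/
theorem layerEquiv_spec' (h : ((baseRange (K := K) ι).fixingSubgroup).map
    (QuotientGroup.mk' ι.fieldRange.fixingSubgroup)) :
    ∃ σ : GQ, σ ∈ (baseRange (K := K) ι).fixingSubgroup ∧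
      QuotientGroup.mk' ι.fieldRange.fixingSubgroup σ = (h : GQ ⧸ ι.fieldRange.fixingSubgroup) ∧
      ∀ m : L, ι (layerEquiv ι h m) = σ (ι m) := by
  obtain ⟨_, σ, hσ, rfl⟩ := h
  exact ⟨σ, hσ, rfl, layerEquiv_spec ι σ hσ⟩

/-- re-indexing a sum over the layer group as a sum over `Gal(L/K)` -/
theorem sum_layer_eq_sum_gal {A : Type*} [AddCommMonoid A]
    [Fintype (((baseRange (K := K) ι).fixingSubgroup).map
      (QuotientGroup.mk' ι.fieldRange.fixingSubgroup))] [Fintype (L ≃ₐ[K] L)]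
    (f : (L ≃ₐ[K] L) → A) :
    ∑ h : ((baseRange (K := K) ι).fixingSubgroup).map
      (QuotientGroup.mk' ι.fieldRange.fixingSubgroup), f (layerEquiv ι h) = ∑ g : L ≃ₐ[K] L, f g :=
  Fintype.sum_equiv (layerEquiv ι).toEquiv _ _ (fun _ => rfl)

end Layer

/-- **the layer group is `Gal(L/K)`**, existential form with the base field given by `ιK`. -/
theorem exists_layerEquiv (ιK : K →ₐ[ℚ] Qbar) (ι : L →ₐ[ℚ] Qbar)
    (hι : ∀ z : K, ι (algebraMap K L z) = ιK z) [hN : ι.fieldRange.fixingSubgroup.Normal] :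
    ∃ e : (ιK.fieldRange.fixingSubgroup).map (QuotientGroup.mk' ι.fieldRange.fixingSubgroup) ≃*
        (L ≃ₐ[K] L),
      ∀ (σ : GQ) (hσ : σ ∈ ιK.fieldRange.fixingSubgroup) (m : L),
        ι (e ⟨QuotientGroup.mk' ι.fieldRange.fixingSubgroup σ, Subgroup.mem_map_of_mem _ hσ⟩ m)
          = σ (ι m) := by
  have hbase : baseRange (K := K) ι = ιK.fieldRange := baseRange_eq_of_extends ιK ι hι
  rw [← hbase]
  exact ⟨layerEquiv ι, fun σ hσ m => layerEquiv_spec ι σ hσ m⟩

end Fermat.Agent.CFT.C7.KummerLayerEquiv
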