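import Mathlib
import Fermat.Agent.CFT.C7.KummerSplitS
import Fermat.Agent.CFT.C7.KummerNF

/-!
# PROJECT C, slice C7, (N3) step (F2): the `S`-split layer `M' = K(B_S^{1/p}) ⊂ ℚ_S`, packaged

One existential statement collecting everything the (N3) assembly needs about the layer
`M' = K(B_S^{1/p})` (`B_S` = helper22's `ExistCount.BS`): a number field `L` (a `Type`) with an
embedding into `ℚ̄` extending that of `K`, unramified outside `S`, Galois over `K` with commutative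
Galois group of exponent `p`, of degree `[B_S : Kˣᵖ]`, with Kummer radical group `B_S`, in which
every `q ∈ S` splits completely, and such that every idele of `K` supported in `S` is the norm of an
idele of `L`.

The valuation hypothesis `hval` (`p ∣ w(a)` for `a ∈ B_S` and `w` outside `S`) is helper15's
`KummerLevel` (L1); it is taken as a hypothesis here, stated for the bigger group `W_S`.
-/

set_option autoImplicit false
set_option linter.unusedSectionVars false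

open scoped NumberField IntermediateField Fermat.Agent.CFT.Idele

noncomputable section

namespace Fermat.Agent.CFT.C7.KummerSplitQS

open IsDedekindDomain IntermediateField Module
open Fermat.Agent.CFT.Idele Fermat.Agent.CFT.C5.NonSplit Fermat.Agent.CFT.C6.IdeleNorm
  Fermat.Agent.CFT.C7.KummerUnram Fermat.Agent.CFT.C7.KummerNF Fermat.Agent.CFT.Kummer
  Fermat.Agent.CFT.C3.ClassGen Fermat.Agent.CFT.C7.ExistCount Fermat.Agent.CFT.C7.KummerSplitS

local notation "Qbar" => AlgebraicClosure ℚ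

/-- **(F2), generic form**: for `Kˣᵖ ≤ Δ ≤ B_S` of finite index over `Kˣᵖ`, the layer
`K(Δ^{1/p}) ⊂ ℚ_S` with all its properties. -/
theorem exists_split_kummer_of_le_BS {K : Type} [Field K] [NumberField K] {p : ℕ} [NeZero p]
    {S : Finset Nat.Primes} (hpS : IsSNat S p) (hζ : (primitiveRoots p K).Nonempty)
    (ιK : K →ₐ[ℚ] Qbar) (hK : ιK.fieldRange.IsUnramifiedOutside S) (Δ : Subgroup Kˣ)
    (hΔ : (powMonoidHom p : Kˣ →* Kˣ).range ≤ Δ)
    (hΔB : Δ ≤ BS K (S : Set Nat.Primes) p)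
    (hfin : ((powMonoidHom p : Kˣ →* Kˣ).range).relIndex Δ ≠ 0)
    (hval : ∀ a ∈ Δ, ∀ w : HeightOneSpectrum (𝓞 K), natPrime K w ∉ S →
      ∃ z : K, w.valuation K (a : K) = w.valuation K (z ^ p)) :
    ∃ (L : Type) (_ : Field L) (_ : NumberField L) (_ : Algebra K L) (_ : IsGalois K L)
      (ι : L →ₐ[ℚ] Qbar), (∀ z : K, ι (algebraMap K L z) = ιK z) ∧
      ι.fieldRange.IsUnramifiedOutside S ∧
      (∀ σ τ : L ≃ₐ[K] L, σ * τ = τ * σ) ∧ (∀ σ : L ≃ₐ[K] L, σ ^ p = 1) ∧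
      finrank K L = ((powMonoidHom p : Kˣ →* Kˣ).range).relIndex Δ ∧
      powFrom K L p = Δ ∧
      (∀ q ∈ S, SplitsCompletely K L q) ∧
      JS K (S : Set Nat.Primes) ≤ (normJ K L).range := by
  obtain ⟨L, iF, iN, iA, iG, ι, hι, hur, hcomm, hexp, hdeg, hpow⟩ :=
    exists_kummer_in_QS hpS hζ ιK hK Δ hΔ hfin hval
  have hle : powFrom K L p ≤ BS K (S : Set Nat.Primes) p := hpow.le.trans hΔB
  refine ⟨L, iF, iN, iA, iG, ι, hι, hur, hcomm, hexp, hdeg, hpow, ?_, ?_⟩
  · intro q hq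
    exact splitsCompletely_of_powFrom_le_BS hζ hcomm hexp hle (Finset.mem_coe.mpr hq)
  · exact JS_le_range_normJ_of_powFrom_le_BS hζ hcomm hexp hle

/-- **(F2)**: the layer `M' = K(B_S^{1/P}) ⊂ ℚ_S` (`P` an odd prime in `S`, `ζ_P ∈ K`). -/
theorem exists_split_kummer_in_QS {K : Type} [Field K] [NumberField K] (P : Nat.Primes)
    (S : Finset Nat.Primes) (hP2 : (P : ℕ) ≠ 2) {ζ : K} (hζ : IsPrimitiveRoot ζ (P : ℕ))
    (hPS : P ∈ S) (ιK : K →ₐ[ℚ] Qbar) (hK : ιK.fieldRange.IsUnramifiedOutside S)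
    (hval : ∀ a ∈ WS K (S : Set Nat.Primes) (P : ℕ), ∀ w : HeightOneSpectrum (𝓞 K),
      natPrime K w ∉ S → ∃ z : K, w.valuation K (a : K) = w.valuation K (z ^ (P : ℕ))) :
    ∃ (L : Type) (_ : Field L) (_ : NumberField L) (_ : Algebra K L) (_ : IsGalois K L)
      (ι : L →ₐ[ℚ] Qbar), (∀ z : K, ι (algebraMap K L z) = ιK z) ∧
      ι.fieldRange.IsUnramifiedOutside S ∧
      (∀ σ τ : L ≃ₐ[K] L, σ * τ = τ * σ) ∧ (∀ σ : L ≃ₐ[K] L, σ ^ (P : ℕ) = 1) ∧
      finrank K L = ((powMonoidHom (P : ℕ) : Kˣ →* Kˣ).range).relIndex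
        (BS K (S : Set Nat.Primes) (P : ℕ)) ∧
      powFrom K L (P : ℕ) = BS K (S : Set Nat.Primes) (P : ℕ) ∧
      (∀ q ∈ S, SplitsCompletely K L q) ∧
      JS K (S : Set Nat.Primes) ≤ (normJ K L).range := by
  have : NeZero (P : ℕ) := ⟨P.2.ne_zero⟩
  have hζ' : (primitiveRoots (P : ℕ) K).Nonempty :=
    ⟨ζ, (mem_primitiveRoots P.2.pos).mpr hζ⟩
  exact exists_split_kummer_of_le_BS (isSNat_prime hPS) hζ' ιK hK _
    (range_pow_le_BS K _ _) le_rfl (relIndex_BS_ne_zero K P S hP2 hζ hPS)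
    (fun a ha => hval a (BS_le_WS K _ _ ha))

end Fermat.Agent.CFT.C7.KummerSplitQS
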