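/-
PROJECT C, (N3) last mile (helper6): discharge of helper5's `N3Level.HasLevelDict`.

For a level field `F` (finite normal over `ℚ` inside `ℚ̄`, unramified outside `S ≠ ∅`) the layer
dictionary of `C_S` at `U = F.fixingSubgroup`, bundled as helper27's `LevelK.LayerDict` from
helper11's `LevelIso.eC` / `eC_compat` and helper21's `layerQuotEquiv`.

* `levelDictC S hS F hF : LayerDict (QS.C S) F.fixingSubgroup (repCS F S)` (elaborated with
  `IntermediateField.algebra'`, as `Idele/LevelIso`), with `levelDictC_e`, `levelDictC_e'`,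
  `levelDictC_e'_symm` (evaluation on elements: the underlying class is `CD.ofLevel c`);
* `normal_of_normal_fixingSubgroup` : `F.fixingSubgroup.Normal → Normal ℚ F`;
* `hasLevelDict S hS : N3Level.HasLevelDict S` (stated with the DEFAULT `Algebra ℚ ↥F` instance, as
  in `C7/N3Level`).
-/
import Fermat.Agent.CFT.C7.N3Level
import Fermat.Agent.CFT.Idele.LevelIso

set_option autoImplicit false

noncomputable section

namespace Fermat.Agent.CFT.C7.LevelDictC

open Fermat.Agent.CFT.C7.N3Level Fermat.Agent.CFT.Idele Fermat.Agent.CFT.Idele.LevelIso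
open Fermat.Agent.CFT.C7.LevelK Fermat.Agent.CFT.Bridge Fermat.Agent.CFT.GaloisDict.Infinite
open ExtCitation

section Prime

attribute [local instance 2000] IntermediateField.algebra'

/-- The layer dictionary of `C_S` at the level field `F`, `U := F.fixingSubgroup`. -/
def levelDictC (S : Finset Nat.Primes) (hS : S.Nonempty) (F : IntermediateField ℚ Qbar)
    [Normal ℚ F] [F.fixingSubgroup.Normal] (hF : F.IsUnramifiedOutside S) :
    LayerDict (QS.C S) F.fixingSubgroup (repCS F (S : Set Nat.Primes)) where
  e := layerQuotEquiv F F.fixingSubgroup rfl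
  e' := eC S F hF F.fixingSubgroup rfl hS
  he := eC_compat S F hF F.fixingSubgroup rfl hS

@[simp] theorem levelDictC_e (S : Finset Nat.Primes) (hS : S.Nonempty)
    (F : IntermediateField ℚ Qbar) [Normal ℚ F] [F.fixingSubgroup.Normal]
    (hF : F.IsUnramifiedOutside S) :
    (levelDictC S hS F hF).e = layerQuotEquiv F F.fixingSubgroup rfl := rfl

@[simp] theorem levelDictC_e' (S : Finset Nat.Primes) (hS : S.Nonempty)
    (F : IntermediateField ℚ Qbar) [Normal ℚ F] [F.fixingSubgroup.Normal]
    (hF : F.IsUnramifiedOutside S) :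
    (levelDictC S hS F hF).e' = eC S F hF F.fixingSubgroup rfl hS := rfl

/-- Evaluation: the class of `C_S(ℚ̄)` underlying `e'⁻¹ c` is the image of `c ∈ C_S(F)`. -/
theorem levelDictC_e'_symm (S : Finset Nat.Primes) (hS : S.Nonempty)
    (F : IntermediateField ℚ Qbar) [Normal ℚ F] [F.fixingSubgroup.Normal]
    (hF : F.IsUnramifiedOutside S) (c : CS F (S : Set Nat.Primes)) :
    ((((levelDictC S hS F hF).e'.symm (Additive.ofMul c)).1 : (QS.C S).V)) =
      Additive.ofMul (CD.ofLevel (isFieldFilter_unram S) (S : Set Nat.Primes) hF c) := rfl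

/-- A subfield of `ℚ̄` whose fixing subgroup is normal is normal over `ℚ`. -/
theorem normal_of_normal_fixingSubgroup (F : IntermediateField ℚ Qbar)
    (hn : F.fixingSubgroup.Normal) : Normal ℚ F :=
  ((InfiniteGalois.normal_iff_isGalois F).1 hn).to_normal

end Prime

/-- **(LD-Z) in helper5's shape**: every level field carries a layer dictionary for `C_S`. -/
theorem hasLevelDict (S : Finset Nat.Primes) (hS : S.Nonempty) : HasLevelDict S := by
  intro F _ hn hF
  have hnorm := normal_of_normal_fixingSubgroup F hn
  exact ⟨levelDictC S hS F hF⟩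

end Fermat.Agent.CFT.C7.LevelDictC
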