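import Mathlib
import Fermat.Agent.CFT.C7.LevelK
import Fermat.Agent.CFT.Idele.LevelIsoJ

/-!
# PROJECT C (LD-Z / LD-k glue): the `LayerDict` terms of `J_S`, `J_q`, `E_S` (and `C_S`)

For a level field `F` (finite normal over `ℚ` inside `ℚ̄`, unramified outside `S`) and
`U = F.fixingSubgroup`, the data of `Idele/LevelIsoJ` bundled as `C7.LevelK.LayerDict`, over `ℤ`
and, after localisation, over `k` (any localisation of `ℤ` at `primeTo p`).
-/

set_option autoImplicit false

noncomputable section

namespace Fermat.Agent.CFT.C7.LevelDictJ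

open Fermat.Agent.CFT.Idele Fermat.Agent.CFT.Idele.LevelIsoJ Fermat.Agent.CFT.Bridge
  Fermat.Agent.CFT.C7.LevelK Fermat.Agent.CFT.C7.SES Fermat.Agent.CFT.A7.BaseChange
open scoped Fermat.Agent.CFT.Idele

attribute [local instance 2000] IntermediateField.algebra'

variable (S : Finset Nat.Primes) {F : IntermediateField ℚ Qbar} (hF : F.IsUnramifiedOutside S)
  [Normal ℚ F] (U : Subgroup GQ) [U.Normal] (h : F.fixingSubgroup = U)

/-! ### Over `ℤ` -/

/-- The layer dictionary of `J_S` at the level field `F`. -/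
def jDict : LayerDict (QS.J S) U (repJS F (S : Set Nat.Primes)) where
  e := levelEquiv F U h
  e' := qsJLayer S hF U h
  he := qsJLayer_compat S hF U h

/-- The layer dictionary of `J_q` at the level field `F`. -/
def jqDict (q : Nat.Primes) : LayerDict (QS.Jq S q) U (repLocF F q) where
  e := levelEquiv F U h
  e' := qsJqLayer S hF U h q
  he := qsJqLayer_compat S hF U h q

/-- The layer dictionary of `E_S` at the level field `F`. -/
def eDict : LayerDict (QS.E S) U (repES F (S : Set Nat.Primes)) where
  e := levelEquiv F U h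
  e' := qsELayer S hF U h
  he := qsELayer_compat S hF U h

/-- The layer dictionary of `C_S` at the level field `F`, given the vanishing of
`H¹(Gal(F'/F), U^S(F'))` for the normal `F' ⊇ F` unramified outside `S`. -/
def cDict (hS : (S : Set Nat.Primes).Nonempty)
    (hH1 : ∀ F' : IntermediateField ℚ Qbar, F'.IsUnramifiedOutside S → Normal ℚ F' →
      ∀ hle : F ≤ F', H1USVanishes (S : Set Nat.Primes) F F' hle) :
    LayerDict (QS.C S) U (repCS F (S : Set Nat.Primes)) where
  e := levelEquiv F U h
  e' := cLayer (isFieldFilter_unram S) (S : Set Nat.Primes) hF U h hS hH1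
  he := cLayer_compat (isFieldFilter_unram S) (S : Set Nat.Primes) hF U h hS hH1

@[simp] theorem jDict_e : (jDict S hF U h).e = levelEquiv F U h := rfl
@[simp] theorem jqDict_e (q : Nat.Primes) : (jqDict S hF U h q).e = levelEquiv F U h := rfl
@[simp] theorem eDict_e : (eDict S hF U h).e = levelEquiv F U h := rfl

theorem jDict_e'_symm (y : Additive (JS F (S : Set Nat.Primes))) :
    ((jDict S hF U h).e'.symm y).1 =
      Additive.ofMul (JD.ofLevel (isFieldFilter_unram S) (S : Set Nat.Primes) hF
        (Additive.toMul y)) := rfl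

theorem jqDict_e'_symm (q : Nat.Primes) (u : Additive (Loc F q)ˣ) :
    ((jqDict S hF U h q).e'.symm u).1 =
      Additive.ofMul (LocP.ofLevel (isFieldFilter_unram S) hF q (Additive.toMul u)) := rfl

theorem eDict_e'_symm (a : Additive (TUnits F (S : Set Nat.Primes))) :
    ((eDict S hF U h).e'.symm a).1 =
      Additive.ofMul (ED.ofLevel (isFieldFilter_unram S) (S : Set Nat.Primes) hF
        (Additive.toMul a)) := rfl

/-! ### Over `k` -/

section K

variable (p : ℕ) [Fact p.Prime] (k : Type) [CommRing k] [IsLocalization (primeTo p) k]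

/-- The layer dictionary of `J_S ⊗ k` at `F`, for any localisation `Y` of `J_S(F)`. -/
def jDictK {Y : Rep.{0} k (F ≃ₐ[ℚ] F)} {f : (repJS F (S : Set Nat.Primes)).V →+ Y.V}
    (hf : IsLocRep (primeTo p) (repJS F (S : Set Nat.Primes)) Y f) :
    LayerDict (seqK S k).X₂ U Y :=
  layerJ S p k (jDict S hF U h) hf

/-- The layer dictionary of `J_q ⊗ k` at `F`, for any localisation `Y` of `(F ⊗ ℚ_q)ˣ`. -/
def jqDictK (q : Nat.Primes) {Y : Rep.{0} k (F ≃ₐ[ℚ] F)} {f : (repLocF F q).V →+ Y.V}
    (hf : IsLocRep (primeTo p) (repLocF F q) Y f) :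
    LayerDict (tensorRep (k := k) (QS.Jq S q)) U Y :=
  layerJq S p k q (jqDict S hF U h q) hf

/-- The layer dictionary of `E_S ⊗ k` at `F`, for any localisation `Y` of `E_S(F)`. -/
def eDictK {Y : Rep.{0} k (F ≃ₐ[ℚ] F)} {f : (repES F (S : Set Nat.Primes)).V →+ Y.V}
    (hf : IsLocRep (primeTo p) (repES F (S : Set Nat.Primes)) Y f) :
    LayerDict (seqK S k).X₁ U Y :=
  layerE S p k (eDict S hF U h) hf

end K

end Fermat.Agent.CFT.C7.LevelDictJ
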