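/-
PROJECT C, Layer C, slice C7-fin (part F1): **finiteness of the Selmer group `K(S, n)`**.

Mathlib defines `IsDedekindDomain.selmerGroup` (`K⟮S, n⟯`: classes of `Kˣ` modulo `n`-th powers
whose valuations outside `S` are divisible by `n`) but leaves its finiteness as a TODO.  We prove
it for a Dedekind domain with finite class group and finitely generated unit group (in
particular for rings of integers of number fields), `S` finite, `n > 0`, in three forms:

* `relIndex_pow_divGroup_ne_zero` / `finite_quotient_divGroup` : elementwise, on the subgroup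
  `divGroup R K S n ≤ Kˣ` of elements with `n ∣ ord_v x` for all `v ∉ S`;
* `exists_finset_rep` : a finite set of representatives modulo `n`-th powers;
* `finite_selmerGroup` : `Finite (selmerGroup ..)` for Mathlib's definition.

Proof: `divGroup S n / divGroup ∅ n ↪ (S → ZMod n)`; an element of `divGroup ∅ n` has, modulo
`n`-th powers, an integral representative `r` with `(r) = Jⁿ`; the class of `J` and a unit modulo
`n`-th powers determine the class of `r`.  This is the algebraic input for the finiteness of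
`H¹(G_S, M)` (finitely many `ℤ/p`-extensions unramified outside `S`, via Kummer theory).
-/
import Mathlib

set_option autoImplicit false

namespace Fermat.Agent.CFT.C7.Selmer

open IsDedekindDomain HeightOneSpectrum UniqueFactorizationMonoid
open scoped nonZeroDivisors

section Dedekind

variable {R : Type*} [CommRing R] [IsDedekindDomain R]

/-- A nonzero ideal of a Dedekind domain all of whose multiplicities are divisible by `n` is an
`n`-th power. -/
theorem exists_ideal_pow_eq {n : ℕ} (I : Ideal R) (hI : I ≠ ⊥)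
    (h : ∀ v : HeightOneSpectrum R, n ∣ multiplicity v.asIdeal I) : ∃ J : Ideal R, J ^ n = I := by
  classical
  have hcount : ∀ P : Ideal R, P ∈ normalizedFactors I → n ∣ Multiset.count P (normalizedFactors I) := by
    intro P hP
    have hPprime := prime_of_normalized_factor P hP
    let v : HeightOneSpectrum R := ⟨P, Ideal.isPrime_of_prime hPprime, hPprime.ne_zero⟩
    have h1 := h v
    rwa [← count_normalizedFactors_eq_multiplicity hI] at h1
  obtain ⟨u, hu⟩ := Multiset.exists_smul_of_dvd_count (normalizedFactors I) hcount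
  refine ⟨u.prod, ?_⟩
  rw [← Multiset.prod_nsmul, ← hu, Ideal.prod_normalizedFactors_eq_self hI]

variable (K : Type*) [Field K] [Algebra R K] [IsFractionRing R K]

/-- The additive `v`-adic order of a nonzero element of `K`. -/
noncomputable def ordv (v : HeightOneSpectrum R) (x : Kˣ) : ℤ :=
  Multiplicative.toAdd (v.valuationOfNeZero x)

theorem ordv_mul (v : HeightOneSpectrum R) (x y : Kˣ) : ordv K v (x * y) = ordv K v x + ordv K v y := by
  simp [ordv]

theorem ordv_one (v : HeightOneSpectrum R) : ordv K v 1 = 0 := by simp [ordv]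

theorem ordv_inv (v : HeightOneSpectrum R) (x : Kˣ) : ordv K v x⁻¹ = - ordv K v x := by
  simp [ordv]

theorem ordv_pow (v : HeightOneSpectrum R) (x : Kˣ) (n : ℕ) : ordv K v (x ^ n) = n * ordv K v x := by
  simp [ordv]

theorem ordv_unit (v : HeightOneSpectrum R) (u : Rˣ) :
    ordv K v (Units.map (algebraMap R K : R →* K) u) = 0 := by
  simp [ordv]

/-- The order of (the image of) a nonzero element of `R`. -/
theorem ordv_algebraMap (v : HeightOneSpectrum R) (r : R) (hr : r ≠ 0) (x : Kˣ)
    (hx : (x : K) = algebraMap R K r) :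
    ordv K v x = - (multiplicity v.asIdeal (Ideal.span {r}) : ℤ) := by
  have h1 : (v.valuationOfNeZero x : WithZero (Multiplicative ℤ)) =
      WithZero.exp (-(multiplicity v.asIdeal (Ideal.span {r}) : ℤ)) := by
    rw [valuationOfNeZero_eq, hx, valuation_of_algebraMap, intValuation_eq_exp_neg_multiplicity v hr]
  have h2 := WithZero.coe_inj.mp h1
  rw [ordv, h2]
  rfl

end Dedekind

section Dedekind

variable (R : Type*) [CommRing R] [IsDedekindDomain R]
variable (K : Type*) [Field K] [Algebra R K] [IsFractionRing R K]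

/-- The group of `x ∈ Kˣ` whose orders at all primes outside `S` are divisible by `n`. -/
def divGroup (S : Set (HeightOneSpectrum R)) (n : ℕ) : Subgroup Kˣ where
  carrier := {x | ∀ v : HeightOneSpectrum R, v ∉ S → (n : ℤ) ∣ ordv K v x}
  one_mem' v _ := by rw [ordv_one]; exact dvd_zero _
  mul_mem' {x y} hx hy v hv := by rw [ordv_mul]; exact dvd_add (hx v hv) (hy v hv)
  inv_mem' {x} hx v hv := by rw [ordv_inv]; exact (dvd_neg).mpr (hx v hv)

variable {R K}

theorem mem_divGroup_iff {S : Set (HeightOneSpectrum R)} {n : ℕ} {x : Kˣ} :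
    x ∈ divGroup R K S n ↔ ∀ v : HeightOneSpectrum R, v ∉ S → (n : ℤ) ∣ ordv K v x := Iff.rfl

theorem divGroup_mono {S S' : Set (HeightOneSpectrum R)} (h : S ⊆ S') (n : ℕ) :
    divGroup R K S n ≤ divGroup R K S' n := fun _ hx v hv => hx v (fun hvS => hv (h hvS))

theorem pow_mem_divGroup (S : Set (HeightOneSpectrum R)) (n : ℕ) (y : Kˣ) :
    y ^ n ∈ divGroup R K S n := fun v _ => by rw [ordv_pow]; exact dvd_mul_right _ _

theorem range_pow_le_divGroup (S : Set (HeightOneSpectrum R)) (n : ℕ) :
    (powMonoidHom n : Kˣ →* Kˣ).range ≤ divGroup R K S n := by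
  rintro _ ⟨y, rfl⟩
  exact pow_mem_divGroup S n y

theorem unit_mem_divGroup (S : Set (HeightOneSpectrum R)) (n : ℕ) (u : Rˣ) :
    Units.map (algebraMap R K : R →* K) u ∈ divGroup R K S n := fun v _ => by
  rw [ordv_unit]; exact dvd_zero _

/-- Every class modulo `n`-th powers has an integral representative. -/
theorem exists_integral_rep {n : ℕ} (hn : 0 < n) (x : Kˣ) :
    ∃ (r : R) (_ : r ≠ 0) (xr y : Kˣ), (xr : K) = algebraMap R K r ∧ x = xr * y ^ n := by
  obtain ⟨a, b, hb, hab⟩ := IsFractionRing.div_surjective (A := R) (x : K)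
  have hb0 : b ≠ 0 := nonZeroDivisors.ne_zero hb
  have hbK : algebraMap R K b ≠ 0 := by
    rwa [Ne, map_eq_zero_iff _ (IsFractionRing.injective R K)]
  have ha0 : a ≠ 0 := by
    rintro rfl
    rw [map_zero, zero_div] at hab
    exact x.ne_zero hab.symm
  have haK : algebraMap R K a ≠ 0 := by
    rwa [Ne, map_eq_zero_iff _ (IsFractionRing.injective R K)]
  obtain ⟨m, rfl⟩ : ∃ m, n = m + 1 := ⟨n - 1, by omega⟩
  refine ⟨a * b ^ m, mul_ne_zero ha0 (pow_ne_zero _ hb0),
    Units.mk0 (algebraMap R K (a * b ^ m)) ?_, (Units.mk0 (algebraMap R K b) hbK)⁻¹, rfl, ?_⟩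
  · rw [map_mul, map_pow]; exact mul_ne_zero haK (pow_ne_zero _ hbK)
  · ext
    simp only [Units.val_mul, Units.val_mk0, Units.val_pow_eq_pow_val, Units.val_inv_eq_inv_val,
      map_mul, map_pow]
    rw [← hab, inv_pow, pow_succ]
    field_simp

/-- For an integral element of `divGroup ∅ n`, the principal ideal is an `n`-th power. -/
theorem exists_ideal_pow_eq_span {n : ℕ} (r : R) (hr : r ≠ 0) (xr : Kˣ)
    (hxr : (xr : K) = algebraMap R K r) (h : xr ∈ divGroup R K ∅ n) :
    ∃ J : Ideal R, J ^ n = Ideal.span {r} := by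
  apply exists_ideal_pow_eq
  · rwa [Ne, Ideal.span_singleton_eq_bot]
  · intro v
    have h1 := h v (Set.notMem_empty v)
    rw [ordv_algebraMap K v r hr xr hxr, dvd_neg] at h1
    exact_mod_cast h1

end Dedekind

section Dedekind

variable {R : Type*} [CommRing R] [IsDedekindDomain R]
variable {K : Type*} [Field K] [Algebra R K] [IsFractionRing R K]

/-- `x` is, modulo `n`-th powers, an integral element `r` with `(r) = Jⁿ` and `[J] = c`. -/
def Rel (n : ℕ) (x : Kˣ) (c : ClassGroup R) : Prop :=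
  ∃ (r : R) (_ : r ≠ 0) (xr y : Kˣ) (J : (Ideal R)⁰), (xr : K) = algebraMap R K r ∧
    x = xr * y ^ n ∧ (J : Ideal R) ^ n = Ideal.span {r} ∧ ClassGroup.mk0 J = c

theorem exists_rel {n : ℕ} (hn : 0 < n) (x : Kˣ) (hx : x ∈ divGroup R K ∅ n) :
    ∃ c : ClassGroup R, Rel n x c := by
  obtain ⟨r, hr, xr, y, hxr, hxy⟩ := exists_integral_rep (R := R) hn x
  have hxr' : xr ∈ divGroup R K ∅ n := by
    have : xr = x * (y ^ n)⁻¹ := by rw [hxy, mul_inv_cancel_right]
    rw [this]
    exact Subgroup.mul_mem _ hx (Subgroup.inv_mem _ (pow_mem_divGroup ∅ n y))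
  obtain ⟨J, hJ⟩ := exists_ideal_pow_eq_span r hr xr hxr hxr'
  have hJ0 : J ≠ 0 := by
    rintro rfl
    rw [zero_pow hn.ne'] at hJ
    exact hr (Ideal.span_singleton_eq_bot.mp hJ.symm)
  exact ⟨ClassGroup.mk0 ⟨J, mem_nonZeroDivisors_iff_ne_zero.mpr hJ0⟩, r, hr, xr, y,
    ⟨J, mem_nonZeroDivisors_iff_ne_zero.mpr hJ0⟩, hxr, hxy, hJ, rfl⟩

theorem rel_unique {n : ℕ} {x x' : Kˣ} {c : ClassGroup R} (h : Rel n x c) (h' : Rel n x' c) :
    ∃ (w : Rˣ) (z : Kˣ), x' = x * Units.map (algebraMap R K : R →* K) w * z ^ n := by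
  obtain ⟨r, hr, xr, y, J, hxr, hxy, hJ, hc⟩ := h
  obtain ⟨r', hr', xr', y', J', hxr', hxy', hJ', hc'⟩ := h'
  obtain ⟨a, b, ha, hb, hab⟩ := ClassGroup.mk0_eq_mk0_iff.mp (hc.trans hc'.symm)
  have h1 : Ideal.span {a ^ n * r} = Ideal.span {b ^ n * r'} := by
    have := congrArg (· ^ n) hab
    simp only [mul_pow, Ideal.span_singleton_pow, hJ, hJ', Ideal.span_singleton_mul_span_singleton]
      at this
    exact this
  rw [Ideal.span_singleton_eq_span_singleton] at h1
  obtain ⟨w, hw⟩ := h1
  have haK : algebraMap R K a ≠ 0 := by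
    rwa [Ne, map_eq_zero_iff _ (IsFractionRing.injective R K)]
  have hbK : algebraMap R K b ≠ 0 := by
    rwa [Ne, map_eq_zero_iff _ (IsFractionRing.injective R K)]
  refine ⟨w, Units.mk0 _ haK * (Units.mk0 _ hbK)⁻¹ * y' * y⁻¹, ?_⟩
  have hwK : algebraMap R K (a ^ n * r * w) = algebraMap R K (b ^ n * r') := congrArg _ hw
  simp only [map_mul, map_pow] at hwK
  ext
  simp only [hxy, hxy', Units.val_mul, Units.val_pow_eq_pow_val, hxr, hxr', Units.coe_map,
    MonoidHom.coe_coe, Units.val_mk0, Units.val_inv_eq_inv_val, mul_pow, inv_pow]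
  have hy0 : (y : K) ≠ 0 := y.ne_zero
  field_simp
  linear_combination -hwK

end Dedekind

/-- In a finitely generated commutative group the `n`-th powers have finite index (`n > 0`). -/
theorem finite_quotient_pow (G : Type*) [CommGroup G] [Group.FG G] {n : ℕ} (hn : 0 < n) :
    Finite (G ⧸ (powMonoidHom n : G →* G).range) := by
  apply CommGroup.finite_of_fg_isMulTorsion
  intro q
  obtain ⟨g, rfl⟩ := QuotientGroup.mk_surjective q
  rw [isOfFinOrder_iff_pow_eq_one]
  refine ⟨n, hn, ?_⟩
  rw [← QuotientGroup.mk_pow, QuotientGroup.eq_one_iff]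
  exact ⟨g, rfl⟩

section Dedekind

variable (R : Type*) [CommRing R] [IsDedekindDomain R]
variable (K : Type*) [Field K] [Algebra R K] [IsFractionRing R K]

/-- **Finiteness of `K(∅, n)`**, elementwise form: if the class group is finite and the unit group
finitely generated, the `n`-th powers have finite index in the group of elements all of whose
orders are divisible by `n`. -/
theorem finite_quotient_divGroup_empty [Finite (ClassGroup R)] [Group.FG Rˣ] {n : ℕ} (hn : 0 < n) :
    Finite (divGroup R K ∅ n ⧸ ((powMonoidHom n : Kˣ →* Kˣ).range).subgroupOf (divGroup R K ∅ n)) := by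
  classical
  have := finite_quotient_pow Rˣ hn
  -- a representative for every class
  let rep : ClassGroup R → Kˣ := fun c =>
    if h : ∃ x : Kˣ, x ∈ divGroup R K ∅ n ∧ Rel n x c then h.choose else 1
  have hrep_mem : ∀ c, rep c ∈ divGroup R K ∅ n := by
    intro c
    simp only [rep]
    split_ifs with h
    · exact h.choose_spec.1
    · exact Subgroup.one_mem _
  let φ : ClassGroup R × (Rˣ ⧸ (powMonoidHom n : Rˣ →* Rˣ).range) →
      divGroup R K ∅ n ⧸ ((powMonoidHom n : Kˣ →* Kˣ).range).subgroupOf (divGroup R K ∅ n) :=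
    fun p => QuotientGroup.mk ⟨rep p.1 * Units.map (algebraMap R K : R →* K) p.2.out,
      Subgroup.mul_mem _ (hrep_mem p.1) (unit_mem_divGroup ∅ n _)⟩
  apply Finite.of_surjective φ
  intro q
  obtain ⟨⟨x, hx⟩, rfl⟩ := QuotientGroup.mk_surjective q
  obtain ⟨c, hc⟩ := exists_rel hn x hx
  have hex : ∃ x : Kˣ, x ∈ divGroup R K ∅ n ∧ Rel n x c := ⟨x, hx, hc⟩
  have hrep : Rel n (rep c) c := by
    simp only [rep, dif_pos hex]
    exact hex.choose_spec.2
  obtain ⟨w, z, hwz⟩ := rel_unique hrep hc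
  -- `w = out [w] * t ^ n`
  obtain ⟨u₀, hu₀, t, ht⟩ : ∃ u₀ : Rˣ,
      (QuotientGroup.mk w : Rˣ ⧸ (powMonoidHom n : Rˣ →* Rˣ).range).out = u₀ ∧
        ∃ t : Rˣ, w = u₀ * t ^ n := by
    refine ⟨_, rfl, ?_⟩
    have h1 : (QuotientGroup.mk ((QuotientGroup.mk w : Rˣ ⧸ (powMonoidHom n : Rˣ →* Rˣ).range).out) :
        Rˣ ⧸ (powMonoidHom n : Rˣ →* Rˣ).range) = QuotientGroup.mk w := Quotient.out_eq' _
    rw [QuotientGroup.eq] at h1
    obtain ⟨t, ht⟩ := h1
    refine ⟨t, ?_⟩
    rw [powMonoidHom_apply] at ht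
    rw [ht]
    group
  refine ⟨(c, QuotientGroup.mk w), ?_⟩
  simp only [φ]
  rw [hu₀, QuotientGroup.eq, Subgroup.mem_subgroupOf]
  refine ⟨Units.map (algebraMap R K : R →* K) t * z, ?_⟩
  simp only [powMonoidHom_apply, Subgroup.coe_mul, Subgroup.coe_inv]
  rw [hwz, ht]
  simp only [map_mul, map_pow, mul_pow]
  group

end Dedekind

section Dedekind

variable (R : Type*) [CommRing R] [IsDedekindDomain R]
variable (K : Type*) [Field K] [Algebra R K] [IsFractionRing R K]

/-- The orders modulo `n` at the primes of `S`, as a homomorphism on `divGroup S n`. -/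
noncomputable def ordModHom (S : Set (HeightOneSpectrum R)) (n : ℕ) :
    divGroup R K S n →* (S → Multiplicative (ZMod n)) where
  toFun x v := Multiplicative.ofAdd ((ordv K v.1 (x : Kˣ) : ℤ) : ZMod n)
  map_one' := by
    funext v
    simp [ordv_one]
  map_mul' x y := by
    funext v
    simp [ordv_mul]

theorem ker_ordModHom (S : Set (HeightOneSpectrum R)) (n : ℕ) :
    (ordModHom R K S n).ker = (divGroup R K ∅ n).subgroupOf (divGroup R K S n) := by
  ext ⟨x, hx⟩
  rw [MonoidHom.mem_ker, Subgroup.mem_subgroupOf, mem_divGroup_iff]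
  constructor
  · intro h v _
    by_cases hv : v ∈ S
    · have := congrFun h ⟨v, hv⟩
      simp only [ordModHom, MonoidHom.coe_mk, OneHom.coe_mk, Pi.one_apply] at this
      have h0 : ((ordv K v x : ℤ) : ZMod n) = 0 := Multiplicative.ofAdd.injective this
      exact (ZMod.intCast_zmod_eq_zero_iff_dvd _ _).mp h0
    · exact hx v hv
  · intro h
    funext v
    simp only [ordModHom, MonoidHom.coe_mk, OneHom.coe_mk, Pi.one_apply]
    have h0 : ((ordv K v.1 x : ℤ) : ZMod n) = 0 :=
      (ZMod.intCast_zmod_eq_zero_iff_dvd _ _).mpr (h v.1 (Set.notMem_empty _))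
    rw [h0]
    rfl

/-- **Finiteness of the Selmer group `K(S, n)`**, index form: for a Dedekind domain with finite
class group and finitely generated unit group, a finite set `S` of primes and `n > 0`, the `n`-th
powers have finite index in the group of elements whose orders outside `S` are divisible by `n`. -/
theorem relIndex_pow_divGroup_ne_zero [Finite (ClassGroup R)] [Group.FG Rˣ]
    (S : Set (HeightOneSpectrum R)) (hS : S.Finite) {n : ℕ} (hn : 0 < n) :
    ((powMonoidHom n : Kˣ →* Kˣ).range).relIndex (divGroup R K S n) ≠ 0 := by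
  have : NeZero n := ⟨hn.ne'⟩
  have hfin : Finite S := hS
  rw [← Subgroup.relIndex_mul_relIndex _ _ _ (range_pow_le_divGroup (R := R) ∅ n)
    (divGroup_mono (Set.empty_subset S) n)]
  refine mul_ne_zero ?_ ?_
  · have := finite_quotient_divGroup_empty R K hn
    rw [Subgroup.relIndex, Subgroup.index]
    exact Nat.card_pos.ne'
  · rw [Subgroup.relIndex, ← ker_ordModHom]
    exact Subgroup.FiniteIndex.index_ne_zero

theorem finite_quotient_divGroup [Finite (ClassGroup R)] [Group.FG Rˣ]
    (S : Set (HeightOneSpectrum R)) (hS : S.Finite) {n : ℕ} (hn : 0 < n) :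
    Finite (divGroup R K S n ⧸ ((powMonoidHom n : Kˣ →* Kˣ).range).subgroupOf (divGroup R K S n)) := by
  have h := relIndex_pow_divGroup_ne_zero R K S hS hn
  rw [Subgroup.relIndex] at h
  have := Subgroup.finiteIndex_iff.mpr h
  exact Subgroup.finite_quotient_of_finiteIndex

/-- A finite set of representatives. -/
theorem exists_finset_rep [Finite (ClassGroup R)] [Group.FG Rˣ]
    (S : Set (HeightOneSpectrum R)) (hS : S.Finite) {n : ℕ} (hn : 0 < n) :
    ∃ F : Finset Kˣ, (∀ f ∈ F, f ∈ divGroup R K S n) ∧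
      ∀ x ∈ divGroup R K S n, ∃ f ∈ F, ∃ y : Kˣ, x = f * y ^ n := by
  classical
  have := finite_quotient_divGroup R K S hS hn
  have : Fintype (divGroup R K S n ⧸
      ((powMonoidHom n : Kˣ →* Kˣ).range).subgroupOf (divGroup R K S n)) := Fintype.ofFinite _
  refine ⟨Finset.univ.image fun q : divGroup R K S n ⧸
      ((powMonoidHom n : Kˣ →* Kˣ).range).subgroupOf (divGroup R K S n) => (q.out : Kˣ), ?_, ?_⟩
  · intro f hf
    obtain ⟨q, -, rfl⟩ := Finset.mem_image.mp hf
    exact q.out.2
  · intro x hx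
    refine ⟨_, Finset.mem_image.mpr ⟨QuotientGroup.mk ⟨x, hx⟩, Finset.mem_univ _, rfl⟩, ?_⟩
    have h1 : (QuotientGroup.mk (QuotientGroup.mk ⟨x, hx⟩ : divGroup R K S n ⧸
        ((powMonoidHom n : Kˣ →* Kˣ).range).subgroupOf (divGroup R K S n)).out :
          divGroup R K S n ⧸ _) = QuotientGroup.mk ⟨x, hx⟩ := Quotient.out_eq' _
    rw [QuotientGroup.eq, Subgroup.mem_subgroupOf] at h1
    obtain ⟨y, hy⟩ := h1
    refine ⟨y, ?_⟩
    rw [powMonoidHom_apply] at hy
    rw [hy]
    simp

end Dedekind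

section NumberField

open NumberField

variable (K : Type*) [Field K] [NumberField K]

instance groupFG_units : Group.FG (𝓞 K)ˣ := Group.fg_iff_monoid_fg.mpr inferInstance

/-- **Finiteness of the Selmer group of a number field**, index form. -/
theorem relIndex_pow_divGroup_ne_zero_numberField
    (S : Set (HeightOneSpectrum (𝓞 K))) (hS : S.Finite) {n : ℕ} (hn : 0 < n) :
    ((powMonoidHom n : Kˣ →* Kˣ).range).relIndex (divGroup (𝓞 K) K S n) ≠ 0 :=
  relIndex_pow_divGroup_ne_zero (𝓞 K) K S hS hn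

theorem exists_finset_rep_numberField
    (S : Set (HeightOneSpectrum (𝓞 K))) (hS : S.Finite) {n : ℕ} (hn : 0 < n) :
    ∃ F : Finset Kˣ, (∀ f ∈ F, f ∈ divGroup (𝓞 K) K S n) ∧
      ∀ x ∈ divGroup (𝓞 K) K S n, ∃ f ∈ F, ∃ y : Kˣ, x = f * y ^ n :=
  exists_finset_rep (𝓞 K) K S hS hn

end NumberField

section Dedekind

variable {R : Type*} [CommRing R] [IsDedekindDomain R]
variable {K : Type*} [Field K] [Algebra R K] [IsFractionRing R K]

theorem valuationOfNeZeroMod_mk (v : HeightOneSpectrum R) (n : ℕ) (x : Kˣ) :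
    v.valuationOfNeZeroMod n (QuotientGroup.mk x : Kˣ ⧸ (powMonoidHom n : Kˣ →* Kˣ).range) =
      Multiplicative.ofAdd ((ordv K v x : ℤ) : ZMod n) := rfl

theorem valuationOfNeZeroMod_mk_eq_one_iff (v : HeightOneSpectrum R) (n : ℕ) (x : Kˣ) :
    v.valuationOfNeZeroMod n (QuotientGroup.mk x : Kˣ ⧸ (powMonoidHom n : Kˣ →* Kˣ).range) = 1 ↔
      (n : ℤ) ∣ ordv K v x := by
  rw [valuationOfNeZeroMod_mk, ofAdd_eq_one, ZMod.intCast_zmod_eq_zero_iff_dvd]

theorem mk_mem_selmerGroup_iff (S : Set (HeightOneSpectrum R)) (n : ℕ) (x : Kˣ) :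
    (QuotientGroup.mk x : Kˣ ⧸ (powMonoidHom n : Kˣ →* Kˣ).range) ∈
      selmerGroup (R := R) (K := K) (S := S) (n := n) ↔ x ∈ divGroup R K S n := by
  constructor
  · intro h v hv
    exact (valuationOfNeZeroMod_mk_eq_one_iff v n x).mp (h v hv)
  · intro h v hv
    exact (valuationOfNeZeroMod_mk_eq_one_iff v n x).mpr (h v hv)

/-- **Finiteness of Mathlib's Selmer group** `K⟮S, n⟯` for a Dedekind domain with finite class
group and finitely generated unit group, `S` finite, `n > 0`. -/
theorem finite_selmerGroup [Finite (ClassGroup R)] [Group.FG Rˣ]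
    (S : Set (HeightOneSpectrum R)) (hS : S.Finite) {n : ℕ} (hn : 0 < n) :
    Finite (selmerGroup (R := R) (K := K) (S := S) (n := n)) := by
  classical
  obtain ⟨F, -, hF⟩ := exists_finset_rep R K S hS hn
  have hsub : (selmerGroup (R := R) (K := K) (S := S) (n := n) : Set _) ⊆
      (fun f => (QuotientGroup.mk f : Kˣ ⧸ (powMonoidHom n : Kˣ →* Kˣ).range)) '' (F : Set Kˣ) := by
    intro q hq
    obtain ⟨x, rfl⟩ := QuotientGroup.mk_surjective q
    obtain ⟨f, hf, y, hy⟩ := hF x ((mk_mem_selmerGroup_iff S n x).mp hq)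
    refine ⟨f, hf, ?_⟩
    change (QuotientGroup.mk f : Kˣ ⧸ (powMonoidHom n : Kˣ →* Kˣ).range) = QuotientGroup.mk x
    rw [QuotientGroup.eq]
    refine ⟨y, ?_⟩
    rw [powMonoidHom_apply, hy]
    group
  exact (Set.Finite.subset ((Finset.finite_toSet F).image _) hsub).to_subtype

end Dedekind

section NumberField

open NumberField

variable (K : Type*) [Field K] [NumberField K]

/-- **The Selmer group `K⟮S, n⟯` of a number field is finite** (`S` finite, `n > 0`). -/
theorem finite_selmerGroup_numberField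
    (S : Set (HeightOneSpectrum (𝓞 K))) (hS : S.Finite) {n : ℕ} (hn : 0 < n) :
    Finite (selmerGroup (R := 𝓞 K) (K := K) (S := S) (n := n)) :=
  finite_selmerGroup S hS hn

end NumberField

end Fermat.Agent.CFT.C7.Selmer
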