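import Fermat.Agent.CFT.C7.PlaceDict
import Fermat.Agent.CFT.Local.PadicAlgCl

/-!
# PROJECT C, slice C7d: the prelude's `IsUnramifiedOutside` ⇒ classical unramifiedness

`F : IntermediateField ℚ (AlgebraicClosure ℚ)` with `F.IsUnramifiedOutside S`, `q ∉ S`.

* `exists_zpow_valuation_eq_one` **(V)**: at every valuation subring `A` over `q` the value group of
  `F` is generated by the value of `q`;
* `valuation_natCast_eq_exp_neg_one` **(U1)**: `w.valuation F q = exp (-1)` for every finite place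
  `w` of `F` above `q` (ramification index one);
* `not_dvd_discr` **(U2)**: `¬ (q : ℤ) ∣ NumberField.discr F`.
-/

set_option autoImplicit false

open IsDedekindDomain NumberField

namespace Fermat.Agent.CFT.C7.UnramDict

open Fermat.Agent.CFT.LocalBridge Fermat.Agent.CFT.C3.ClassGen
  Fermat.Agent.CFT.C7.KummerUnram Fermat.Agent.CFT.C7.PlaceDict
  Fermat.Agent.CFT.Local.PadicAlgClLocal

local notation "Qbar" => AlgebraicClosure ℚ

variable {S : Finset Nat.Primes}

section V

variable (q : ℕ) [Fact q.Prime]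

theorem norm_padicEmbedding_natCast : ‖padicEmbedding q ((q : ℕ) : Qbar)‖ = (q : ℝ)⁻¹ := by
  rw [map_natCast]
  have h1 : ((q : ℕ) : PadicAlgCl q) = algebraMap ℚ_[q] (PadicAlgCl q) (q : ℚ_[q]) := by
    rw [map_natCast]
  rw [h1, norm_algebraMap', Padic.norm_p]

/-- The valuation of `padicPlace q` is `1` exactly on the elements of norm `1`. -/
theorem valuation_padicPlace_eq_one_iff (x : Qbar) :
    (padicPlace q).valuation x = 1 ↔ ‖padicEmbedding q x‖ = 1 := by
  have key : (padicPlace q).valuation x = 1 ↔ x ∈ padicPlace q ∧ x ∉ (padicPlace q).nonunits := by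
    rw [ValuationSubring.mem_nonunits_iff, ← ValuationSubring.valuation_le_one_iff, not_lt]
    exact ⟨fun h => ⟨h.le, h.ge⟩, fun h => le_antisymm h.1 h.2⟩
  rw [key, mem_padicPlace_iff_norm, mem_nonunits_padicPlace_iff, not_lt]
  exact ⟨fun h => le_antisymm h.1 h.2, fun h => ⟨h.le, h.ge⟩⟩

end V

/-- **(V)** If `F` is unramified outside `S` and `A` lies over `q ∉ S`, every nonzero element of
`F` becomes a unit at `A` after multiplication by a power of `q`. -/
theorem exists_zpow_valuation_eq_one {F : IntermediateField ℚ Qbar}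
    (hF : F.IsUnramifiedOutside S) (q : Nat.Primes) (hq : q ∉ S)
    {A : ValuationSubring Qbar} (hA : A.LiesOverPrime (q : ℕ)) {y : Qbar} (hy : y ∈ F)
    (hy0 : y ≠ 0) : ∃ k : ℤ, A.valuation (y * ((q : ℕ) : Qbar) ^ k) = 1 := by
  have : Fact (q : ℕ).Prime := ⟨q.2⟩
  have := hF.1
  obtain ⟨σ, rfl⟩ := exists_smul_padicPlace_eq (q : ℕ) hA
  have h1 := localInertia_le_of_isUnramifiedOutside hF q hq σ⁻¹
  have hfd : FiniteDimensional ℚ (F.map (σ⁻¹ : GlobGal).toAlgHom) :=
    (F.equivMap (σ⁻¹ : GlobGal).toAlgHom).toLinearEquiv.finiteDimensional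
  have h2 := (localInertia_le_fixingSubgroup_iff_ramIdx (q : ℕ) _).mp h1
  have hmem : padicEmbedding (q : ℕ) ((σ⁻¹ : GlobGal) y) ∈
      localLevel (q : ℕ) (F.map (σ⁻¹ : GlobGal).toAlgHom) :=
    padicEmbedding_mem_localLevel (q : ℕ) ⟨y, hy, rfl⟩
  have hne : padicEmbedding (q : ℕ) ((σ⁻¹ : GlobGal) y) ≠ 0 := by
    rw [Ne, map_eq_zero, map_eq_zero]
    exact hy0
  obtain ⟨k, hk⟩ := (ramIdx_eq_one_iff_norm (q : ℕ) _).mp h2 _ hmem hne
  refine ⟨k, ?_⟩
  rw [valuation_smul_eq_one_iff, valuation_padicPlace_eq_one_iff, map_mul, map_mul, norm_mul,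
    map_zpow₀, map_zpow₀, norm_zpow, map_natCast, norm_padicEmbedding_natCast, hk, inv_zpow,
    mul_inv_cancel₀]
  have hq0 : (0 : ℝ) < (q : ℕ) := by exact_mod_cast q.2.pos
  exact zpow_ne_zero _ hq0.ne'

/-- **(U1)** Ramification index one, valuation form: at every finite place `w` of `F` above
`q ∉ S`, the rational prime `q` is a uniformizer. -/
theorem valuation_natCast_eq_exp_neg_one (F : IntermediateField ℚ Qbar) [NumberField F]
    (hF : F.IsUnramifiedOutside S) (w : HeightOneSpectrum (𝓞 F)) (hw : natPrime F w ∉ S) :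
    w.valuation F (((natPrime F w : Nat.Primes) : ℕ) : F) = WithZero.exp (-1 : ℤ) := by
  set q := natPrime F w with hq
  obtain ⟨A, hA, hAw⟩ := exists_placeOf_eq (algebraMap F Qbar) w
  obtain ⟨π, hπ⟩ := w.valuation_exists_uniformizer F
  have hπ0 : π ≠ 0 := by
    rintro rfl
    rw [map_zero] at hπ
    exact WithZero.exp_ne_zero hπ.symm
  obtain ⟨k, hk⟩ := exists_zpow_valuation_eq_one hF q hw hA (y := algebraMap F Qbar π) π.2
    (by rwa [Ne, map_eq_zero])
  have h1 : w.valuation F (π * (((q : Nat.Primes) : ℕ) : F) ^ k) = 1 := by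
    rw [← hAw, valuation_placeOf_eq_one_iff, map_mul, map_zpow₀, map_natCast]
    exact hk
  -- the valuation of `q` at `w`
  have hq0 : (((q : Nat.Primes) : ℕ) : F) ≠ 0 := by exact_mod_cast q.2.ne_zero
  have hv0 : w.valuation F (((q : Nat.Primes) : ℕ) : F) ≠ 0 := by rwa [Ne, map_eq_zero]
  have hvlt : w.valuation F (((q : Nat.Primes) : ℕ) : F) < 1 := by
    have h2 := (w.valuation_lt_one_iff_mem (K := F) (((q : Nat.Primes) : ℕ) : 𝓞 F)).mpr
      (natPrime_mem F w)
    have h3 : algebraMap (𝓞 F) F (((q : Nat.Primes) : ℕ) : 𝓞 F) = (((q : Nat.Primes) : ℕ) : F) :=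
      map_natCast _ _
    rwa [← h3]
  set e : ℤ := WithZero.log (w.valuation F (((q : Nat.Primes) : ℕ) : F)) with he
  have hve : w.valuation F (((q : Nat.Primes) : ℕ) : F) = WithZero.exp e := by
    rw [he, WithZero.exp_log hv0]
  have helt : e < 0 := by
    have : WithZero.exp e < WithZero.exp (0 : ℤ) := by
      rw [← hve, WithZero.exp_zero]; exact hvlt
    exact WithZero.exp_lt_exp.mp this
  rw [map_mul, map_zpow₀, hπ, hve, ← WithZero.exp_zsmul, ← WithZero.exp_add,
    ← WithZero.exp_zero, WithZero.exp_inj] at h1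
  -- `-1 + k * e = 0`, `e < 0` ⇒ `e = -1`
  have h3 : k * e = 1 := by
    simp only [smul_eq_mul] at h1
    linarith
  have h4 : e = -1 := by
    rcases Int.eq_one_or_neg_one_of_mul_eq_one' h3 with ⟨-, h⟩ | ⟨-, h⟩
    · omega
    · exact h
  rw [hve, h4]

/-- Variant of (U1) for a given prime `q ∉ S` and a place `w` containing `q`. -/
theorem valuation_natCast_eq_exp_neg_one' (F : IntermediateField ℚ Qbar) [NumberField F]
    (hF : F.IsUnramifiedOutside S) (q : Nat.Primes) (hq : q ∉ S) (w : HeightOneSpectrum (𝓞 F))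
    (hw : (((q : ℕ) : 𝓞 F)) ∈ w.asIdeal) :
    w.valuation F (((q : Nat.Primes) : ℕ) : F) = WithZero.exp (-1 : ℤ) := by
  have h := mem_iff_eq_natPrime.mp hw
  subst h
  exact valuation_natCast_eq_exp_neg_one F hF w hq

/-- (U1), multiplicity form: `w` divides `(q)` exactly once. -/
theorem multiplicity_span_natCast_eq_one (F : IntermediateField ℚ Qbar) [NumberField F]
    (hF : F.IsUnramifiedOutside S) (q : Nat.Primes) (hq : q ∉ S) (w : HeightOneSpectrum (𝓞 F))
    (hw : (((q : ℕ) : 𝓞 F)) ∈ w.asIdeal) :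
    multiplicity w.asIdeal (Ideal.span {(((q : ℕ) : 𝓞 F))}) = 1 := by
  have h1 := valuation_natCast_eq_exp_neg_one' F hF q hq w hw
  have h3 : algebraMap (𝓞 F) F (((q : Nat.Primes) : ℕ) : 𝓞 F) = (((q : Nat.Primes) : ℕ) : F) :=
    map_natCast _ _
  have hq0 : (((q : ℕ) : 𝓞 F)) ≠ 0 := by exact_mod_cast q.2.ne_zero
  rw [← h3, HeightOneSpectrum.valuation_of_algebraMap,
    HeightOneSpectrum.intValuation_eq_exp_neg_multiplicity _ hq0, WithZero.exp_inj, neg_inj] at h1
  exact_mod_cast h1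

/-- (U1), Mathlib form: every prime of `𝓞 F` containing `q ∉ S` is unramified over `ℤ`. -/
theorem isUnramifiedAt_of_mem (F : IntermediateField ℚ Qbar) [NumberField F]
    (hF : F.IsUnramifiedOutside S) (q : Nat.Primes) (hq : q ∉ S) (P : Ideal (𝓞 F)) [hP : P.IsPrime]
    (hqP : (((q : ℕ) : 𝓞 F)) ∈ P) : Algebra.IsUnramifiedAt ℤ P := by
  have hq0 : (((q : ℕ) : 𝓞 F)) ≠ 0 := by exact_mod_cast q.2.ne_zero
  have hPbot : P ≠ ⊥ := by
    rintro rfl
    exact hq0 ((Ideal.mem_bot).mp hqP)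
  set w : HeightOneSpectrum (𝓞 F) := ⟨P, hP, hPbot⟩ with hw
  have hmult := multiplicity_span_natCast_eq_one F hF q hq w hqP
  have hqprime : Prime ((q : ℕ) : ℤ) := Nat.prime_iff_prime_int.mp q.2
  have hlies : P.LiesOver (Ideal.span {((q : ℕ) : ℤ)}) :=
    (Ideal.liesOver_span_iff hP.ne_top hqprime).mpr (by simpa using hqP)
  have hmap : (Ideal.span {((q : ℕ) : ℤ)}).map (algebraMap ℤ (𝓞 F)) =
      Ideal.span {(((q : ℕ) : 𝓞 F))} := by
    rw [Ideal.map_span, Set.image_singleton, map_natCast]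
  have hmap0 : (Ideal.span {((q : ℕ) : ℤ)}).map (algebraMap ℤ (𝓞 F)) ≠ ⊥ := by
    rw [hmap, Ne, Ideal.span_singleton_eq_bot]
    exact hq0
  rw [← Ideal.ramificationIdx_eq_one_iff,
    Ideal.IsDedekindDomain.ramificationIdx_eq_multiplicity (Ideal.span {((q : ℕ) : ℤ)}) P hmap0,
    hmap]
  exact hmult

/-- **(U2)** If `F` is unramified outside `S` (prelude sense) and `q ∉ S`, then `q` does not divide
the discriminant of `F`. -/
theorem not_dvd_discr (F : IntermediateField ℚ Qbar) [NumberField F]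
    (hF : F.IsUnramifiedOutside S) (q : Nat.Primes) (hq : q ∉ S) :
    ¬ (((q : ℕ) : ℤ) ∣ NumberField.discr F) := by
  have hqprime : Prime ((q : ℕ) : ℤ) := Nat.prime_iff_prime_int.mp q.2
  rw [NumberField.not_dvd_discr_iff_forall_mem F (𝓞 F) hqprime]
  intro P hP hqP
  exact isUnramifiedAt_of_mem F hF q hq P (by simpa using hqP)

end Fermat.Agent.CFT.C7.UnramDict
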