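/-
PROJECT C, slice (G-c) (helper13): the cyclic layer `Q_m ⊂ ℚ̄` in the language of the smooth
`S`-modules of `G_S` (`Idele/QS`, `Idele/LevelD`).

Part A: a number field `L` Galois over `ℚ` with an embedding `ι : L → ℚ̄`; the level
`U = Gal(ℚ̄/ι L)`, the restriction `resL ι : GQ →* Gal(L/ℚ)`, equivariance of `Loc.unitsMap q ι`,
`CS.map ι`, and the invariants `C_S^U = ι C_S(L)`.
-/
import Fermat.Agent.CFT.C6.NotNorm
import Fermat.Agent.CFT.C6.LocalGlobalArith
import Fermat.Agent.CFT.Idele.LevelQS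
import Fermat.Agent.CFT.Idele.QS
import Fermat.Agent.CFT.C7.UnramDict
import Fermat.Agent.CFT.D.CyclicClass

set_option autoImplicit false
set_option linter.unusedSectionVars false
set_option linter.style.haveILetI false

open scoped NumberField

noncomputable section

namespace Fermat.Agent.CFT.C7.SuppLayer

open Fermat.Agent.CFT.Idele Fermat.Agent.CFT.Bridge Fermat.Agent.CFT.LC

open scoped Fermat.Agent.CFT.Idele

attribute [local instance 2000] IntermediateField.algebra'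

/-! ### Part A: an embedded Galois number field -/

section Embedded

variable {L : Type} [Field L] [NumberField L] (ι : L →ₐ[ℚ] Qbar)

/-- The image of `L` in `ℚ̄`. -/
abbrev rangeField : IntermediateField ℚ Qbar := ι.fieldRange

/-- `L ≃ ι L`, for the `ℚ`-algebra structure `IntermediateField.algebra'` on the image. -/
def toRange : L ≃ₐ[ℚ] rangeField ι :=
  AlgEquiv.ofBijective
    { toFun := fun x => ⟨ι x, x, rfl⟩
      map_one' := Subtype.ext (map_one ι)
      map_mul' := fun x y => Subtype.ext (map_mul ι x y)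
      map_zero' := Subtype.ext (map_zero ι)
      map_add' := fun x y => Subtype.ext (map_add ι x y)
      commutes' := fun r => Subtype.ext (ι.commutes r) }
    ⟨fun x y h => ι.injective (congrArg Subtype.val h), fun y => by
      obtain ⟨x, hx⟩ := y.2
      exact ⟨x, Subtype.ext hx⟩⟩

@[simp] theorem val_toRange (x : L) : ((toRange ι x : rangeField ι) : Qbar) = ι x := rfl

theorem val_comp_toRange : (rangeField ι).val.comp (toRange ι : L →ₐ[ℚ] rangeField ι) = ι :=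
  AlgHom.ext fun _ => rfl

instance finiteDimensional_rangeField : FiniteDimensional ℚ (rangeField ι) :=
  (toRange ι).toLinearEquiv.finiteDimensional

variable [IsGalois ℚ L]

instance isGalois_rangeField : IsGalois ℚ (rangeField ι) := IsGalois.of_algEquiv (toRange ι)

instance normal_rangeField : Normal ℚ (rangeField ι) := inferInstance

/-- The restriction `Gal(ℚ̄/ℚ) →* Gal(L/ℚ)` along `ι`. -/
def resL : GQ →* (L ≃ₐ[ℚ] L) :=
  ((AlgEquiv.autCongr (toRange ι).symm).toMonoidHom).comp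
    (AlgEquiv.restrictNormalHom (F := ℚ) (K₁ := Qbar) (rangeField ι))

theorem resL_spec (σ : GQ) (a : L) : ι (resL ι σ a) = σ (ι a) := by
  have h1 : toRange ι (resL ι σ a)
      = AlgEquiv.restrictNormalHom (F := ℚ) (K₁ := Qbar) (rangeField ι) σ (toRange ι a) := by
    change toRange ι ((toRange ι).symm (AlgEquiv.restrictNormalHom (rangeField ι) σ
      ((toRange ι).symm.symm a))) = _
    rw [AlgEquiv.apply_symm_apply]
    rfl
  have h2 := congrArg (fun z : rangeField ι => (z : Qbar)) h1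
  simp only [val_toRange] at h2
  rw [h2]
  exact AlgEquiv.restrictNormal_commutes σ (rangeField ι) (toRange ι a)

theorem resL_eq_one_iff (σ : GQ) : resL ι σ = 1 ↔ σ ∈ (rangeField ι).fixingSubgroup := by
  rw [IntermediateField.mem_fixingSubgroup_iff]
  constructor
  · rintro h _ ⟨a, rfl⟩
    change σ (ι a) = ι a
    rw [← resL_spec, h]
    rfl
  · intro h
    ext a
    apply ι.injective
    change ι (resL ι σ a) = ι a
    rw [resL_spec]
    exact h _ ⟨a, rfl⟩

theorem resL_surjective : Function.Surjective (resL ι) := by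
  intro g
  obtain ⟨σ, hσ⟩ := AlgEquiv.restrictNormalHom_surjective (F := ℚ) (K₁ := rangeField ι) Qbar
    (AlgEquiv.autCongr (toRange ι) g)
  refine ⟨σ, ?_⟩
  change AlgEquiv.autCongr (toRange ι).symm (AlgEquiv.restrictNormalHom (rangeField ι) σ) = g
  rw [hσ]
  ext a
  simp

/-- Composition with `ι` intertwines `σ` and its restriction. -/
theorem comp_resL (σ : GQ) :
    ((σ : Qbar ≃ₐ[ℚ] Qbar) : Qbar →ₐ[ℚ] Qbar).comp ι
      = ι.comp ((resL ι σ : L ≃ₐ[ℚ] L) : L →ₐ[ℚ] L) :=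
  AlgHom.ext fun a => (resL_spec ι σ a).symm

/-- Equivariance of `(L ⊗ ℚ_q)ˣ → (ℚ̄ ⊗ ℚ_q)ˣ`. -/
theorem smul_unitsMap (q : Nat.Primes) (σ : GQ) (x : (Loc L q)ˣ) :
    σ • Loc.unitsMap q ι x = Loc.unitsMap q ι (resL ι σ • x) := by
  rw [locUnits_smul_eq_unitsMap, locUnits_smul_eq_unitsMap, ← Loc.unitsMap_comp,
    ← Loc.unitsMap_comp, comp_resL]

/-- Equivariance of `C_S(L) → C_S(ℚ̄)`. -/
theorem smul_CSmap (S : Set Nat.Primes) (σ : GQ) (c : CS L S) :
    σ • CS.map ι c = CS.map ι (resL ι σ • c) :=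
  (CS.map_smul ι (resL ι σ) σ (fun a => (resL_spec ι σ a).symm) c).symm

theorem pow_smul_unitsMap (q : Nat.Primes) (σ : GQ) (i : ℕ) (x : (Loc L q)ˣ) :
    σ ^ i • Loc.unitsMap q ι x = Loc.unitsMap q ι (resL ι σ ^ i • x) := by
  rw [smul_unitsMap, map_pow]

theorem pow_smul_CSmap (S : Set Nat.Primes) (σ : GQ) (i : ℕ) (c : CS L S) :
    σ ^ i • CS.map ι c = CS.map ι (resL ι σ ^ i • c) := by
  rw [smul_CSmap, map_pow]

/-! #### The level -/

/-- The level `Gal(ℚ̄/ι L)`. -/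
abbrev levelU : Subgroup GQ := (rangeField ι).fixingSubgroup

theorem ker_resL : (resL ι).ker = levelU ι := by
  ext σ
  rw [MonoidHom.mem_ker]
  exact resL_eq_one_iff ι σ

instance normal_levelU : (levelU ι).Normal := by
  rw [← ker_resL ι]
  exact MonoidHom.normal_ker _

theorem levelU_mem_levelsS {S : Finset Nat.Primes}
    (hF : (rangeField ι).IsUnramifiedOutside S) : levelU ι ∈ (levelsS S).sets :=
  ⟨inferInstance, rangeField ι, hF, rfl⟩

/-- `Gal(ℚ̄/ℚ) ⧸ Gal(ℚ̄/ι L) →* Gal(L/ℚ)`. -/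
def resQ : GQ ⧸ levelU ι →* (L ≃ₐ[ℚ] L) :=
  QuotientGroup.lift (levelU ι) (resL ι) (fun σ hσ => (resL_eq_one_iff ι σ).2 hσ)

@[simp] theorem resQ_mk (σ : GQ) : resQ ι (σ : GQ ⧸ levelU ι) = resL ι σ := rfl

theorem resQ_injective : Function.Injective (resQ ι) := by
  rw [injective_iff_map_eq_one]
  intro c hc
  induction c using QuotientGroup.induction_on with
  | H σ =>
    rw [resQ_mk] at hc
    rw [QuotientGroup.eq_one_iff]
    exact (resL_eq_one_iff ι σ).1 hc

/-- A lift of a generator of `Gal(L/ℚ)` generates `GQ ⧸ U` and has the same order. -/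
theorem orderOf_mk (σ : GQ) : orderOf (σ : GQ ⧸ levelU ι) = orderOf (resL ι σ) := by
  rw [← resQ_mk, orderOf_injective (resQ ι) (resQ_injective ι)]

theorem exists_pow_eq_of_generator (σ : GQ)
    (hgen : ∀ τ : L ≃ₐ[ℚ] L, τ ∈ Subgroup.zpowers (resL ι σ)) (x : GQ ⧸ levelU ι) :
    ∃ i : ℕ, (σ : GQ ⧸ levelU ι) ^ i = x := by
  classical
  have hfin : IsOfFinOrder (resL ι σ) := isOfFinOrder_of_finite _
  have hi := hfin.mem_zpowers_iff_mem_range_orderOf.1 (hgen (resQ ι x))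
  rw [Finset.mem_image] at hi
  obtain ⟨j, -, hj⟩ := hi
  refine ⟨j, resQ_injective ι ?_⟩
  rw [map_pow, resQ_mk, hj]

/-! #### Membership and invariants -/

variable (S : Finset Nat.Primes)

theorem unitsMap_mem_LocP (hF : (rangeField ι).IsUnramifiedOutside S) (q : Nat.Primes)
    (x : (Loc L q)ˣ) : Loc.unitsMap q ι x ∈ LocP (isFieldFilter_unram S) q := by
  refine ⟨rangeField ι, hF, Loc.unitsMap q (toRange ι : L →ₐ[ℚ] rangeField ι) x, ?_⟩
  rw [← Loc.unitsMap_comp, val_comp_toRange]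

/-- The `U`-invariant `S`-idele classes of `ℚ_S` come from `L`. -/
theorem exists_CSmap_eq (hS : S.Nonempty) (hF : (rangeField ι).IsUnramifiedOutside S)
    (c : CD (isFieldFilter_unram S) (S : Set Nat.Primes))
    (hc : ∀ u ∈ levelU ι, u • c = c) :
    ∃ cL : CS L (S : Set Nat.Primes), CS.map ι cL = (c : CS Qbar (S : Set Nat.Primes)) := by
  obtain ⟨cF, hcF⟩ := (QS.mem_range_ofLevel_iff S hS hF c).2 hc
  refine ⟨CS.map ((toRange ι).symm : rangeField ι →ₐ[ℚ] L) cF, ?_⟩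
  rw [← CS.map_comp, ← hcF, CD.ofLevel_val]
  congr 2
  apply AlgHom.ext
  intro y
  change ι ((toRange ι).symm y) = (y : Qbar)
  rw [← val_toRange, AlgEquiv.apply_symm_apply]

theorem CSmap_injective (hS : S.Nonempty) :
    Function.Injective (CS.map (S := (S : Set Nat.Primes)) ι) := by
  refine CS.map_injective_of_fixed (Finset.coe_nonempty.mpr hS) ι
    ((levelU ι : Subgroup GQ) : Set GQ) ?_ ?_
  · intro σ hσ a
    exact (IntermediateField.mem_fixingSubgroup_iff _ σ).1 hσ _ ⟨a, rfl⟩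
  · intro a ha
    obtain ⟨y, hy⟩ := mem_range_val_of_fixed (rangeField ι) a ha
    obtain ⟨x, hx⟩ := y.2
    exact ⟨x, by rw [← hy]; exact hx⟩

end Embedded

/-! ### Part B: the layer package in `Rep ℤ GQ` -/

section Package

open Fermat.Agent.CFT.Local.CyclicH2 Fermat.Agent.CFT.A7 CategoryTheory

variable {L : Type} [Field L] [NumberField L] [IsGalois ℚ L] (ι : L →ₐ[ℚ] Qbar)
  (S : Finset Nat.Primes) (hF : (rangeField ι).IsUnramifiedOutside S) (q : Nat.Primes)

/-- `(L ⊗ ℚ_q)ˣ → J_q`. -/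
def jqHom : Additive (Loc L q)ˣ →+ (QS.Jq S q).V :=
  (MonoidHom.toAdditive
    ((Loc.unitsMap q ι).codRestrict (LocP (isFieldFilter_unram S) q)
      (fun x => unitsMap_mem_LocP ι S hF q x)) :
    Additive (Loc L q)ˣ →+ Additive (LocP (isFieldFilter_unram S) q))

theorem ρ_jqHom (σ : GQ) (x : (Loc L q)ˣ) :
    (QS.Jq S q).ρ σ (jqHom ι S hF q (Additive.ofMul x))
      = jqHom ι S hF q (Additive.ofMul (resL ι σ • x)) := by
  apply congrArg Additive.ofMul
  apply Subtype.ext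
  exact smul_unitsMap ι q σ x

include hF in
theorem CSmap_mem_CD (c : CS L (S : Set Nat.Primes)) :
    CS.map ι c ∈ CD (isFieldFilter_unram S) (S : Set Nat.Primes) := by
  obtain ⟨y, rfl⟩ := toCS_surjective L (S : Set Nat.Primes) c
  rw [CS.map_toCS]
  refine ⟨J.map ι y, ⟨rangeField ι, hF, J.map (toRange ι : L →ₐ[ℚ] rangeField ι) y, ?_⟩, rfl⟩
  rw [← J.map_comp, val_comp_toRange]

/-- `C_S(L) → C_S`. -/
def csHom : Additive (CS L (S : Set Nat.Primes)) →+ (QS.C S).V :=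
  (MonoidHom.toAdditive
    ((CS.map ι).codRestrict (CD (isFieldFilter_unram S) (S : Set Nat.Primes))
      (fun c => CSmap_mem_CD ι S hF c)) :
    Additive (CS L (S : Set Nat.Primes)) →+
      Additive (CD (isFieldFilter_unram S) (S : Set Nat.Primes)))

theorem ρ_csHom (σ : GQ) (c : CS L (S : Set Nat.Primes)) :
    (QS.C S).ρ σ (csHom ι S hF (Additive.ofMul c))
      = csHom ι S hF (Additive.ofMul (resL ι σ • c)) := by
  apply congrArg Additive.ofMul
  apply Subtype.ext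
  exact smul_CSmap ι (S : Set Nat.Primes) σ c

theorem csHom_injective (hS : S.Nonempty) : Function.Injective (csHom ι S hF) := by
  intro c d h
  have h1 := congrArg (fun w : (QS.C S).V =>
    ((Additive.toMul w : CD (isFieldFilter_unram S) (S : Set Nat.Primes)) :
      CS Qbar (S : Set Nat.Primes))) h
  exact congrArg Additive.ofMul (CSmap_injective ι S hS h1 : Additive.toMul c = Additive.toMul d)

/-- The image of `jqHom` consists of `U`-invariants. -/
def jqInv (x : (Loc L q)ˣ) : (QS.Jq S q).quotientToInvariants (levelU ι) :=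
  ⟨jqHom ι S hF q (Additive.ofMul x), fun u => by
    change (QS.Jq S q).ρ (u : GQ) _ = _
    rw [ρ_jqHom, (resL_eq_one_iff ι u).2 u.2, one_smul]⟩

/-- The image of `csHom` consists of `U`-invariants. -/
def csInv (c : CS L (S : Set Nat.Primes)) : (QS.C S).quotientToInvariants (levelU ι) :=
  ⟨csHom ι S hF (Additive.ofMul c), fun u => by
    change (QS.C S).ρ (u : GQ) _ = _
    rw [ρ_csHom, (resL_eq_one_iff ι u).2 u.2, one_smul]⟩

/-- Every `U`-invariant of `C_S` comes from `C_S(L)`. -/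
theorem exists_csInv_eq (hS : S.Nonempty) (c : (QS.C S).quotientToInvariants (levelU ι)) :
    ∃ cL : CS L (S : Set Nat.Primes), csInv ι S hF cL = c := by
  obtain ⟨cL, hcL⟩ := exists_CSmap_eq ι S hS hF
    (Additive.toMul (c.1 : (QS.C S).V) : CD (isFieldFilter_unram S) (S : Set Nat.Primes))
    (fun u hu => congrArg Additive.toMul (c.2 ⟨u, hu⟩))
  refine ⟨cL, Subtype.ext ?_⟩
  apply congrArg Additive.ofMul
  exact Subtype.ext hcL

/-- The underlying element of a norm on a layer. -/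
theorem coe_nrm {G : Type} [Group G] {A : Rep.{0} ℤ G} (U : Subgroup G) [U.Normal] (σ : G) (n : ℕ)
    (b : A.quotientToInvariants U) :
    ((nrm (A.quotientToInvariants U) (σ : G ⧸ U) n b).1 : A.V)
      = ∑ i ∈ Finset.range n, A.ρ (σ ^ i) b.1 := by
  unfold nrm
  rw [Submodule.coe_sum]
  refine Finset.sum_congr rfl fun i _ => ?_
  rw [← QuotientGroup.mk_pow]
  rfl

section Norm

variable (σ : GQ) {n : ℕ} (hord : orderOf (resL ι σ) = n)
  (hgen : ∀ τ : L ≃ₐ[ℚ] L, τ ∈ Subgroup.zpowers (resL ι σ))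

include hord hgen in
/-- The norm of the layer on `jqInv`. -/
theorem nrm_jqInv (x : (Loc L q)ˣ) :
    nrm ((QS.Jq S q).quotientToInvariants (levelU ι)) (σ : GQ ⧸ levelU ι) n (jqInv ι S hF q x)
      = jqInv ι S hF q (∏ τ : L ≃ₐ[ℚ] L, τ • x) := by
  apply Subtype.ext
  rw [coe_nrm]
  change ∑ i ∈ Finset.range n, (QS.Jq S q).ρ (σ ^ i) (jqHom ι S hF q (Additive.ofMul x))
    = jqHom ι S hF q (Additive.ofMul (∏ τ : L ≃ₐ[ℚ] L, τ • x))
  simp_rw [ρ_jqHom, map_pow]
  rw [← map_sum, ← ofMul_prod,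
    Fermat.Agent.CFT.C6.ArtinQNorm.prod_univ_eq_prod_range_pow (resL ι σ) hgen (fun τ => τ • x),
    hord]

include hord hgen in
/-- The norm of the layer on `csInv`. -/
theorem nrm_csInv (c : CS L (S : Set Nat.Primes)) :
    nrm ((QS.C S).quotientToInvariants (levelU ι)) (σ : GQ ⧸ levelU ι) n (csInv ι S hF c)
      = csInv ι S hF (∏ τ : L ≃ₐ[ℚ] L, τ • c) := by
  apply Subtype.ext
  rw [coe_nrm]
  change ∑ i ∈ Finset.range n, (QS.C S).ρ (σ ^ i) (csHom ι S hF (Additive.ofMul c))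
    = csHom ι S hF (Additive.ofMul (∏ τ : L ≃ₐ[ℚ] L, τ • c))
  simp_rw [ρ_csHom, map_pow]
  rw [← map_sum, ← ofMul_prod,
    Fermat.Agent.CFT.C6.ArtinQNorm.prod_univ_eq_prod_range_pow (resL ι σ) hgen (fun τ => τ • c),
    hord]

end Norm

/-- `J_q → J_S → C_S` on the image of `L`. -/
theorem single_toC_jqHom (hq : q ∈ S) (x : (Loc L q)ˣ) :
    (QS.single S q hq ≫ QS.toC S).hom (jqHom ι S hF q (Additive.ofMul x))
      = csHom ι S hF (Additive.ofMul (toCS L (S : Set Nat.Primes) (J.single q x))) := by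
  apply congrArg Additive.ofMul
  apply Subtype.ext
  change toCS Qbar (S : Set Nat.Primes) (J.single q (Loc.unitsMap q ι x))
    = CS.map ι (toCS L (S : Set Nat.Primes) (J.single q x))
  rw [CS.map_toCS, J.map_single]

include hF in
/-- **The layer package**: for an embedded cyclic layer `L` (generator the restriction of `σ`, order
`n > 1`), a unit `u₀` of `ℚ ⊗ ℚ_q` whose `r`-th power is the norm of a unit `x` of `L ⊗ ℚ_q`, and
such that no power prime to `r` of the class of `u₀` is a norm from `C_S(L)`: the data required by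
`D.CyclicClass.exists_class` over `ℤ`. -/
theorem layer_package (hS : S.Nonempty) (hq : q ∈ S) (σ : GQ) {n : ℕ}
    (hord : orderOf (resL ι σ) = n)
    (hgen : ∀ τ : L ≃ₐ[ℚ] L, τ ∈ Subgroup.zpowers (resL ι σ))
    (u₀ : (Loc ℚ q)ˣ) (x : (Loc L q)ˣ) (r : ℕ)
    (hx : ∏ τ : L ≃ₐ[ℚ] L, τ • x = Loc.unitsMap q (inclHom ℚ L) u₀ ^ r)
    (hnn : ∀ s : ℤ, ¬ (r : ℤ) ∣ s → ∀ c : CS L (S : Set Nat.Primes),
      ∏ τ : L ≃ₐ[ℚ] L, τ • c
        ≠ CS.map (inclHom ℚ L) (toCS ℚ (S : Set Nat.Primes) (J.single q u₀)) ^ s) :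
    ∃ a₀ b : (QS.Jq S q).quotientToInvariants (levelU ι),
      ((QS.Jq S q).quotientToInvariants (levelU ι)).ρ (σ : GQ ⧸ levelU ι) a₀ = a₀ ∧
      (r : ℤ) • a₀ = nrm ((QS.Jq S q).quotientToInvariants (levelU ι)) (σ : GQ ⧸ levelU ι) n b ∧
      ∀ s : ℤ, ¬ (r : ℤ) ∣ s → ∀ c : (QS.C S).quotientToInvariants (levelU ι),
        s • (layerMap (QS.single S q hq ≫ QS.toC S) (levelU ι)).hom a₀
          ≠ nrm ((QS.C S).quotientToInvariants (levelU ι)) (σ : GQ ⧸ levelU ι) n c := by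
  refine ⟨jqInv ι S hF q (Loc.unitsMap q (inclHom ℚ L) u₀), jqInv ι S hF q x, ?_, ?_, ?_⟩
  · apply Subtype.ext
    change (QS.Jq S q).ρ σ (jqHom ι S hF q (Additive.ofMul _)) = jqHom ι S hF q (Additive.ofMul _)
    rw [ρ_jqHom, Loc.smul_unitsMap_of_fixes q (inclHom ℚ L) (resL ι σ) (fun a => by simp)]
  · rw [nrm_jqInv ι S hF q σ hord hgen, hx]
    apply Subtype.ext
    change (r : ℤ) • jqHom ι S hF q (Additive.ofMul _) = jqHom ι S hF q (Additive.ofMul (_ ^ r))
    rw [ofMul_pow, map_nsmul, natCast_zsmul]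
  · intro s hs c heq
    obtain ⟨cL, rfl⟩ := exists_csInv_eq ι S hF hS c
    rw [nrm_csInv ι S hF σ hord hgen] at heq
    have h1 := congrArg Subtype.val heq
    change s • (QS.single S q hq ≫ QS.toC S).hom (jqHom ι S hF q (Additive.ofMul _))
      = csHom ι S hF (Additive.ofMul _) at h1
    rw [single_toC_jqHom, ← map_zsmul, ← ofMul_zpow] at h1
    have h2 := congrArg Additive.toMul (csHom_injective ι S hF hS h1)
    change toCS L (S : Set Nat.Primes) (J.single q (Loc.unitsMap q (inclHom ℚ L) u₀)) ^ s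
      = ∏ τ : L ≃ₐ[ℚ] L, τ • cL at h2
    rw [← J.map_single, ← CS.map_toCS] at h2
    exact hnn s hs cL h2.symm

end Package

end Fermat.Agent.CFT.C7.SuppLayer

/-! ### Part C: the layer `Q_m` of the cyclotomic `ℤ_p`-tower

(No priority bump for `IntermediateField.algebra'` here: the `ℚ`-algebra structure on `Q_m` is the
default one, as in `C6/ZpTower`, `C6/LocalGlobalArith`.) -/

namespace Fermat.Agent.CFT.C7.SuppLayer

open Fermat.Agent.CFT.Idele Fermat.Agent.CFT.Bridge Fermat.Agent.CFT.LC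
  Fermat.Agent.CFT.C6.ZpTower Fermat.Agent.CFT.C6.ArtinQ Fermat.Agent.CFT.C6.LocalGlobalArith
  Fermat.Agent.CFT.C7.KummerUnram Fermat.Agent.CFT.Local.CyclicH2 Fermat.Agent.CFT.A7
  CategoryTheory

open scoped Fermat.Agent.CFT.Idele

section Tower

variable (P : Nat.Primes) (m : ℕ)

/-- The cyclotomic field `ℚ(ζ_{p^(m+1)})`. -/
abbrev Kc : Type := CyclotomicField ((P : ℕ) ^ (m + 1)) ℚ

instance isCyclotomicExtension_Kc :
    IsCyclotomicExtension {(P : ℕ) ^ (m + 1)} ℚ (Kc P m) := by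
  have : NeZero ((P : ℕ) ^ (m + 1)) := ⟨pow_ne_zero _ P.2.ne_zero⟩
  have : NeZero ((((P : ℕ) ^ (m + 1) : ℕ)) : ℚ) := ⟨by exact_mod_cast pow_ne_zero _ P.2.ne_zero⟩
  have h := CyclotomicField.isCyclotomicExtension ((P : ℕ) ^ (m + 1)) ℚ
  have e : (DivisionRing.toRatAlgebra : Algebra ℚ (Kc P m))
      = CyclotomicField.algebra ((P : ℕ) ^ (m + 1)) ℚ := Subsingleton.elim _ _
  rw [e]
  exact h

/-- The layer `Q_m`. -/
abbrev Lm : Type := Qm (P : ℕ) m (Kc P m)

/-- An embedding of `Q_m` into `ℚ̄` whose image is unramified outside `S ∋ p`. -/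
theorem exists_embedding (S : Finset Nat.Primes) (hPS : P ∈ S) :
    ∃ ι : Lm P m →ₐ[ℚ] Qbar, (rangeField ι).IsUnramifiedOutside S := by
  have hne : NeZero ((P : ℕ) ^ (m + 1)) := ⟨pow_ne_zero _ P.2.ne_zero⟩
  let ι₀ : Kc P m →ₐ[ℚ] Qbar := IsAlgClosed.lift
  obtain ⟨ζ, hζ⟩ := IsCyclotomicExtension.exists_isPrimitiveRoot ℚ (Kc P m)
    (Set.mem_singleton ((P : ℕ) ^ (m + 1))) hne.out
  have htop : Algebra.adjoin ℚ ({ζ} : Set (Kc P m)) = ⊤ :=
    IsCyclotomicExtension.adjoin_primitive_root_eq_top hζ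
  have hζ' : (ι₀ ζ) ^ ((P : ℕ) ^ (m + 1)) = 1 := by
    rw [← map_pow, hζ.pow_eq_one, map_one]
  have hcyc : (IntermediateField.adjoin ℚ {ι₀ ζ}).IsUnramifiedOutside S :=
    isUnramifiedOutside_adjoin_of_pow_eq_one ((isSNat_prime hPS).pow (m + 1)) hζ'
  have hall : ∀ w : Kc P m, ι₀ w ∈ IntermediateField.adjoin ℚ {ι₀ ζ} := by
    intro w
    have hw : w ∈ Algebra.adjoin ℚ ({ζ} : Set (Kc P m)) := by rw [htop]; exact Algebra.mem_top
    have h1 : ι₀ w ∈ (Algebra.adjoin ℚ ({ζ} : Set (Kc P m))).map ι₀ := ⟨w, hw, rfl⟩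
    rw [AlgHom.map_adjoin, Set.image_singleton] at h1
    exact IntermediateField.algebra_adjoin_le_adjoin ℚ _ h1
  let ι : Lm P m →ₐ[ℚ] Qbar :=
    { toFun := fun x => ι₀ (x : Kc P m)
      map_one' := map_one ι₀
      map_mul' := fun x y => map_mul ι₀ _ _
      map_zero' := map_zero ι₀
      map_add' := fun x y => map_add ι₀ _ _
      commutes' := fun r => by
        have h1 : ((algebraMap ℚ (Lm P m) r : Lm P m) : Kc P m) = algebraMap ℚ (Kc P m) r := by
          rw [eq_ratCast, eq_ratCast]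
          rfl
        rw [h1]
        exact ι₀.commutes r }
  refine ⟨ι, hcyc.of_le ?_⟩
  rintro _ ⟨x, rfl⟩
  exact hall (x : Kc P m)

theorem single_eq_Jsingle (q : Nat.Primes) (t : ℚ_[(q : ℕ)]ˣ) :
    single q t = J.single q ((locQu q).symm t) := Subtype.ext rfl

/-- The norm equation of `LocalGlobalArith.exists_layer`, for units. -/
theorem prod_smul_eq_of_prod_aut {L : Type} [Field L] [NumberField L] [Fintype (L ≃ₐ[ℚ] L)]
    (q : Nat.Primes) (t₀ : ℚ_[(q : ℕ)]ˣ) (x : (Loc L q)ˣ) (r : ℕ)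
    (h : ∏ σ : L ≃ₐ[ℚ] L, Loc.aut L q σ (x : Loc L q) = inclQ L q ((t₀ : ℚ_[(q : ℕ)]) ^ r)) :
    ∏ τ : L ≃ₐ[ℚ] L, τ • x = Loc.unitsMap q (inclHom ℚ L) ((locQu q).symm t₀) ^ r := by
  apply Units.ext
  rw [Units.coe_prod, Units.val_pow_eq_pow_val, Loc.unitsMap_val]
  simp_rw [locUnits_smul_val]
  rw [h]
  have h2 : (((locQu q).symm t₀ : (Loc ℚ q)ˣ) : Loc ℚ q) = (locQ q).symm (t₀ : ℚ_[(q : ℕ)]) := rfl
  rw [h2, locQ_symm_apply, Loc.map_inclQ, map_pow]

/-- **The layer data of (G-c) over `ℤ`**: a level `U` of `G_S` with `GQ ⧸ U = ⟨σ⟩` cyclic of order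
`n > 1`, a `σ`-invariant `a₀ ∈ J_q^U` with `p • a₀` a norm from `J_q^U`, such that no multiple
`s • a₀`, `p ∤ s`, becomes a norm in `C_S^U`. -/
theorem exists_layer_data (S : Finset Nat.Primes) (hp2 : (P : ℕ) ≠ 2) (hPS : P ∈ S)
    (q : Nat.Primes) (hq : q ∈ S) :
    ∃ (U : Subgroup GQ) (_ : U.Normal) (_ : U ∈ (levelsS S).sets) (σ : GQ ⧸ U) (n : ℕ),
      orderOf σ = n ∧ 1 < n ∧ (∀ x : GQ ⧸ U, ∃ i : ℕ, σ ^ i = x) ∧
      ∃ a₀ b : (QS.Jq S q).quotientToInvariants U,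
        ((QS.Jq S q).quotientToInvariants U).ρ σ a₀ = a₀ ∧
        (((P : ℕ) : ℤ)) • a₀ = nrm ((QS.Jq S q).quotientToInvariants U) σ n b ∧
        ∀ s : ℤ, ¬ (((P : ℕ) : ℤ)) ∣ s → ∀ c : (QS.C S).quotientToInvariants U,
          s • (layerMap (QS.single S q hq ≫ QS.toC S) U).hom a₀
            ≠ nrm ((QS.C S).quotientToInvariants U) σ n c := by
  classical
  obtain ⟨m, hm, hK⟩ := exists_layer P hp2 q
  obtain ⟨t₀, x, hx, hpsi⟩ := hK (Kc P m)
  obtain ⟨ι, hF⟩ := exists_embedding P m S hPS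
  obtain ⟨g, hg⟩ := (isCyclic_gal_Qm (P : ℕ) m (Kc P m) hp2).exists_generator
  obtain ⟨σ, hσ⟩ := resL_surjective ι g
  have hgen : ∀ τ : Lm P m ≃ₐ[ℚ] Lm P m, τ ∈ Subgroup.zpowers (resL ι σ) := by
    rw [hσ]; exact hg
  have hord : orderOf (resL ι σ) = (P : ℕ) ^ m := by
    rw [hσ, orderOf_eq_card_of_forall_mem_zpowers hg, card_gal_Qm (P : ℕ) m (Kc P m) hp2]
  have hS : S.Nonempty := ⟨P, hPS⟩
  have h1n : 1 < (P : ℕ) ^ m := Nat.one_lt_pow hm.ne' P.2.one_lt
  obtain ⟨a₀, b, h1, h2, h3⟩ := layer_package ι S hF q hS hq σ hord hgen ((locQu q).symm t₀) x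
    (P : ℕ) (prod_smul_eq_of_prod_aut q t₀ x (P : ℕ) hx)
    (fun s hs c => by
      rw [← single_eq_Jsingle]
      exact Fermat.Agent.CFT.C6.NotNorm.prod_smul_ne' P m hp2
        (finrank_Qm (P : ℕ) m (Kc P m) hp2) (resL ι σ) hgen
        (fun l hl => not_dvd_discr (P : ℕ) m (Kc P m) (l : ℕ)
          (fun h => hl (Subtype.ext h)))
        (Finset.mem_coe.mpr hPS) hpsi s hs c)
  exact ⟨levelU ι, inferInstance, levelU_mem_levelsS ι hF, (σ : GQ ⧸ levelU ι), (P : ℕ) ^ m,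
    (orderOf_mk ι σ).trans hord, h1n, exists_pow_eq_of_generator ι σ hgen, a₀, b, h1, h2, h3⟩

end Tower

end Fermat.Agent.CFT.C7.SuppLayer
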